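/-
S37, package [RI], leaf [RI-RATL] (owner: helper16), part 1: GENERIC.  Prefix `s37rl_`.

"Every place is rational over a small field of constants" - the Galois argument.

* `s37rl_fix_value`: the value of a `g`-invariant function at a `g`-fixed place is fixed by
  (the constant part of) `g`.
* `s37rl_stab`: if `u` has finitely many zeros and `P` is one of them, there is a finite set `T`
  of functions such that every semilinear automorphism fixing `u` and the elements of `T`
  fixes `P`.
* `s37rl_abs`: the restriction of `P` to a subfield `ι : F → F'` over a subfield of constants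
  `φ : K → K'` is a RATIONAL place of `F / K` with the same orders, provided `P` is fixed by a
  set `H` of semilinear automorphisms fixing `ι F` whose fixed constants are `φ K`, the residue
  field of `P` is `K'` and `ι F` contains a uniformizer of `P`.
-/
import Mathlib
import Fermat.Prelude.Def_AlgebraicCurve_BaseChangeGalois
import Fermat.Agent.S24.Defs
import Fermat.Agent.S24.PlaceBasic
import Fermat.Agent.S24.ValPlace

set_option autoImplicit false

open AlgebraicCurve

noncomputable section

namespace Fermat.Agent.S37

open Fermat.Agent.S24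

section Gen

variable {K F : Type*} [Field K] [Field F] [Algebra K F]

theorem s37rl_smul_mem (g : SemilinearAut K F) (P : Place K F) {f : F}
    (hf : f ∈ P.toValuationSubring) : g • f ∈ (g • P).toValuationSubring := by
  rw [place_mem_iff] at hf ⊢
  rw [SemilinearAut.ord_smul]
  exact hf

theorem s37rl_smul_mem_nonunits (g : SemilinearAut K F) (P : Place K F) {f : F}
    (hf : f ∈ P.toValuationSubring.nonunits) :
    g • f ∈ (g • P).toValuationSubring.nonunits := by
  rw [place_mem_nonunits_iff'] at hf ⊢
  rcases hf with rfl | hf
  · left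
    exact smul_zero g
  · right
    rw [SemilinearAut.ord_smul]
    exact hf

/-- **(G1)** the value of a `g`-invariant function at a `g`-fixed place is `g`-invariant. -/
theorem s37rl_fix_value (g : SemilinearAut K F) (P : Place K F) (hP : g • P = P) (f : F)
    (hf : g • f = f) (c : K)
    (hc : f - algebraMap K F c ∈ P.toValuationSubring.nonunits) :
    SemilinearAut.baseAut g c = c := by
  have h1 := s37rl_smul_mem_nonunits g P hc
  rw [hP, smul_sub, hf, SemilinearAut.smul_algebraMap] at h1
  have h2 : algebraMap K F (SemilinearAut.baseAut g c - c) ∈ P.toValuationSubring.nonunits := by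
    have : algebraMap K F (SemilinearAut.baseAut g c - c) =
        (f - algebraMap K F c) - (f - algebraMap K F (SemilinearAut.baseAut g c)) := by
      rw [map_sub]
      ring
    rw [this]
    exact sub_mem hc h1
  by_contra hne
  exact place_algebraMap_not_mem_nonunits P (sub_ne_zero.mpr hne) h2

/-- **(G2)** separating a zero `P` of `u` from the finitely many other zeros. -/
theorem s37rl_stab (u : F) (hfin : (placesOver K u).Finite) (P : Place K F) :
    ∃ T : Finset F, ∀ g : SemilinearAut K F, g • u = u → (∀ t ∈ T, g • t = t) →
      u ∈ P.toValuationSubring.nonunits → g • P = P := by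
  classical
  have hsep : ∀ P' : Place K F, ∃ t : F, P' ≠ P →
      t ∈ P.toValuationSubring ∧ t ∉ P'.toValuationSubring := by
    intro P'
    by_cases h : P' = P
    · exact ⟨0, fun h' => absurd h h'⟩
    · by_contra hcon
      apply h
      symm
      apply place_eq_of_le
      intro t ht
      by_contra ht'
      exact hcon ⟨t, fun _ => ⟨ht, ht'⟩⟩
  choose t ht using hsep
  refine ⟨hfin.toFinset.image t, fun g hgu hgT hP => ?_⟩
  by_contra hne
  have h1 : g • P ∈ placesOver K u := by
    show u ∈ (g • P).toValuationSubring.nonunits
    have := s37rl_smul_mem_nonunits g P hP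
    rwa [hgu] at this
  have h2 : t (g • P) ∈ hfin.toFinset.image t :=
    Finset.mem_image_of_mem t (hfin.mem_toFinset.mpr h1)
  obtain ⟨h3, h4⟩ := ht (g • P) hne
  have h5 := s37rl_smul_mem g P h3
  rw [hgT _ h2] at h5
  exact h4 h5

end Gen

section Abs

variable {K F K' F' : Type*} [Field K] [Field F] [Algebra K F] [Field K'] [Field F']
  [Algebra K' F']

/-- **(A)** the restriction of a place to a subfield over a subfield of constants is a rational
place with the same orders. -/
theorem s37rl_abs (φ : K →+* K') (ι : F →+* F')
    (hι : ∀ c : K, ι (algebraMap K F c) = algebraMap K' F' (φ c))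
    (P : Place K' F') (H : Set (SemilinearAut K' F'))
    (hH : ∀ g ∈ H, ∀ f : F, g • ι f = ι f)
    (hfix : ∀ c : K', (∀ g ∈ H, SemilinearAut.baseAut g c = c) → ∃ a : K, φ a = c)
    (hres : ∀ f ∈ P.toValuationSubring, ∃ c : K',
      f - algebraMap K' F' c ∈ P.toValuationSubring.nonunits)
    (hstab : ∀ g ∈ H, g • P = P)
    (x : F) (hx : P.ord (ι x) = 1) :
    ∃ P0 : Place K F, (∀ f : F, P.ord (ι f) = P0.ord f) ∧
      (∀ f : F, f ∈ P0.toValuationSubring ↔ ι f ∈ P.toValuationSubring) ∧
      (∀ f : F, f ∈ P0.toValuationSubring.nonunits ↔ ι f ∈ P.toValuationSubring.nonunits) ∧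
      ∀ f : F, f ∈ P0.toValuationSubring →
        ∃ c : K, f - algebraMap K F c ∈ P0.toValuationSubring.nonunits := by
  have hinj : ∀ f : F, f ≠ 0 → ι f ≠ 0 := fun f hf => (map_ne_zero ι).2 hf
  have hx0 : x ≠ 0 := by
    rintro rfl
    rw [map_zero, Place.ord_zero] at hx
    exact zero_ne_one hx
  obtain ⟨v, m, hm, hv⟩ := val_exists_place (K := K) (fun f : F => P.ord (ι f))
    (fun f g hf hg => by
      show P.ord (ι (f * g)) = P.ord (ι f) + P.ord (ι g)
      rw [map_mul]
      exact P.ord_mul (hinj f hf) (hinj g hg))
    (fun f g hf hg hfg => by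
      show min (P.ord (ι f)) (P.ord (ι g)) ≤ P.ord (ι (f + g))
      rw [map_add]
      exact place_ord_add_ge P (hinj f hf) (hinj g hg) (by rw [← map_add]; exact hinj _ hfg))
    (fun c _ => by
      show P.ord (ι (algebraMap K F c)) = 0
      rw [hι]
      exact place_ord_algebraMap P _)
    ⟨x, hx0, by show P.ord (ι x) ≠ 0; rw [hx]; exact one_ne_zero⟩
  have hm1 : m = 1 := by
    have h1 := hv x hx0
    simp only [hx] at h1
    have h2 : (m : ℤ) ∣ 1 := ⟨v.ord x, h1⟩
    have h3 : (m : ℤ) = 1 := by
      rcases Int.isUnit_iff.mp (isUnit_of_dvd_one h2) with h | h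
      · exact h
      · omega
    exact_mod_cast h3
  subst hm1
  have hord : ∀ f : F, P.ord (ι f) = v.ord f := by
    intro f
    rcases eq_or_ne f 0 with rfl | hf
    · rw [map_zero, Place.ord_zero, Place.ord_zero]
    · have := hv f hf
      simpa using this
  have hmem : ∀ f : F, f ∈ v.toValuationSubring ↔ ι f ∈ P.toValuationSubring := by
    intro f
    rw [place_mem_iff, place_mem_iff, hord]
  have hnon : ∀ f : F, f ∈ v.toValuationSubring.nonunits ↔
      ι f ∈ P.toValuationSubring.nonunits := by
    intro f
    rw [place_mem_nonunits_iff', place_mem_nonunits_iff', hord]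
    constructor
    · rintro (rfl | h)
      · left
        exact map_zero ι
      · right
        exact h
    · rintro (h | h)
      · left
        by_contra hf
        exact hinj f hf h
      · right
        exact h
  refine ⟨v, hord, hmem, hnon, fun f hf => ?_⟩
  obtain ⟨c', hc'⟩ := hres (ι f) ((hmem f).1 hf)
  obtain ⟨a, ha⟩ := hfix c' (fun g hg =>
    s37rl_fix_value g P (hstab g hg) (ι f) (hH g hg f) c' hc')
  refine ⟨a, ?_⟩
  rw [hnon, map_sub, hι, ha]
  exact hc'

end Abs

end Fermat.Agent.S37
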