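/-
S37, SHARED TOOL (helper5): constant field extensions are unramified, in ANY characteristic,
part 1: the unramified step.  Prefix `s37t_cfe_`.  Mathlib only.

`W` a valuation subring of a field `L`, `E` a subfield, `t ∈ E` with `w(t) < 1` such that
`w(x) ∈ w(t) ^ ℤ` for all `x ∈ Eˣ` (`W ∩ E` is a discrete valuation ring with uniformizer `t`).
If `θ ∈ L` is a root of a monic SEPARABLE polynomial with coefficients in `O = W ∩ E`, then
`w(x) ∈ w(t) ^ ℤ` for all `x ∈ E(θ)ˣ`  (`s37t_cfe_step`).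

Proof (no residue fields): let `m ∈ O[X]` be monic of minimal degree with `w(m(θ)) < 1`.
A polynomial `a` of degree `< deg m` with `w(a(θ)) < 1` has all its coefficients in `t O`
(otherwise its truncation at the highest unit coefficient contradicts the minimality); so
`w(a(θ)) < 1` implies `a(θ) ∈ m(θ) O[θ] + t O[θ]` (division with remainder).  Write
`g = m n + r`; `w(n(θ)) = 1` because `g'(θ)` is a unit (separability).  Hence
`a(θ) n(θ) ∈ t O[θ]` whenever `w(a(θ)) < 1`, and induction (the elements of `O[θ]` are integral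
over `O`, so their values are bounded below by a power of `w(t)`) gives `w(a(θ)) ∈ w(t) ^ ℕ`.
-/
import Mathlib

set_option autoImplicit false
set_option linter.unusedSectionVars false
set_option linter.unusedVariables false

noncomputable section

namespace Fermat.Agent.S37

open Polynomial

section Step

variable {L : Type*} [Field L] (W : ValuationSubring L) (E : Subfield L)

/-- The ring `O = W ∩ E`. -/
def s37t_cfe_O : Subring L := W.toSubring ⊓ E.toSubring

theorem s37t_cfe_mem_O {x : L} : x ∈ s37t_cfe_O W E ↔ x ∈ W ∧ x ∈ E := Iff.rfl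

/-- Evaluation at `θ` of the polynomials over `O`. -/
def s37t_cfe_ev (θ : L) : (↥(s37t_cfe_O W E))[X] →+* L :=
  Polynomial.eval₂RingHom (s37t_cfe_O W E).subtype θ

theorem s37t_cfe_ev_eq_sum (θ : L) (a : (↥(s37t_cfe_O W E))[X]) :
    s37t_cfe_ev W E θ a = ∑ i ∈ Finset.range (a.natDegree + 1), ((a.coeff i : L)) * θ ^ i :=
  Polynomial.eval₂_eq_sum_range _ _

theorem s37t_cfe_ev_C (θ : L) (c : ↥(s37t_cfe_O W E)) : s37t_cfe_ev W E θ (C c) = (c : L) :=
  Polynomial.eval₂_C _ _

theorem s37t_cfe_ev_X (θ : L) : s37t_cfe_ev W E θ X = θ :=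
  Polynomial.eval₂_X _ _

theorem s37t_cfe_ev_monomial (θ : L) (i : ℕ) (c : ↥(s37t_cfe_O W E)) :
    s37t_cfe_ev W E θ (monomial i c) = (c : L) * θ ^ i :=
  Polynomial.eval₂_monomial _ _

variable {W E}

theorem s37t_cfe_coeff_le (a : (↥(s37t_cfe_O W E))[X]) (i : ℕ) :
    W.valuation ((a.coeff i : L)) ≤ 1 :=
  (W.valuation_le_one_iff _).2 (a.coeff i).2.1

theorem s37t_cfe_ev_le {θ : L} (hθ : W.valuation θ ≤ 1) (a : (↥(s37t_cfe_O W E))[X]) :
    W.valuation (s37t_cfe_ev W E θ a) ≤ 1 := by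
  rw [W.valuation_le_one_iff, s37t_cfe_ev_eq_sum]
  refine sum_mem fun i _ => mul_mem (a.coeff i).2.1 (pow_mem ((W.valuation_le_one_iff _).1 hθ) i)

/-- A polynomial with small coefficients has a small value. -/
theorem s37t_cfe_ev_lt {θ : L} (hθ : W.valuation θ ≤ 1) (a : (↥(s37t_cfe_O W E))[X])
    (ha : ∀ i, W.valuation ((a.coeff i : L)) < 1) : W.valuation (s37t_cfe_ev W E θ a) < 1 := by
  rw [s37t_cfe_ev_eq_sum]
  refine Valuation.map_sum_lt _ one_ne_zero fun i _ => ?_
  rw [map_mul, map_pow]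
  calc W.valuation ((a.coeff i : L)) * W.valuation θ ^ i
      ≤ W.valuation ((a.coeff i : L)) * 1 := by
        gcongr
        exact pow_le_one₀ zero_le hθ
    _ = W.valuation ((a.coeff i : L)) := mul_one _
    _ < 1 := ha i

/-! ### powers of `w(t)` -/

section Pow

variable {Γ : Type*} [LinearOrderedCommGroupWithZero Γ] {γ : Γ}

theorem s37t_cfe_zpow_lt_one (h0 : γ ≠ 0) (h1 : γ < 1) (k : ℤ) : γ ^ k < 1 ↔ 0 < k := by
  have h := (zpow_right_strictAnti₀ (zero_lt_iff.2 h0) h1).lt_iff_gt (a := k) (b := 0)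
  rw [zpow_zero] at h
  exact h

theorem s37t_cfe_zpow_le_one (h0 : γ ≠ 0) (h1 : γ < 1) (k : ℤ) : γ ^ k ≤ 1 ↔ 0 ≤ k := by
  have h := (zpow_right_strictAnti₀ (zero_lt_iff.2 h0) h1).le_iff_ge (a := k) (b := 0)
  rw [zpow_zero] at h
  exact h

theorem s37t_cfe_zpow_inj (h0 : γ ≠ 0) (h1 : γ < 1) {k l : ℤ} (h : γ ^ k = γ ^ l) : k = l :=
  (zpow_right_strictAnti₀ (zero_lt_iff.2 h0) h1).injective h

end Pow

/-! ### the standing hypotheses -/

section Hyp

variable {t : L} (htE : t ∈ E) (ht0 : t ≠ 0) (ht1 : W.valuation t < 1)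
  (hΦ : ∀ x ∈ E, x ≠ 0 → ∃ k : ℤ, W.valuation x = W.valuation t ^ k)

include htE ht0 ht1 hΦ

theorem s37t_cfe_vt_ne : W.valuation t ≠ 0 := (Valuation.ne_zero_iff _).2 ht0

/-- An element of `O` of value `< 1` is divisible by `t` in `O`. -/
theorem s37t_cfe_div_mem (c : ↥(s37t_cfe_O W E)) (hc : W.valuation (c : L) < 1) :
    (c : L) / t ∈ s37t_cfe_O W E := by
  refine ⟨?_, E.div_mem c.2.2 htE⟩
  show (c : L) / t ∈ W
  rw [← W.valuation_le_one_iff]
  by_cases h0 : (c : L) = 0
  · rw [h0, zero_div, map_zero]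
    exact zero_le_one
  · obtain ⟨k, hk⟩ := hΦ _ c.2.2 h0
    have hvt := s37t_cfe_vt_ne htE ht0 ht1 hΦ
    rw [hk, s37t_cfe_zpow_lt_one hvt ht1] at hc
    rw [map_div₀, hk, div_eq_mul_inv, ← zpow_sub_one₀ hvt, s37t_cfe_zpow_le_one hvt ht1]
    omega

omit htE ht0 ht1 hΦ in
/-- An element of `O` of value `1` is a unit of `O`. -/
theorem s37t_cfe_inv_mem (c : ↥(s37t_cfe_O W E)) (hc : W.valuation (c : L) = 1) :
    (c : L)⁻¹ ∈ s37t_cfe_O W E := by
  refine ⟨?_, E.inv_mem c.2.2⟩
  show (c : L)⁻¹ ∈ W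
  rw [← W.valuation_le_one_iff, map_inv₀, hc, inv_one]

/-- A polynomial with small coefficients has its value in `t · O[θ]`. -/
theorem s37t_cfe_exists_div (θ : L) (a : (↥(s37t_cfe_O W E))[X])
    (ha : ∀ i, W.valuation ((a.coeff i : L)) < 1) :
    ∃ a' : (↥(s37t_cfe_O W E))[X], s37t_cfe_ev W E θ a = t * s37t_cfe_ev W E θ a' := by
  refine ⟨∑ i ∈ Finset.range (a.natDegree + 1),
    monomial i (⟨(a.coeff i : L) / t, s37t_cfe_div_mem htE ht0 ht1 hΦ _ (ha i)⟩ :
      ↥(s37t_cfe_O W E)), ?_⟩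
  rw [map_sum, Finset.mul_sum, s37t_cfe_ev_eq_sum]
  refine Finset.sum_congr rfl fun i _ => ?_
  rw [s37t_cfe_ev_monomial]
  show (a.coeff i : L) * θ ^ i = t * ((a.coeff i : L) / t * θ ^ i)
  field_simp

end Hyp

/-! ### the minimal polynomial `m` -/

section Min

variable {t : L} (htE : t ∈ E) (ht0 : t ≠ 0) (ht1 : W.valuation t < 1)
  (hΦ : ∀ x ∈ E, x ≠ 0 → ∃ k : ℤ, W.valuation x = W.valuation t ^ k)
  {θ : L} (hθ : W.valuation θ ≤ 1)
  {m : (↥(s37t_cfe_O W E))[X]} (hm : m.Monic) (hmv : W.valuation (s37t_cfe_ev W E θ m) < 1)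
  (hmin : ∀ a : (↥(s37t_cfe_O W E))[X], a.Monic → W.valuation (s37t_cfe_ev W E θ a) < 1 →
    m.natDegree ≤ a.natDegree)

include htE ht0 ht1 hΦ hθ hm hmv hmin

/-- A polynomial of degree `d < deg m` whose `d`-th coefficient is a unit has value `1`. -/
theorem s37t_cfe_unit_coeff (d : ℕ) (a : (↥(s37t_cfe_O W E))[X]) (had : a.natDegree ≤ d)
    (hdm : d < m.natDegree) (hav : W.valuation (s37t_cfe_ev W E θ a) < 1) :
    W.valuation ((a.coeff d : L)) < 1 := by
  by_contra hcon
  have hc1 : W.valuation ((a.coeff d : L)) = 1 :=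
    le_antisymm (s37t_cfe_coeff_le a d) (not_lt.1 hcon)
  have hc0 : a.coeff d ≠ 0 := by
    intro h
    rw [h] at hc1
    simp at hc1
  have hdeg : a.natDegree = d := le_antisymm had (le_natDegree_of_ne_zero hc0)
  set u : ↥(s37t_cfe_O W E) := ⟨(a.coeff d : L)⁻¹, s37t_cfe_inv_mem _ hc1⟩ with hu
  have hu0 : u ≠ 0 := by
    intro h
    have h1 : (a.coeff d : L)⁻¹ = 0 := congrArg Subtype.val h
    rw [inv_eq_zero] at h1
    exact hc0 (Subtype.ext h1)
  have huc : u * a.coeff d = 1 := by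
    apply Subtype.ext
    show (a.coeff d : L)⁻¹ * (a.coeff d : L) = 1
    exact inv_mul_cancel₀ (fun h => hc0 (Subtype.ext h))
  have hmon : (C u * a).Monic := by
    show (C u * a).leadingCoeff = 1
    rw [leadingCoeff_mul, leadingCoeff_C, Polynomial.leadingCoeff, hdeg, huc]
  have hval : W.valuation (s37t_cfe_ev W E θ (C u * a)) < 1 := by
    rw [map_mul, map_mul, s37t_cfe_ev_C]
    have h1 : W.valuation (u : L) = 1 := by
      show W.valuation ((a.coeff d : L)⁻¹) = 1
      rw [map_inv₀, hc1, inv_one]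
    rw [h1, one_mul]
    exact hav
  have h2 := hmin _ hmon hval
  rw [natDegree_C_mul hu0, hdeg] at h2
  omega

/-- **Claim 1**: a polynomial of degree `< deg m` with small value has small coefficients. -/
theorem s37t_cfe_coeff_lt_aux : ∀ d : ℕ, ∀ a : (↥(s37t_cfe_O W E))[X], a.natDegree ≤ d →
    d < m.natDegree → W.valuation (s37t_cfe_ev W E θ a) < 1 →
    ∀ i, W.valuation ((a.coeff i : L)) < 1 := by
  intro d
  induction d with
  | zero =>
    intro a had hdm hav i
    rcases Nat.eq_zero_or_pos i with hi | hi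
    · rw [hi]
      exact s37t_cfe_unit_coeff htE ht0 ht1 hΦ hθ hm hmv hmin 0 a had hdm hav
    · rw [coeff_eq_zero_of_natDegree_lt (lt_of_le_of_lt had hi)]
      simp
  | succ d ih =>
    intro a had hdm hav i
    have hc := s37t_cfe_unit_coeff htE ht0 ht1 hΦ hθ hm hmv hmin (d + 1) a had hdm hav
    by_cases hi : i = d + 1
    · rw [hi]
      exact hc
    · have hdeg : (a.erase (d + 1)).natDegree ≤ d := by
        rw [natDegree_le_iff_coeff_eq_zero]
        intro N hN
        rw [coeff_erase]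
        split_ifs with h
        · rfl
        · exact coeff_eq_zero_of_natDegree_lt (lt_of_le_of_lt had (by omega))
      have hev : s37t_cfe_ev W E θ (a.erase (d + 1)) =
          s37t_cfe_ev W E θ a - (a.coeff (d + 1) : L) * θ ^ (d + 1) := by
        have h1 := congrArg (s37t_cfe_ev W E θ) (monomial_add_erase a (d + 1))
        rw [map_add, s37t_cfe_ev_monomial] at h1
        rw [← h1]
        ring
      have hv : W.valuation (s37t_cfe_ev W E θ (a.erase (d + 1))) < 1 := by
        rw [hev]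
        refine Valuation.map_sub_lt _ hav ?_
        rw [map_mul, map_pow]
        calc W.valuation ((a.coeff (d + 1) : L)) * W.valuation θ ^ (d + 1)
            ≤ W.valuation ((a.coeff (d + 1) : L)) * 1 := by
              gcongr
              exact pow_le_one₀ zero_le hθ
          _ = W.valuation ((a.coeff (d + 1) : L)) := mul_one _
          _ < 1 := hc
      have h2 := ih (a.erase (d + 1)) hdeg (by omega) hv i
      rw [coeff_erase, if_neg hi] at h2
      exact h2

theorem s37t_cfe_m_ne_one : m ≠ 1 := by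
  intro h
  rw [h, map_one, map_one] at hmv
  exact lt_irrefl _ hmv

/-- **Claim 2**: the remainder of a polynomial with small value has small coefficients. -/
theorem s37t_cfe_mod_coeff_lt (a : (↥(s37t_cfe_O W E))[X])
    (hav : W.valuation (s37t_cfe_ev W E θ a) < 1) (i : ℕ) :
    W.valuation (((a %ₘ m).coeff i : L)) < 1 := by
  have hm1 := s37t_cfe_m_ne_one htE ht0 ht1 hΦ hθ hm hmv hmin
  have hdeg := natDegree_modByMonic_lt a hm hm1
  have hev : s37t_cfe_ev W E θ (a %ₘ m) =
      s37t_cfe_ev W E θ a - s37t_cfe_ev W E θ m * s37t_cfe_ev W E θ (a /ₘ m) := by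
    have h1 := congrArg (s37t_cfe_ev W E θ) (modByMonic_add_div a m)
    rw [map_add, map_mul] at h1
    rw [← h1]
    ring
  have hv : W.valuation (s37t_cfe_ev W E θ (a %ₘ m)) < 1 := by
    rw [hev]
    refine Valuation.map_sub_lt _ hav ?_
    rw [map_mul]
    calc W.valuation (s37t_cfe_ev W E θ m) * W.valuation (s37t_cfe_ev W E θ (a /ₘ m))
        ≤ W.valuation (s37t_cfe_ev W E θ m) * 1 := by
          gcongr
          exact s37t_cfe_ev_le hθ _
      _ = W.valuation (s37t_cfe_ev W E θ m) := mul_one _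
      _ < 1 := hmv
  exact s37t_cfe_coeff_lt_aux htE ht0 ht1 hΦ hθ hm hmv hmin _ _ le_rfl hdeg hv i

end Min

/-! ### the key relation -/

section Key

variable {t : L} (htE : t ∈ E) (ht0 : t ≠ 0) (ht1 : W.valuation t < 1)
  (hΦ : ∀ x ∈ E, x ≠ 0 → ∃ k : ℤ, W.valuation x = W.valuation t ^ k)
  {θ : L} {g₀ : (↥(s37t_cfe_O W E))[X]} (hg : g₀.Monic) (hroot : s37t_cfe_ev W E θ g₀ = 0)
  (hsep : g₀.Separable)

omit [Field L] in
theorem s37t_cfe_natCast_le [Field L] (W : ValuationSubring L) (n : ℕ) :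
    W.valuation ((n : L)) ≤ 1 :=
  (W.valuation_le_one_iff _).2 (natCast_mem W n)

include hg hroot in
theorem s37t_cfe_isIntegralElem_theta : (s37t_cfe_O W E).subtype.IsIntegralElem θ :=
  ⟨g₀, hg, hroot⟩

include hg hroot in
/-- `θ ∈ W`. -/
theorem s37t_cfe_theta_le : W.valuation θ ≤ 1 := by
  have hle : s37t_cfe_O W E ≤ W.valuation.integer := by
    intro x hx
    exact (W.valuation_le_one_iff x).2 hx.1
  have hint : IsIntegral ↥(W.valuation.integer) θ := by
    refine ⟨g₀.map (Subring.inclusion hle), hg.map _, ?_⟩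
    rw [eval₂_map]
    exact hroot
  exact (Valuation.integer.integers W.valuation).isIntegral_iff_v_le_one.1 hint

include htE ht0 ht1 hΦ hg hroot hsep in
/-- **The key relation**: there is `ν ∈ O[θ]` of value `1` with `y ν ∈ t O[θ]` for all
`y ∈ O[θ]` of value `< 1`. -/
theorem s37t_cfe_key : ∃ ν : L, W.valuation ν = 1 ∧
    ∀ a : (↥(s37t_cfe_O W E))[X], W.valuation (s37t_cfe_ev W E θ a) < 1 →
      ∃ a' : (↥(s37t_cfe_O W E))[X], s37t_cfe_ev W E θ a * ν = t * s37t_cfe_ev W E θ a' := by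
  classical
  have hθ : W.valuation θ ≤ 1 := s37t_cfe_theta_le hg hroot
  have hex : ∃ d : ℕ, ∃ a : (↥(s37t_cfe_O W E))[X], a.Monic ∧
      W.valuation (s37t_cfe_ev W E θ a) < 1 ∧ a.natDegree = d :=
    ⟨g₀.natDegree, g₀, hg, by rw [hroot, map_zero]; exact zero_lt_one, rfl⟩
  obtain ⟨m, hm, hmv, hmd⟩ := Nat.find_spec hex
  have hmin : ∀ a : (↥(s37t_cfe_O W E))[X], a.Monic → W.valuation (s37t_cfe_ev W E θ a) < 1 →
      m.natDegree ≤ a.natDegree := fun a ha hav => by
    rw [hmd]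
    exact Nat.find_min' hex ⟨a, ha, hav, rfl⟩
  have hg0 : W.valuation (s37t_cfe_ev W E θ g₀) < 1 := by
    rw [hroot, map_zero]
    exact zero_lt_one
  have hdiv : g₀ %ₘ m + m * (g₀ /ₘ m) = g₀ := modByMonic_add_div g₀ m
  have hr₀ : ∀ i, W.valuation (((g₀ %ₘ m).coeff i : L)) < 1 :=
    s37t_cfe_mod_coeff_lt htE ht0 ht1 hΦ hθ hm hmv hmin g₀ hg0
  have hn : W.valuation (s37t_cfe_ev W E θ (g₀ /ₘ m)) = 1 := by
    by_contra hcon
    have hn1 : W.valuation (s37t_cfe_ev W E θ (g₀ /ₘ m)) < 1 :=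
      lt_of_le_of_ne (s37t_cfe_ev_le hθ _) hcon
    have hder : derivative g₀ = derivative (g₀ %ₘ m) +
        (derivative m * (g₀ /ₘ m) + m * derivative (g₀ /ₘ m)) := by
      conv_lhs => rw [← hdiv]
      rw [derivative_add, derivative_mul]
    have hdr : ∀ i, W.valuation (((derivative (g₀ %ₘ m)).coeff i : L)) < 1 := by
      intro i
      rw [coeff_derivative]
      have e : (((g₀ %ₘ m).coeff (i + 1) * ((i : ↥(s37t_cfe_O W E)) + 1) :
          ↥(s37t_cfe_O W E)) : L) = ((g₀ %ₘ m).coeff (i + 1) : L) * (((i + 1 : ℕ) : L)) := by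
        push_cast
        rfl
      rw [e, map_mul]
      calc W.valuation (((g₀ %ₘ m).coeff (i + 1) : L)) * W.valuation (((i + 1 : ℕ) : L))
          ≤ W.valuation (((g₀ %ₘ m).coeff (i + 1) : L)) * 1 := by
            gcongr
            exact s37t_cfe_natCast_le W _
        _ = W.valuation (((g₀ %ₘ m).coeff (i + 1) : L)) := mul_one _
        _ < 1 := hr₀ (i + 1)
    have hv : W.valuation (s37t_cfe_ev W E θ (derivative g₀)) < 1 := by
      rw [hder, map_add (s37t_cfe_ev W E θ), map_add (s37t_cfe_ev W E θ),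
        map_mul (s37t_cfe_ev W E θ), map_mul (s37t_cfe_ev W E θ)]
      refine Valuation.map_add_lt _ (s37t_cfe_ev_lt hθ _ hdr) (Valuation.map_add_lt _ ?_ ?_)
      · rw [map_mul]
        calc W.valuation (s37t_cfe_ev W E θ (derivative m)) *
              W.valuation (s37t_cfe_ev W E θ (g₀ /ₘ m))
            ≤ 1 * W.valuation (s37t_cfe_ev W E θ (g₀ /ₘ m)) := by
              gcongr
              exact s37t_cfe_ev_le hθ _
          _ = W.valuation (s37t_cfe_ev W E θ (g₀ /ₘ m)) := one_mul _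
          _ < 1 := hn1
      · rw [map_mul]
        calc W.valuation (s37t_cfe_ev W E θ m) *
              W.valuation (s37t_cfe_ev W E θ (derivative (g₀ /ₘ m)))
            ≤ W.valuation (s37t_cfe_ev W E θ m) * 1 := by
              gcongr
              exact s37t_cfe_ev_le hθ _
          _ = W.valuation (s37t_cfe_ev W E θ m) := mul_one _
          _ < 1 := hmv
    obtain ⟨α, β, hαβ⟩ := hsep
    have h1 := congrArg (s37t_cfe_ev W E θ) hαβ
    rw [map_add, map_mul, map_mul, hroot, mul_zero, zero_add, map_one] at h1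
    have h2 : W.valuation (s37t_cfe_ev W E θ β) *
        W.valuation (s37t_cfe_ev W E θ (derivative g₀)) = 1 := by
      rw [← map_mul, h1, map_one]
    have h3 : W.valuation (s37t_cfe_ev W E θ β) *
        W.valuation (s37t_cfe_ev W E θ (derivative g₀)) < 1 :=
      calc W.valuation (s37t_cfe_ev W E θ β) * W.valuation (s37t_cfe_ev W E θ (derivative g₀))
          ≤ 1 * W.valuation (s37t_cfe_ev W E θ (derivative g₀)) := by
            gcongr
            exact s37t_cfe_ev_le hθ _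
        _ = W.valuation (s37t_cfe_ev W E θ (derivative g₀)) := one_mul _
        _ < 1 := hv
    exact absurd h2 (ne_of_lt h3)
  refine ⟨s37t_cfe_ev W E θ (g₀ /ₘ m), hn, fun a hav => ?_⟩
  obtain ⟨r', hr'⟩ := s37t_cfe_exists_div htE ht0 ht1 hΦ θ (a %ₘ m)
    (s37t_cfe_mod_coeff_lt htE ht0 ht1 hΦ hθ hm hmv hmin a hav)
  obtain ⟨r₀', hr₀'⟩ := s37t_cfe_exists_div htE ht0 ht1 hΦ θ (g₀ %ₘ m) hr₀
  have h1 : s37t_cfe_ev W E θ a =
      s37t_cfe_ev W E θ (a %ₘ m) + s37t_cfe_ev W E θ m * s37t_cfe_ev W E θ (a /ₘ m) := by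
    rw [← map_mul, ← map_add, modByMonic_add_div]
  have h2 : s37t_cfe_ev W E θ (g₀ %ₘ m) +
      s37t_cfe_ev W E θ m * s37t_cfe_ev W E θ (g₀ /ₘ m) = 0 := by
    rw [← map_mul, ← map_add, hdiv, hroot]
  refine ⟨r' * (g₀ /ₘ m) - (a /ₘ m) * r₀', ?_⟩
  rw [map_sub, map_mul, map_mul, h1, hr']
  rw [hr₀'] at h2
  linear_combination (s37t_cfe_ev W E θ (a /ₘ m)) * h2

end Key

/-! ### termination and the values of `O[θ]` -/

section Values

variable {t : L} (htE : t ∈ E) (ht0 : t ≠ 0) (ht1 : W.valuation t < 1)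
  (hΦ : ∀ x ∈ E, x ≠ 0 → ∃ k : ℤ, W.valuation x = W.valuation t ^ k)

theorem s37t_cfe_isIntegralElem_ev {θ : L} (hθ : (s37t_cfe_O W E).subtype.IsIntegralElem θ)
    (a : (↥(s37t_cfe_O W E))[X]) :
    (s37t_cfe_O W E).subtype.IsIntegralElem (s37t_cfe_ev W E θ a) := by
  have hpow : ∀ n : ℕ, (s37t_cfe_O W E).subtype.IsIntegralElem (θ ^ n) := by
    intro n
    induction n with
    | zero =>
      rw [pow_zero]
      exact RingHom.isIntegralElem_one _
    | succ n ih =>
      rw [pow_succ]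
      exact RingHom.IsIntegralElem.mul _ ih hθ
  induction a using Polynomial.induction_on' with
  | add p q hp hq =>
    rw [map_add]
    exact RingHom.IsIntegralElem.add _ hp hq
  | monomial n c =>
    rw [s37t_cfe_ev_monomial]
    exact RingHom.IsIntegralElem.mul _ (RingHom.isIntegralElem_map _) (hpow n)

include htE ht0 ht1 hΦ in
/-- The value of a non-zero element of `W` which is integral over `O` is bounded below by a
power of `w(t)`. -/
theorem s37t_cfe_bound (y : L) (hy : (s37t_cfe_O W E).subtype.IsIntegralElem y) (hy0 : y ≠ 0)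
    (hy1 : W.valuation y ≤ 1) : ∃ K : ℕ, W.valuation t ^ K ≤ W.valuation y := by
  obtain ⟨h, hmon, hroot⟩ := hy
  obtain ⟨q, hq, hnd⟩ := exists_eq_pow_rootMultiplicity_mul_and_not_dvd h hmon.ne_zero 0
  rw [map_zero, sub_zero] at hq hnd
  have hq0 : q.coeff 0 ≠ 0 := fun h0 => hnd (X_dvd_iff.2 h0)
  have hqy : eval₂ (s37t_cfe_O W E).subtype y q = 0 := by
    have h1 := hroot
    rw [hq, eval₂_mul, eval₂_pow, eval₂_X] at h1
    exact (mul_eq_zero.1 h1).resolve_left (pow_ne_zero _ hy0)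
  have hsplit : eval₂ (s37t_cfe_O W E).subtype y (divX q) * y + ((q.coeff 0 : L)) = 0 := by
    have h1 := congrArg (eval₂ (s37t_cfe_O W E).subtype y) (divX_mul_X_add q)
    rw [eval₂_add, eval₂_mul, eval₂_X, eval₂_C, hqy] at h1
    exact h1
  have hle : W.valuation ((q.coeff 0 : L)) ≤ W.valuation y := by
    have h1 : ((q.coeff 0 : L)) = -(eval₂ (s37t_cfe_O W E).subtype y (divX q) * y) := by
      linear_combination hsplit
    rw [h1, Valuation.map_neg, map_mul]
    calc W.valuation (eval₂ (s37t_cfe_O W E).subtype y (divX q)) * W.valuation y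
        ≤ 1 * W.valuation y := by
          gcongr
          exact s37t_cfe_ev_le (θ := y) hy1 (divX q)
      _ = W.valuation y := one_mul _
  have hc0 : ((q.coeff 0 : L)) ≠ 0 := fun h0 => hq0 (Subtype.ext h0)
  obtain ⟨k, hk⟩ := hΦ _ (q.coeff 0).2.2 hc0
  have hvt : W.valuation t ≠ 0 := (Valuation.ne_zero_iff _).2 ht0
  have hk0 : 0 ≤ k := by
    rw [← s37t_cfe_zpow_le_one hvt ht1, ← hk]
    exact (W.valuation_le_one_iff _).2 (q.coeff 0).2.1
  refine ⟨k.toNat, ?_⟩
  rw [← zpow_natCast, Int.toNat_of_nonneg hk0, ← hk]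
  exact hle

variable {θ : L} {g₀ : (↥(s37t_cfe_O W E))[X]} (hg : g₀.Monic)
  (hroot : s37t_cfe_ev W E θ g₀ = 0) (hsep : g₀.Separable)

include htE ht0 ht1 hΦ hg hroot hsep

/-- The values of the non-zero elements of `O[θ]` are powers of `w(t)`. -/
theorem s37t_cfe_value_ev (a : (↥(s37t_cfe_O W E))[X]) (ha : s37t_cfe_ev W E θ a ≠ 0) :
    ∃ k : ℕ, W.valuation (s37t_cfe_ev W E θ a) = W.valuation t ^ k := by
  have hθ : W.valuation θ ≤ 1 := s37t_cfe_theta_le hg hroot
  have hvt : W.valuation t ≠ 0 := (Valuation.ne_zero_iff _).2 ht0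
  obtain ⟨ν, hν, hkey⟩ := s37t_cfe_key htE ht0 ht1 hΦ hg hroot hsep
  have main : ∀ K : ℕ, ∀ a : (↥(s37t_cfe_O W E))[X], s37t_cfe_ev W E θ a ≠ 0 →
      W.valuation t ^ K ≤ W.valuation (s37t_cfe_ev W E θ a) →
      ∃ k : ℕ, W.valuation (s37t_cfe_ev W E θ a) = W.valuation t ^ k := by
    intro K
    induction K with
    | zero =>
      intro a _ hK
      rw [pow_zero] at hK
      exact ⟨0, by rw [pow_zero]; exact le_antisymm (s37t_cfe_ev_le hθ a) hK⟩
    | succ K ih =>
      intro a ha0 hK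
      by_cases h1 : W.valuation (s37t_cfe_ev W E θ a) = 1
      · exact ⟨0, by rw [pow_zero]; exact h1⟩
      · have hlt : W.valuation (s37t_cfe_ev W E θ a) < 1 :=
          lt_of_le_of_ne (s37t_cfe_ev_le hθ a) h1
        obtain ⟨a', ha'⟩ := hkey a hlt
        have hval : W.valuation (s37t_cfe_ev W E θ a) =
            W.valuation t * W.valuation (s37t_cfe_ev W E θ a') := by
          have h2 := congrArg W.valuation ha'
          rw [map_mul, map_mul, hν, mul_one] at h2
          exact h2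
        have ha'0 : s37t_cfe_ev W E θ a' ≠ 0 := by
          intro h0
          rw [h0, map_zero, mul_zero] at hval
          exact ha0 ((Valuation.zero_iff _).1 hval)
        have hK' : W.valuation t ^ K ≤ W.valuation (s37t_cfe_ev W E θ a') := by
          rw [hval, pow_succ'] at hK
          exact le_of_mul_le_mul_left hK (zero_lt_iff.2 hvt)
        obtain ⟨k, hk⟩ := ih a' ha'0 hK'
        exact ⟨k + 1, by rw [hval, hk, pow_succ']⟩
  obtain ⟨K, hK⟩ := s37t_cfe_bound htE ht0 ht1 hΦ _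
    (s37t_cfe_isIntegralElem_ev (s37t_cfe_isIntegralElem_theta hg hroot) a) ha (s37t_cfe_ev_le hθ a)
  exact main K a ha hK

omit htE ht0 ht1 hΦ hg hroot hsep in
/-- Every element of `E(θ)` is a quotient of two elements of `O[θ]`. -/
theorem s37t_cfe_frac (θ : L) (x : L) (hx : x ∈ Subfield.closure ((E : Set L) ∪ {θ})) :
    ∃ a s : (↥(s37t_cfe_O W E))[X], s37t_cfe_ev W E θ s ≠ 0 ∧
      x * s37t_cfe_ev W E θ s = s37t_cfe_ev W E θ a := by
  induction hx using Subfield.closure_induction with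
  | mem x hx =>
    rcases hx with hx | hx
    · rcases W.mem_or_inv_mem x with h | h
      · refine ⟨C ⟨x, h, hx⟩, 1, ?_, ?_⟩
        · rw [map_one]
          exact one_ne_zero
        · rw [map_one, mul_one, s37t_cfe_ev_C]
      · by_cases hx0 : x = 0
        · refine ⟨0, 1, ?_, ?_⟩
          · rw [map_one]
            exact one_ne_zero
          · rw [hx0, zero_mul, map_zero]
        · refine ⟨1, C ⟨x⁻¹, h, E.inv_mem hx⟩, ?_, ?_⟩
          · rw [s37t_cfe_ev_C]
            exact inv_ne_zero hx0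
          · rw [s37t_cfe_ev_C, map_one]
            exact mul_inv_cancel₀ hx0
    · rw [Set.mem_singleton_iff] at hx
      refine ⟨X, 1, ?_, ?_⟩
      · rw [map_one]
        exact one_ne_zero
      · rw [map_one, mul_one, s37t_cfe_ev_X, hx]
  | one =>
    refine ⟨1, 1, ?_, ?_⟩
    · rw [map_one]
      exact one_ne_zero
    · rw [map_one, mul_one]
  | add x y _ _ hx hy =>
    obtain ⟨a, s, hs, h⟩ := hx
    obtain ⟨a', s', hs', h'⟩ := hy
    refine ⟨a * s' + a' * s, s * s', ?_, ?_⟩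
    · rw [map_mul]
      exact mul_ne_zero hs hs'
    · rw [map_mul, map_add, map_mul, map_mul, ← h, ← h']
      ring
  | neg x _ hx =>
    obtain ⟨a, s, hs, h⟩ := hx
    refine ⟨-a, s, hs, ?_⟩
    rw [map_neg, ← h]
    ring
  | inv x _ hx =>
    obtain ⟨a, s, hs, h⟩ := hx
    by_cases hx0 : x = 0
    · refine ⟨0, 1, ?_, ?_⟩
      · rw [map_one]
        exact one_ne_zero
      · rw [hx0, inv_zero, zero_mul, map_zero]
    · refine ⟨s, a, ?_, ?_⟩
      · rw [← h]
        exact mul_ne_zero hx0 hs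
      · rw [← h]
        field_simp
  | mul x y _ _ hx hy =>
    obtain ⟨a, s, hs, h⟩ := hx
    obtain ⟨a', s', hs', h'⟩ := hy
    refine ⟨a * a', s * s', ?_, ?_⟩
    · rw [map_mul]
      exact mul_ne_zero hs hs'
    · rw [map_mul, map_mul, ← h, ← h']
      ring

/-- **The unramified step**: if the values of `Eˣ` are the powers of `w(t)` and `θ` is a root of
a monic separable polynomial over `O = W ∩ E`, the values of `E(θ)ˣ` are the powers of `w(t)`. -/
theorem s37t_cfe_step (x : L) (hx : x ∈ Subfield.closure ((E : Set L) ∪ {θ})) (hx0 : x ≠ 0) :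
    ∃ k : ℤ, W.valuation x = W.valuation t ^ k := by
  have hvt : W.valuation t ≠ 0 := (Valuation.ne_zero_iff _).2 ht0
  obtain ⟨a, s, hs, h⟩ := s37t_cfe_frac θ x hx
  have ha : s37t_cfe_ev W E θ a ≠ 0 := by
    rw [← h]
    exact mul_ne_zero hx0 hs
  obtain ⟨k, hk⟩ := s37t_cfe_value_ev htE ht0 ht1 hΦ hg hroot hsep a ha
  obtain ⟨l, hl⟩ := s37t_cfe_value_ev htE ht0 ht1 hΦ hg hroot hsep s hs
  refine ⟨(k : ℤ) - l, ?_⟩
  have h2 := congrArg W.valuation h
  rw [map_mul, hk, hl] at h2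
  rw [zpow_sub₀ hvt, zpow_natCast, zpow_natCast, ← h2,
    mul_div_assoc, div_self (pow_ne_zero _ hvt), mul_one]

end Values

end Step

end Fermat.Agent.S37
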