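/-
S37, SHARED TOOL (helper5): constant field extensions are unramified, in ANY characteristic,
part 2: the abstract theorem.  Prefix `s37t_cfe_`.

`F / K` and `F' / K'` function fields (in the sense of the Prelude's `Place`), `φ₀ : K → K'`,
`ι : F → F'` compatible, every element of `K'` a root of a monic SEPARABLE polynomial over `K`
(e.g. `K` perfect and `K' / K` algebraic), `F' = ι(F) · K'`.  Then every place `P` of `F / K`
extends to a place `P'` of `F' / K'` with `ord_{P'} (ι f) = ord_P f` for all `f`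
(`s37t_cfe_abs`).
-/
import Mathlib
import Fermat.Prelude.Def_AlgebraicCurve_DivisorClassGroup
import Fermat.Agent.S24.ValPlace
import Fermat.Agent.S37.ToolCfeStep

set_option autoImplicit false
set_option linter.unusedSectionVars false
set_option linter.unusedVariables false

noncomputable section

namespace Fermat.Agent.S37

open Polynomial AlgebraicCurve

section Abs

variable {K F K' F' : Type*} [Field K] [Field F] [Algebra K F] [Field K'] [Field F']
  [Algebra K' F'] (φ₀ : K →+* K') (ι : F →+* F')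

/-- The subfield of `F'` generated by `ι(F)` and a set `Θ` of constants of `K'`. -/
def s37t_cfe_E (Θ : Set K') : Subfield F' :=
  Subfield.closure (Set.range ι ∪ algebraMap K' F' '' Θ)

theorem s37t_cfe_E_mono {Θ Θ' : Set K'} (h : Θ ⊆ Θ') : s37t_cfe_E ι Θ ≤ s37t_cfe_E ι Θ' :=
  Subfield.closure_mono (Set.union_subset_union_right _ (Set.image_mono h))

theorem s37t_cfe_range_le (Θ : Set K') (f : F) : ι f ∈ s37t_cfe_E ι Θ :=
  Subfield.subset_closure (Or.inl ⟨f, rfl⟩)

theorem s37t_cfe_const_mem {Θ : Set K'} {a : K'} (ha : a ∈ Θ) :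
    algebraMap K' F' a ∈ s37t_cfe_E ι Θ :=
  Subfield.subset_closure (Or.inr ⟨a, ha, rfl⟩)

theorem s37t_cfe_E_empty (x : F') (hx : x ∈ s37t_cfe_E ι (∅ : Set K')) : ∃ f : F, ι f = x := by
  have h : s37t_cfe_E ι (∅ : Set K') ≤ ι.fieldRange := by
    apply Subfield.closure_le.2
    rintro y (⟨f, rfl⟩ | ⟨a, ha, -⟩)
    · exact ⟨f, rfl⟩
    · exact absurd ha (Set.notMem_empty a)
  exact h hx

theorem s37t_cfe_E_insert (Θ : Set K') (a : K') :
    s37t_cfe_E ι (insert a Θ) =
      Subfield.closure (((s37t_cfe_E ι Θ : Subfield F') : Set F') ∪ {algebraMap K' F' a}) := by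
  apply le_antisymm
  · apply Subfield.closure_le.2
    rintro y (⟨f, rfl⟩ | ⟨b, hb, rfl⟩)
    · exact Subfield.subset_closure (Or.inl (s37t_cfe_range_le ι Θ f))
    · rcases hb with rfl | hb
      · exact Subfield.subset_closure (Or.inr rfl)
      · exact Subfield.subset_closure (Or.inl (s37t_cfe_const_mem ι hb))
  · apply Subfield.closure_le.2
    rintro y (hy | hy)
    · exact s37t_cfe_E_mono ι (Set.subset_insert a Θ) hy
    · rw [Set.mem_singleton_iff] at hy
      rw [hy]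
      exact s37t_cfe_const_mem ι (Set.mem_insert a Θ)

/-- Every element of `ι(F) · K'` lies in `ι(F)(Θ)` for a finite set `Θ` of constants. -/
theorem s37t_cfe_exists_E (x : F')
    (hx : x ∈ Subfield.closure (Set.range ι ∪ Set.range (algebraMap K' F'))) :
    ∃ Θ : Finset K', x ∈ s37t_cfe_E ι (↑Θ : Set K') := by
  classical
  induction hx using Subfield.closure_induction with
  | mem y hy =>
    rcases hy with ⟨f, rfl⟩ | ⟨a, rfl⟩
    · exact ⟨∅, s37t_cfe_range_le ι _ f⟩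
    · exact ⟨{a}, s37t_cfe_const_mem ι (by simp)⟩
  | one => exact ⟨∅, (s37t_cfe_E ι _).one_mem⟩
  | add y z _ _ hy hz =>
    obtain ⟨Θ₁, h₁⟩ := hy
    obtain ⟨Θ₂, h₂⟩ := hz
    refine ⟨Θ₁ ∪ Θ₂, (s37t_cfe_E ι _).add_mem ?_ ?_⟩
    · exact s37t_cfe_E_mono ι (by simp) h₁
    · exact s37t_cfe_E_mono ι (by simp) h₂
  | neg y _ hy =>
    obtain ⟨Θ₁, h₁⟩ := hy
    exact ⟨Θ₁, (s37t_cfe_E ι _).neg_mem h₁⟩
  | inv y _ hy =>
    obtain ⟨Θ₁, h₁⟩ := hy
    exact ⟨Θ₁, (s37t_cfe_E ι _).inv_mem h₁⟩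
  | mul y z _ _ hy hz =>
    obtain ⟨Θ₁, h₁⟩ := hy
    obtain ⟨Θ₂, h₂⟩ := hz
    refine ⟨Θ₁ ∪ Θ₂, (s37t_cfe_E ι _).mul_mem ?_ ?_⟩
    · exact s37t_cfe_E_mono ι (by simp) h₁
    · exact s37t_cfe_E_mono ι (by simp) h₂

/-! ### the values of `ι(F)(Θ)` -/

section Phi

variable (hι : ∀ c : K, ι (algebraMap K F c) = algebraMap K' F' (φ₀ c))
  (halg : ∀ a : K', ∃ p : K[X], p.Monic ∧ p.Separable ∧ eval₂ φ₀ a p = 0)
  (W : ValuationSubring F') (hK : ∀ c : K, algebraMap K' F' (φ₀ c) ∈ W)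
  {t : F'} (htF : t ∈ Set.range ι) (ht0 : t ≠ 0) (ht1 : W.valuation t < 1)
  (hbase : ∀ f : F, f ≠ 0 → ∃ k : ℤ, W.valuation (ι f) = W.valuation t ^ k)

include hι halg hK htF ht0 ht1 hbase in
theorem s37t_cfe_phi_E (Θ : Finset K') :
    ∀ x ∈ s37t_cfe_E ι (↑Θ : Set K'), x ≠ 0 →
      ∃ k : ℤ, W.valuation x = W.valuation t ^ k := by
  classical
  induction Θ using Finset.induction_on with
  | empty =>
    intro x hx hx0
    rw [Finset.coe_empty] at hx
    obtain ⟨f, rfl⟩ := s37t_cfe_E_empty ι x hx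
    exact hbase f (fun h => hx0 (by rw [h, map_zero]))
  | insert a Θ ha ih =>
    intro x hx hx0
    rw [Finset.coe_insert, s37t_cfe_E_insert] at hx
    obtain ⟨p, hpm, hps, hp0⟩ := halg a
    have htE : t ∈ s37t_cfe_E ι (↑Θ : Set K') := by
      obtain ⟨f, rfl⟩ := htF
      exact s37t_cfe_range_le ι _ f
    have hmem : ∀ c : K, ((algebraMap K' F').comp φ₀) c ∈
        s37t_cfe_O W (s37t_cfe_E ι (↑Θ : Set K')) := by
      intro c
      refine ⟨hK c, ?_⟩
      change algebraMap K' F' (φ₀ c) ∈ s37t_cfe_E ι (↑Θ : Set K')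
      rw [← hι]
      exact s37t_cfe_range_le ι _ _
    let j₀ : K →+* ↥(s37t_cfe_O W (s37t_cfe_E ι (↑Θ : Set K'))) :=
      ((algebraMap K' F').comp φ₀).codRestrict _ hmem
    have hroot : s37t_cfe_ev W (s37t_cfe_E ι (↑Θ : Set K')) (algebraMap K' F' a)
        (p.map j₀) = 0 := by
      change eval₂ _ _ (p.map j₀) = 0
      rw [eval₂_map]
      have hcomp : (s37t_cfe_O W (s37t_cfe_E ι (↑Θ : Set K'))).subtype.comp j₀ =
          (algebraMap K' F').comp φ₀ := by
        ext c; rfl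
      rw [hcomp, ← Polynomial.hom_eval₂, hp0, map_zero]
    exact s37t_cfe_step htE ht0 ht1 ih (hpm.map j₀) hroot hps.map x hx hx0

include hι halg hK in
/-- The constants of `K'` lie in `W`. -/
theorem s37t_cfe_const_le (a : K') : W.valuation (algebraMap K' F' a) ≤ 1 := by
  obtain ⟨p, hpm, hps, hp0⟩ := halg a
  have hmem : ∀ c : K, ((algebraMap K' F').comp φ₀) c ∈
      s37t_cfe_O W (⊤ : Subfield F') := fun c => ⟨hK c, Subfield.mem_top _⟩
  let j₀ : K →+* ↥(s37t_cfe_O W (⊤ : Subfield F')) :=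
    ((algebraMap K' F').comp φ₀).codRestrict _ hmem
  have hroot : s37t_cfe_ev W (⊤ : Subfield F') (algebraMap K' F' a) (p.map j₀) = 0 := by
    change eval₂ _ _ (p.map j₀) = 0
    rw [eval₂_map]
    have hcomp : (s37t_cfe_O W (⊤ : Subfield F')).subtype.comp j₀ =
        (algebraMap K' F').comp φ₀ := by
      ext c; rfl
    rw [hcomp, ← Polynomial.hom_eval₂, hp0, map_zero]
  exact s37t_cfe_theta_le (hpm.map j₀) hroot

include hι halg hK in
theorem s37t_cfe_const_eq_one (a : K') (ha : a ≠ 0) : W.valuation (algebraMap K' F' a) = 1 := by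
  have h1 := s37t_cfe_const_le φ₀ ι hι halg W hK a
  have h2 := s37t_cfe_const_le φ₀ ι hι halg W hK a⁻¹
  rw [map_inv₀, map_inv₀] at h2
  have h0 : W.valuation (algebraMap K' F' a) ≠ 0 :=
    (Valuation.ne_zero_iff _).2 (by simpa using ha)
  apply le_antisymm h1
  rwa [inv_le_one₀ (zero_lt_iff.2 h0)] at h2

end Phi

/-! ### the abstract theorem -/

section Pow

variable {Γ : Type*} [LinearOrderedCommGroupWithZero Γ] {γ : Γ}

theorem s37t_cfe_zpow_le_zpow (h0 : γ ≠ 0) (h1 : γ < 1) (k l : ℤ) : γ ^ k ≤ γ ^ l ↔ l ≤ k := by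
  have h : γ ^ k ≤ γ ^ l ↔ γ ^ (k - l) ≤ 1 := by
    rw [zpow_sub₀ h0, div_le_one₀ (zero_lt_iff.2 (zpow_ne_zero _ h0))]
  rw [h, s37t_cfe_zpow_le_one h0 h1]
  omega

end Pow

/-- **Constant field extensions are unramified** (any characteristic): if every element of `K'`
is a root of a monic separable polynomial over `K` and `F' = ι(F) · K'`, then every place `P`
of `F / K` extends to a place `P'` of `F' / K'` with `ord_{P'} (ι f) = ord_P f`. -/
theorem s37t_cfe_abs
    (hι : ∀ c : K, ι (algebraMap K F c) = algebraMap K' F' (φ₀ c))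
    (halg : ∀ a : K', ∃ p : K[X], p.Monic ∧ p.Separable ∧ eval₂ φ₀ a p = 0)
    (hgen : ∀ x : F', x ∈ Subfield.closure (Set.range ι ∪ Set.range (algebraMap K' F')))
    (P : Place K F) : ∃ P' : Place K' F', ∀ f : F, P'.ord (ι f) = P.ord f := by
  classical
  obtain ⟨W, h, hloc⟩ :=
    IsLocalRing.exists_factor_valuationRing (ι.comp P.toValuationSubring.subtype)
  let φ : ↥P.toValuationSubring →+* ↥W :=
    (ι.comp P.toValuationSubring.subtype).codRestrict W.toSubring h
  have hφE : ∀ x : ↥P.toValuationSubring, ((φ x : ↥W) : F') = ι (x : F) := fun x => rfl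
  have hK : ∀ c : K, algebraMap K' F' (φ₀ c) ∈ W := by
    intro c
    rw [← hι]
    exact h ⟨algebraMap K F c, P.algebraMap_mem' c⟩
  -- units have value one
  have hunit : ∀ u : (↥P.toValuationSubring)ˣ,
      W.valuation (ι ((u : ↥P.toValuationSubring) : F)) = 1 := by
    intro u
    have hu : IsUnit (φ (u : ↥P.toValuationSubring)) := u.isUnit.map φ
    have := (W.valuation_eq_one_iff (φ (u : ↥P.toValuationSubring))).1 hu
    rwa [hφE] at this
  obtain ⟨π, hπ⟩ := IsDiscreteValuationRing.exists_irreducible ↥P.toValuationSubring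
  have hπ0 : (π : F) ≠ 0 := by
    intro h0
    exact hπ.ne_zero (Subtype.ext h0)
  have ht0 : ι (π : F) ≠ 0 := (_root_.map_ne_zero ι).2 hπ0
  have ht1 : W.valuation (ι (π : F)) < 1 := by
    have hnu : ¬ IsUnit (φ π) := fun hu => hπ.not_isUnit (hloc.map_nonunit π hu)
    have hle : W.valuation ((φ π : ↥W) : F') ≤ 1 := (W.valuation_le_one_iff _).2 (φ π).2
    rcases lt_or_eq_of_le hle with hlt | heq
    · exact hlt
    · exact absurd ((W.valuation_eq_one_iff (φ π)).2 heq) hnu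
  have hvt : W.valuation (ι (π : F)) ≠ 0 := (Valuation.ne_zero_iff _).2 ht0
  have hbase : ∀ f : F, f ≠ 0 → W.valuation (ι f) = W.valuation (ι (π : F)) ^ (P.ord f) := by
    intro f hf
    obtain ⟨u, hu⟩ := P.exists_unit_mul_zpow hf hπ
    conv_lhs => rw [hu]
    rw [map_mul, map_mul, hunit u, one_mul, map_zpow₀, map_zpow₀]
  have hΦ : ∀ x : F', x ≠ 0 → ∃ k : ℤ, W.valuation x = W.valuation (ι (π : F)) ^ k := by
    intro x hx0
    obtain ⟨Θ, hΘ⟩ := s37t_cfe_exists_E ι x (hgen x)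
    exact s37t_cfe_phi_E φ₀ ι hι halg W hK ⟨(π : F), rfl⟩ ht0 ht1
      (fun f hf => ⟨_, hbase f hf⟩) Θ x hΘ hx0
  -- the order function
  let w : F' → ℤ := fun x => if hx : x = 0 then 0 else Classical.choose (hΦ x hx)
  have hw : ∀ x : F', x ≠ 0 → W.valuation x = W.valuation (ι (π : F)) ^ (w x) := by
    intro x hx
    have := Classical.choose_spec (hΦ x hx)
    simp only [w, dif_neg hx]
    exact this
  have hw_eq : ∀ (x : F') (k : ℤ), x ≠ 0 → W.valuation x = W.valuation (ι (π : F)) ^ k →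
      w x = k := by
    intro x k hx hk
    exact s37t_cfe_zpow_inj hvt ht1 ((hw x hx).symm.trans hk)
  have hmul : ∀ f g : F', f ≠ 0 → g ≠ 0 → w (f * g) = w f + w g := by
    intro f g hf hg
    apply hw_eq _ _ (mul_ne_zero hf hg)
    rw [map_mul, hw f hf, hw g hg, zpow_add₀ hvt]
  have hadd : ∀ f g : F', f ≠ 0 → g ≠ 0 → f + g ≠ 0 → min (w f) (w g) ≤ w (f + g) := by
    intro f g hf hg hfg
    have h1 := W.valuation.map_add f g
    rw [hw f hf, hw g hg, hw _ hfg] at h1
    rcases le_max_iff.1 h1 with h2 | h2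
    · exact (min_le_left _ _).trans ((s37t_cfe_zpow_le_zpow hvt ht1 _ _).1 h2)
    · exact (min_le_right _ _).trans ((s37t_cfe_zpow_le_zpow hvt ht1 _ _).1 h2)
  have hconst : ∀ c : K', c ≠ 0 → w (algebraMap K' F' c) = 0 := by
    intro c hc
    apply hw_eq _ _ ((_root_.map_ne_zero (algebraMap K' F')).2 hc)
    rw [zpow_zero]
    exact s37t_cfe_const_eq_one φ₀ ι hι halg W hK c hc
  have hwt : w (ι (π : F)) = 1 := hw_eq _ _ ht0 (zpow_one _).symm
  have hne : ∃ f : F', f ≠ 0 ∧ w f ≠ 0 := ⟨ι (π : F), ht0, by rw [hwt]; exact one_ne_zero⟩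
  obtain ⟨v, m, hm, hv⟩ := Fermat.Agent.S24.val_exists_place (K := K') w hmul hadd hconst hne
  have hm1 : (m : ℤ) = 1 := by
    have h1 := hv _ ht0
    rw [hwt] at h1
    exact Int.eq_one_of_mul_eq_one_right (by exact_mod_cast hm.le) h1.symm
  refine ⟨v, fun f => ?_⟩
  rcases eq_or_ne f 0 with rfl | hf
  · rw [map_zero, Place.ord_zero, Place.ord_zero]
  · have hf' : ι f ≠ 0 := (_root_.map_ne_zero ι).2 hf
    have h1 := hv _ hf'
    rw [hm1, one_mul] at h1
    rw [← h1]
    exact hw_eq _ _ hf' (hbase f hf)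

end Abs

end Fermat.Agent.S37
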