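/-
S37, SHARED TOOL (helper5): constant field extensions of places, part 3: UNIQUENESS above a
place of degree one.  Prefix `s37t_cfe_`.

`F / K`, `F' / K'`, `φ₀ : K → K'`, `ι : F → F'` compatible, `F' = ι(F) · K'`, `P` a place of
`F / K` OF DEGREE ONE (every `x ∈ O_P` is `c + m` with `c ∈ K`, `m ∈ 𝔪_P`).  Then a valuation
ring `V'` of `F'` containing `K'` with `ι(𝔪_P) ⊆ 𝔪_{V'}` is UNIQUE (`s37t_cfe_dom_unique`):
every `x ∈ F'ˣ` is `ι(π)^e · w₁ / w₂` with `w₁, w₂` of the form `a + m`, `a ∈ K'ˣ`,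
`m ∈ K' · ι(𝔪_P)` (`s37t_cfe_struct`), and such elements are units of every such `V'`.
Consequences for places: `s37t_cfe_place_unique`, `s37t_cfe_ord_of_dom`.

No hypothesis on the characteristic, no algebraicity of `K' / K`.
-/
import Mathlib
import Fermat.Prelude.Def_AlgebraicCurve_DivisorClassGroup
import Fermat.Agent.S24.PlaceBasic
import Fermat.Agent.S37.ToolCfeStep

set_option autoImplicit false
set_option linter.unusedSectionVars false
set_option linter.unusedVariables false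

noncomputable section

namespace Fermat.Agent.S37

open AlgebraicCurve

section Uniq

variable {K F K' F' : Type*} [Field K] [Field F] [Algebra K F] [Field K'] [Field F']
  [Algebra K' F'] (φ₀ : K →+* K') (ι : F →+* F') (P : Place K F)

variable (K') in
/-- The `K'`-span of `ι(𝔪_P)`. -/
def s37t_cfe_M : Submodule K' F' :=
  Submodule.span K' (ι '' (P.toValuationSubring.nonunits : Set F))

variable (K') in
/-- The elements `a + m`, `a ∈ K'ˣ`, `m ∈ K' · ι(𝔪_P)`. -/
def s37t_cfe_IsU (w : F') : Prop :=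
  ∃ A : K', A ≠ 0 ∧ w - algebraMap K' F' A ∈ s37t_cfe_M K' ι P

variable (K') in
/-- `V'` contains `K'` and `ι(𝔪_P) ⊆ 𝔪_{V'}`. -/
structure s37t_cfe_Dom (V' : ValuationSubring F') : Prop where
  const : ∀ a : K', algebraMap K' F' a ∈ V'
  nonunits : ∀ x ∈ P.toValuationSubring.nonunits, ι x ∈ V'.nonunits

variable {ι P}

theorem s37t_cfe_Dom.val_const {V' : ValuationSubring F'} (h : s37t_cfe_Dom K' ι P V') {a : K'}
    (ha : a ≠ 0) : V'.valuation (algebraMap K' F' a) = 1 := by
  have h1 : V'.valuation (algebraMap K' F' a) ≤ 1 := (V'.valuation_le_one_iff _).2 (h.const a)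
  have h2 : V'.valuation (algebraMap K' F' a⁻¹) ≤ 1 :=
    (V'.valuation_le_one_iff _).2 (h.const a⁻¹)
  rw [map_inv₀, map_inv₀] at h2
  have h0 : V'.valuation (algebraMap K' F' a) ≠ 0 :=
    (Valuation.ne_zero_iff _).2 (by simpa using ha)
  apply le_antisymm h1
  rwa [inv_le_one₀ (zero_lt_iff.2 h0)] at h2

theorem s37t_cfe_Dom.val_const_le {V' : ValuationSubring F'} (h : s37t_cfe_Dom K' ι P V')
    (a : K') : V'.valuation (algebraMap K' F' a) ≤ 1 :=
  (V'.valuation_le_one_iff _).2 (h.const a)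

theorem s37t_cfe_Dom.val_M {V' : ValuationSubring F'} (h : s37t_cfe_Dom K' ι P V') {m : F'}
    (hm : m ∈ s37t_cfe_M K' ι P) : V'.valuation m < 1 := by
  induction hm using Submodule.span_induction with
  | mem x hx =>
    obtain ⟨y, hy, rfl⟩ := hx
    exact (V'.mem_nonunits_iff).1 (h.nonunits y hy)
  | zero => rw [map_zero]; exact zero_lt_one
  | add x y _ _ hx hy => exact lt_of_le_of_lt (V'.valuation.map_add x y) (max_lt hx hy)
  | smul a x _ hx =>
    rw [Algebra.smul_def, map_mul]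
    calc V'.valuation (algebraMap K' F' a) * V'.valuation x
        ≤ 1 * V'.valuation x := mul_le_mul_left (h.val_const_le a) _
      _ < 1 := by rw [one_mul]; exact hx

/-- The elements `a + m` are units of every `V'` dominating `P`. -/
theorem s37t_cfe_Dom.val_U {V' : ValuationSubring F'} (h : s37t_cfe_Dom K' ι P V') {w : F'}
    (hw : s37t_cfe_IsU K' ι P w) : V'.valuation w = 1 := by
  obtain ⟨A, hA, hm⟩ := hw
  have h1 := h.val_const hA
  have h2 := h.val_M hm
  have h3 : w = algebraMap K' F' A + (w - algebraMap K' F' A) := by ring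
  rw [h3, Valuation.map_add_eq_of_lt_left _ (by rw [h1]; exact h2), h1]

/-! ### the structure of the `K'`-span of `ι(F)` -/

section Struct

variable (hι : ∀ c : K, ι (algebraMap K F c) = algebraMap K' F' (φ₀ c))
  (hdeg : ∀ x ∈ P.toValuationSubring,
    ∃ c : K, x - algebraMap K F c ∈ P.toValuationSubring.nonunits)
  {π : F} (hπ : P.ord π = 1)

include hι hdeg hπ in
/-- A non-zero `K'`-combination of elements of `ι(F)` is `ι(π)^e · (a + m)`. -/
theorem s37t_cfe_sum_struct {J : Type*} :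
    ∀ (n : ℕ) (s : Finset J) (d : J → K') (g : J → F), s.card = n →
      (∑ j ∈ s, algebraMap K' F' (d j) * ι (g j)) ≠ 0 →
      ∃ (e : ℤ) (w : F'), s37t_cfe_IsU K' ι P w ∧
        ∑ j ∈ s, algebraMap K' F' (d j) * ι (g j) = ι π ^ e * w := by
  classical
  intro n
  induction n using Nat.strong_induction_on with
  | _ n ih =>
  intro s d g hcard hne
  by_cases h0 : ∃ j0 ∈ s, g j0 = 0
  · obtain ⟨j0, hj0, hg0⟩ := h0
    have hsum : ∑ j ∈ s, algebraMap K' F' (d j) * ι (g j) =
        ∑ j ∈ s.erase j0, algebraMap K' F' (d j) * ι (g j) := by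
      rw [← Finset.add_sum_erase s _ hj0, hg0, map_zero, mul_zero, zero_add]
    rw [hsum] at hne ⊢
    exact ih _ (by rw [← hcard]; exact Finset.card_erase_lt_of_mem hj0) _ d g rfl hne
  · push Not at h0
    have hs : s.Nonempty := by
      by_contra hs
      rw [Finset.not_nonempty_iff_eq_empty] at hs
      rw [hs, Finset.sum_empty] at hne
      exact hne rfl
    obtain ⟨j1, hj1, hmin⟩ := Finset.exists_min_image s (fun j => P.ord (g j)) hs
    have hπ0 : π ≠ 0 := by
      rintro rfl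
      rw [Place.ord_zero] at hπ
      exact zero_ne_one hπ
    have hιπ : ι π ≠ 0 := (_root_.map_ne_zero ι).2 hπ0
    set e := P.ord (g j1) with he
    have hord : ∀ j ∈ s, P.ord (g j * π ^ (-e)) = P.ord (g j) - e := by
      intro j hj
      rw [P.ord_mul (h0 j hj) (zpow_ne_zero _ hπ0), P.ord_zpow, hπ, mul_one]
      ring
    have hg' : ∀ j ∈ s, g j * π ^ (-e) ∈ P.toValuationSubring := by
      intro j hj
      apply Fermat.Agent.S24.place_mem_of_ord_nonneg
      rw [hord j hj]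
      have := hmin j hj
      omega
    have hex : ∀ j, ∃ a : K, j ∈ s →
        g j * π ^ (-e) - algebraMap K F a ∈ P.toValuationSubring.nonunits := by
      intro j
      by_cases hj : j ∈ s
      · obtain ⟨a, ha⟩ := hdeg _ (hg' j hj)
        exact ⟨a, fun _ => ha⟩
      · exact ⟨0, fun h => absurd h hj⟩
    choose a ha using hex
    have hkey : ∑ j ∈ s, algebraMap K' F' (d j) * ι (g j) =
        ι π ^ e * (algebraMap K' F' (∑ j ∈ s, d j * φ₀ (a j)) +
          ∑ j ∈ s, algebraMap K' F' (d j) * ι (g j * π ^ (-e) - algebraMap K F (a j))) := by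
      rw [map_sum, ← Finset.sum_add_distrib, Finset.mul_sum]
      refine Finset.sum_congr rfl fun j hj => ?_
      rw [map_mul, map_sub, map_mul, map_zpow₀, hι, zpow_neg]
      have h1 : ι π ^ e ≠ 0 := zpow_ne_zero _ hιπ
      field_simp
      ring
    by_cases hA : (∑ j ∈ s, d j * φ₀ (a j)) = 0
    · -- reduce the number of terms
      have ha1 : a j1 ≠ 0 := by
        intro h
        have h1 := ha j1 hj1
        rw [h, map_zero, sub_zero] at h1
        have h2 : g j1 * π ^ (-e) ≠ 0 := mul_ne_zero (h0 j1 hj1) (zpow_ne_zero _ hπ0)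
        rw [Fermat.Agent.S24.place_mem_nonunits_iff P h2, hord j1 hj1] at h1
        omega
      have ha1' : algebraMap K' F' (φ₀ (a j1)) ≠ 0 :=
        (_root_.map_ne_zero (algebraMap K' F')).2 ((_root_.map_ne_zero φ₀).2 ha1)
      have hsum : ∑ j ∈ s.erase j1,
            algebraMap K' F' (d j) * ι (g j - algebraMap K F (a j / a j1) * g j1) =
          ∑ j ∈ s, algebraMap K' F' (d j) * ι (g j) := by
        have h1 : ∑ j ∈ s.erase j1, d j * φ₀ (a j) = - (d j1 * φ₀ (a j1)) := by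
          rw [← Finset.add_sum_erase s _ hj1] at hA
          exact eq_neg_of_add_eq_zero_right hA
        have h2 : ∑ j ∈ s.erase j1,
              algebraMap K' F' (d j) * ι (g j - algebraMap K F (a j / a j1) * g j1) =
            ∑ j ∈ s.erase j1, algebraMap K' F' (d j) * ι (g j) -
              algebraMap K' F' (∑ j ∈ s.erase j1, d j * φ₀ (a j)) *
                (algebraMap K' F' (φ₀ (a j1)))⁻¹ * ι (g j1) := by
          rw [map_sum, Finset.sum_mul, Finset.sum_mul, ← Finset.sum_sub_distrib]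
          refine Finset.sum_congr rfl fun j _ => ?_
          rw [map_sub, map_mul, hι, map_div₀, map_div₀, map_mul, div_eq_mul_inv]
          ring
        rw [h2, h1, ← Finset.add_sum_erase s _ hj1, map_neg, map_mul]
        field_simp
        ring
      have hne' : ∑ j ∈ s.erase j1,
          algebraMap K' F' (d j) * ι (g j - algebraMap K F (a j / a j1) * g j1) ≠ 0 := by
        rwa [hsum]
      obtain ⟨e', w, hw, h⟩ := ih _ (by rw [← hcard]; exact Finset.card_erase_lt_of_mem hj1)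
        _ d (fun j => g j - algebraMap K F (a j / a j1) * g j1) rfl hne'
      exact ⟨e', w, hw, hsum ▸ h⟩
    · refine ⟨e, _, ⟨_, hA, ?_⟩, hkey⟩
      rw [add_sub_cancel_left]
      refine Submodule.sum_mem _ fun j hj => ?_
      rw [← Algebra.smul_def]
      exact Submodule.smul_mem _ _ (Submodule.subset_span ⟨_, ha j hj, rfl⟩)

end Struct

/-! ### fractions -/

section Frac

omit [Algebra K F] in
/-- The elements of the `K'`-algebra generated by `ι(F)` are `K'`-combinations of elements of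
`ι(F)`. -/
theorem s37t_cfe_adjoin_sum {u : F'} (hu : u ∈ Algebra.adjoin K' (Set.range ι)) :
    ∃ (s : Finset F) (d : F → K'), u = ∑ f ∈ s, algebraMap K' F' (d f) * ι f := by
  have h1 : u ∈ Subalgebra.toSubmodule (Algebra.adjoin K' (Set.range ι)) := hu
  rw [Algebra.adjoin_eq_span] at h1
  have h2 : (Submonoid.closure (Set.range ι) : Set F') = Set.range ι := by
    have key : ∀ y ∈ Submonoid.closure (Set.range ι), y ∈ Set.range ι := by
      intro y hy
      induction hy using Submonoid.closure_induction with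
      | mem y hy => exact hy
      | one => exact ⟨1, map_one ι⟩
      | mul a b _ _ ha hb =>
        obtain ⟨a', rfl⟩ := ha
        obtain ⟨b', rfl⟩ := hb
        exact ⟨a' * b', map_mul ι a' b'⟩
    exact Set.Subset.antisymm (fun y hy => key y hy) Submonoid.subset_closure
  rw [h2] at h1
  obtain ⟨c, rfl⟩ := Finsupp.mem_span_range_iff_exists_finsupp.1 h1
  refine ⟨c.support, c, ?_⟩
  rw [Finsupp.sum]
  refine Finset.sum_congr rfl fun f _ => ?_
  rw [Algebra.smul_def]

omit [Algebra K F] in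
/-- Every element of `ι(F) · K'` is a fraction of elements of the `K'`-algebra generated by
`ι(F)`. -/
theorem s37t_cfe_frac' (x : F')
    (hx : x ∈ Subfield.closure (Set.range ι ∪ Set.range (algebraMap K' F'))) :
    ∃ u v : F', u ∈ Algebra.adjoin K' (Set.range ι) ∧ v ∈ Algebra.adjoin K' (Set.range ι) ∧
      v ≠ 0 ∧ x * v = u := by
  induction hx using Subfield.closure_induction with
  | mem y hy =>
    refine ⟨y, 1, ?_, one_mem _, one_ne_zero, mul_one y⟩
    rcases hy with hy | ⟨a, rfl⟩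
    · exact Algebra.subset_adjoin hy
    · exact Subalgebra.algebraMap_mem _ a
  | one => exact ⟨1, 1, one_mem _, one_mem _, one_ne_zero, mul_one 1⟩
  | add y z _ _ hy hz =>
    obtain ⟨u₁, v₁, hu₁, hv₁, h₁, e₁⟩ := hy
    obtain ⟨u₂, v₂, hu₂, hv₂, h₂, e₂⟩ := hz
    refine ⟨u₁ * v₂ + u₂ * v₁, v₁ * v₂, add_mem (mul_mem hu₁ hv₂) (mul_mem hu₂ hv₁),
      mul_mem hv₁ hv₂, mul_ne_zero h₁ h₂, ?_⟩
    rw [← e₁, ← e₂]
    ring
  | neg y _ hy =>
    obtain ⟨u, v, hu, hv, h, e⟩ := hy
    exact ⟨-u, v, neg_mem hu, hv, h, by rw [← e]; ring⟩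
  | inv y _ hy =>
    obtain ⟨u, v, hu, hv, h, e⟩ := hy
    by_cases hu0 : u = 0
    · have hy0 : y = 0 := by
        rw [hu0] at e
        exact (mul_eq_zero.1 e).resolve_right h
      exact ⟨0, 1, zero_mem _, one_mem _, one_ne_zero, by rw [hy0, inv_zero, zero_mul]⟩
    · refine ⟨v, u, hv, hu, hu0, ?_⟩
      have hy0 : y ≠ 0 := by
        rintro rfl
        rw [zero_mul] at e
        exact hu0 e.symm
      rw [← e, ← mul_assoc, inv_mul_cancel₀ hy0, one_mul]
  | mul y z _ _ hy hz =>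
    obtain ⟨u₁, v₁, hu₁, hv₁, h₁, e₁⟩ := hy
    obtain ⟨u₂, v₂, hu₂, hv₂, h₂, e₂⟩ := hz
    exact ⟨u₁ * u₂, v₁ * v₂, mul_mem hu₁ hu₂, mul_mem hv₁ hv₂, mul_ne_zero h₁ h₂,
      by rw [← e₁, ← e₂]; ring⟩

end Frac

/-! ### the structure theorem and uniqueness -/

section Main

variable (hι : ∀ c : K, ι (algebraMap K F c) = algebraMap K' F' (φ₀ c))
  (hdeg : ∀ x ∈ P.toValuationSubring,
    ∃ c : K, x - algebraMap K F c ∈ P.toValuationSubring.nonunits)
  (hgen : ∀ x : F', x ∈ Subfield.closure (Set.range ι ∪ Set.range (algebraMap K' F')))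
  {π : F} (hπ : P.ord π = 1)

include hι hdeg hgen hπ in
/-- **The structure theorem**: every `x ∈ F'ˣ` is `ι(π)^e · w₁ / w₂` with `w₁`, `w₂` of the form
`a + m`, `a ∈ K'ˣ`, `m ∈ K' · ι(𝔪_P)`. -/
theorem s37t_cfe_struct (x : F') (hx : x ≠ 0) :
    ∃ (e : ℤ) (w₁ w₂ : F'), s37t_cfe_IsU K' ι P w₁ ∧ s37t_cfe_IsU K' ι P w₂ ∧
      x * w₂ = ι π ^ e * w₁ := by
  obtain ⟨u, v, hu, hv, hv0, huv⟩ := s37t_cfe_frac' x (hgen x)
  have hu0 : u ≠ 0 := by
    rw [← huv]
    exact mul_ne_zero hx hv0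
  obtain ⟨s₁, d₁, rfl⟩ := s37t_cfe_adjoin_sum hu
  obtain ⟨s₂, d₂, rfl⟩ := s37t_cfe_adjoin_sum hv
  obtain ⟨e₁, w₁, hw₁, h₁⟩ := s37t_cfe_sum_struct φ₀ hι hdeg hπ _ s₁ d₁ (fun f => f) rfl hu0
  obtain ⟨e₂, w₂, hw₂, h₂⟩ := s37t_cfe_sum_struct φ₀ hι hdeg hπ _ s₂ d₂ (fun f => f) rfl hv0
  have h₁' : ∑ f ∈ s₁, algebraMap K' F' (d₁ f) * ι f = ι π ^ e₁ * w₁ := h₁
  have h₂' : ∑ f ∈ s₂, algebraMap K' F' (d₂ f) * ι f = ι π ^ e₂ * w₂ := h₂
  have hπ0 : π ≠ 0 := by
    rintro rfl
    rw [Place.ord_zero] at hπ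
    exact zero_ne_one hπ
  have hιπ : ι π ≠ 0 := (_root_.map_ne_zero ι).2 hπ0
  refine ⟨e₁ - e₂, w₁, w₂, hw₁, hw₂, ?_⟩
  rw [h₁', h₂'] at huv
  have h3 : ι π ^ e₂ ≠ 0 := zpow_ne_zero _ hιπ
  rw [zpow_sub₀ hιπ, div_mul_eq_mul_div, ← huv]
  field_simp

include hι hdeg hgen hπ in
/-- The value of `x ∈ F'ˣ` in ANY valuation ring `V'` dominating `P` is `v'(ι π)^e`, with `e`
independent of `V'`. -/
theorem s37t_cfe_val_eq (x : F') (hx : x ≠ 0) :
    ∃ e : ℤ, ∀ V' : ValuationSubring F', s37t_cfe_Dom K' ι P V' →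
      V'.valuation x = V'.valuation (ι π) ^ e := by
  obtain ⟨e, w₁, w₂, hw₁, hw₂, h⟩ := s37t_cfe_struct φ₀ hι hdeg hgen hπ x hx
  refine ⟨e, fun V' hV' => ?_⟩
  have h1 := congrArg V'.valuation h
  rw [map_mul, map_mul, hV'.val_U hw₁, hV'.val_U hw₂, mul_one, mul_one, map_zpow₀] at h1
  exact h1

include hι hdeg hgen in
/-- **Uniqueness**: there is at most one valuation ring of `F'` containing `K'` and dominating
the place `P` of degree one. -/
theorem s37t_cfe_dom_unique {V' V'' : ValuationSubring F'} (h' : s37t_cfe_Dom K' ι P V')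
    (h'' : s37t_cfe_Dom K' ι P V'') : V' = V'' := by
  obtain ⟨π₀, hπ₀⟩ := Fermat.Agent.S24.place_exists_irreducible P
  have hπ : P.ord (π₀ : F) = 1 := P.ord_coe_irreducible hπ₀
  have hπ0 : (π₀ : F) ≠ 0 := by
    intro h
    rw [h, Place.ord_zero] at hπ
    exact zero_ne_one hπ
  have hιπ : ι (π₀ : F) ≠ 0 := (_root_.map_ne_zero ι).2 hπ0
  have hmem : (π₀ : F) ∈ P.toValuationSubring.nonunits :=
    (Fermat.Agent.S24.place_mem_nonunits_iff P hπ0).2 (by rw [hπ]; exact one_pos)
  have hlt' : V'.valuation (ι (π₀ : F)) < 1 := (V'.mem_nonunits_iff).1 (h'.nonunits _ hmem)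
  have hlt'' : V''.valuation (ι (π₀ : F)) < 1 := (V''.mem_nonunits_iff).1 (h''.nonunits _ hmem)
  have hne' : V'.valuation (ι (π₀ : F)) ≠ 0 := (Valuation.ne_zero_iff _).2 hιπ
  have hne'' : V''.valuation (ι (π₀ : F)) ≠ 0 := (Valuation.ne_zero_iff _).2 hιπ
  ext x
  by_cases hx : x = 0
  · rw [hx]
    exact ⟨fun _ => zero_mem _, fun _ => zero_mem _⟩
  obtain ⟨e, he⟩ := s37t_cfe_val_eq φ₀ hι hdeg hgen hπ x hx
  rw [← V'.valuation_le_one_iff, ← V''.valuation_le_one_iff, he V' h', he V'' h'',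
    s37t_cfe_zpow_le_one hne' hlt', s37t_cfe_zpow_le_one hne'' hlt'']

end Main

/-! ### places -/

section Places

/-- A place of degree one in the sense of the Prelude (`P.deg = 1`) satisfies the elementwise
condition `O_P = K + 𝔪_P`. -/
theorem s37t_cfe_hdeg_of_deg (h : P.deg = 1) :
    ∀ x ∈ P.toValuationSubring,
      ∃ c : K, x - algebraMap K F c ∈ P.toValuationSubring.nonunits := by
  intro x hx
  have h1 : (⊥ : Subalgebra K P.ResidueField) = ⊤ :=
    Subalgebra.bot_eq_top_of_finrank_eq_one h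
  have h2 : IsLocalRing.residue P.toValuationSubring ⟨x, hx⟩ ∈
      (⊥ : Subalgebra K P.ResidueField) := by
    rw [h1]
    exact Algebra.mem_top
  obtain ⟨c, hc⟩ := Algebra.mem_bot.1 h2
  refine ⟨c, ?_⟩
  have h3 : IsLocalRing.residue P.toValuationSubring
      (⟨x, hx⟩ - algebraMap K P.toValuationSubring c) = 0 := by
    rw [map_sub, ← hc]
    exact sub_eq_zero.2 rfl
  have h4 := (IsLocalRing.residue_eq_zero_iff _).1 h3
  have h5 := (ValuationSubring.coe_mem_nonunits_iff (A := P.toValuationSubring)).2 h4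
  exact h5

variable (hι : ∀ c : K, ι (algebraMap K F c) = algebraMap K' F' (φ₀ c))
  (hdeg : ∀ x ∈ P.toValuationSubring,
    ∃ c : K, x - algebraMap K F c ∈ P.toValuationSubring.nonunits)
  (hgen : ∀ x : F', x ∈ Subfield.closure (Set.range ι ∪ Set.range (algebraMap K' F')))

omit [Algebra K F] in
theorem s37t_cfe_dom_of_place [Algebra K F] {P : Place K F} (P' : Place K' F')
    (h : ∀ x ∈ P.toValuationSubring.nonunits, ι x ∈ P'.toValuationSubring.nonunits) :
    s37t_cfe_Dom K' ι P P'.toValuationSubring :=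
  ⟨P'.algebraMap_mem', h⟩

theorem s37t_cfe_nonunits_of_ord (P' : Place K' F') (h : ∀ f : F, P'.ord (ι f) = P.ord f) :
    ∀ x ∈ P.toValuationSubring.nonunits, ι x ∈ P'.toValuationSubring.nonunits := by
  intro x hx
  rw [Fermat.Agent.S24.place_mem_nonunits_iff'] at hx ⊢
  rcases hx with rfl | hx
  · exact Or.inl (map_zero ι)
  · right
    rw [h]
    exact hx

include hι hdeg hgen in
/-- **Uniqueness for places**: at most one place of `F' / K'` dominates a place `P` of `F / K` of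
degree one. -/
theorem s37t_cfe_place_unique {P' P'' : Place K' F'}
    (h' : ∀ x ∈ P.toValuationSubring.nonunits, ι x ∈ P'.toValuationSubring.nonunits)
    (h'' : ∀ x ∈ P.toValuationSubring.nonunits, ι x ∈ P''.toValuationSubring.nonunits) :
    P' = P'' :=
  Place.ext (s37t_cfe_dom_unique φ₀ hι hdeg hgen (s37t_cfe_dom_of_place P' h')
    (s37t_cfe_dom_of_place P'' h''))

include hι hdeg hgen in
/-- **Uniqueness for places**, in terms of orders. -/
theorem s37t_cfe_place_unique_ord {P' P'' : Place K' F'}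
    (h' : ∀ f : F, P'.ord (ι f) = P.ord f) (h'' : ∀ f : F, P''.ord (ι f) = P.ord f) :
    P' = P'' :=
  s37t_cfe_place_unique φ₀ hι hdeg hgen (s37t_cfe_nonunits_of_ord P' h')
    (s37t_cfe_nonunits_of_ord P'' h'')

include hι hdeg in
omit hgen in
theorem s37t_cfe_map_mem (P' : Place K' F')
    (h : ∀ x ∈ P.toValuationSubring.nonunits, ι x ∈ P'.toValuationSubring.nonunits)
    {x : F} (hx : x ∈ P.toValuationSubring) : ι x ∈ P'.toValuationSubring := by
  obtain ⟨c, hc⟩ := hdeg x hx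
  have h1 : ι x = algebraMap K' F' (φ₀ c) + ι (x - algebraMap K F c) := by
    rw [map_sub, hι]
    ring
  rw [h1]
  exact add_mem (P'.algebraMap_mem' _) (Fermat.Agent.S24.place_nonunits_subset P' (h _ hc))

include hι hdeg hgen in
/-- A place of `F' / K'` dominating a place `P` of `F / K` of degree one is unramified over
`P`: `ord_{P'} (ι f) = ord_P f`. -/
theorem s37t_cfe_ord_of_dom (P' : Place K' F')
    (h : ∀ x ∈ P.toValuationSubring.nonunits, ι x ∈ P'.toValuationSubring.nonunits) (f : F) :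
    P'.ord (ι f) = P.ord f := by
  obtain ⟨π₀, hπ₀⟩ := Fermat.Agent.S24.place_exists_irreducible P
  have hπ : P.ord (π₀ : F) = 1 := P.ord_coe_irreducible hπ₀
  have hπ0 : (π₀ : F) ≠ 0 := by
    intro h
    rw [h, Place.ord_zero] at hπ
    exact zero_ne_one hπ
  have hιπ : ι (π₀ : F) ≠ 0 := (_root_.map_ne_zero ι).2 hπ0
  have hmem : (π₀ : F) ∈ P.toValuationSubring.nonunits :=
    (Fermat.Agent.S24.place_mem_nonunits_iff P hπ0).2 (by rw [hπ]; exact one_pos)
  have hpos : 0 < P'.ord (ι (π₀ : F)) :=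
    (Fermat.Agent.S24.place_mem_nonunits_iff P' hιπ).1 (h _ hmem)
  have hDom := s37t_cfe_dom_of_place (P := P) P' h
  -- the ramification index is one
  have he1 : P'.ord (ι (π₀ : F)) = 1 := by
    obtain ⟨π₁, hπ₁⟩ := Fermat.Agent.S24.place_exists_irreducible P'
    have hπ' : P'.ord (π₁ : F') = 1 := P'.ord_coe_irreducible hπ₁
    have hπ'0 : (π₁ : F') ≠ 0 := by
      intro h
      rw [h, Place.ord_zero] at hπ'
      exact zero_ne_one hπ'
    obtain ⟨e, w₁, w₂, hw₁, hw₂, hst⟩ := s37t_cfe_struct φ₀ hι hdeg hgen hπ (π₁ : F') hπ'0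
    have hu : ∀ w : F', s37t_cfe_IsU K' ι P w → w ≠ 0 ∧ P'.ord w = 0 := by
      intro w hw
      have hv := hDom.val_U hw
      have hw0 : w ≠ 0 := by
        rintro rfl
        rw [map_zero] at hv
        exact zero_ne_one hv
      refine ⟨hw0, ?_⟩
      rw [Fermat.Agent.S24.place_ord_eq_zero_iff P' hw0]
      constructor
      · exact (P'.toValuationSubring.valuation_le_one_iff _).1 hv.le
      · intro hmem
        have := (P'.toValuationSubring.mem_nonunits_iff).1 hmem
        rw [hv] at this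
        exact lt_irrefl _ this
    have h1 := congrArg P'.ord hst
    rw [P'.ord_mul hπ'0 (hu w₂ hw₂).1, P'.ord_mul (zpow_ne_zero _ hιπ) (hu w₁ hw₁).1,
      (hu w₁ hw₁).2, (hu w₂ hw₂).2, P'.ord_zpow, hπ', add_zero, add_zero] at h1
    exact Int.eq_one_of_mul_eq_one_left hpos.le h1.symm
  rcases eq_or_ne f 0 with rfl | hf
  · rw [map_zero, Place.ord_zero, Place.ord_zero]
  obtain ⟨u, hu⟩ := P.exists_unit_mul_zpow hf hπ₀
  have hu0 : ((u : ↥P.toValuationSubring) : F) ≠ 0 := by
    intro h0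
    rw [h0, zero_mul] at hu
    exact hf hu
  have hιu0 : ι ((u : ↥P.toValuationSubring) : F) ≠ 0 := (_root_.map_ne_zero ι).2 hu0
  have hu1 : 0 ≤ P'.ord (ι ((u : ↥P.toValuationSubring) : F)) :=
    Fermat.Agent.S24.place_ord_nonneg_of_mem P'
      (s37t_cfe_map_mem φ₀ hι hdeg P' h (u : ↥P.toValuationSubring).2)
  have hu2 : 0 ≤ P'.ord (ι ((u⁻¹ : (↥P.toValuationSubring)ˣ) : ↥P.toValuationSubring)) :=
    Fermat.Agent.S24.place_ord_nonneg_of_mem P'
      (s37t_cfe_map_mem φ₀ hι hdeg P' h ((u⁻¹ : (↥P.toValuationSubring)ˣ) :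
        ↥P.toValuationSubring).2)
  have hinv : (((u⁻¹ : (↥P.toValuationSubring)ˣ) : ↥P.toValuationSubring) : F) =
      ((u : ↥P.toValuationSubring) : F)⁻¹ := by
    apply eq_inv_of_mul_eq_one_left
    have h1 : ((u⁻¹ : (↥P.toValuationSubring)ˣ) : ↥P.toValuationSubring) *
        (u : ↥P.toValuationSubring) = 1 := Units.inv_mul u
    exact congrArg (fun z : ↥P.toValuationSubring => (z : F)) h1
  rw [hinv, map_inv₀, P'.ord_inv] at hu2
  have hu3 : P'.ord (ι ((u : ↥P.toValuationSubring) : F)) = 0 := by omega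
  conv_lhs => rw [hu]
  rw [map_mul, map_zpow₀, P'.ord_mul hιu0 (zpow_ne_zero _ hιπ), hu3, P'.ord_zpow, he1]
  ring

end Places

end Uniq

end Fermat.Agent.S37
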