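/-
S37, package [RI], leaf [RI-RATL] (owner: helper16), part 2: CHARACTERISTIC 0.  Prefix `s37rl_`.

Every place `P` of `F̄_M / Q̄` restricts, for every field `K1 ⊆ Q̄` containing a suitable number
field `K0` (depending on `P`), to a `K1`-RATIONAL place `P0` of `F_{K1}(M) / K1` with the same
orders.
-/
import Mathlib
import Fermat.Agent.S37.RatlGen
import Fermat.Agent.S18.RatQDescent
import Fermat.Agent.S18.Cfe
import Fermat.Agent.S24.Final
import Fermat.Agent.S24.FFIdentity
import Fermat.Agent.S24.DiffFinal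
import Fermat.Agent.S24.GlueCoord

set_option autoImplicit false

open AlgebraicCurve ModularCurve IntermediateField

noncomputable section

namespace Fermat.Agent.S37

open Fermat.Agent.S24 Fermat.Agent.S18

section Q

variable (M : ℕ)

/-- The embedding `F_{K1}(M) → F̄_M` (coefficientwise), as a ring homomorphism. -/
def s37rl_iota (K1 : IntermediateField ℚ QBar) : ↥(s18_F ↥K1 M) →+* FunField M where
  toFun f := ⟨coeffMap (algebraMap ↥K1 QBar) (f : LaurentSeries ↥K1),
    s18rq_coeffMap_mem _ _ f.2⟩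
  map_one' := Subtype.ext (map_one _)
  map_mul' _ _ := Subtype.ext (map_mul _ _ _)
  map_zero' := Subtype.ext (map_zero _)
  map_add' _ _ := Subtype.ext (map_add _ _ _)

theorem s37rl_coe_iota (K1 : IntermediateField ℚ QBar) (f : ↥(s18_F ↥K1 M)) :
    ((s37rl_iota M K1 f : FunField M) : LaurentSeries QBar) =
      s18_iota K1 (f : LaurentSeries ↥K1) := rfl

/-- `s37rl_iota` is helper8's `s18cfe_iota` (definitionally). -/
theorem s37rl_iota_eq (K1 : IntermediateField ℚ QBar) :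
    s37rl_iota M K1 = s18cfe_iota ↥K1 QBar (modularFunctionFieldFull M) := rfl

theorem s37rl_iota_algebraMap (K1 : IntermediateField ℚ QBar) (c : ↥K1) :
    s37rl_iota M K1 (algebraMap ↥K1 ↥(s18_F ↥K1 M) c) =
      algebraMap QBar (FunField M) (algebraMap ↥K1 QBar c) :=
  Subtype.ext (s18rq_coeffMap_algebraMap _ c)

/-- Every element of `F̄_M` comes from a number field. -/
theorem s37rl_descent (t : FunField M) :
    ∃ K0 : IntermediateField ℚ QBar, FiniteDimensional ℚ ↥K0 ∧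
      ∃ t0 : ↥(s18_F ↥K0 M), s37rl_iota M K0 t0 = t := by
  obtain ⟨K0, hK0, x0, hx0, hx⟩ := s18rq_descent M t.2
  exact ⟨K0, hK0, ⟨x0, hx0⟩, Subtype.ext hx⟩

theorem s37rl_enlarge {K0 K1 : IntermediateField ℚ QBar} (h : K0 ≤ K1)
    (t0 : ↥(s18_F ↥K0 M)) :
    ∃ t1 : ↥(s18_F ↥K1 M), s37rl_iota M K1 t1 = s37rl_iota M K0 t0 := by
  obtain ⟨y, hy, hyy⟩ := s18rq_enlarge M h t0.2
  exact ⟨⟨y, hy⟩, Subtype.ext hyy⟩

/-- Finitely many elements of `F̄_M` come from a common number field `K0`, hence from every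
`K1 ⊇ K0`. -/
theorem s37rl_descent_finset (T : Finset (FunField M)) :
    ∃ K0 : IntermediateField ℚ QBar, FiniteDimensional ℚ ↥K0 ∧
      ∀ K1 : IntermediateField ℚ QBar, K0 ≤ K1 → ∀ t ∈ T,
        ∃ t1 : ↥(s18_F ↥K1 M), s37rl_iota M K1 t1 = t := by
  classical
  induction T using Finset.induction_on with
  | empty => exact ⟨⊥, inferInstance, fun _ _ t ht => absurd ht (Finset.notMem_empty t)⟩
  | insert a s _ ih =>
    obtain ⟨K0, hK0, h0⟩ := ih
    obtain ⟨Ka, hKa, ta, hta⟩ := s37rl_descent M a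
    refine ⟨K0 ⊔ Ka, IntermediateField.finiteDimensional_sup K0 Ka, fun K1 hK1 t ht => ?_⟩
    rcases Finset.mem_insert.mp ht with rfl | ht
    · obtain ⟨t1, ht1⟩ := s37rl_enlarge M (le_trans le_sup_right hK1) ta
      exact ⟨t1, ht1.trans hta⟩
    · exact h0 K1 (le_trans le_sup_left hK1) t ht

/-- The Galois group of `Q̄ / K1` fixes `F_{K1}(M)`. -/
theorem s37rl_galois_fix (K1 : IntermediateField ℚ QBar) (σ : QBar ≃ₐ[ℚ] QBar)
    (hσ : ∀ a : ↥K1, σ (a : QBar) = a) (f : ↥(s18_F ↥K1 M)) :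
    arithmeticGalois (modularFunctionFieldFull M) σ • s37rl_iota M K1 f =
      s37rl_iota M K1 f := by
  apply Subtype.ext
  rw [coe_arithmeticGalois_smul]
  show coeffMap (σ : QBar →+* QBar) (coeffMap (algebraMap ↥K1 QBar) (f : LaurentSeries ↥K1)) =
    coeffMap (algebraMap ↥K1 QBar) (f : LaurentSeries ↥K1)
  rw [coeffMap_coeffMap]
  exact coeffMap_congr (RingHom.ext fun a => hσ a) _

/-- The fixed field of `Gal(Q̄ / K1)` is `K1`. -/
theorem s37rl_fixed (K1 : IntermediateField ℚ QBar) (c : QBar)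
    (h : ∀ σ : QBar ≃ₐ[ℚ] QBar, (∀ a : ↥K1, σ (a : QBar) = a) → σ c = c) :
    ∃ a : ↥K1, algebraMap ↥K1 QBar a = c := by
  have hclos : IsAlgClosure ℚ QBar := AlgebraicClosure.instIsAlgClosure ℚ
  have hgal : IsGalois ℚ QBar := inferInstance
  have h1 : c ∈ IntermediateField.fixedField K1.fixingSubgroup := by
    rw [IntermediateField.mem_fixedField_iff]
    intro σ hσ
    rw [IntermediateField.mem_fixingSubgroup_iff] at hσ
    exact h σ (fun a => hσ a a.2)
  rw [InfiniteGalois.fixedField_fixingSubgroup] at h1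
  exact ⟨⟨c, h1⟩, rfl⟩

end Q

section Res

variable {K F : Type*} [Field K] [Field F] [Algebra K F] [IsAlgClosed K]

/-- Every regular function is congruent to a constant (the residue field is `K`). -/
theorem s37rl_res {x : F} (halg : Algebra.IsAlgebraic K⟮x⟯ F) (v : Place K F) (f : F)
    (hf : f ∈ v.toValuationSubring) :
    ∃ c : K, f - algebraMap K F c ∈ v.toValuationSubring.nonunits := by
  obtain ⟨c, hc⟩ := diff_exists_residue halg v ⟨f, hf⟩
  refine ⟨c, ?_⟩
  rw [ValuationSubring.mem_nonunits_iff_exists_mem_maximalIdeal]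
  exact ⟨_, hc⟩

end Res

section Main

variable (M : ℕ) [NeZero M]

set_option synthInstance.maxHeartbeats 400000 in
/-- `P0` is the restriction of `P` to `F_{K1}(M)`, with the same orders, and `P0` is
`K1`-RATIONAL (every regular function is congruent to a constant of `K1`). -/
def s37rl_IsRatl (K1 : IntermediateField ℚ QBar) (P : Place QBar (FunField M))
    (P0 : Place ↥K1 ↥(s18_F ↥K1 M)) : Prop :=
  (∀ f, P.ord (s37rl_iota M K1 f) = P0.ord f) ∧
  (∀ f, f ∈ P0.toValuationSubring ↔ s37rl_iota M K1 f ∈ P.toValuationSubring) ∧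
  (∀ f, f ∈ P0.toValuationSubring.nonunits ↔
    s37rl_iota M K1 f ∈ P.toValuationSubring.nonunits) ∧
  ∀ f ∈ P0.toValuationSubring, ∃ c : ↥K1,
    f - algebraMap ↥K1 ↥(s18_F ↥K1 M) c ∈ P0.toValuationSubring.nonunits

set_option synthInstance.maxHeartbeats 400000 in
/-- **[RI-RATL], characteristic 0.**  Every place `P` of `F̄_M / Q̄` restricts, for every
`K1 ⊇ K0` (`K0` a number field depending on `P`), to a `K1`-rational place `P0` of
`F_{K1}(M) / K1` with the same orders. -/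
theorem s37rl_main (P : Place QBar (FunField M)) :
    ∃ K0 : IntermediateField ℚ QBar, FiniteDimensional ℚ ↥K0 ∧
      ∀ K1 : IntermediateField ℚ QBar, K0 ≤ K1 →
        ∃ P0 : Place ↥K1 ↥(s18_F ↥K1 M), s37rl_IsRatl M K1 P P0 := by
  classical
  have hj : IsCoordinate QBar (jF M) := final_jCoordinate M
  have halg := diff_isAlgebraic_of_isCoordinate hj
  obtain ⟨u, hu, huP⟩ : ∃ u : FunField M, IsCoordinate QBar u ∧
      u ∈ P.toValuationSubring.nonunits := by
    rcases diff_centre halg P with ⟨c, hc⟩ | h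
    · exact ⟨_, glue_isCoordinate_sub hj c, hc⟩
    · exact ⟨_, glue_isCoordinate_inv hj, h⟩
  obtain ⟨hfin, -⟩ := ff_fundamentalIdentity QBar (FunField M) u hu
  obtain ⟨T, hT⟩ := s37rl_stab u hfin P
  obtain ⟨π, hπ⟩ := place_exists_irreducible P
  obtain ⟨K0, hK0, hdesc⟩ :=
    s37rl_descent_finset M (insert u (insert (π : FunField M) T))
  refine ⟨K0, hK0, fun K1 hK1 => ?_⟩
  obtain ⟨u1, hu1⟩ := hdesc K1 hK1 u (Finset.mem_insert_self _ _)
  obtain ⟨x1, hx1⟩ := hdesc K1 hK1 π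
    (Finset.mem_insert_of_mem (Finset.mem_insert_self _ _))
  have hH : ∀ g ∈ {g : SemilinearAut QBar (FunField M) | ∃ σ : QBar ≃ₐ[ℚ] QBar,
      (∀ a : ↥K1, σ (a : QBar) = a) ∧ g = arithmeticGalois (modularFunctionFieldFull M) σ},
      ∀ f, g • s37rl_iota M K1 f = s37rl_iota M K1 f := by
    rintro g ⟨σ, hσ, rfl⟩ f
    exact s37rl_galois_fix M K1 σ hσ f
  refine s37rl_abs (algebraMap ↥K1 QBar) (s37rl_iota M K1) (s37rl_iota_algebraMap M K1) P
    _ hH ?_ (fun f hf => s37rl_res halg P f hf) ?_ x1 ?_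
  · intro c hc
    exact s37rl_fixed K1 c (fun σ hσ => hc _ ⟨σ, hσ, rfl⟩)
  · rintro g ⟨σ, hσ, rfl⟩
    refine hT _ ?_ ?_ huP
    · rw [← hu1]
      exact s37rl_galois_fix M K1 σ hσ u1
    · intro t ht
      obtain ⟨t1, ht1⟩ := hdesc K1 hK1 t
        (Finset.mem_insert_of_mem (Finset.mem_insert_of_mem ht))
      rw [← ht1]
      exact s37rl_galois_fix M K1 σ hσ t1
  · rw [hx1]
    exact P.ord_coe_irreducible hπ

set_option synthInstance.maxHeartbeats 400000 in
/-- **[RI-RATL], characteristic 0, finitely many places and functions at once.** -/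
theorem s37rl_main_finset (S : Finset (Place QBar (FunField M))) (T : Finset (FunField M)) :
    ∃ K0 : IntermediateField ℚ QBar, FiniteDimensional ℚ ↥K0 ∧
      ∀ K1 : IntermediateField ℚ QBar, K0 ≤ K1 →
        (∀ t ∈ T, ∃ t1 : ↥(s18_F ↥K1 M), s37rl_iota M K1 t1 = t) ∧
        ∀ P ∈ S, ∃ P0 : Place ↥K1 ↥(s18_F ↥K1 M), s37rl_IsRatl M K1 P P0 := by
  classical
  induction S using Finset.induction_on with
  | empty =>
    obtain ⟨K0, hK0, h0⟩ := s37rl_descent_finset M T
    exact ⟨K0, hK0, fun K1 hK1 => ⟨h0 K1 hK1, fun P hP => absurd hP (Finset.notMem_empty P)⟩⟩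
  | insert a s _ ih =>
    obtain ⟨K0, hK0, h0⟩ := ih
    obtain ⟨Ka, hKa, ha⟩ := s37rl_main M a
    refine ⟨K0 ⊔ Ka, IntermediateField.finiteDimensional_sup K0 Ka, fun K1 hK1 => ?_⟩
    obtain ⟨h1, h2⟩ := h0 K1 (le_trans le_sup_left hK1)
    refine ⟨h1, fun P hP => ?_⟩
    rcases Finset.mem_insert.mp hP with rfl | hP
    · exact ha K1 (le_trans le_sup_right hK1)
    · exact h2 P hP

set_option synthInstance.maxHeartbeats 400000 in
/-- **Restriction of finitely many places**: for every `K1 ⊇ K0` the places `P ∈ S` restrict to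
`K1`-rational places of `F_{K1}(M)` with the same orders (`e = 1`), and the restrictions of
distinct places of `S` are distinct. -/
theorem s37rl_restr (S : Finset (Place QBar (FunField M))) (T : Finset (FunField M)) :
    ∃ K0 : IntermediateField ℚ QBar, FiniteDimensional ℚ ↥K0 ∧
      ∀ K1 : IntermediateField ℚ QBar, K0 ≤ K1 →
        (∀ t ∈ T, ∃ t1 : ↥(s18_F ↥K1 M), s37rl_iota M K1 t1 = t) ∧
        ∀ P ∈ S, ∃ P1 : Place ↥K1 ↥(s18_F ↥K1 M), s37rl_IsRatl M K1 P P1 ∧
          ∀ P' ∈ S, (∀ f, P'.ord (s37rl_iota M K1 f) = P1.ord f) → P' = P := by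
  classical
  have hsep : ∀ p : Place QBar (FunField M) × Place QBar (FunField M), ∃ g : FunField M,
      p.1 ≠ p.2 → g ∈ p.1.toValuationSubring ∧ g ∉ p.2.toValuationSubring := by
    rintro ⟨P, P'⟩
    by_cases h : P = P'
    · exact ⟨0, fun h' => absurd h h'⟩
    · by_contra hcon
      apply h
      apply place_eq_of_le
      intro t ht
      by_contra ht'
      exact hcon ⟨t, fun _ => ⟨ht, ht'⟩⟩
  choose sep hsep' using hsep
  obtain ⟨K0, hK0, h0⟩ := s37rl_main_finset M S (T ∪ (S ×ˢ S).image sep)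
  refine ⟨K0, hK0, fun K1 hK1 => ?_⟩
  obtain ⟨h1, h2⟩ := h0 K1 hK1
  refine ⟨fun t ht => h1 t (Finset.mem_union_left _ ht), fun P hP => ?_⟩
  obtain ⟨P1, hP1⟩ := h2 P hP
  refine ⟨P1, hP1, fun P' hP' hord => ?_⟩
  by_contra hne
  have hne' : P ≠ P' := fun h => hne h.symm
  obtain ⟨hg1, hg2⟩ := hsep' (P, P') hne'
  obtain ⟨g1, hg⟩ := h1 (sep (P, P')) (Finset.mem_union_right _
    (Finset.mem_image_of_mem sep (Finset.mem_product.mpr ⟨hP, hP'⟩)))
  rw [← hg] at hg1 hg2
  rw [place_mem_iff] at hg1 hg2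
  rw [hord g1, ← hP1.1 g1] at hg2
  exact hg2 hg1

end Main

end Fermat.Agent.S37
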