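/-
S37, SHARED TOOL [BDD] (owner: helper21).  Prefix `s37t_`.  `Prop`s only.

  [RIEM]  Riemann's inequality in the form: there is a constant `c` such that every divisor of
          degree `≥ c` is linearly equivalent to an effective divisor.
  [BDD]   an additive functional on divisors which kills principal divisors and is bounded on
          places vanishes on divisors of degree `0`.

Both for a function field `F` with a coordinate `u` over an algebraically closed field `K` of
characteristic `0` (the setting of the S24 function-field package).
-/
import Mathlib
import Fermat.Prelude.Def_AlgebraicCurve_DivisorClassGroup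
import Fermat.Agent.S24.Defs

set_option autoImplicit false

open AlgebraicCurve

noncomputable section

namespace Fermat.Agent.S37

/-- **[RIEM]** every divisor of large degree is linearly equivalent to an effective divisor. -/
def s37t_RiemannStatement : Prop :=
  ∀ (K F : Type) [Field K] [Field F] [Algebra K F] [IsAlgClosed K] [CharZero K] (u : F),
    S24.IsCoordinate K u → ∃ c : ℤ, ∀ D : Divisor K F, c ≤ Divisor.degree D →
      ∃ f : F, f ≠ 0 ∧ ∀ v : Place K F, 0 ≤ v.ord f + D v

/-- **[BDD]** a functional on divisors which kills principal divisors and is bounded on places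
vanishes on divisors of degree `0`. -/
def s37t_BddStatement : Prop :=
  ∀ (K F : Type) [Field K] [Field F] [Algebra K F] [IsAlgClosed K] [CharZero K] (u : F),
    S24.IsCoordinate K u → ∀ lam : Divisor K F →+ ℤ,
      (∀ D ∈ Divisor.principal (K := K) (F := F), lam D = 0) →
      ∀ C : ℤ, (∀ P : Place K F, |lam (Finsupp.single P 1)| ≤ C) →
        ∀ D ∈ Divisor.degZero (K := K) (F := F), lam D = 0

/-- **[BDD]**, divisor-valued form: a homomorphism `E : Div F → (X →₀ ℤ)` which kills
principal divisors and whose values on places have bounded coefficients vanishes on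
divisors of degree `0`. -/
def s37t_BddVecStatement : Prop :=
  ∀ (K F : Type) [Field K] [Field F] [Algebra K F] [IsAlgClosed K] [CharZero K] (u : F),
    S24.IsCoordinate K u → ∀ (X : Type) (E : Divisor K F →+ (X →₀ ℤ)),
      (∀ D ∈ Divisor.principal (K := K) (F := F), E D = 0) →
      ∀ C : ℤ, (∀ (P : Place K F) (Q : X), |E (Finsupp.single P 1) Q| ≤ C) →
        ∀ D ∈ Divisor.degZero (K := K) (F := F), E D = 0

theorem s37t_bddVec_of (h : s37t_BddStatement) : s37t_BddVecStatement := by
  intro K F _ _ _ _ _ u hu X E hprin C hC D hD
  ext Q
  rw [Finsupp.zero_apply]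
  have := h K F u hu ((Finsupp.applyAddHom Q).comp E)
    (fun D' hD' => by
      show (E D') Q = 0
      rw [hprin D' hD', Finsupp.zero_apply]) C
    (fun P => hC P Q) D hD
  exact this

end Fermat.Agent.S37
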