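/-
S37, SHARED TOOL [BDD] (owner: helper21): [BDD] from [RIEM].
-/
import Mathlib
import Fermat.Agent.S37.BddDefs
import Fermat.Agent.S24.DiffFinal
import Fermat.Agent.S24.CoordDiv
import Fermat.Agent.S24.FFIdentity

set_option autoImplicit false

open AlgebraicCurve

noncomputable section

namespace Fermat.Agent.S37

section

variable {K F : Type} [Field K] [Field F] [Algebra K F]

/-- The value of a functional on an effective divisor is bounded by the degree. -/
theorem s37t_bdd_effective (hdeg : ∀ v : Place K F, v.deg = 1) (lam : Divisor K F →+ ℤ)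
    (C : ℤ) (hC : ∀ P : Place K F, |lam (Finsupp.single P 1)| ≤ C)
    (D : Divisor K F) (hD : ∀ v, 0 ≤ D v) : |lam D| ≤ C * Divisor.degree D := by
  classical
  induction D using Finsupp.induction with
  | zero => simp
  | single_add P n D hP hn ih =>
    have hDP : D P = 0 := Finsupp.notMem_support_iff.mp hP
    have hn0 : 0 ≤ n := by
      have := hD P
      rw [Finsupp.add_apply, Finsupp.single_eq_same, hDP, add_zero] at this
      exact this
    have hD' : ∀ v, 0 ≤ D v := by
      intro v
      by_cases hv : v = P
      · rw [hv, hDP]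
      · have := hD v
        rw [Finsupp.add_apply, Finsupp.single_eq_of_ne hv, zero_add] at this
        exact this
    have h1 : lam (Finsupp.single P n) = n * lam (Finsupp.single P 1) := by
      have : (Finsupp.single P n : Divisor K F) = n • Finsupp.single P 1 := by
        rw [Finsupp.smul_single, smul_eq_mul, mul_one]
      rw [this, map_zsmul, smul_eq_mul]
    rw [map_add, map_add, Divisor.degree_single, hdeg, h1]
    have h2 : |n * lam (Finsupp.single P 1)| ≤ n * C := by
      rw [abs_mul, abs_of_nonneg hn0]
      exact mul_le_mul_of_nonneg_left (hC P) hn0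
    have h3 := ih hD'
    calc |n * lam (Finsupp.single P 1) + lam D|
        ≤ |n * lam (Finsupp.single P 1)| + |lam D| := abs_add_le _ _
      _ ≤ n * C + C * Divisor.degree D := add_le_add h2 h3
      _ = C * (n * ((1 : ℕ) : ℤ) + Divisor.degree D) := by push_cast; ring

end

/-- **[BDD] from [RIEM].** -/
theorem s37t_bdd_of (hR : s37t_RiemannStatement) : s37t_BddStatement := by
  intro K F _ _ _ _ _ u hu lam hprin C hC D hD
  classical
  have hdeg : ∀ v : Place K F, v.deg = 1 := S24.diff_degOneStatement K F u hu
  have hPD : HasPrincipalDivisors K F :=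
    S24.coord_principalDivisor S24.ff_fundamentalIdentity K F u hu
  by_cases hne : Nonempty (Place K F)
  swap
  · rw [not_nonempty_iff] at hne
    rw [Subsingleton.elim D 0, map_zero]
  obtain ⟨O⟩ := hne
  obtain ⟨c₀, hc₀⟩ := hR K F u hu
  -- a nonnegative constant
  set c : ℤ := max c₀ 0 with hc
  have hc0 : 0 ≤ c := le_max_right _ _
  have hcc : c₀ ≤ c := le_max_left _ _
  have hC0 : 0 ≤ C := (abs_nonneg _).trans (hC O)
  have hD0 : Divisor.degree D = 0 := Divisor.mem_degZero.mp hD
  -- the key estimate
  have key : ∀ n : ℕ, (n : ℤ) * |lam D| ≤ 2 * (c * C) := by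
    intro n
    set A : Divisor K F := (n : ℤ) • D + c • Finsupp.single O 1 with hA
    have hdegA : Divisor.degree A = c := by
      rw [hA, map_add, map_zsmul, map_zsmul, hD0, Divisor.degree_single, hdeg]
      simp
    obtain ⟨f, hf, hfA⟩ := hc₀ A (by rw [hdegA]; exact hcc)
    obtain ⟨Df, hDf, hDf0⟩ := HasPrincipalDivisors.exists_divisor (K := K) f hf
    have hDfp : Df ∈ Divisor.principal (K := K) (F := F) := ⟨f, hf, hDf⟩
    have heff : ∀ v, 0 ≤ (Df + A) v := by
      intro v
      rw [Finsupp.add_apply, hDf v]
      exact hfA v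
    have h1 := s37t_bdd_effective hdeg lam C hC (Df + A) heff
    have e1 : Divisor.degree (Df + A) = c := by rw [map_add, hDf0, zero_add, hdegA]
    have e2 : lam (Df + A) = (n : ℤ) * lam D + c * lam (Finsupp.single O 1) := by
      rw [map_add, hprin Df hDfp, zero_add, hA, map_add, map_zsmul, map_zsmul, smul_eq_mul,
        smul_eq_mul]
    rw [e1, e2] at h1
    have h2 : |c * lam (Finsupp.single O 1)| ≤ c * C := by
      rw [abs_mul, abs_of_nonneg hc0]
      exact mul_le_mul_of_nonneg_left (hC O) hc0
    have h3 : |(n : ℤ) * lam D| ≤ |(n : ℤ) * lam D + c * lam (Finsupp.single O 1)| +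
        |c * lam (Finsupp.single O 1)| := by
      have := abs_sub ((n : ℤ) * lam D + c * lam (Finsupp.single O 1))
        (c * lam (Finsupp.single O 1))
      rw [add_sub_cancel_right] at this
      exact this
    rw [abs_mul, abs_of_nonneg (Nat.cast_nonneg n)] at h3
    have h4 : C * c = c * C := mul_comm _ _
    linarith
  -- conclusion
  by_contra hne
  have hpos : 1 ≤ |lam D| := Int.one_le_abs hne
  have h5 := key (2 * (c * C)).toNat.succ
  have h6 : (2 * (c * C)) < ((2 * (c * C)).toNat.succ : ℤ) := by
    have : 0 ≤ 2 * (c * C) := by positivity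
    push_cast
    rw [Int.toNat_of_nonneg this]
    omega
  have h7 : ((2 * (c * C)).toNat.succ : ℤ) ≤ ((2 * (c * C)).toNat.succ : ℤ) * |lam D| :=
    le_mul_of_one_le_right (Nat.cast_nonneg _) hpos
  linarith

/-- **[BDD]**, divisor-valued form, from [RIEM]. -/
theorem s37t_bddVec_of_riemann (hR : s37t_RiemannStatement) : s37t_BddVecStatement :=
  s37t_bddVec_of (s37t_bdd_of hR)

end Fermat.Agent.S37
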