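/-
S37, SHARED TOOL [RIEM] (owner: helper21), part 1: `dim L(D + P) ≤ dim L(D) + 1`.

`L(D) = riemannRochSpace D = {f | f = 0 ∨ div f + D ≥ 0}` (Prelude).  For a place `P` with
residue field `K`, any two elements of `L(D + P)` are proportional modulo `L(D)`; hence
`rank L(D + E) ≤ rank L(D) + |E|` for an effective divisor `E`.
-/
import Mathlib
import Fermat.Prelude.Def_AlgebraicCurve_Repartitions
import Fermat.Agent.S24.PlaceBasic

set_option autoImplicit false

open AlgebraicCurve Cardinal

noncomputable section

namespace Fermat.Agent.S37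

section abstract

variable {K M : Type*} [Field K] [AddCommGroup M] [Module K M]

/-- If any two elements of `W` are proportional modulo `V`, then `rank W ≤ rank V + 1`. -/
theorem s37t_rr_rank_step (V W : Submodule K M)
    (h : ∀ w₁ ∈ W, ∀ w₂ ∈ W, w₂ ∉ V → ∃ c : K, w₁ - c • w₂ ∈ V) :
    Module.rank K W ≤ Module.rank K V + 1 := by
  by_cases hWV : W ≤ V
  · exact (Submodule.rank_mono hWV).trans le_self_add
  · obtain ⟨w₂, hw₂, hw₂V⟩ := SetLike.not_le_iff_exists.mp hWV
    have hle : W ≤ V ⊔ Submodule.span K {w₂} := by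
      intro w₁ hw₁
      obtain ⟨c, hc⟩ := h w₁ hw₁ w₂ hw₂ hw₂V
      have : w₁ = (w₁ - c • w₂) + c • w₂ := by abel
      rw [this]
      exact Submodule.add_mem_sup hc (Submodule.smul_mem _ _ (Submodule.mem_span_singleton_self _))
    calc Module.rank K W ≤ Module.rank K ↥(V ⊔ Submodule.span K {w₂}) := Submodule.rank_mono hle
      _ ≤ Module.rank K V + Module.rank K (Submodule.span K {w₂}) :=
          Submodule.rank_add_le_rank_add_rank _ _
      _ ≤ Module.rank K V + 1 := by
          gcongr
          exact (rank_span_le _).trans (by simp)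

end abstract

variable {K F : Type*} [Field K] [Field F] [Algebra K F]

theorem s37t_rr_mem_iff {D : Divisor K F} {f : F} :
    f ∈ riemannRochSpace D ↔ ∀ v : Place K F, f = 0 ∨ -D v ≤ v.ord f :=
  mem_riemannRochSpace_iff

theorem s37t_rr_mem_of_ne {D : Divisor K F} {f : F} (hf : f ≠ 0) :
    f ∈ riemannRochSpace D ↔ ∀ v : Place K F, -D v ≤ v.ord f := by
  rw [s37t_rr_mem_iff]
  exact forall_congr' fun v => or_iff_right hf

theorem s37t_rr_mono {D D' : Divisor K F} (h : ∀ v, D v ≤ D' v) :
    riemannRochSpace D ≤ riemannRochSpace D' := by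
  intro f hf
  rw [s37t_rr_mem_iff] at hf ⊢
  intro v
  rcases hf v with h0 | h1
  · exact Or.inl h0
  · exact Or.inr (by have := h v; omega)

/-- **The one-place step**, elementwise. -/
theorem s37t_rr_step (P : Place K F)
    (hres : Function.Surjective (algebraMap K P.ResidueField)) (D : Divisor K F)
    (f₁ : F) (h₁ : f₁ ∈ riemannRochSpace (D + Finsupp.single P 1))
    (f₂ : F) (h₂ : f₂ ∈ riemannRochSpace (D + Finsupp.single P 1))
    (h₂' : f₂ ∉ riemannRochSpace D) : ∃ c : K, f₁ - c • f₂ ∈ riemannRochSpace D := by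
  classical
  have hf₂ : f₂ ≠ 0 := by
    rintro rfl
    exact h₂' (Submodule.zero_mem _)
  have happ : ∀ v, v ≠ P → (D + Finsupp.single P 1 : Divisor K F) v = D v := by
    intro v hv
    rw [Finsupp.add_apply, Finsupp.single_eq_of_ne hv, add_zero]
  have happP : (D + Finsupp.single P 1 : Divisor K F) P = D P + 1 := by
    rw [Finsupp.add_apply, Finsupp.single_eq_same]
  -- the order of `f₂` at `P`
  have h₂all := (s37t_rr_mem_of_ne hf₂).mp h₂
  have hord₂ : P.ord f₂ = -D P - 1 := by
    have hP := h₂all P
    rw [happP] at hP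
    by_contra hne
    apply h₂'
    rw [s37t_rr_mem_of_ne hf₂]
    intro v
    by_cases hv : v = P
    · subst hv
      omega
    · have := h₂all v
      rw [happ v hv] at this
      exact this
  rcases eq_or_ne f₁ 0 with rfl | hf₁
  · exact ⟨0, by simp⟩
  have h₁all := (s37t_rr_mem_of_ne hf₁).mp h₁
  -- the quotient is regular at `P`
  have hq : 0 ≤ P.ord (f₁ * f₂⁻¹) := by
    rw [P.ord_mul hf₁ (inv_ne_zero hf₂), P.ord_inv, hord₂]
    have := h₁all P
    rw [happP] at this
    omega
  have hqmem : f₁ * f₂⁻¹ ∈ P.toValuationSubring := S24.place_mem_of_ord_nonneg P hq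
  obtain ⟨c, hc⟩ := hres (IsLocalRing.residue P.toValuationSubring ⟨f₁ * f₂⁻¹, hqmem⟩)
  refine ⟨c, ?_⟩
  -- `f₁ * f₂⁻¹ - c` lies in the maximal ideal
  have hmax : (⟨f₁ * f₂⁻¹, hqmem⟩ - algebraMap K P.toValuationSubring c :
      P.toValuationSubring) ∈ IsLocalRing.maximalIdeal P.toValuationSubring := by
    rw [← IsLocalRing.residue_eq_zero_iff, map_sub, sub_eq_zero]
    rw [← hc]
    rfl
  have hnon : f₁ * f₂⁻¹ - algebraMap K F c ∈ P.toValuationSubring.nonunits := by
    rw [ValuationSubring.mem_nonunits_iff_exists_mem_maximalIdeal]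
    exact ⟨sub_mem hqmem (P.algebraMap_mem' c), hmax⟩
  have hg : f₁ - c • f₂ = f₂ * (f₁ * f₂⁻¹ - algebraMap K F c) := by
    rw [Algebra.smul_def]
    field_simp
  have hgmem : f₁ - c • f₂ ∈ riemannRochSpace (D + Finsupp.single P 1) :=
    Submodule.sub_mem _ h₁ (Submodule.smul_mem _ _ h₂)
  rw [s37t_rr_mem_iff] at hgmem ⊢
  intro v
  rcases eq_or_ne (f₁ - c • f₂) 0 with h0 | hne
  · exact Or.inl h0
  right
  by_cases hv : v = P
  · subst hv
    have hne' : f₁ * f₂⁻¹ - algebraMap K F c ≠ 0 := by
      intro h0
      apply hne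
      rw [hg, h0, mul_zero]
    have hpos := (S24.place_mem_nonunits_iff v hne').mp hnon
    rw [hg, v.ord_mul hf₂ hne', hord₂]
    omega
  · rcases hgmem v with h0 | h1
    · exact absurd h0 hne
    · rw [happ v hv] at h1
      exact h1

/-- **The one-place step**, ranks. -/
theorem s37t_rr_rank_succ (P : Place K F)
    (hres : Function.Surjective (algebraMap K P.ResidueField)) (D : Divisor K F) :
    Module.rank K (riemannRochSpace (D + Finsupp.single P 1)) ≤
      Module.rank K (riemannRochSpace D) + 1 :=
  s37t_rr_rank_step _ _ fun f₁ h₁ f₂ h₂ h₂' => s37t_rr_step P hres D f₁ h₁ f₂ h₂ h₂'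

theorem s37t_rr_rank_congr {D D' : Divisor K F} (h : D = D') :
    Module.rank K (riemannRochSpace D) = Module.rank K (riemannRochSpace D') := by
  subst h; rfl

theorem s37t_rr_rank_nat (P : Place K F)
    (hres : Function.Surjective (algebraMap K P.ResidueField)) (D : Divisor K F) (n : ℕ) :
    Module.rank K (riemannRochSpace (D + Finsupp.single P (n : ℤ))) ≤
      Module.rank K (riemannRochSpace D) + n := by
  induction n with
  | zero =>
    rw [s37t_rr_rank_congr (D' := D) (by simp)]
    simp
  | succ n ih =>
    have e : D + Finsupp.single P ((n + 1 : ℕ) : ℤ) =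
        (D + Finsupp.single P (n : ℤ)) + Finsupp.single P 1 := by
      rw [add_assoc, ← Finsupp.single_add]
      push_cast
      rfl
    rw [e]
    calc Module.rank K (riemannRochSpace (D + Finsupp.single P (n : ℤ) + Finsupp.single P 1))
        ≤ Module.rank K (riemannRochSpace (D + Finsupp.single P (n : ℤ))) + 1 :=
          s37t_rr_rank_succ P hres _
      _ ≤ Module.rank K (riemannRochSpace D) + n + 1 := by gcongr
      _ = Module.rank K (riemannRochSpace D) + ((n + 1 : ℕ) : Cardinal) := by
          push_cast
          rw [add_assoc]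

/-- The total multiplicity of an effective divisor. -/
def s37t_rr_size (E : Divisor K F) : ℕ := E.sum fun _ n => n.toNat

/-- **[R3]** `rank L(D + E) ≤ rank L(D) + |E|` for an effective divisor `E`. -/
theorem s37t_rr_rank_add (hres : ∀ P : Place K F, Function.Surjective (algebraMap K P.ResidueField))
    (E : Divisor K F) (hE : ∀ v, 0 ≤ E v) (D : Divisor K F) :
    Module.rank K (riemannRochSpace (D + E)) ≤
      Module.rank K (riemannRochSpace D) + (s37t_rr_size E : Cardinal) := by
  classical
  induction E using Finsupp.induction generalizing D with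
  | zero =>
    rw [s37t_rr_rank_congr (D' := D) (by simp)]
    simp [s37t_rr_size]
  | single_add P n E hP hn ih =>
    have hEP : E P = 0 := Finsupp.notMem_support_iff.mp hP
    have hn0 : 0 ≤ n := by
      have := hE P
      rw [Finsupp.add_apply, Finsupp.single_eq_same, hEP, add_zero] at this
      exact this
    have hE' : ∀ v, 0 ≤ E v := by
      intro v
      by_cases hv : v = P
      · rw [hv, hEP]
      · have := hE v
        rw [Finsupp.add_apply, Finsupp.single_eq_of_ne hv, zero_add] at this
        exact this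
    obtain ⟨m, rfl⟩ := Int.eq_ofNat_of_zero_le hn0
    have hsize : s37t_rr_size (Finsupp.single P (m : ℤ) + E) = m + s37t_rr_size E := by
      unfold s37t_rr_size
      rw [Finsupp.sum_add_index_of_disjoint, Finsupp.sum_single_index]
      · simp
      · simp
      · rw [Finset.disjoint_left]
        intro v hv hv'
        have := Finsupp.support_single_subset hv
        rw [Finset.mem_singleton] at this
        subst this
        exact hP hv'
    rw [hsize, ← add_assoc]
    calc Module.rank K (riemannRochSpace (D + Finsupp.single P (m : ℤ) + E))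
        ≤ Module.rank K (riemannRochSpace (D + Finsupp.single P (m : ℤ))) +
            (s37t_rr_size E : Cardinal) := ih hE' _
      _ ≤ Module.rank K (riemannRochSpace D) + m + (s37t_rr_size E : Cardinal) := by
          gcongr
          exact s37t_rr_rank_nat P (hres P) D m
      _ = Module.rank K (riemannRochSpace D) + ((m + s37t_rr_size E : ℕ) : Cardinal) := by
          push_cast
          rw [add_assoc]

/-- The size of an effective divisor is its degree when all places have degree one. -/
theorem s37t_rr_size_eq (hdeg : ∀ v : Place K F, v.deg = 1) (E : Divisor K F)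
    (hE : ∀ v, 0 ≤ E v) : (s37t_rr_size E : ℤ) = Divisor.degree E := by
  classical
  unfold s37t_rr_size Divisor.degree
  rw [Finsupp.liftAddHom_apply, Finsupp.sum, Finsupp.sum]
  push_cast
  refine Finset.sum_congr rfl fun v _ => ?_
  rw [hdeg v, Int.toNat_of_nonneg (hE v)]
  simp

end Fermat.Agent.S37
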