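/-
S37, SHARED TOOL [RIEM] (owner: helper21), part 2: the lower bound
`rank L(l B + C₀) ≥ (l + 1) [F : K(u)]`, `B` the zero divisor of the coordinate `u`.
-/
import Mathlib
import Fermat.Prelude.Def_AlgebraicCurve_Repartitions
import Fermat.Agent.S24.Defs
import Fermat.Agent.S24.PlaceBasic
import Fermat.Agent.S24.GlueCoord
import Fermat.Agent.S37.RiemannStep

set_option autoImplicit false

open AlgebraicCurve Cardinal IntermediateField

noncomputable section

namespace Fermat.Agent.S37

variable {K F : Type} [Field K] [Field F] [Algebra K F]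

/-! ### positive and negative parts of a divisor -/

/-- The positive part of a divisor. -/
def s37t_rr_pos (D : Divisor K F) : Divisor K F :=
  D.mapRange (fun n => max n 0) (by simp)

/-- The negative part of a divisor. -/
def s37t_rr_neg (D : Divisor K F) : Divisor K F :=
  D.mapRange (fun n => max (-n) 0) (by simp)

@[simp] theorem s37t_rr_pos_apply (D : Divisor K F) (v : Place K F) :
    s37t_rr_pos D v = max (D v) 0 := by
  simp [s37t_rr_pos]

@[simp] theorem s37t_rr_neg_apply (D : Divisor K F) (v : Place K F) :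
    s37t_rr_neg D v = max (-D v) 0 := by
  simp [s37t_rr_neg]

theorem s37t_rr_pos_nonneg (D : Divisor K F) (v : Place K F) : 0 ≤ s37t_rr_pos D v := by
  simp

theorem s37t_rr_neg_nonneg (D : Divisor K F) (v : Place K F) : 0 ≤ s37t_rr_neg D v := by
  simp

theorem s37t_rr_pos_sub_neg (D : Divisor K F) : s37t_rr_pos D - s37t_rr_neg D = D := by
  ext v
  rw [Finsupp.sub_apply, s37t_rr_pos_apply, s37t_rr_neg_apply]
  rcases le_total (D v) 0 with h | h
  · rw [max_eq_right h, max_eq_left (by omega)]
    omega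
  · rw [max_eq_left h, max_eq_right (by omega)]
    omega

theorem s37t_rr_sum_nonneg {ι : Type*} (s : Finset ι) (E : ι → Divisor K F)
    (hE : ∀ i ∈ s, ∀ v, 0 ≤ E i v) (v : Place K F) : 0 ≤ (∑ i ∈ s, E i) v := by
  rw [Finsupp.finsetSum_apply]
  exact Finset.sum_nonneg fun i hi => hE i hi v

theorem s37t_rr_le_sum {ι : Type*} (s : Finset ι) (E : ι → Divisor K F)
    (hE : ∀ i ∈ s, ∀ v, 0 ≤ E i v) {j : ι} (hj : j ∈ s) (v : Place K F) :
    E j v ≤ (∑ i ∈ s, E i) v := by
  rw [Finsupp.finsetSum_apply]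
  exact Finset.single_le_sum (f := fun i => E i v) (fun i hi => hE i hi v) hj

/-! ### powers of a transcendental element -/

theorem s37t_rr_linearIndependent_pow {t : F} (ht : Transcendental K t) :
    LinearIndependent K (fun i : ℕ => t ^ i) := by
  have h1 : LinearIndependent K (fun i : ℕ => (Polynomial.X : Polynomial K) ^ i) := by
    have h0 := (Polynomial.basisMonomials K).linearIndependent
    have e : (fun i : ℕ => (Polynomial.X : Polynomial K) ^ i) = ⇑(Polynomial.basisMonomials K) := by
      funext i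
      simp [Polynomial.X_pow_eq_monomial]
    rw [e]
    exact h0
  have h2 := h1.map' (Polynomial.aeval t).toLinearMap
    (LinearMap.ker_eq_bot.mpr (transcendental_iff_injective.mp ht))
  have e2 : (fun i : ℕ => t ^ i) =
      ⇑(Polynomial.aeval t).toLinearMap ∘ fun i : ℕ => (Polynomial.X : Polynomial K) ^ i := by
    funext i
    simp
  rw [e2]
  exact h2

/-! ### the lower bound -/

section lower

variable [HasPrincipalDivisors K F]

open Classical in
/-- The (chosen) divisor of a nonzero function. -/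
def s37t_rr_div (f : F) : Divisor K F :=
  if hf : f ≠ 0 then (HasPrincipalDivisors.exists_divisor (K := K) f hf).choose else 0

theorem s37t_rr_div_apply {f : F} (hf : f ≠ 0) (v : Place K F) :
    s37t_rr_div (K := K) f v = v.ord f := by
  rw [s37t_rr_div, dif_pos hf]
  exact (HasPrincipalDivisors.exists_divisor (K := K) f hf).choose_spec.1 v

theorem s37t_rr_div_degree {f : F} (hf : f ≠ 0) :
    Divisor.degree (s37t_rr_div (K := K) f) = 0 := by
  rw [s37t_rr_div, dif_pos hf]
  exact (HasPrincipalDivisors.exists_divisor (K := K) f hf).choose_spec.2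

theorem s37t_rr_lower {u : F} (hu : S24.IsCoordinate K u) :
    ∃ C₀ : Divisor K F, (∀ v, 0 ≤ C₀ v) ∧ ∀ l : ℕ,
      (((l + 1) * Module.finrank K⟮u⟯ F : ℕ) : Cardinal) ≤
        Module.rank K (riemannRochSpace
          ((l : ℤ) • s37t_rr_pos (s37t_rr_div (K := K) u) + C₀)) := by
  classical
  have hfinF : FiniteDimensional K⟮u⟯ F := hu.finite
  have hu0 : u ≠ 0 := by
    rintro rfl
    exact hu.transcendental (isAlgebraic_zero)
  set n := Module.finrank K⟮u⟯ F with hn
  let e : Module.Basis (Fin n) K⟮u⟯ F := Module.finBasis K⟮u⟯ F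
  have he0 : ∀ j, e j ≠ 0 := fun j => e.ne_zero j
  set B : Divisor K F := s37t_rr_pos (s37t_rr_div (K := K) u) with hB
  set C₀ : Divisor K F := ∑ j : Fin n, s37t_rr_neg (s37t_rr_div (K := K) (e j)) with hC₀
  have hC₀nn : ∀ v, 0 ≤ C₀ v :=
    s37t_rr_sum_nonneg _ _ fun j _ v => s37t_rr_neg_nonneg _ v
  refine ⟨C₀, hC₀nn, fun l => ?_⟩
  -- the family
  let g : K⟮u⟯ := AdjoinSimple.gen K u
  have hg : (g : F) = u := AdjoinSimple.coe_gen K u
  let b : Fin (l + 1) → K⟮u⟯ := fun i => (g⁻¹) ^ (i : ℕ)
  have hb : LinearIndependent K b := by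
    have hinv : Transcendental K u⁻¹ := S24.glue_transcendental_inv hu.transcendental
    have h1 := (s37t_rr_linearIndependent_pow hinv).comp (fun i : Fin (l + 1) => (i : ℕ))
      Fin.val_injective
    refine LinearIndependent.of_comp (K⟮u⟯.val.toLinearMap) ?_
    convert h1 using 1
    funext i
    simp [b, hg]
  have hfam : LinearIndependent K (fun p : Fin (l + 1) × Fin n => b p.1 • e p.2) :=
    linearIndependent_smul hb e.linearIndependent
  have hval : ∀ p : Fin (l + 1) × Fin n, b p.1 • e p.2 = (u⁻¹) ^ (p.1 : ℕ) * e p.2 := by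
    intro p
    rw [IntermediateField.smul_def, smul_eq_mul]
    simp [b, hg]
  -- membership
  have hmem : ∀ p : Fin (l + 1) × Fin n,
      b p.1 • e p.2 ∈ riemannRochSpace ((l : ℤ) • B + C₀) := by
    intro p
    rw [hval]
    have hpow : (u⁻¹) ^ (p.1 : ℕ) ≠ 0 := pow_ne_zero _ (inv_ne_zero hu0)
    rw [s37t_rr_mem_of_ne (mul_ne_zero hpow (he0 p.2))]
    intro v
    rw [v.ord_mul hpow (he0 p.2), S24.place_ord_pow, v.ord_inv, Finsupp.add_apply,
      Finsupp.smul_apply, smul_eq_mul]
    have h1 : v.ord u ≤ B v := by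
      rw [hB, s37t_rr_pos_apply, s37t_rr_div_apply hu0]
      exact le_max_left _ _
    have h2 : 0 ≤ B v := s37t_rr_pos_nonneg _ v
    have h3 : -C₀ v ≤ v.ord (e p.2) := by
      have := s37t_rr_le_sum Finset.univ
        (fun j : Fin n => s37t_rr_neg (s37t_rr_div (K := K) (e j)))
        (fun j _ v => s37t_rr_neg_nonneg _ v) (Finset.mem_univ p.2) v
      rw [s37t_rr_neg_apply, s37t_rr_div_apply (he0 p.2)] at this
      have h4 : -v.ord (e p.2) ≤ max (-v.ord (e p.2)) 0 := le_max_left _ _
      have : -v.ord (e p.2) ≤ C₀ v := h4.trans this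
      omega
    have h5 : ((p.1 : ℕ) : ℤ) ≤ l := by
      have := p.1.2
      omega
    have h6 : ((p.1 : ℕ) : ℤ) * v.ord u ≤ (l : ℤ) * B v := by
      calc ((p.1 : ℕ) : ℤ) * v.ord u ≤ ((p.1 : ℕ) : ℤ) * B v :=
            mul_le_mul_of_nonneg_left h1 (Nat.cast_nonneg _)
        _ ≤ (l : ℤ) * B v := mul_le_mul_of_nonneg_right h5 h2
    linarith
  -- count
  let fam : Fin (l + 1) × Fin n → riemannRochSpace ((l : ℤ) • B + C₀) :=
    fun p => ⟨b p.1 • e p.2, hmem p⟩
  have hfam' : LinearIndependent K fam :=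
    LinearIndependent.of_comp (riemannRochSpace ((l : ℤ) • B + C₀)).subtype hfam
  have := hfam'.cardinal_le_rank
  simpa using this

end lower

end Fermat.Agent.S37
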