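/-
S37, SHARED TOOL [RIEM] (owner: helper21), part 3: Riemann's inequality in the form
"every divisor of large degree is linearly equivalent to an effective divisor", and [BDD].
-/
import Mathlib
import Fermat.Agent.S37.BddDefs
import Fermat.Agent.S37.Bdd
import Fermat.Agent.S37.RiemannStep
import Fermat.Agent.S37.RiemannLower
import Fermat.Agent.S24.DiffFinal
import Fermat.Agent.S24.CoordDiv
import Fermat.Agent.S24.FFIdentity

set_option autoImplicit false

open AlgebraicCurve Cardinal IntermediateField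

noncomputable section

namespace Fermat.Agent.S37

section

variable {K F : Type} [Field K] [Field F] [Algebra K F]

/-- The degree of the zero divisor of `u` from the fundamental identity. -/
theorem s37t_rr_degree_pos [HasPrincipalDivisors K F] (hdeg : ∀ v : Place K F, v.deg = 1)
    {u : F} (hu0 : u ≠ 0) (n : ℕ)
    (hFI : ∃ hfin : (S24.placesOver K u).Finite, ∑ v ∈ hfin.toFinset, v.ord u = (n : ℤ)) :
    Divisor.degree (s37t_rr_pos (s37t_rr_div (K := K) u)) = n := by
  classical
  obtain ⟨hfin, hsum⟩ := hFI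
  rw [← hsum]
  unfold Divisor.degree
  rw [Finsupp.liftAddHom_apply, Finsupp.sum]
  have hsupp : (s37t_rr_pos (s37t_rr_div (K := K) u)).support = hfin.toFinset := by
    ext v
    rw [Finsupp.mem_support_iff, s37t_rr_pos_apply, s37t_rr_div_apply hu0,
      Set.Finite.mem_toFinset, S24.placesOver, Set.mem_setOf_eq,
      S24.place_mem_nonunits_iff v hu0]
    constructor
    · intro h
      by_contra h'
      exact h (max_eq_right (not_lt.mp h'))
    · intro h h'
      rw [max_eq_left h.le] at h'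
      omega
  rw [hsupp]
  refine Finset.sum_congr rfl fun v hv => ?_
  rw [Set.Finite.mem_toFinset, S24.placesOver, Set.mem_setOf_eq,
    S24.place_mem_nonunits_iff v hu0] at hv
  rw [AddMonoidHom.coe_mulRight, hdeg v, s37t_rr_pos_apply, s37t_rr_div_apply hu0,
    max_eq_left hv.le]
  simp

/-- **[S4a]** a nonzero element of `L(l B - E')` by counting. -/
theorem s37t_rr_exists
    (hres : ∀ P : Place K F, Function.Surjective (algebraMap K P.ResidueField))
    (hdeg : ∀ v : Place K F, v.deg = 1) (B C₀ : Divisor K F) (hC₀ : ∀ v, 0 ≤ C₀ v)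
    (n l : ℕ)
    (hlow : (((l + 1) * n : ℕ) : Cardinal) ≤
      Module.rank K (riemannRochSpace ((l : ℤ) • B + C₀)))
    (E' : Divisor K F) (hE' : ∀ v, 0 ≤ E' v)
    (hlt : Divisor.degree E' + Divisor.degree C₀ < ((l + 1) * n : ℕ)) :
    ∃ f : F, f ≠ 0 ∧ f ∈ riemannRochSpace ((l : ℤ) • B - E') := by
  by_contra hcon
  have hbot : riemannRochSpace ((l : ℤ) • B - E') = ⊥ := by
    rw [Submodule.eq_bot_iff]
    intro f hf
    by_contra hf0
    exact hcon ⟨f, hf0, hf⟩
  have hEC : ∀ v, 0 ≤ (E' + C₀ : Divisor K F) v := fun v => by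
    rw [Finsupp.add_apply]
    exact add_nonneg (hE' v) (hC₀ v)
  have h1 := s37t_rr_rank_add hres (E' + C₀) hEC ((l : ℤ) • B - E')
  rw [s37t_rr_rank_congr (D := (l : ℤ) • B - E' + (E' + C₀)) (D' := (l : ℤ) • B + C₀)
    (by abel), hbot, rank_bot, zero_add] at h1
  have h2 := hlow.trans h1
  rw [Nat.cast_le] at h2
  have h3 : (s37t_rr_size (E' + C₀) : ℤ) = Divisor.degree E' + Divisor.degree C₀ := by
    rw [s37t_rr_size_eq hdeg _ hEC, map_add]
  have h4 : (((l + 1) * n : ℕ) : ℤ) ≤ s37t_rr_size (E' + C₀) := by exact_mod_cast h2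
  omega

end

/-- **[RIEM]** every divisor of large degree is linearly equivalent to an effective one. -/
theorem s37t_rr_main : s37t_RiemannStatement := by
  intro K F _ _ _ _ _ u hu
  classical
  have hdeg : ∀ v : Place K F, v.deg = 1 := S24.diff_degOneStatement K F u hu
  have hres : ∀ P : Place K F, Function.Surjective (algebraMap K P.ResidueField) :=
    fun P => (S24.diff_residueFieldStatement K F u hu P).2
  haveI hPD : HasPrincipalDivisors K F :=
    S24.coord_principalDivisor S24.ff_fundamentalIdentity K F u hu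
  have hu0 : u ≠ 0 := by
    rintro rfl
    exact hu.transcendental isAlgebraic_zero
  have hfinF : FiniteDimensional K⟮u⟯ F := hu.finite
  set n := Module.finrank K⟮u⟯ F with hn
  have hn1 : 1 ≤ n := Module.finrank_pos
  set B : Divisor K F := s37t_rr_pos (s37t_rr_div (K := K) u) with hB
  have hBdeg : Divisor.degree B = n :=
    s37t_rr_degree_pos hdeg hu0 n (S24.ff_fundamentalIdentity K F u hu)
  obtain ⟨C₀, hC₀, hlow⟩ := s37t_rr_lower (K := K) hu
  refine ⟨Divisor.degree C₀ - n + 1, fun A hA => ?_⟩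
  have hC₀deg : 0 ≤ Divisor.degree C₀ := by
    rw [← s37t_rr_size_eq hdeg C₀ hC₀]
    exact Nat.cast_nonneg _
  -- first step: `z`
  have hAp : ∀ v, 0 ≤ s37t_rr_pos A v := s37t_rr_pos_nonneg A
  have hAn : ∀ v, 0 ≤ s37t_rr_neg A v := s37t_rr_neg_nonneg A
  have hApdeg : 0 ≤ Divisor.degree (s37t_rr_pos A) := by
    rw [← s37t_rr_size_eq hdeg _ hAp]
    exact Nat.cast_nonneg _
  set l : ℕ := (Divisor.degree (s37t_rr_pos A) + Divisor.degree C₀).toNat with hl
  have hl' : (l : ℤ) = Divisor.degree (s37t_rr_pos A) + Divisor.degree C₀ :=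
    Int.toNat_of_nonneg (add_nonneg hApdeg hC₀deg)
  have hlt1 : Divisor.degree (s37t_rr_pos A) + Divisor.degree C₀ < ((l + 1) * n : ℕ) := by
    have : ((l + 1 : ℕ) : ℤ) ≤ ((l + 1) * n : ℕ) := by
      exact_mod_cast Nat.le_mul_of_pos_right (l + 1) hn1
    push_cast at this ⊢
    omega
  obtain ⟨z, hz0, hz⟩ := s37t_rr_exists hres hdeg B C₀ hC₀ n l (hlow l) (s37t_rr_pos A) hAp hlt1
  rw [s37t_rr_mem_of_ne hz0] at hz
  -- second step: `w`
  set E : Divisor K F := s37t_rr_div (K := K) z + (l : ℤ) • B - s37t_rr_pos A + s37t_rr_neg A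
    with hE
  have hEnn : ∀ v, 0 ≤ E v := by
    intro v
    have h1 := hz v
    have h2 := hAn v
    rw [hE]
    simp only [Finsupp.add_apply, Finsupp.sub_apply, Finsupp.smul_apply, smul_eq_mul,
      s37t_rr_div_apply hz0] at h1 ⊢
    linarith
  have hAdeg : Divisor.degree A =
      Divisor.degree (s37t_rr_pos A) - Divisor.degree (s37t_rr_neg A) := by
    rw [← map_sub, s37t_rr_pos_sub_neg]
  have hEdeg : Divisor.degree E = l * n - Divisor.degree A := by
    rw [hE, map_add, map_sub, map_add, map_zsmul, s37t_rr_div_degree hz0, hBdeg, hAdeg,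
      smul_eq_mul]
    ring
  have hlt2 : Divisor.degree E + Divisor.degree C₀ < ((l + 1) * n : ℕ) := by
    rw [hEdeg]
    push_cast
    linarith
  obtain ⟨w, hw0, hw⟩ := s37t_rr_exists hres hdeg B C₀ hC₀ n l (hlow l) E hEnn hlt2
  rw [s37t_rr_mem_of_ne hw0] at hw
  refine ⟨w * z⁻¹, mul_ne_zero hw0 (inv_ne_zero hz0), fun v => ?_⟩
  rw [v.ord_mul hw0 (inv_ne_zero hz0), v.ord_inv]
  have h1 := hw v
  have h2 := congrArg (fun D : Divisor K F => D v) (s37t_rr_pos_sub_neg A)
  rw [hE] at h1
  simp only [Finsupp.add_apply, Finsupp.sub_apply, Finsupp.smul_apply, smul_eq_mul,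
    s37t_rr_div_apply hz0] at h1 h2
  linarith

/-- **[BDD]**, hypothesis-free. -/
theorem s37t_bdd_main : s37t_BddStatement := s37t_bdd_of s37t_rr_main

/-- **[BDD]**, divisor-valued form, hypothesis-free. -/
theorem s37t_bddVec_main : s37t_BddVecStatement := s37t_bddVec_of s37t_bdd_main

end Fermat.Agent.S37
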