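/-
S37, package [HECKE-INPUTS] (owner: helper14), part 1: THE DICTIONARY FOR A PAIR OF DEDEKIND
DOMAINS `A ⊆ B` WITH FRACTION FIELDS `F ⊆ F'` (function fields over `K`).  Prefix `s37hi_`.

Places of `F` resp. `F'` are `ff_placeOfPrime P` (S24/FFBridge.lean), `P` a non-zero prime of
`A` resp. `B`.

* `s37hi_ord_algebraMap`: `ord_Q (x) = e(Q|P) · ord_P (x)` for `x ∈ F`, `Q` over `P`.
* `s37hi_restrict`: the restriction of the place of `Q` is the place of `P`.
* `s37hi_ramificationIndex`: the Prelude's ramification index is Mathlib's `e(Q|P)`.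
* `s37hi_mem_fiber`: the fibre of the place of `P` consists of the places of the `Q` over `P`.
* `s37hi_fi`: the fundamental identity `Σ_{w | v} e(w|v) deg w = [F' : F] deg v` at the place
  `v` of `P` (from Mathlib's `Ideal.sum_ramification_inertia`), when all places have degree one
  and the residue fields of `A`, `B` are `K`.
-/
import Mathlib
import Fermat.Prelude.Def_AlgebraicCurve_Correspondence
import Fermat.Agent.S24.FFBridge
import Fermat.Agent.S24.PlaceBasic

set_option autoImplicit false
set_option linter.unusedSectionVars false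
set_option linter.style.haveILetI false
set_option linter.deprecated false

namespace Fermat.Agent.S37

open AlgebraicCurve IsDedekindDomain WithZero Fermat.Agent.S24

noncomputable section

section Gen

variable {K F' : Type*} [Field K] [Field F'] [Algebra K F']

/-- An element integral over a ring mapping into the valuation ring of a place is regular at
the place. -/
theorem s37hi_mem_of_isIntegral (w : Place K F') {R : Type*} [CommRing R] [Algebra R F']
    (hR : ∀ r : R, algebraMap R F' r ∈ w.toValuationSubring) {x : F'} (hx : IsIntegral R x) :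
    x ∈ w.toValuationSubring := by
  let ι : R →+* w.toValuationSubring :=
    (algebraMap R F').codRestrict w.toValuationSubring.toSubring hR
  obtain ⟨p, hp, hpb⟩ := hx
  have hint : IsIntegral w.toValuationSubring x := by
    refine ⟨p.map ι, hp.map ι, ?_⟩
    rw [Polynomial.eval₂_map]
    exact hpb
  obtain ⟨y, hy⟩ := IsIntegrallyClosed.isIntegral_iff.mp hint
  rw [← hy]
  exact y.2

theorem s37hi_nonunits_comap {F : Type*} [Field F] (f : F →+* F') (V : ValuationSubring F')
    (x : F) : x ∈ (V.comap f).nonunits ↔ f x ∈ V.nonunits := by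
  rw [ValuationSubring.mem_nonunits_iff_or, ValuationSubring.mem_nonunits_iff_or,
    ValuationSubring.mem_comap, map_inv₀, map_eq_zero]

end Gen

section Abstract

variable {K F F' : Type*} [Field K] [Field F] [Field F'] [Algebra K F] [Algebra K F']
  [Algebra F F'] [IsScalarTower K F F']
variable {A B : Type*} [CommRing A] [IsDedekindDomain A] [CommRing B] [IsDedekindDomain B]
  [Algebra K A] [Algebra A F] [IsFractionRing A F] [IsScalarTower K A F]
  [Algebra K B] [Algebra B F'] [IsFractionRing B F'] [IsScalarTower K B F']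
  [Algebra A B] [Module.IsTorsionFree A B] [Algebra A F'] [IsScalarTower A F F']
  [IsScalarTower A B F']

theorem s37hi_ord_algebraMap (P : HeightOneSpectrum A) (Q : HeightOneSpectrum B)
    [Q.asIdeal.LiesOver P.asIdeal] (x : F) :
    (ff_placeOfPrime (K := K) Q).ord (algebraMap F F' x) =
      (P.asIdeal.ramificationIdx' Q.asIdeal : ℤ) * (ff_placeOfPrime (K := K) P).ord x := by
  rw [ff_placeOfPrime_ord, ff_placeOfPrime_ord, ← HeightOneSpectrum.valuation_liesOver F' P Q x,
    WithZero.log_pow]
  simp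

theorem s37hi_ramificationIdx_pos (P : HeightOneSpectrum A) (Q : HeightOneSpectrum B)
    [Q.asIdeal.LiesOver P.asIdeal] : 0 < P.asIdeal.ramificationIdx' Q.asIdeal :=
  Nat.pos_of_ne_zero (Ideal.IsDedekindDomain.ramificationIdx'_ne_zero_of_liesOver Q.asIdeal
    P.ne_bot)

theorem s37hi_exists_ord_one (P : HeightOneSpectrum A) :
    ∃ x : F, x ≠ 0 ∧ (ff_placeOfPrime (K := K) P).ord x = 1 := by
  obtain ⟨ϖ, hϖ⟩ := P.valuation_exists_uniformizer F
  refine ⟨ϖ, ?_, ?_⟩
  · rintro rfl
    rw [map_zero] at hϖ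
    exact absurd hϖ.symm (by simp)
  · rw [ff_placeOfPrime_ord, hϖ, log_exp]
    norm_num

variable [Algebra.IsIntegral F F']

theorem s37hi_restrict (P : HeightOneSpectrum A) (Q : HeightOneSpectrum B)
    [Q.asIdeal.LiesOver P.asIdeal] :
    (ff_placeOfPrime (K := K) (F := F') Q).restrict F = ff_placeOfPrime (K := K) (F := F) P := by
  apply place_eq_of_le
  intro x hx
  rw [Place.restrict_toValuationSubring, ValuationSubring.mem_comap,
    ff_mem_placeOfPrime (K := K) (F := F') Q,
    ← HeightOneSpectrum.valuation_liesOver F' P Q x] at hx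
  rw [ff_mem_placeOfPrime (K := K) (F := F) P]
  exact (pow_le_one_iff (s37hi_ramificationIdx_pos P Q).ne').1 hx

theorem s37hi_ramificationIndex (P : HeightOneSpectrum A) (Q : HeightOneSpectrum B)
    [Q.asIdeal.LiesOver P.asIdeal] :
    (ff_placeOfPrime (K := K) (F := F') Q).ramificationIndex F = P.asIdeal.ramificationIdx' Q.asIdeal := by
  obtain ⟨x, hx0, hx⟩ := s37hi_exists_ord_one (K := K) (F := F) P
  have h1 := (ff_placeOfPrime (K := K) (F := F') Q).ord_restrict (F := F) x
  rw [s37hi_restrict (K := K) (F := F) (F' := F') P Q,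
    s37hi_ord_algebraMap (K := K) (F := F) (F' := F') P Q, hx, mul_one, mul_one] at h1
  exact_mod_cast h1.symm

variable [Algebra.IsIntegral A B]

/-- `B` is contained in the valuation ring of every place over a place of `A`. -/
theorem s37hi_B_le (P : HeightOneSpectrum A) (w : Place K F')
    (hw : w.restrict F = ff_placeOfPrime (K := K) (F := F) P) (b : B) :
    algebraMap B F' b ∈ w.toValuationSubring := by
  have hA : ∀ a : A, algebraMap A F' a ∈ w.toValuationSubring := by
    intro a
    rw [IsScalarTower.algebraMap_apply A F F', ← Place.mem_restrict_iff (K := K), hw,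
      ff_mem_placeOfPrime (K := K) (F := F) P]
    exact P.valuation_le_one a
  have hb : IsIntegral A (algebraMap B F' b) :=
    (Algebra.IsIntegral.isIntegral (R := A) b).map (IsScalarTower.toAlgHom A B F')
  exact s37hi_mem_of_isIntegral w hA hb

theorem s37hi_exists_prime (P : HeightOneSpectrum A) (w : Place K F')
    (hw : w.restrict F = ff_placeOfPrime (K := K) (F := F) P) :
    ∃ Q : HeightOneSpectrum B, Q.asIdeal.LiesOver P.asIdeal ∧ ff_placeOfPrime (K := K) Q = w := by
  obtain ⟨Q, hQ⟩ := ff_exists_prime_of_le (K := K) (B := B) w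
    (s37hi_B_le (K := K) (F := F) (F' := F') (A := A) (B := B) P w hw)
  refine ⟨Q, ⟨?_⟩, hQ⟩
  ext a
  rw [Ideal.under_def, Ideal.mem_comap,
    ← ff_mem_nonunits_placeOfPrime (K := K) (F := F) P a,
    ← ff_mem_nonunits_placeOfPrime (K := K) (F := F') Q (algebraMap A B a), hQ, ← hw,
    Place.restrict_toValuationSubring, s37hi_nonunits_comap,
    ← IsScalarTower.algebraMap_apply A B F', ← IsScalarTower.algebraMap_apply A F F']

variable [HasPrincipalDivisors K F']

theorem s37hi_mem_fiber (P : HeightOneSpectrum A) (w : Place K F') :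
    w ∈ (ff_placeOfPrime (K := K) (F := F) P).fiber F' ↔
      ∃ Q : HeightOneSpectrum B, Q.asIdeal.LiesOver P.asIdeal ∧
        ff_placeOfPrime (K := K) Q = w := by
  rw [Place.mem_fiber]
  constructor
  · exact s37hi_exists_prime (K := K) (F := F) (F' := F') (A := A) (B := B) P w
  · rintro ⟨Q, hQ, rfl⟩
    exact s37hi_restrict (K := K) (F := F) (F' := F') P Q

/-- **The fundamental identity** at the place of `P`. -/
theorem s37hi_fi [Module.Finite A B] (hdegF : ∀ v : Place K F, v.deg = 1)
    (hdegF' : ∀ w : Place K F', w.deg = 1)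
    (hf : ∀ (P : HeightOneSpectrum A) (Q : HeightOneSpectrum B),
      Q.asIdeal.LiesOver P.asIdeal → Ideal.inertiaDeg' P.asIdeal Q.asIdeal = 1)
    (P : HeightOneSpectrum A) :
    ∑ w ∈ (ff_placeOfPrime (K := K) (F := F) P).fiber F',
        (w.ramificationIndex F : ℤ) * (w.deg : ℤ) =
      (Module.finrank F F' : ℤ) * ((ff_placeOfPrime (K := K) (F := F) P).deg : ℤ) := by
  classical
  haveI : P.asIdeal.IsMaximal := P.isMaximal
  have hp0 : P.asIdeal ≠ ⊥ := P.ne_bot
  have hsum := Ideal.sum_ramification_inertia (R := A) B F F' (p := P.asIdeal) hp0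
  have hmem : ∀ Q ∈ IsDedekindDomain.primesOverFinset P.asIdeal B,
      Q.IsPrime ∧ Q.LiesOver P.asIdeal :=
    fun Q hQ => (IsDedekindDomain.mem_primesOverFinset_iff hp0 _).mp hQ
  let ψ : {Q // Q ∈ IsDedekindDomain.primesOverFinset P.asIdeal B} → HeightOneSpectrum B :=
    fun Q => ⟨Q.1, (hmem Q.1 Q.2).1,
      @Ideal.ne_bot_of_liesOver_of_ne_bot _ _ _ _ _ _ _ hp0 Q.1 (hmem Q.1 Q.2).2⟩
  let φ : {Q // Q ∈ IsDedekindDomain.primesOverFinset P.asIdeal B} → Place K F' :=
    fun Q => ff_placeOfPrime (K := K) (F := F') (ψ Q)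
  have hφinj : Function.Injective φ := by
    intro Q Q' h
    have h1 := ff_placeOfPrime_injective (K := K) (F := F') (B := B) h
    exact Subtype.ext (congrArg HeightOneSpectrum.asIdeal h1)
  have hfs : (ff_placeOfPrime (K := K) (F := F) P).fiber F' = Finset.univ.image φ := by
    ext w
    rw [s37hi_mem_fiber (K := K) (F := F) (F' := F') (A := A) (B := B) P w]
    simp only [Finset.mem_image, Finset.mem_univ, true_and]
    constructor
    · rintro ⟨Q, hQ, rfl⟩
      exact ⟨⟨Q.asIdeal, (IsDedekindDomain.mem_primesOverFinset_iff hp0 _).mpr ⟨Q.isPrime, hQ⟩⟩,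
        rfl⟩
    · rintro ⟨Q, rfl⟩
      exact ⟨ψ Q, (hmem Q.1 Q.2).2, rfl⟩
  rw [hfs, Finset.sum_image (fun x _ y _ h => hφinj h), hdegF, Nat.cast_one, mul_one, ← hsum,
    Nat.cast_sum, ← Finset.sum_attach (IsDedekindDomain.primesOverFinset P.asIdeal B),
    Finset.univ_eq_attach]
  refine Finset.sum_congr rfl (fun Q _ => ?_)
  haveI : (ψ Q).asIdeal.LiesOver P.asIdeal := (hmem Q.1 Q.2).2
  have h1 := s37hi_ramificationIndex (K := K) (F := F) (F' := F') P (ψ Q)
  have h2 := hf P (ψ Q) (hmem Q.1 Q.2).2
  show ((ff_placeOfPrime (K := K) (F := F') (ψ Q)).ramificationIndex F : ℤ) *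
    ((ff_placeOfPrime (K := K) (F := F') (ψ Q)).deg : ℤ) = _
  rw [h1, hdegF']
  show _ = ((Ideal.ramificationIdx' P.asIdeal (ψ Q).asIdeal
    * Ideal.inertiaDeg' P.asIdeal (ψ Q).asIdeal : ℕ) : ℤ)
  rw [h2]
  simp

end Abstract

end

end Fermat.Agent.S37
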