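/-
S37, shared tool [HECKE-INPUTS] (owner: helper14; consumers: [ES], [DESCEND]).
INTERFACE FILE: the cut of `ModularCurve.HeckeInputsAlong Q̄ N ℓ` into leaves, and the compiled
compositions.  Prefix `s37hi_`.

Leaves
* `s37hi_NormAbsStatement` [HI-NORM]: for a finite extension of Dedekind domains `A ⊆ B`
  (fraction fields `F ⊆ F'`, characteristic `0`) and a non-zero prime `P` of `A`:
  `ord_P (N_{F'/F} x) = ∑_{Q ∣ P} f(Q|P) · ord_Q x`.  Pure Mathlib.
* `s37hi_GenStatement` [HI-GEN]: for function fields `F`, `F'` over an algebraically closed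
  field `K` of characteristic `0`, each with a coordinate, and ANY `K`-embedding `φ : F → F'`:
  `φ` is integral and finite, `F'` has principal divisors, the fundamental identity and the
  norm formula hold along `φ`.

Compositions (proved here)
* `s37hi_main_of : JCoordinateStatement → s37hi_GenStatement → HeckeInputsAlong Q̄ N ℓ`.
* `s37hi_hecke_eq`, `s37hi_hecke_mk`, `s37hi_hecke_spec`: `heckeOperatorBar` unfolded to
  `α_* ∘ β^*` on divisor classes.
-/
import Mathlib
import Fermat.Prelude.Def_ModularCurve_HeckeModule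
import Fermat.Agent.S24.Defs

set_option autoImplicit false
set_option linter.unusedSectionVars false
set_option linter.style.haveILetI false

namespace Fermat.Agent.S37

open AlgebraicCurve IsDedekindDomain ModularCurve Fermat.Agent.S24

noncomputable section

/-- **[HI-NORM]** The norm formula for a finite extension of Dedekind domains:
`ord_P (N_{F'/F} x) = ∑_{Q ∣ P} f(Q|P) · ord_Q x`  (written with `WithZero.log` of the adic
valuations, `ord = - log`). -/
def s37hi_NormAbsStatement : Prop :=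
  ∀ (F F' A B : Type) [Field F] [Field F'] [Algebra F F'] [CharZero F] [FiniteDimensional F F']
    [CommRing A] [IsDedekindDomain A] [CommRing B] [IsDedekindDomain B]
    [Algebra A F] [IsFractionRing A F] [Algebra B F'] [IsFractionRing B F']
    [Algebra A B] [Module.IsTorsionFree A B] [Module.Finite A B] [Algebra A F']
    [IsScalarTower A F F'] [IsScalarTower A B F']
    (P : HeightOneSpectrum A) (S : Finset (HeightOneSpectrum B)),
    (∀ Q : HeightOneSpectrum B, Q ∈ S ↔ Q.asIdeal.LiesOver P.asIdeal) →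
    ∀ x : F', x ≠ 0 →
      WithZero.log (P.valuation F (Algebra.norm F x)) =
        ∑ Q ∈ S, (Ideal.inertiaDeg' P.asIdeal Q.asIdeal : ℤ) * WithZero.log (Q.valuation F' x)

/-- **[HI-GEN]** Everything the Prelude's correspondences need, for an arbitrary embedding of
function fields with coordinates over an algebraically closed field of characteristic `0`. -/
def s37hi_GenStatement : Prop :=
  ∀ (K F F' : Type) [Field K] [Field F] [Field F'] [Algebra K F] [Algebra K F'] [IsAlgClosed K]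
    [CharZero K] (u : F) (u' : F'), IsCoordinate K u → IsCoordinate K u' →
    ∀ φ : F →ₐ[K] F',
      ∃ (hφ : φ.toRingHom.IsIntegral) (_ : HasPrincipalDivisors K F') (hfin : FiniteAlong K φ),
        FundamentalIdentityAlong K φ hφ ∧ NormFormulaAlong K φ hfin

/-- **Composition.**  `HeckeInputsAlong Q̄ N ℓ` at every level `N` and every `ℓ ≥ 1`. -/
theorem s37hi_main_of (hJ : JCoordinateStatement) (hG : s37hi_GenStatement) (N ℓ : ℕ)
    [NeZero N] [NeZero ℓ] : HeckeInputsAlong (AlgebraicClosure ℚ) N ℓ := by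
  have hu : IsCoordinate QBar (jF N) := hJ N
  have hu' : IsCoordinate QBar (jF (N * ℓ)) := hJ (N * ℓ)
  obtain ⟨hα, hP, hfin, -, hN⟩ := hG QBar (FunField N) (FunField (N * ℓ)) (jF N) (jF (N * ℓ))
    hu hu' (heckeAlphaBar QBar N ℓ)
  obtain ⟨hβ, _, _, hFI, _⟩ := hG QBar (FunField N) (FunField (N * ℓ)) (jF N) (jF (N * ℓ))
    hu hu' (heckeBetaBar QBar N ℓ)
  exact ⟨hα, hβ, hP, hfin, hFI, hN⟩

section Unfold

variable {N ℓ : ℕ} [NeZero N] [NeZero ℓ]

/-- `heckeOperatorBar` is the correspondence `α_* ∘ β^*`, for ANY choice of the proofs. -/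
theorem s37hi_hecke_eq (hℓ : ℓ.Prime) (hα : HeckeAlphaBarIntegral (AlgebraicClosure ℚ) N ℓ)
    (hβ : HeckeBetaBarIntegral (AlgebraicClosure ℚ) N ℓ)
    [HasPrincipalDivisors (AlgebraicClosure ℚ) (modularFunctionFieldBar (N * ℓ))]
    (hFI : FundamentalIdentityAlong (AlgebraicClosure ℚ) (heckeBetaBar (AlgebraicClosure ℚ) N ℓ)
      hβ)
    (hfin : FiniteAlong (AlgebraicClosure ℚ) (heckeAlphaBar (AlgebraicClosure ℚ) N ℓ))
    (hN : NormFormulaAlong (AlgebraicClosure ℚ) (heckeAlphaBar (AlgebraicClosure ℚ) N ℓ) hfin)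
    (x : JZero N) :
    heckeOperatorBar N ⟨ℓ, hℓ⟩ x = heckePic0Bar hα hβ hFI hfin hN x := by
  refine (heckeOperatorBar_apply N ⟨ℓ, hℓ⟩ x).trans ?_
  exact congrArg (fun T : JZero N →+ JZero N => T x) (heckeOperatorAlong_eq hα hβ hFI hfin hN)

/-- `T_ℓ [D] = [α_* β^* D]`. -/
theorem s37hi_hecke_mk (hℓ : ℓ.Prime) (hα : HeckeAlphaBarIntegral (AlgebraicClosure ℚ) N ℓ)
    (hβ : HeckeBetaBarIntegral (AlgebraicClosure ℚ) N ℓ)
    [HasPrincipalDivisors (AlgebraicClosure ℚ) (modularFunctionFieldBar (N * ℓ))]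
    (hFI : FundamentalIdentityAlong (AlgebraicClosure ℚ) (heckeBetaBar (AlgebraicClosure ℚ) N ℓ)
      hβ)
    (hfin : FiniteAlong (AlgebraicClosure ℚ) (heckeAlphaBar (AlgebraicClosure ℚ) N ℓ))
    (hN : NormFormulaAlong (AlgebraicClosure ℚ) (heckeAlphaBar (AlgebraicClosure ℚ) N ℓ) hfin)
    (D : Divisor.degZero (K := AlgebraicClosure ℚ) (F := modularFunctionFieldBar N)) :
    heckeOperatorBar N ⟨ℓ, hℓ⟩ (Pic0.mk D) =
      Pic0.mk ⟨Divisor.pushforwardAlong (heckeAlphaBar (AlgebraicClosure ℚ) N ℓ) hα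
          (Divisor.pullbackAlong (heckeBetaBar (AlgebraicClosure ℚ) N ℓ) hβ
            (D : Divisor (AlgebraicClosure ℚ) (modularFunctionFieldBar N))),
        Divisor.correspondence_mem_degZero (heckeBetaBar (AlgebraicClosure ℚ) N ℓ)
          (heckeAlphaBar (AlgebraicClosure ℚ) N ℓ) hβ hα hFI D.2⟩ := by
  rw [s37hi_hecke_eq hℓ hα hβ hFI hfin hN]
  rfl

/-- The form for consumers that only have `HeckeInputsAlong`. -/
theorem s37hi_hecke_spec (hℓ : ℓ.Prime) (h : HeckeInputsAlong (AlgebraicClosure ℚ) N ℓ) :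
    ∃ (hα : HeckeAlphaBarIntegral (AlgebraicClosure ℚ) N ℓ)
      (hβ : HeckeBetaBarIntegral (AlgebraicClosure ℚ) N ℓ)
      (_ : HasPrincipalDivisors (AlgebraicClosure ℚ) (modularFunctionFieldBar (N * ℓ)))
      (hFI : FundamentalIdentityAlong (AlgebraicClosure ℚ)
        (heckeBetaBar (AlgebraicClosure ℚ) N ℓ) hβ)
      (hfin : FiniteAlong (AlgebraicClosure ℚ) (heckeAlphaBar (AlgebraicClosure ℚ) N ℓ))
      (_ : NormFormulaAlong (AlgebraicClosure ℚ) (heckeAlphaBar (AlgebraicClosure ℚ) N ℓ) hfin),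
      ∀ D : Divisor.degZero (K := AlgebraicClosure ℚ) (F := modularFunctionFieldBar N),
        heckeOperatorBar N ⟨ℓ, hℓ⟩ (Pic0.mk D) =
          Pic0.mk ⟨Divisor.pushforwardAlong (heckeAlphaBar (AlgebraicClosure ℚ) N ℓ) hα
              (Divisor.pullbackAlong (heckeBetaBar (AlgebraicClosure ℚ) N ℓ) hβ
                (D : Divisor (AlgebraicClosure ℚ) (modularFunctionFieldBar N))),
            Divisor.correspondence_mem_degZero (heckeBetaBar (AlgebraicClosure ℚ) N ℓ)
              (heckeAlphaBar (AlgebraicClosure ℚ) N ℓ) hβ hα hFI D.2⟩ := by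
  obtain ⟨hα, hβ, hP, hfin, hFI, hN⟩ := h
  exact ⟨hα, hβ, hP, hFI, hfin, hN, fun D => s37hi_hecke_mk hℓ hα hβ hFI hfin hN D⟩

end Unfold

end

end Fermat.Agent.S37
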