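/-
S37, package [HECKE-INPUTS] (owner: helper14), part 2: THE INSTANTIATION.
`s37hi_gen_of : s37hi_NormAbsStatement → s37hi_GenStatement`, and, HYPOTHESIS-FREE, for function
fields `F`, `F'` with coordinates over an algebraically closed field `K` of characteristic `0`
and any `K`-embedding `φ : F → F'`:
* `s37hi_integral`, `s37hi_finite`: `φ` is integral and finite;
* `s37hi_principal`: `F'` has principal divisors;
* `s37hi_fundamental`: the fundamental identity along `φ`;
* `s37hi_normFormula`: the norm formula along `φ` (from [HI-NORM]).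
Route: for a place `v` of `F` take the coordinate `u₀ ∈ {u, 1/u}` regular at `v`,
`A` = integral closure of `K[u₀]` in `F`, `B` = integral closure of `A` in `F'`, and use the
dictionary of `HeckeInputsDed.lean`.
-/
import Mathlib
import Fermat.Agent.S37.HeckeInputsDed
import Fermat.Agent.S37.HeckeInputsDefs
import Fermat.Agent.S24.FFIdentity
import Fermat.Agent.S24.CoordDiv

set_option autoImplicit false
set_option linter.unusedSectionVars false
set_option linter.style.haveILetI false

namespace Fermat.Agent.S37

open AlgebraicCurve IsDedekindDomain WithZero Fermat.Agent.S24 IntermediateField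

noncomputable section

section Residue

variable {K : Type*} [Field K] [IsAlgClosed K]

/-- The residue fields of a `K`-algebra of finite type are `K` (`K` algebraically closed). -/
theorem s37hi_residue_bijective {R : Type*} [CommRing R] [Algebra K R] [Algebra.FiniteType K R]
    (M : Ideal R) [M.IsMaximal] : Function.Bijective (algebraMap K (R ⧸ M)) := by
  letI : Field (R ⧸ M) := Ideal.Quotient.field M
  haveI : Algebra.FiniteType K (R ⧸ M) :=
    Algebra.FiniteType.of_surjective (Ideal.Quotient.mkₐ K M) (Ideal.Quotient.mkₐ_surjective K M)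
  haveI : Module.Finite K (R ⧸ M) := finite_of_finite_type_of_isJacobsonRing K (R ⧸ M)
  haveI : Algebra.IsIntegral K (R ⧸ M) := Algebra.IsIntegral.of_finite K _
  exact IsAlgClosed.algebraMap_bijective_of_isIntegral

/-- All inertia degrees are `1` between `K`-algebras of finite type. -/
theorem s37hi_inertiaDeg_eq_one {R S : Type*} [CommRing R] [CommRing S] [Algebra K R]
    [Algebra K S] [Algebra R S] [IsScalarTower K R S] [Algebra.FiniteType K R]
    [Algebra.FiniteType K S] (p : Ideal R) (q : Ideal S) [p.IsMaximal] [q.IsMaximal]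
    [q.LiesOver p] : Ideal.inertiaDeg' p q = 1 := by
  rw [Ideal.inertiaDeg'_algebraMap]
  letI : Field (R ⧸ p) := Ideal.Quotient.field _
  letI : Field (S ⧸ q) := Ideal.Quotient.field _
  letI := Ideal.Quotient.algebraOfLiesOver q p
  haveI := Ideal.Quotient.isScalarTower_of_liesOver K q p
  have hbij : Function.Bijective (algebraMap (R ⧸ p) (S ⧸ q)) := by
    refine ⟨RingHom.injective _, fun x => ?_⟩
    obtain ⟨c, hc⟩ := (s37hi_residue_bijective (K := K) q).2 x
    refine ⟨algebraMap K _ c, ?_⟩
    rw [← hc, ← IsScalarTower.algebraMap_apply]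
  rw [← Module.finrank_self (R ⧸ p)]
  exact ((LinearEquiv.ofBijective (Algebra.linearMap (R ⧸ p) (S ⧸ q)) hbij).finrank_eq).symm

end Residue

section Closure

theorem s37hi_sep (K F F' : Type) [Field K] [Field F] [Field F'] [Algebra K F] [Algebra F F']
    [FiniteDimensional F F'] [CharZero K] : Algebra.IsSeparable F F' := by
  have : CharZero F := ff_charZero K F
  infer_instance

theorem s37hi_torsionFree (A F F' : Type) [Field F] [Field F'] [Algebra F F'] [CommRing A]
    [IsDomain A] [Algebra A F] [IsFractionRing A F] [Algebra A F'] [IsScalarTower A F F'] :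
    Module.IsTorsionFree A F' := by
  rw [Module.isTorsionFree_iff_algebraMap_injective, IsScalarTower.algebraMap_eq A F F']
  exact (algebraMap F F').injective.comp (IsFractionRing.injective A F)

theorem s37hi_closure_dedekind (K F F' A : Type) [Field K] [Field F] [Field F'] [Algebra K F]
    [Algebra F F'] [FiniteDimensional F F'] [CharZero K]
    [CommRing A] [IsDedekindDomain A] [Algebra A F] [IsFractionRing A F]
    [Algebra A F'] [IsScalarTower A F F'] : IsDedekindDomain (integralClosure A F') := by
  have := s37hi_sep K F F'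
  exact integralClosure.isDedekindDomain A F F'

theorem s37hi_closure_frac (F F' A : Type) [Field F] [Field F']
    [Algebra F F'] [FiniteDimensional F F']
    [CommRing A] [IsDomain A] [Algebra A F] [IsFractionRing A F]
    [Algebra A F'] [IsScalarTower A F F'] : IsFractionRing (integralClosure A F') F' :=
  integralClosure.isFractionRing_of_finite_extension F F'

theorem s37hi_closure_finite (K F F' A : Type) [Field K] [Field F] [Field F'] [Algebra K F]
    [Algebra F F'] [FiniteDimensional F F'] [CharZero K]
    [CommRing A] [IsDedekindDomain A] [Algebra A F] [IsFractionRing A F]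
    [Algebra A F'] [IsScalarTower A F F'] : Module.Finite A (integralClosure A F') := by
  have := s37hi_sep K F F'
  exact IsIntegralClosure.finite A F F' (integralClosure A F')

theorem s37hi_closure_finiteType (K F F' A : Type) [Field K] [Field F] [Field F'] [Algebra K F]
    [Algebra K F'] [Algebra F F'] [FiniteDimensional F F'] [CharZero K]
    [CommRing A] [IsDedekindDomain A] [Algebra K A] [Algebra A F] [IsFractionRing A F]
    [Algebra.FiniteType K A] [Algebra A F'] [IsScalarTower A F F'] [IsScalarTower K A F'] :
    Algebra.FiniteType K (integralClosure A F') := by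
  haveI := s37hi_closure_finite K F F' A
  exact Algebra.FiniteType.trans (R := K) (S := A) (A := integralClosure A F')
    inferInstance inferInstance

variable {K F F' : Type} [Field K] [Field F] [Field F'] [Algebra K F] [Algebra K F']
  [Algebra F F'] [IsScalarTower K F F'] [FiniteDimensional F F'] [CharZero K] [IsAlgClosed K]
variable {A : Type} [CommRing A] [IsDedekindDomain A] [Algebra K A] [Algebra A F]
  [IsFractionRing A F] [IsScalarTower K A F] [Algebra.FiniteType K A]
  [Algebra A F'] [IsScalarTower A F F'] [IsScalarTower K A F']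
variable [HasPrincipalDivisors K F']

/-- The fundamental identity at the place of a prime `P` of `A`. -/
theorem s37hi_fi_closure (hdegF : ∀ v : Place K F, v.deg = 1)
    (hdegF' : ∀ w : Place K F', w.deg = 1) (P : HeightOneSpectrum A) :
    ∑ w ∈ (ff_placeOfPrime (K := K) (F := F) P).fiber F',
        (w.ramificationIndex F : ℤ) * (w.deg : ℤ) =
      (Module.finrank F F' : ℤ) * ((ff_placeOfPrime (K := K) (F := F) P).deg : ℤ) := by
  haveI := s37hi_closure_dedekind K F F' A
  haveI := s37hi_closure_frac F F' A
  haveI := s37hi_closure_finite K F F' A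
  haveI := s37hi_closure_finiteType K F F' A
  haveI := s37hi_torsionFree A F F'
  refine s37hi_fi (K := K) (F := F) (F' := F') (A := A) (B := integralClosure A F') hdegF hdegF'
    ?_ P
  intro P Q hPQ
  haveI := hPQ
  haveI : P.asIdeal.IsMaximal := P.isMaximal
  haveI : Q.asIdeal.IsMaximal := Q.isMaximal
  exact s37hi_inertiaDeg_eq_one (K := K) P.asIdeal Q.asIdeal


/-- The primes of the integral closure over `P`, as a finset, and the sum over the fibre. -/
theorem s37hi_exists_finset (P : HeightOneSpectrum A) :
    haveI := s37hi_closure_dedekind K F F' A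
    haveI := s37hi_closure_frac F F' A
    ∃ S : Finset (HeightOneSpectrum (integralClosure A F')),
      (∀ Q, Q ∈ S ↔ Q.asIdeal.LiesOver P.asIdeal) ∧
      ∀ g : Place K F' → ℤ, ∑ w ∈ (ff_placeOfPrime (K := K) (F := F) P).fiber F', g w =
        ∑ Q ∈ S, g (ff_placeOfPrime (K := K) (F := F') Q) := by
  classical
  haveI := s37hi_closure_dedekind K F F' A
  haveI := s37hi_closure_frac F F' A
  haveI := s37hi_torsionFree A F F'
  have hinj := ff_placeOfPrime_injective (K := K) (F := F') (B := integralClosure A F')
  have hmem : ∀ Q : HeightOneSpectrum (integralClosure A F'),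
      ff_placeOfPrime (K := K) (F := F') Q ∈ (ff_placeOfPrime (K := K) (F := F) P).fiber F' ↔
        Q.asIdeal.LiesOver P.asIdeal := by
    intro Q
    rw [s37hi_mem_fiber (K := K) (F := F) (F' := F') (A := A) (B := integralClosure A F')]
    constructor
    · rintro ⟨Q', hQ', h⟩
      rwa [← hinj h]
    · intro h
      exact ⟨Q, h, rfl⟩
  refine ⟨((ff_placeOfPrime (K := K) (F := F) P).fiber F').preimage _ hinj.injOn, ?_, ?_⟩
  · intro Q
    rw [Finset.mem_preimage, hmem]
  · intro g
    have himg : (ff_placeOfPrime (K := K) (F := F) P).fiber F' =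
        (((ff_placeOfPrime (K := K) (F := F) P).fiber F').preimage _ hinj.injOn).image
          (fun Q => ff_placeOfPrime (K := K) (F := F') Q) := by
      ext w
      rw [Finset.mem_image]
      constructor
      · intro hw
        obtain ⟨Q, hQ, rfl⟩ := (s37hi_mem_fiber (K := K) (F := F) (F' := F') (A := A)
          (B := integralClosure A F') P w).1 hw
        exact ⟨Q, by rw [Finset.mem_preimage]; exact hw, rfl⟩
      · rintro ⟨Q, hQ, rfl⟩
        rwa [Finset.mem_preimage] at hQ
    conv_lhs => rw [himg]
    rw [Finset.sum_image (fun x _ y _ h => hinj h)]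

omit [HasPrincipalDivisors K F'] in
theorem s37hi_inertiaDeg_place (hdegF : ∀ v : Place K F, v.deg = 1)
    (hdegF' : ∀ w : Place K F', w.deg = 1) (w : Place K F') : w.inertiaDeg F = 1 := by
  have h := w.deg_restrict_mul_inertiaDeg (F := F)
  rw [hdegF, hdegF', one_mul] at h
  exact h

/-- The norm formula at the place of a prime `P` of `A`. -/
theorem s37hi_norm_closure (hNA : s37hi_NormAbsStatement) (hdegF : ∀ v : Place K F, v.deg = 1)
    (hdegF' : ∀ w : Place K F', w.deg = 1) (P : HeightOneSpectrum A) (f : F') (hf : f ≠ 0)
    (D : Divisor K F') (hD : ∀ w, D w = w.ord f) :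
    Divisor.pushforward F D (ff_placeOfPrime (K := K) (F := F) P) =
      (ff_placeOfPrime (K := K) (F := F) P).ord (Algebra.norm F f) := by
  classical
  haveI := s37hi_closure_dedekind K F F' A
  haveI := s37hi_closure_frac F F' A
  haveI := s37hi_closure_finite K F F' A
  haveI := s37hi_closure_finiteType K F F' A
  haveI := s37hi_torsionFree A F F'
  haveI : CharZero F := ff_charZero K F
  obtain ⟨S, hS, hfib⟩ := s37hi_exists_finset (K := K) (F := F) (F' := F') (A := A) P
  have key := hNA F F' A (integralClosure A F') P S hS f hf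
  have hdeg1 : ∀ Q ∈ S, Ideal.inertiaDeg' P.asIdeal Q.asIdeal = 1 := by
    intro Q hQ
    haveI := (hS Q).1 hQ
    haveI : P.asIdeal.IsMaximal := P.isMaximal
    haveI : Q.asIdeal.IsMaximal := Q.isMaximal
    exact s37hi_inertiaDeg_eq_one (K := K) P.asIdeal Q.asIdeal
  rw [Divisor.pushforward_apply, ff_placeOfPrime_ord, key]
  have h1 : ∀ w ∈ D.support,
      (if w.restrict F = ff_placeOfPrime (K := K) (F := F) P
        then D w * (w.inertiaDeg F : ℤ) else 0) =
      if w.restrict F = ff_placeOfPrime (K := K) (F := F) P then w.ord f else 0 := by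
    intro w _
    rw [s37hi_inertiaDeg_place hdegF hdegF' w, Nat.cast_one, mul_one, hD]
  rw [Finset.sum_congr rfl h1, ← Finset.sum_filter]
  have h2 : D.support.filter (fun w => w.restrict F = ff_placeOfPrime (K := K) (F := F) P) ⊆
      (ff_placeOfPrime (K := K) (F := F) P).fiber F' :=
    fun w hw => Place.mem_fiber.2 (Finset.mem_filter.1 hw).2
  rw [Finset.sum_subset h2 (fun w hw hw' => by
    rw [Finset.mem_filter, not_and_or] at hw'
    rcases hw' with h | h
    · rw [Finsupp.mem_support_iff, not_not, hD] at h
      exact h
    · exact absurd (Place.mem_fiber.1 hw) h)]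
  rw [hfib, ← Finset.sum_neg_distrib]
  refine Finset.sum_congr rfl (fun Q hQ => ?_)
  rw [ff_placeOfPrime_ord, hdeg1 Q hQ, Nat.cast_one, one_mul]

end Closure


section Generic

variable {K F F' : Type} [Field K] [Field F] [Field F'] [Algebra K F] [Algebra K F']
  [Algebra F F'] [IsScalarTower K F F']

/-- The image of a coordinate is a coordinate. -/
theorem s37hi_coord_map {u : F} {u' : F'} (hu : IsCoordinate K u) (hu' : IsCoordinate K u') :
    IsCoordinate K (algebraMap F F' u) := by
  refine coord_isCoordinate_of_transcendental hu' ?_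
  have h := hu.transcendental
  rw [Transcendental] at h ⊢
  rwa [show algebraMap F F' u = IsScalarTower.toAlgHom K F F' u from rfl,
    isAlgebraic_algHom_iff _ (IsScalarTower.toAlgHom K F F').injective]

/-- `F'` is finite over `F`. -/
theorem s37hi_finite_of_coord {u : F} {u' : F'} (hu : IsCoordinate K u)
    (hu' : IsCoordinate K u') : FiniteDimensional F F' := by
  have hc := s37hi_coord_map hu hu'
  haveI := hc.finite
  obtain ⟨s, hs⟩ := Module.finite_def.mp hc.finite
  refine Module.finite_def.mpr ⟨s, ?_⟩
  rw [eq_top_iff]
  intro x _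
  have hx : x ∈ Submodule.span K⟮algebraMap F F' u⟯ (s : Set F') := by rw [hs]; trivial
  have hle : K⟮algebraMap F F' u⟯ ≤ (IsScalarTower.toAlgHom K F F').fieldRange := by
    rw [adjoin_simple_le_iff]
    exact ⟨u, rfl⟩
  induction hx using Submodule.span_induction with
  | mem y hy => exact Submodule.subset_span hy
  | zero => exact zero_mem _
  | add y z _ _ hy hz => exact add_mem (hy trivial) (hz trivial)
  | smul c y _ hy =>
    obtain ⟨d, hd⟩ := hle c.2
    have : c • y = d • y := by
      rw [Algebra.smul_def, Algebra.smul_def]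
      congr 1
      exact hd.symm
    rw [this]
    exact Submodule.smul_mem _ d (hy trivial)


variable [IsAlgClosed K] [CharZero K]

theorem s37hi_deg_one {u : F} (hu : IsCoordinate K u) (v : Place K F) : v.deg = 1 :=
  diff_deg_eq_one (diff_isAlgebraic_of_isCoordinate hu) v

/-- A coordinate regular at `v`. -/
theorem s37hi_exists_regular {u : F} (hu : IsCoordinate K u) (v : Place K F) :
    ∃ u₀ : F, IsCoordinate K u₀ ∧ u₀ ∈ v.toValuationSubring := by
  rcases place_mem_or_inv_mem_nonunits v u with h | h
  · exact ⟨u, hu, h⟩
  · exact ⟨u⁻¹, glue_isCoordinate_inv hu, place_nonunits_subset v h⟩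

variable [FiniteDimensional F F'] [HasPrincipalDivisors K F']

/-- The fundamental identity at a place at which the coordinate `u₀` is regular. -/
theorem s37hi_fi_at {u₀ : F} (hu₀ : IsCoordinate K u₀) {u' : F'} (hu' : IsCoordinate K u')
    (v : Place K F) (hv : u₀ ∈ v.toValuationSubring) :
    ∑ w ∈ v.fiber F', (w.ramificationIndex F : ℤ) * (w.deg : ℤ) =
      (Module.finrank F F' : ℤ) * (v.deg : ℤ) := by
  haveI := ff_isDedekindDomain_B hu₀
  haveI := ff_isFractionRing_B hu₀
  haveI := ff_finiteType_B hu₀
  obtain ⟨P, hP⟩ := ff_place_surjective hu₀ v hv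
  have hP' : ff_placeOfPrime (K := K) (F := F) P = v := hP
  have h := s37hi_fi_closure (K := K) (F := F) (F' := F') (A := ffB K u₀)
    (fun v => s37hi_deg_one hu₀ v) (fun w => s37hi_deg_one hu' w) P
  rwa [hP'] at h

/-- **The fundamental identity** for an extension of function fields with coordinates. -/
theorem s37hi_fundamentalIdentity {u : F} (hu : IsCoordinate K u) {u' : F'}
    (hu' : IsCoordinate K u') : FundamentalIdentity K F F' := by
  refine ⟨fun v => ?_⟩
  obtain ⟨u₀, hu₀, hv⟩ := s37hi_exists_regular hu v
  exact s37hi_fi_at hu₀ hu' v hv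


/-- The norm formula at a place at which the coordinate `u₀` is regular. -/
theorem s37hi_norm_at (hNA : s37hi_NormAbsStatement) {u₀ : F} (hu₀ : IsCoordinate K u₀)
    {u' : F'} (hu' : IsCoordinate K u') (v : Place K F) (hv : u₀ ∈ v.toValuationSubring)
    (f : F') (hf : f ≠ 0) (D : Divisor K F') (hD : ∀ w, D w = w.ord f) :
    Divisor.pushforward F D v = v.ord (Algebra.norm F f) := by
  haveI := ff_isDedekindDomain_B hu₀
  haveI := ff_isFractionRing_B hu₀
  haveI := ff_finiteType_B hu₀
  obtain ⟨P, hP⟩ := ff_place_surjective hu₀ v hv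
  have hP' : ff_placeOfPrime (K := K) (F := F) P = v := hP
  have h := s37hi_norm_closure (K := K) (F := F) (F' := F') (A := ffB K u₀) hNA
    (fun v => s37hi_deg_one hu₀ v) (fun w => s37hi_deg_one hu' w) P f hf D hD
  rwa [hP'] at h

/-- **The norm formula** for an extension of function fields with coordinates. -/
theorem s37hi_normFormula_generic (hNA : s37hi_NormAbsStatement) {u : F}
    (hu : IsCoordinate K u) {u' : F'} (hu' : IsCoordinate K u') :
    Divisor.PushforwardNormFormula K F F' := by
  intro f hf D hD v
  obtain ⟨u₀, hu₀, hv⟩ := s37hi_exists_regular hu v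
  exact s37hi_norm_at hNA hu₀ hu' v hv f hf D hD

end Generic

section Along

variable {K F F' : Type} [Field K] [Field F] [Field F'] [Algebra K F] [Algebra K F']
  [IsAlgClosed K] [CharZero K]

theorem s37hi_finite {u : F} {u' : F'} (hu : IsCoordinate K u) (hu' : IsCoordinate K u')
    (φ : F →ₐ[K] F') : FiniteAlong K φ := by
  letI := algebraAlong φ
  haveI := isScalarTower_along φ
  exact s37hi_finite_of_coord hu hu'

theorem s37hi_integral {u : F} {u' : F'} (hu : IsCoordinate K u) (hu' : IsCoordinate K u')
    (φ : F →ₐ[K] F') : φ.toRingHom.IsIntegral := by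
  letI := algebraAlong φ
  haveI : Module.Finite F F' := s37hi_finite hu hu' φ
  exact fun x => Algebra.IsIntegral.isIntegral (R := F) x

theorem s37hi_principal {u' : F'} (hu' : IsCoordinate K u') : HasPrincipalDivisors K F' :=
  coord_principalDivisor ff_fundamentalIdentity K F' u' hu'

theorem s37hi_fundamental {u : F} {u' : F'} (hu : IsCoordinate K u) (hu' : IsCoordinate K u')
    (φ : F →ₐ[K] F') (hφ : φ.toRingHom.IsIntegral) [HasPrincipalDivisors K F'] :
    FundamentalIdentityAlong K φ hφ := by
  letI := algebraAlong φ
  haveI := isScalarTower_along φ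
  haveI : Module.Finite F F' := s37hi_finite hu hu' φ
  exact s37hi_fundamentalIdentity hu hu'

theorem s37hi_normFormula (hNA : s37hi_NormAbsStatement) {u : F} {u' : F'}
    (hu : IsCoordinate K u) (hu' : IsCoordinate K u') (φ : F →ₐ[K] F')
    (hfin : FiniteAlong K φ) : NormFormulaAlong K φ hfin := by
  letI := algebraAlong φ
  haveI := isScalarTower_along φ
  haveI : Module.Finite F F' := hfin
  haveI := s37hi_principal hu'
  exact s37hi_normFormula_generic hNA hu hu'

/-- **[HI-GEN] from [HI-NORM].** -/
theorem s37hi_gen_of (hNA : s37hi_NormAbsStatement) : s37hi_GenStatement := by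
  intro K F F' _ _ _ _ _ _ _ u u' hu hu' φ
  haveI := s37hi_principal hu'
  exact ⟨s37hi_integral hu hu' φ, s37hi_principal hu', s37hi_finite hu hu' φ,
    s37hi_fundamental hu hu' φ _, s37hi_normFormula hNA hu hu' φ _⟩

end Along

end
end Fermat.Agent.S37
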