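/-
S37, package [HECKE-INPUTS] (owner: helper14), part 3: THE MODULAR INSTANCE.
Hypothesis-free at every level `N` and every `ℓ ≥ 1`: `α`, `β` are integral and finite,
`F̄_N` has principal divisors, the fundamental identity holds along `α` and `β`.
From [HI-NORM]: the norm formula along `α`, `β`, and `HeckeInputsAlong Q̄ N ℓ`.
-/
import Mathlib
import Fermat.Agent.S37.HeckeInputsGen
import Fermat.Agent.S24.Final

set_option autoImplicit false
set_option linter.unusedSectionVars false
set_option linter.style.haveILetI false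

namespace Fermat.Agent.S37

open AlgebraicCurve ModularCurve Fermat.Agent.S24

noncomputable section

/-- `F̄_N` has principal divisors. -/
theorem s37hi_principalBar (N : ℕ) [NeZero N] :
    HasPrincipalDivisors (AlgebraicClosure ℚ) (modularFunctionFieldBar N) :=
  s37hi_principal (K := QBar) (F' := FunField N) (final_jCoordinate N)

variable (N ℓ : ℕ) [NeZero N] [NeZero ℓ]

theorem s37hi_alpha_integral : HeckeAlphaBarIntegral (AlgebraicClosure ℚ) N ℓ :=
  s37hi_integral (K := QBar) (final_jCoordinate N) (final_jCoordinate (N * ℓ))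
    (heckeAlphaBar QBar N ℓ)

theorem s37hi_beta_integral : HeckeBetaBarIntegral (AlgebraicClosure ℚ) N ℓ :=
  s37hi_integral (K := QBar) (final_jCoordinate N) (final_jCoordinate (N * ℓ))
    (heckeBetaBar QBar N ℓ)

theorem s37hi_alpha_finite :
    FiniteAlong (AlgebraicClosure ℚ) (heckeAlphaBar (AlgebraicClosure ℚ) N ℓ) :=
  s37hi_finite (K := QBar) (final_jCoordinate N) (final_jCoordinate (N * ℓ))
    (heckeAlphaBar QBar N ℓ)

theorem s37hi_beta_finite :
    FiniteAlong (AlgebraicClosure ℚ) (heckeBetaBar (AlgebraicClosure ℚ) N ℓ) :=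
  s37hi_finite (K := QBar) (final_jCoordinate N) (final_jCoordinate (N * ℓ))
    (heckeBetaBar QBar N ℓ)

theorem s37hi_alpha_fundamental
    [HasPrincipalDivisors (AlgebraicClosure ℚ) (modularFunctionFieldBar (N * ℓ))]
    (hα : HeckeAlphaBarIntegral (AlgebraicClosure ℚ) N ℓ) :
    FundamentalIdentityAlong (AlgebraicClosure ℚ) (heckeAlphaBar (AlgebraicClosure ℚ) N ℓ) hα :=
  s37hi_fundamental (K := QBar) (final_jCoordinate N) (final_jCoordinate (N * ℓ))
    (heckeAlphaBar QBar N ℓ) hα

theorem s37hi_beta_fundamental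
    [HasPrincipalDivisors (AlgebraicClosure ℚ) (modularFunctionFieldBar (N * ℓ))]
    (hβ : HeckeBetaBarIntegral (AlgebraicClosure ℚ) N ℓ) :
    FundamentalIdentityAlong (AlgebraicClosure ℚ) (heckeBetaBar (AlgebraicClosure ℚ) N ℓ) hβ :=
  s37hi_fundamental (K := QBar) (final_jCoordinate N) (final_jCoordinate (N * ℓ))
    (heckeBetaBar QBar N ℓ) hβ

theorem s37hi_alpha_norm (hNA : s37hi_NormAbsStatement)
    (hfin : FiniteAlong (AlgebraicClosure ℚ) (heckeAlphaBar (AlgebraicClosure ℚ) N ℓ)) :
    NormFormulaAlong (AlgebraicClosure ℚ) (heckeAlphaBar (AlgebraicClosure ℚ) N ℓ) hfin :=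
  s37hi_normFormula (K := QBar) hNA (final_jCoordinate N) (final_jCoordinate (N * ℓ))
    (heckeAlphaBar QBar N ℓ) hfin

theorem s37hi_beta_norm (hNA : s37hi_NormAbsStatement)
    (hfin : FiniteAlong (AlgebraicClosure ℚ) (heckeBetaBar (AlgebraicClosure ℚ) N ℓ)) :
    NormFormulaAlong (AlgebraicClosure ℚ) (heckeBetaBar (AlgebraicClosure ℚ) N ℓ) hfin :=
  s37hi_normFormula (K := QBar) hNA (final_jCoordinate N) (final_jCoordinate (N * ℓ))
    (heckeBetaBar QBar N ℓ) hfin

/-- `HeckeInputsAlong Q̄ N ℓ` from the abstract norm formula [HI-NORM]. -/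
theorem s37hi_main_of_norm (hNA : s37hi_NormAbsStatement) :
    HeckeInputsAlong (AlgebraicClosure ℚ) N ℓ :=
  s37hi_main_of final_jCoordinate (s37hi_gen_of hNA) N ℓ

end

end Fermat.Agent.S37
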