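/-
S37, [HI-NORM] (helper6): the norm formula for a finite extension of Dedekind domains,
`ord_P (N_{F'/F} x) = ∑_{Q ∣ P} f(Q|P) · ord_Q x`.  Prefix `s37hn_`.  Pure Mathlib.

Route: `Ideal.relNorm` is multiplicative and `relNorm Q = (Q ∩ A) ^ f(Q)`, so by induction on the
prime factorisation `mult_P (relNorm I) = ∑_{Q ∣ P} f(Q|P) · mult_Q I`; for `I = (b)` the relative
norm is `(intNorm b)`; fractions by multiplicativity.
-/
import Mathlib
import Fermat.Agent.S37.HeckeInputsDefs

set_option autoImplicit false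
set_option maxHeartbeats 1000000
set_option synthInstance.maxHeartbeats 400000

open IsDedekindDomain

noncomputable section

namespace Fermat.Agent.S37

section Ideals

variable {A B : Type} [CommRing A] [IsDedekindDomain A] [CommRing B] [IsDedekindDomain B]
  [Algebra A B] [Module.IsTorsionFree A B] [Module.Finite A B]

/-- multiplicity of a height-one prime in another prime ideal. -/
theorem s37hn_mult_prime (Q : HeightOneSpectrum B) (p : Ideal B) (hp : Prime p) :
    multiplicity Q.asIdeal p = if Q.asIdeal = p then 1 else 0 := by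
  split_ifs with h
  · rw [← h]
    exact multiplicity_self
  · rw [multiplicity_eq_zero]
    intro hdvd
    apply h
    have hp0 : p ≠ ⊥ := hp.ne_zero
    have hpP : p.IsPrime := (Ideal.prime_iff_isPrime hp0).1 hp
    have hpM : p.IsMaximal := hpP.isMaximal hp0
    have hle : p ≤ Q.asIdeal := Ideal.le_of_dvd hdvd
    exact (hpM.eq_of_le Q.isPrime.ne_top hle).symm

open Classical in
/-- multiplicity of `P` in the relative norm of a prime ideal. -/
theorem s37hn_mult_relNorm_prime [PerfectField (FractionRing A)] (P : HeightOneSpectrum A)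
    (p : Ideal B) (hp : Prime p) :
    multiplicity P.asIdeal (Ideal.relNorm A p) =
      if p.LiesOver P.asIdeal then Ideal.inertiaDeg' P.asIdeal p else 0 := by
  have hp0 : p ≠ ⊥ := hp.ne_zero
  have hpP : p.IsPrime := (Ideal.prime_iff_isPrime hp0).1 hp
  have hpM : p.IsMaximal := hpP.isMaximal hp0
  have hu0 : p.under A ≠ ⊥ := Ideal.under_ne_bot A hp0
  have huM : (p.under A).IsMaximal := inferInstance
  have hrel : Ideal.relNorm A p = (p.under A) ^ p.inertiaDeg A :=
    Ideal.relNorm_eq_pow_of_isMaximal p (p.under A)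
  rw [hrel]
  split_ifs with h
  · have hP : P.asIdeal = p.under A := (Ideal.liesOver_iff _ _).1 h
    have hPM : P.asIdeal.IsMaximal := hP ▸ huM
    rw [Ideal.inertiaDeg'_eq_inertiaDeg P.asIdeal p, ← hP]
    exact multiplicity_pow_self P.ne_bot (fun hu => P.isPrime.ne_top (Ideal.isUnit_iff.1 hu)) _
  · rw [multiplicity_eq_zero]
    intro hdvd
    apply h
    rw [Ideal.liesOver_iff]
    have h1 : P.asIdeal ∣ p.under A := P.prime.dvd_of_dvd_pow hdvd
    have hle : p.under A ≤ P.asIdeal := Ideal.le_of_dvd h1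
    exact (huM.eq_of_le P.isPrime.ne_top hle).symm

/-- **The ideal form of the norm formula.** -/
theorem s37hn_mult_relNorm [PerfectField (FractionRing A)] (P : HeightOneSpectrum A)
    (S : Finset (HeightOneSpectrum B))
    (hS : ∀ Q : HeightOneSpectrum B, Q ∈ S ↔ Q.asIdeal.LiesOver P.asIdeal)
    (I : Ideal B) (hI : I ≠ ⊥) :
    multiplicity P.asIdeal (Ideal.relNorm A I) =
      ∑ Q ∈ S, Ideal.inertiaDeg' P.asIdeal Q.asIdeal * multiplicity Q.asIdeal I := by
  classical
  induction I using UniqueFactorizationMonoid.induction_on_prime with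
  | h₁ => exact absurd rfl hI
  | h₂ x hx =>
    have hx' : x = ⊤ := Ideal.isUnit_iff.1 hx
    subst hx'
    rw [Ideal.relNorm_top]
    have h1 : multiplicity P.asIdeal (⊤ : Ideal A) = 0 := by
      rw [multiplicity_eq_zero]
      intro hdvd
      exact P.isPrime.ne_top (top_le_iff.1 (Ideal.le_of_dvd hdvd))
    rw [h1]
    symm
    refine Finset.sum_eq_zero fun Q _ => ?_
    have h2 : multiplicity Q.asIdeal (⊤ : Ideal B) = 0 := by
      rw [multiplicity_eq_zero]
      intro hdvd
      exact Q.isPrime.ne_top (top_le_iff.1 (Ideal.le_of_dvd hdvd))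
    rw [h2, mul_zero]
  | h₃ a p ha hp ih =>
    have hp0 : p ≠ ⊥ := hp.ne_zero
    have hpP : p.IsPrime := (Ideal.prime_iff_isPrime hp0).1 hp
    have hne : Ideal.relNorm A (p * a) ≠ 0 := by
      intro h
      exact hI (Ideal.relNorm_eq_bot_iff.1 h)
    rw [map_mul] at hne ⊢
    rw [multiplicity_mul P.prime (FiniteMultiplicity.of_prime_left P.prime hne), ih ha,
      s37hn_mult_relNorm_prime P p hp]
    have hsum : ∀ Q ∈ S, Ideal.inertiaDeg' P.asIdeal Q.asIdeal * multiplicity Q.asIdeal (p * a) =
        (if Q.asIdeal = p then Ideal.inertiaDeg' P.asIdeal Q.asIdeal else 0) +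
          Ideal.inertiaDeg' P.asIdeal Q.asIdeal * multiplicity Q.asIdeal a := by
      intro Q _
      rw [multiplicity_mul Q.prime (FiniteMultiplicity.of_prime_left Q.prime hI),
        s37hn_mult_prime Q p hp, mul_add]
      split_ifs <;> simp
    rw [Finset.sum_congr rfl hsum, Finset.sum_add_distrib]
    congr 1
    let Q₀ : HeightOneSpectrum B := ⟨p, hpP, hp0⟩
    have hQ₀ : ∀ Q : HeightOneSpectrum B, Q.asIdeal = p ↔ Q = Q₀ := by
      intro Q
      constructor
      · intro h
        exact HeightOneSpectrum.ext h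
      · intro h
        rw [h]
    simp only [hQ₀]
    rw [Finset.sum_ite_eq' S Q₀]
    by_cases hmem : Q₀ ∈ S
    · rw [if_pos hmem, if_pos ((hS Q₀).1 hmem)]
    · rw [if_neg hmem, if_neg (fun h => hmem ((hS Q₀).2 h))]

end Ideals

section Main

variable (F F' A B : Type) [Field F] [Field F'] [Algebra F F'] [CharZero F]
  [FiniteDimensional F F'] [CommRing A] [IsDedekindDomain A] [CommRing B] [IsDedekindDomain B]
  [Algebra A F] [IsFractionRing A F] [Algebra B F'] [IsFractionRing B F']
  [Algebra A B] [Module.IsTorsionFree A B] [Module.Finite A B] [Algebra A F']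
  [IsScalarTower A F F'] [IsScalarTower A B F']

/-- the norm formula for integral elements. -/
theorem s37hn_int (P : HeightOneSpectrum A) (S : Finset (HeightOneSpectrum B))
    (hS : ∀ Q : HeightOneSpectrum B, Q ∈ S ↔ Q.asIdeal.LiesOver P.asIdeal)
    (b : B) (hb : b ≠ 0) :
    WithZero.log (P.valuation F (Algebra.norm F (algebraMap B F' b))) =
      ∑ Q ∈ S, (Ideal.inertiaDeg' P.asIdeal Q.asIdeal : ℤ) *
        WithZero.log (Q.valuation F' (algebraMap B F' b)) := by
  have hcharA : CharZero A := (algebraMap A F).charZero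
  have hcharK : CharZero (FractionRing A) :=
    charZero_of_injective_algebraMap (IsFractionRing.injective A (FractionRing A))
  have hperf : PerfectField (FractionRing A) := inferInstance
  have hint : Algebra.IsIntegral A B := inferInstance
  have hnorm : algebraMap A F (Algebra.intNorm A B b) = Algebra.norm F (algebraMap B F' b) :=
    Algebra.algebraMap_intNorm (A := A) (K := F) (L := F') (B := B) b
  have hbF : algebraMap B F' b ≠ 0 := by
    intro h
    apply hb
    apply IsFractionRing.injective B F'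
    rw [h, map_zero]
  have hnb : Algebra.intNorm A B b ≠ 0 := by
    intro h
    rw [h, map_zero] at hnorm
    exact hbF (Algebra.norm_eq_zero_iff.1 hnorm.symm)
  have hspan : Ideal.span ({b} : Set B) ≠ ⊥ := by
    rw [Ne, Ideal.span_singleton_eq_bot]
    exact hb
  rw [← hnorm, HeightOneSpectrum.valuation_of_algebraMap,
    HeightOneSpectrum.intValuation_eq_exp_neg_multiplicity P hnb, WithZero.log_exp,
    ← Ideal.relNorm_singleton, s37hn_mult_relNorm P S hS _ hspan]
  push_cast
  rw [← Finset.sum_neg_distrib]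
  refine Finset.sum_congr rfl fun Q _ => ?_
  rw [HeightOneSpectrum.valuation_of_algebraMap,
    HeightOneSpectrum.intValuation_eq_exp_neg_multiplicity Q hb, WithZero.log_exp, mul_neg]

/-- **[HI-NORM]** in explicit form. -/
theorem s37hn_norm (P : HeightOneSpectrum A) (S : Finset (HeightOneSpectrum B))
    (hS : ∀ Q : HeightOneSpectrum B, Q ∈ S ↔ Q.asIdeal.LiesOver P.asIdeal)
    (x : F') (hx : x ≠ 0) :
    WithZero.log (P.valuation F (Algebra.norm F x)) =
      ∑ Q ∈ S, (Ideal.inertiaDeg' P.asIdeal Q.asIdeal : ℤ) *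
        WithZero.log (Q.valuation F' x) := by
  obtain ⟨b₁, b₂, hb₂, rfl⟩ := IsFractionRing.div_surjective (A := B) x
  have hb₂0 : b₂ ≠ 0 := nonZeroDivisors.ne_zero hb₂
  have hb₂F : algebraMap B F' b₂ ≠ 0 := by
    intro h
    apply hb₂0
    apply IsFractionRing.injective B F'
    rw [h, map_zero]
  have hb₁F : algebraMap B F' b₁ ≠ 0 := by
    intro h
    apply hx
    rw [h, zero_div]
  have hb₁0 : b₁ ≠ 0 := by
    intro h
    apply hb₁F
    rw [h, map_zero]
  have hn₁ : Algebra.norm F (algebraMap B F' b₁) ≠ 0 := fun h =>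
    hb₁F (Algebra.norm_eq_zero_iff.1 h)
  have hn₂ : Algebra.norm F (algebraMap B F' b₂) ≠ 0 := fun h =>
    hb₂F (Algebra.norm_eq_zero_iff.1 h)
  have hdiv : Algebra.norm F (algebraMap B F' b₁ / algebraMap B F' b₂) =
      Algebra.norm F (algebraMap B F' b₁) / Algebra.norm F (algebraMap B F' b₂) := by
    rw [eq_div_iff hn₂, ← map_mul, div_mul_cancel₀ _ hb₂F]
  rw [hdiv, map_div₀, WithZero.log_div ((Valuation.ne_zero_iff _).2 hn₁)
    ((Valuation.ne_zero_iff _).2 hn₂), s37hn_int F F' A B P S hS b₁ hb₁0,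
    s37hn_int F F' A B P S hS b₂ hb₂0, ← Finset.sum_sub_distrib]
  refine Finset.sum_congr rfl fun Q _ => ?_
  rw [map_div₀, WithZero.log_div ((Valuation.ne_zero_iff _).2 hb₁F)
    ((Valuation.ne_zero_iff _).2 hb₂F), mul_sub]

end Main

/-- **[HI-NORM]**. -/
theorem s37hn_main : s37hi_NormAbsStatement := by
  intro F F' A B _ _ _ _ _ _ _ _ _ _ _ _ _ _ _ _ _ _ _ P S hS x hx
  exact s37hn_norm F F' A B P S hS x hx

end Fermat.Agent.S37
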