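/-
S37, package [HECKE-INPUTS] (owner: helper14), FINAL FILE.  HYPOTHESIS-FREE:
* `s37hi_main N ℓ : HeckeInputsAlong Q̄ N ℓ` at every level `N` and every `ℓ ≥ 1`;
* `s37hi_gen : s37hi_GenStatement` (any `K`-embedding of function fields with coordinates over
  an algebraically closed field of characteristic `0`);
* `s37hi_alpha_normFormula`, `s37hi_beta_normFormula`;
* `s37hi_hecke : T_ℓ [D] = [α_* β^* D]` with the canonical proofs.
([HI-NORM] `s37hn_main` is helper6's, S37/HeckeInputsNormAbs.lean.)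
-/
import Mathlib
import Fermat.Agent.S37.HeckeInputsMod
import Fermat.Agent.S37.HeckeInputsNormAbs

set_option autoImplicit false
set_option linter.unusedSectionVars false
set_option linter.style.haveILetI false

namespace Fermat.Agent.S37

open AlgebraicCurve ModularCurve Fermat.Agent.S24

noncomputable section

/-- **[HI-GEN]**, hypothesis-free. -/
theorem s37hi_gen : s37hi_GenStatement := s37hi_gen_of s37hn_main

variable (N ℓ : ℕ) [NeZero N] [NeZero ℓ]

/-- **[HECKE-INPUTS]**: `HeckeInputsAlong Q̄ N ℓ` at every level `N` and every `ℓ ≥ 1`. -/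
theorem s37hi_main : HeckeInputsAlong (AlgebraicClosure ℚ) N ℓ :=
  s37hi_main_of_norm N ℓ s37hn_main

theorem s37hi_alpha_normFormula
    (hfin : FiniteAlong (AlgebraicClosure ℚ) (heckeAlphaBar (AlgebraicClosure ℚ) N ℓ)) :
    NormFormulaAlong (AlgebraicClosure ℚ) (heckeAlphaBar (AlgebraicClosure ℚ) N ℓ) hfin :=
  s37hi_alpha_norm N ℓ s37hn_main hfin

theorem s37hi_beta_normFormula
    (hfin : FiniteAlong (AlgebraicClosure ℚ) (heckeBetaBar (AlgebraicClosure ℚ) N ℓ)) :
    NormFormulaAlong (AlgebraicClosure ℚ) (heckeBetaBar (AlgebraicClosure ℚ) N ℓ) hfin :=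
  s37hi_beta_norm N ℓ s37hn_main hfin

variable {N ℓ}

/-- `T_ℓ [D] = [α_* β^* D]`, with the canonical proofs of integrality. -/
theorem s37hi_hecke (hℓ : ℓ.Prime)
    (D : Divisor.degZero (K := AlgebraicClosure ℚ) (F := modularFunctionFieldBar N)) :
    haveI := s37hi_principalBar (N * ℓ)
    ∃ h : Divisor.pushforwardAlong (heckeAlphaBar (AlgebraicClosure ℚ) N ℓ)
        (s37hi_alpha_integral N ℓ)
        (Divisor.pullbackAlong (heckeBetaBar (AlgebraicClosure ℚ) N ℓ) (s37hi_beta_integral N ℓ)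
          (D : Divisor (AlgebraicClosure ℚ) (modularFunctionFieldBar N))) ∈
          Divisor.degZero (K := AlgebraicClosure ℚ) (F := modularFunctionFieldBar N),
      heckeOperatorBar N ⟨ℓ, hℓ⟩ (Pic0.mk D) =
        Pic0.mk ⟨Divisor.pushforwardAlong (heckeAlphaBar (AlgebraicClosure ℚ) N ℓ)
          (s37hi_alpha_integral N ℓ)
          (Divisor.pullbackAlong (heckeBetaBar (AlgebraicClosure ℚ) N ℓ)
            (s37hi_beta_integral N ℓ)
            (D : Divisor (AlgebraicClosure ℚ) (modularFunctionFieldBar N))), h⟩ := by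
  haveI := s37hi_principalBar (N * ℓ)
  exact ⟨_, s37hi_hecke_mk hℓ (s37hi_alpha_integral N ℓ) (s37hi_beta_integral N ℓ)
    (s37hi_beta_fundamental N ℓ _) (s37hi_alpha_finite N ℓ)
    (s37hi_alpha_normFormula N ℓ _) D⟩

/-- `heckeOperatorBar` is not the zero map by default: it is `heckePic0Bar`. -/
theorem s37hi_hecke_eq_pic0 (hℓ : ℓ.Prime) (x : JZero N) :
    haveI := s37hi_principalBar (N * ℓ)
    heckeOperatorBar N ⟨ℓ, hℓ⟩ x =
      heckePic0Bar (s37hi_alpha_integral N ℓ) (s37hi_beta_integral N ℓ)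
        (s37hi_beta_fundamental N ℓ _) (s37hi_alpha_finite N ℓ)
        (s37hi_alpha_normFormula N ℓ _) x := by
  haveI := s37hi_principalBar (N * ℓ)
  exact s37hi_hecke_eq hℓ _ _ _ _ _ x

end

end Fermat.Agent.S37
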