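/-
S37 package [ES-AL] (shared tool of [ES]), part 1: the Atkin-Lehner map on the upper half plane
and the expansion of `f ∘ w_ℓ`.
Owner: helper8.  Prefix `s37al_`.

For `gcd(M, ℓ) = 1` and integers `x, y` with `x ℓ - y M = 1` put
`w z = γ₁ (ℓ z)`, `γ₁ = [[x, y], [M, ℓ]] ∈ SL(2, ℤ)`.  For `d ∣ M` and `ℓ = e e'`:
`j (d e · w z) = j (d e' z)`.  This gives a field embedding `F̄_{Mℓ} → Q̄((q))` with
`j (d e z) ↦ j (d e' z)` (the `q`-expansion of `f ∘ w_ℓ`), constructed from the analytic bridge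
of the S24 library as in `S18/DownFricke.lean`.
-/
import Mathlib
import Fermat.Agent.S24.Bridge
import Fermat.Agent.S24.FracRingA

set_option autoImplicit false
set_option linter.style.haveILetI false

noncomputable section

namespace Fermat.Agent.S37

open Fermat.Agent.S24 UpperHalfPlane
open scoped MatrixGroups

/-! ### Matrices -/

/-- The matrix `[[a, b], [c, d]]` of determinant one. -/
def s37al_mat (a b c d : ℤ) (h : a * d - b * c = 1) : SL(2, ℤ) :=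
  ⟨!![a, b; c, d], by rw [Matrix.det_fin_two_of]; exact h⟩

theorem s37al_coe_mat_smul (a b c d : ℤ) (h : a * d - b * c = 1) (z : ℍ) :
    ((s37al_mat a b c d h • z : ℍ) : ℂ) =
      ((a : ℂ) * (z : ℂ) + (b : ℂ)) / ((c : ℂ) * (z : ℂ) + (d : ℂ)) := by
  rw [UpperHalfPlane.coe_specialLinearGroup_apply]
  simp [s37al_mat]

theorem s37al_denom_ne_zero (c d : ℝ) (hcd : c ≠ 0 ∨ d ≠ 0) (z : ℍ) :
    (c : ℂ) * (z : ℂ) + (d : ℂ) ≠ 0 := by
  intro h0
  have him := congrArg Complex.im h0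
  have hre := congrArg Complex.re h0
  simp only [Complex.add_im, Complex.mul_im, Complex.ofReal_re, Complex.ofReal_im, zero_mul,
    add_zero, Complex.zero_im, Complex.add_re, Complex.mul_re, sub_zero, Complex.zero_re,
    UpperHalfPlane.coe_im, UpperHalfPlane.coe_re] at him hre
  have hc : c = 0 := by
    rcases mul_eq_zero.1 him with h | h
    · exact h
    · exact absurd h z.im_pos.ne'
  rw [hc, zero_mul, zero_add] at hre
  rcases hcd with h | h
  · exact h hc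
  · exact h hre

/-! ### The Atkin-Lehner map -/

/-- The Atkin-Lehner map `w_ℓ` at level `M ℓ`: `z ↦ γ₁ (ℓ z)`, `γ₁ = [[x, y], [M, ℓ]]`. -/
def s37al_w (M ℓ : ℕ) (x y : ℤ) (h : x * ℓ - y * M = 1) (z : ℍ) : ℍ :=
  s37al_mat x y M ℓ h • (ModularForm.heckeDiagMatrix ℓ • z)

theorem s37al_coe_w (M ℓ : ℕ) [NeZero ℓ] (x y : ℤ) (h : x * ℓ - y * M = 1) (z : ℍ) :
    ((s37al_w M ℓ x y h z : ℍ) : ℂ) =
      ((x : ℂ) * ((ℓ : ℂ) * (z : ℂ)) + (y : ℂ)) / ((M : ℂ) * ((ℓ : ℂ) * (z : ℂ)) + (ℓ : ℂ)) := by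
  rw [s37al_w, s37al_coe_mat_smul, ModularForm.coe_heckeDiagMatrix_smul (NeZero.ne ℓ)]
  push_cast
  rfl

theorem s37al_w_surjective (M ℓ : ℕ) (x y : ℤ) (h : x * ℓ - y * M = 1) :
    Function.Surjective (s37al_w M ℓ x y h) := by
  intro z
  refine ⟨(ModularForm.heckeDiagMatrix ℓ)⁻¹ • ((s37al_mat x y M ℓ h)⁻¹ • z), ?_⟩
  rw [s37al_w, smul_inv_smul, smul_inv_smul]

/-- The key identity: `d e · w z = γ (d e' z)` with `γ = [[x e, d y], [m, e']] ∈ SL(2, ℤ)`,
where `M = d m` and `ℓ = e e'`. -/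
theorem s37al_diag_w (M ℓ : ℕ) [NeZero M] [NeZero ℓ] (x y : ℤ) (h : x * ℓ - y * M = 1)
    (d m e e' : ℕ) (hM : d * m = M) (hℓ : e * e' = ℓ)
    (h' : (x * e) * e' - (d * y) * m = 1) (z : ℍ) :
    ModularForm.heckeDiagMatrix (d * e) • s37al_w M ℓ x y h z =
      s37al_mat (x * e) (d * y) m e' h' • (ModularForm.heckeDiagMatrix (d * e') • z) := by
  have hd0 : d ≠ 0 := by
    rintro rfl
    rw [zero_mul] at hM
    exact NeZero.ne M hM.symm
  have he0 : e ≠ 0 := by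
    rintro rfl
    rw [zero_mul] at hℓ
    exact NeZero.ne ℓ hℓ.symm
  have he'0 : e' ≠ 0 := by
    rintro rfl
    rw [mul_zero] at hℓ
    exact NeZero.ne ℓ hℓ.symm
  apply UpperHalfPlane.ext
  rw [ModularForm.coe_heckeDiagMatrix_smul (mul_ne_zero hd0 he0), s37al_coe_w,
    s37al_coe_mat_smul, ModularForm.coe_heckeDiagMatrix_smul (mul_ne_zero hd0 he'0)]
  have hMc : (M : ℂ) = (d : ℂ) * (m : ℂ) := by
    rw [← hM]
    push_cast
    ring
  have hℓc : (ℓ : ℂ) = (e : ℂ) * (e' : ℂ) := by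
    rw [← hℓ]
    push_cast
    ring
  have hec : (e : ℂ) ≠ 0 := Nat.cast_ne_zero.2 he0
  have he'c : (e' : ℂ) ≠ 0 := Nat.cast_ne_zero.2 he'0
  have hden : (M : ℂ) * (z : ℂ) + 1 ≠ 0 := by
    have := s37al_denom_ne_zero (M : ℝ) 1 (Or.inr one_ne_zero) z
    simpa using this
  have h1 : (M : ℂ) * ((ℓ : ℂ) * (z : ℂ)) + (ℓ : ℂ) = (e : ℂ) * (e' : ℂ) * ((M : ℂ) * (z : ℂ) + 1) := by
    rw [hℓc]
    ring
  have h2 : ((m : ℤ) : ℂ) * (((d * e' : ℕ) : ℂ) * (z : ℂ)) + ((e' : ℤ) : ℂ) =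
      (e' : ℂ) * ((M : ℂ) * (z : ℂ) + 1) := by
    rw [hMc]
    push_cast
    ring
  rw [h1, h2]
  push_cast
  rw [hℓc]
  field_simp

/-! ### The graph of `f ↦ f ∘ w` -/

section Graph

variable (M ℓ : ℕ) (x y : ℤ) (h : x * ℓ - y * M = 1)

/-- `t` is the `q`-expansion of `f ∘ w`, where `f` has the `q`-expansion `s`. -/
def s37al_G (s t : LaurentSeries QBar) : Prop :=
  ∃ f : ℍ → ℂ, anA_HasLaurent (ModularCurve.coeffMap iota s) f ∧
    anA_HasLaurent (ModularCurve.coeffMap iota t) (fun z => f (s37al_w M ℓ x y h z))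

theorem s37al_coeffMap_iota_injective :
    Function.Injective (ModularCurve.coeffMap iota : LaurentSeries QBar →+* LaurentSeries ℂ) :=
  RingHom.injective _

theorem s37al_G_add {s t s' t' : LaurentSeries QBar} (h1 : s37al_G M ℓ x y h s t)
    (h2 : s37al_G M ℓ x y h s' t') : s37al_G M ℓ x y h (s + s') (t + t') := by
  obtain ⟨f, hf1, hf2⟩ := h1
  obtain ⟨g, hg1, hg2⟩ := h2
  refine ⟨f + g, ?_, ?_⟩
  · rw [map_add]
    exact hf1.add hg1
  · rw [map_add]
    exact hf2.add hg2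

theorem s37al_G_mul {s t s' t' : LaurentSeries QBar} (h1 : s37al_G M ℓ x y h s t)
    (h2 : s37al_G M ℓ x y h s' t') : s37al_G M ℓ x y h (s * s') (t * t') := by
  obtain ⟨f, hf1, hf2⟩ := h1
  obtain ⟨g, hg1, hg2⟩ := h2
  refine ⟨f * g, ?_, ?_⟩
  · rw [map_mul]
    exact hf1.mul hg1
  · rw [map_mul]
    exact hf2.mul hg2

theorem s37al_G_const (c : QBar) :
    s37al_G M ℓ x y h (algebraMap QBar (LaurentSeries QBar) c)
      (algebraMap QBar (LaurentSeries QBar) c) := by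
  refine ⟨fun _ => iota c, ?_, ?_⟩
  · rw [anA_coeffMap_algebraMap]
    exact anA_HasLaurent.const (iota c)
  · rw [anA_coeffMap_algebraMap]
    exact anA_HasLaurent.const (iota c)

theorem s37al_G_unique {s t t' : LaurentSeries QBar} (h1 : s37al_G M ℓ x y h s t)
    (h2 : s37al_G M ℓ x y h s t') : t = t' := by
  obtain ⟨f, hf1, hf2⟩ := h1
  obtain ⟨g, hg1, hg2⟩ := h2
  have hfg : f = g := hf1.unique_fun hg1
  subst hfg
  exact s37al_coeffMap_iota_injective (hf2.unique_series hg2)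

theorem s37al_G_inj {s s' t : LaurentSeries QBar} (h1 : s37al_G M ℓ x y h s t)
    (h2 : s37al_G M ℓ x y h s' t) : s = s' := by
  obtain ⟨f, hf1, hf2⟩ := h1
  obtain ⟨g, hg1, hg2⟩ := h2
  have hfg : (fun z => f (s37al_w M ℓ x y h z)) = fun z => g (s37al_w M ℓ x y h z) :=
    hf2.unique_fun hg2
  have hfg' : f = g := by
    funext z
    obtain ⟨z', rfl⟩ := s37al_w_surjective M ℓ x y h z
    exact congrFun hfg z'
  subst hfg'
  exact s37al_coeffMap_iota_injective (hf1.unique_series hg1)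

variable [NeZero M] [NeZero ℓ]

theorem s37al_G_j (d m e e' : ℕ) (hM : d * m = M) (hℓ : e * e' = ℓ) [NeZero (d * e)]
    [NeZero (d * e')] : s37al_G M ℓ x y h (jLaurent (d * e)) (jLaurent (d * e')) := by
  have h' : (x * e) * e' - (d * y) * m = 1 := by
    have h1 : ((e : ℤ) * e') = ℓ := by exact_mod_cast hℓ
    have h2 : ((d : ℤ) * m) = M := by exact_mod_cast hM
    rw [← h, ← h1, ← h2]
    ring
  refine ⟨fun z => jfun (ModularForm.heckeDiagMatrix (d * e) • z), ?_, ?_⟩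
  · rw [anA_coeffMap_jLaurent]
    exact anA_hasLaurent_jd (d * e)
  · rw [anA_coeffMap_jLaurent]
    have e1 : (fun z => jfun (ModularForm.heckeDiagMatrix (d * e) • s37al_w M ℓ x y h z)) =
        fun z => jfun (ModularForm.heckeDiagMatrix (d * e') • z) := by
      funext z
      rw [s37al_diag_w M ℓ x y h d m e e' hM hℓ h', jfun_smul]
    rw [e1]
    exact anA_hasLaurent_jd (d * e')

/-! ### The expansion of `f ∘ w` on `ringA (M ℓ)` -/

theorem s37al_exists_G (a : FunField (M * ℓ)) (ha : a ∈ ringA (M * ℓ)) :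
    ∃ t : LaurentSeries QBar, s37al_G M ℓ x y h (a : LaurentSeries QBar) t := by
  induction ha using Algebra.adjoin_induction with
  | mem a ha =>
    obtain ⟨d', hne, hd', rfl⟩ := ha
    obtain ⟨d, e, hdM, heℓ, rfl⟩ := (Nat.dvd_mul).1 hd'
    obtain ⟨m, hm⟩ := hdM
    obtain ⟨e', he'⟩ := heℓ
    have hd0 : d ≠ 0 := by
      rintro rfl
      rw [zero_mul] at hm
      exact NeZero.ne M hm
    have he'0 : e' ≠ 0 := by
      rintro rfl
      rw [mul_zero] at he'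
      exact NeZero.ne ℓ he'
    haveI : NeZero (d * e') := ⟨mul_ne_zero hd0 he'0⟩
    exact ⟨jLaurent (d * e'), s37al_G_j M ℓ x y h d m e e' hm.symm he'.symm⟩
  | algebraMap c => exact ⟨_, s37al_G_const M ℓ x y h c⟩
  | add a b _ _ ha hb =>
    obtain ⟨s, hs⟩ := ha
    obtain ⟨t, ht⟩ := hb
    exact ⟨s + t, s37al_G_add M ℓ x y h hs ht⟩
  | mul a b _ _ ha hb =>
    obtain ⟨s, hs⟩ := ha
    obtain ⟨t, ht⟩ := hb
    exact ⟨s * t, s37al_G_mul M ℓ x y h hs ht⟩

/-- The expansion of `f ∘ w` for `f ∈ ringA (M ℓ)`. -/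
def s37al_W0fun (a : ringA (M * ℓ)) : LaurentSeries QBar :=
  Classical.choose (s37al_exists_G M ℓ x y h a.1 a.2)

theorem s37al_W0fun_spec (a : ringA (M * ℓ)) :
    s37al_G M ℓ x y h ((a : FunField (M * ℓ)) : LaurentSeries QBar) (s37al_W0fun M ℓ x y h a) :=
  Classical.choose_spec (s37al_exists_G M ℓ x y h a.1 a.2)

theorem s37al_W0fun_eq (a : ringA (M * ℓ)) {t : LaurentSeries QBar}
    (ht : s37al_G M ℓ x y h ((a : FunField (M * ℓ)) : LaurentSeries QBar) t) :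
    s37al_W0fun M ℓ x y h a = t :=
  s37al_G_unique M ℓ x y h (s37al_W0fun_spec M ℓ x y h a) ht

/-- The expansion of `f ∘ w` as a ring homomorphism on `ringA (M ℓ)`. -/
def s37al_W0 : ringA (M * ℓ) →+* LaurentSeries QBar where
  toFun := s37al_W0fun M ℓ x y h
  map_one' := s37al_W0fun_eq M ℓ x y h 1 (by
    have h1 := s37al_G_const M ℓ x y h 1
    rw [map_one] at h1
    exact h1)
  map_zero' := s37al_W0fun_eq M ℓ x y h 0 (by
    have h1 := s37al_G_const M ℓ x y h 0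
    rw [map_zero] at h1
    exact h1)
  map_add' a b := s37al_W0fun_eq M ℓ x y h (a + b)
    (s37al_G_add M ℓ x y h (s37al_W0fun_spec M ℓ x y h a) (s37al_W0fun_spec M ℓ x y h b))
  map_mul' a b := s37al_W0fun_eq M ℓ x y h (a * b)
    (s37al_G_mul M ℓ x y h (s37al_W0fun_spec M ℓ x y h a) (s37al_W0fun_spec M ℓ x y h b))

theorem s37al_W0_spec (a : ringA (M * ℓ)) :
    s37al_G M ℓ x y h ((a : FunField (M * ℓ)) : LaurentSeries QBar) (s37al_W0 M ℓ x y h a) :=
  s37al_W0fun_spec M ℓ x y h a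

theorem s37al_W0_eq (a : ringA (M * ℓ)) {t : LaurentSeries QBar}
    (ht : s37al_G M ℓ x y h ((a : FunField (M * ℓ)) : LaurentSeries QBar) t) :
    s37al_W0 M ℓ x y h a = t :=
  s37al_W0fun_eq M ℓ x y h a ht

theorem s37al_W0_injective : Function.Injective (s37al_W0 M ℓ x y h) := by
  intro a b hab
  have h1 := s37al_W0_spec M ℓ x y h a
  have h2 := s37al_W0_spec M ℓ x y h b
  rw [hab] at h1
  have h3 := s37al_G_inj M ℓ x y h h1 h2
  exact Subtype.ext (Subtype.ext h3)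

theorem s37al_W0_algebraMap (c : QBar) :
    s37al_W0 M ℓ x y h (algebraMap QBar (ringA (M * ℓ)) c) =
      algebraMap QBar (LaurentSeries QBar) c :=
  s37al_W0_eq M ℓ x y h _ (s37al_G_const M ℓ x y h c)

theorem s37al_W0_jDivA (d m e e' : ℕ) (hM : d * m = M) (hℓ : e * e' = ℓ) [NeZero (d * e)]
    [NeZero (d * e')] (hd : d * e ∣ M * ℓ) :
    s37al_W0 M ℓ x y h (jDivA (M * ℓ) (d * e) hd) = jLaurent (d * e') :=
  s37al_W0_eq M ℓ x y h _ (s37al_G_j M ℓ x y h d m e e' hM hℓ)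

/-- The same with free indices `d₁ = d e`, `d₂ = d e'`. -/
theorem s37al_W0_jDivA' (d₁ d₂ d m e e' : ℕ) (hM : d * m = M) (hℓ : e * e' = ℓ)
    (h1 : d₁ = d * e) (h2 : d₂ = d * e') [NeZero d₁] [NeZero d₂] (hd : d₁ ∣ M * ℓ) :
    s37al_W0 M ℓ x y h (jDivA (M * ℓ) d₁ hd) = jLaurent d₂ := by
  subst h1 h2
  exact s37al_W0_jDivA M ℓ x y h d m e e' hM hℓ hd

/-- The image of `ringA (M ℓ)` lies in the function field. -/
theorem s37al_W0_mem (a : ringA (M * ℓ)) :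
    s37al_W0 M ℓ x y h a ∈ ModularCurve.modularFunctionFieldBar (M * ℓ) := by
  obtain ⟨a, ha⟩ := a
  induction ha using Algebra.adjoin_induction with
  | mem a ha =>
    obtain ⟨d', hne, hd', rfl⟩ := ha
    obtain ⟨d, e, hdM, heℓ, rfl⟩ := (Nat.dvd_mul).1 hd'
    obtain ⟨m, hm⟩ := hdM
    obtain ⟨e', he'⟩ := heℓ
    have hd0 : d ≠ 0 := by
      rintro rfl
      rw [zero_mul] at hm
      exact NeZero.ne M hm
    have he'0 : e' ≠ 0 := by
      rintro rfl
      rw [mul_zero] at he'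
      exact NeZero.ne ℓ he'
    haveI : NeZero (d * e') := ⟨mul_ne_zero hd0 he'0⟩
    have h1 : s37al_W0 M ℓ x y h ⟨jDiv (M * ℓ) (d * e) hd', Algebra.subset_adjoin ⟨d * e, hne, hd', rfl⟩⟩
        = jLaurent (d * e') := s37al_W0_jDivA M ℓ x y h d m e e' hm.symm he'.symm hd'
    rw [h1]
    refine jLaurent_mem (M * ℓ) ?_
    rw [hm, he']
    exact Nat.mul_dvd_mul (dvd_mul_right d m) (dvd_mul_left e' e)
  | algebraMap c =>
    have h1 : s37al_W0 M ℓ x y h ⟨algebraMap QBar (FunField (M * ℓ)) c,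
        Subalgebra.algebraMap_mem _ c⟩ = algebraMap QBar (LaurentSeries QBar) c :=
      s37al_W0_algebraMap M ℓ x y h c
    rw [h1]
    exact (ModularCurve.modularFunctionFieldBar (M * ℓ)).algebraMap_mem c
  | add a b ha hb ha' hb' =>
    have h1 : (⟨a + b, add_mem ha hb⟩ : ringA (M * ℓ)) = ⟨a, ha⟩ + ⟨b, hb⟩ := rfl
    rw [h1, map_add]
    exact add_mem ha' hb'
  | mul a b ha hb ha' hb' =>
    have h1 : (⟨a * b, mul_mem ha hb⟩ : ringA (M * ℓ)) = ⟨a, ha⟩ * ⟨b, hb⟩ := rfl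
    rw [h1, map_mul]
    exact mul_mem ha' hb'

end Graph

end Fermat.Agent.S37
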