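/-
S37 package [ES-AL] (shared tool of [ES]), part 2: the Atkin-Lehner involution `W_ℓ` of the
function field `F̄_{Mℓ}` of `X₀(M ℓ)` over `Q̄`, for `gcd(M, ℓ) = 1`.
Owner: helper8.  Prefix `s37al_`.

  `s37al_W : ∃ W : F̄_{Mℓ} →ₐ[Q̄] F̄_{Mℓ}, (∀ f, W (α f) = β f) ∧ (∀ f, W (β f) = α f)`

with `α = heckeAlphaBar Q̄ M ℓ` (the inclusion `F̄_M ⊆ F̄_{Mℓ}`) and `β = heckeBetaBar Q̄ M ℓ`
(`q ↦ q^ℓ`).
-/
import Mathlib
import Fermat.Prelude.Def_ModularCurve_HeckeOperator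
import Fermat.Agent.S37.AtkinLehnerMap

set_option autoImplicit false
set_option linter.style.haveILetI false

noncomputable section

namespace Fermat.Agent.S37

open Fermat.Agent.S24 UpperHalfPlane ModularCurve
open scoped MatrixGroups

/-! ### Generalities -/

theorem s37al_isFractionRing (N : ℕ) : IsFractionRing (ringA N) (FunField N) := by
  have : FaithfulSMul (ringA N) (FunField N) :=
    (faithfulSMul_iff_algebraMap_injective _ _).2 Subtype.val_injective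
  refine IsFractionRing.of_field (ringA N) (FunField N) fun z => ?_
  obtain ⟨a, b, -, h⟩ := fracA_exists_div N z
  exact ⟨a, b, h⟩

/-- Two ring homomorphisms on the function field which agree on the generators `j (d z)` and on
the constants are equal. -/
theorem s37al_ringHom_ext {N : ℕ} {R : Type*} [Semiring R] (f g : FunField N →+* R)
    (hc : ∀ c : QBar, f (algebraMap QBar (FunField N) c) = g (algebraMap QBar (FunField N) c))
    (hj : ∀ (d : ℕ) [NeZero d] (hd : d ∣ N), f (jDiv N d hd) = g (jDiv N d hd)) : f = g := by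
  haveI := s37al_isFractionRing N
  refine IsLocalization.ringHom_ext (nonZeroDivisors (ringA N)) ?_
  ext ⟨a, ha⟩
  show f a = g a
  induction ha using Algebra.adjoin_induction with
  | mem a ha =>
    obtain ⟨d, hne, hd, rfl⟩ := ha
    exact hj d hd
  | algebraMap c => exact hc c
  | add a b _ _ ha hb => rw [map_add, map_add, ha, hb]
  | mul a b _ _ ha hb => rw [map_mul, map_mul, ha, hb]

theorem s37al_qExpand_jLaurent (d ℓ : ℕ) [NeZero d] [NeZero ℓ] [NeZero (d * ℓ)] :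
    qExpand QBar ℓ (jLaurent d) = jLaurent (d * ℓ) := by
  rw [jLaurent, jLaurent, coeffEmb, ← anA_coeffMap_qExpand, qExpand_qExpand]
  have : qExpand ℚ (ℓ * d) jq = qExpand ℚ (d * ℓ) jq := qExpand_congr (mul_comm ℓ d) jq
  rw [this]

/-! ### The expansion of `f ∘ w` on the function field -/

section Ser

variable (M ℓ : ℕ) (x y : ℤ) (h : x * ℓ - y * M = 1) [NeZero M] [NeZero ℓ]

/-- The `q`-expansion of `f ∘ w_ℓ`, as a field embedding `F̄_{Mℓ} → Q̄((q))`. -/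
def s37al_Wser : FunField (M * ℓ) →+* LaurentSeries QBar :=
  haveI := s37al_isFractionRing (M * ℓ)
  IsFractionRing.lift (s37al_W0_injective M ℓ x y h)

theorem s37al_Wser_coe (a : ringA (M * ℓ)) :
    s37al_Wser M ℓ x y h (a : FunField (M * ℓ)) = s37al_W0 M ℓ x y h a := by
  have := s37al_isFractionRing (M * ℓ)
  exact IsFractionRing.lift_algebraMap (s37al_W0_injective M ℓ x y h) a

theorem s37al_Wser_algebraMap (c : QBar) :
    s37al_Wser M ℓ x y h (algebraMap QBar (FunField (M * ℓ)) c) =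
      algebraMap QBar (LaurentSeries QBar) c := by
  have h1 := s37al_Wser_coe M ℓ x y h (algebraMap QBar (ringA (M * ℓ)) c)
  rw [s37al_W0_algebraMap] at h1
  exact h1

theorem s37al_Wser_jDiv (d₁ d₂ d m e e' : ℕ) (hM : d * m = M) (hℓ : e * e' = ℓ)
    (h1 : d₁ = d * e) (h2 : d₂ = d * e') [NeZero d₁] [NeZero d₂] (hd : d₁ ∣ M * ℓ) :
    s37al_Wser M ℓ x y h (jDiv (M * ℓ) d₁ hd) = jLaurent d₂ := by
  have h3 := s37al_Wser_coe M ℓ x y h (jDivA (M * ℓ) d₁ hd)
  rw [s37al_W0_jDivA' M ℓ x y h d₁ d₂ d m e e' hM hℓ h1 h2] at h3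
  exact h3

theorem s37al_Wser_mem (f : FunField (M * ℓ)) :
    s37al_Wser M ℓ x y h f ∈ modularFunctionFieldBar (M * ℓ) := by
  obtain ⟨a, b, -, rfl⟩ := fracA_exists_div (M * ℓ) f
  rw [map_div₀, s37al_Wser_coe, s37al_Wser_coe]
  exact div_mem (s37al_W0_mem M ℓ x y h a) (s37al_W0_mem M ℓ x y h b)

/-- The Atkin-Lehner endomorphism of `F̄_{Mℓ}` attached to `x, y`. -/
def s37al_Walg : FunField (M * ℓ) →ₐ[QBar] FunField (M * ℓ) where
  toFun f := ⟨s37al_Wser M ℓ x y h f, s37al_Wser_mem M ℓ x y h f⟩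
  map_one' := Subtype.ext (map_one (s37al_Wser M ℓ x y h))
  map_mul' a b := Subtype.ext (map_mul (s37al_Wser M ℓ x y h) a b)
  map_zero' := Subtype.ext (map_zero (s37al_Wser M ℓ x y h))
  map_add' a b := Subtype.ext (map_add (s37al_Wser M ℓ x y h) a b)
  commutes' c := Subtype.ext (s37al_Wser_algebraMap M ℓ x y h c)

theorem s37al_coe_Walg (f : FunField (M * ℓ)) :
    ((s37al_Walg M ℓ x y h f : FunField (M * ℓ)) : LaurentSeries QBar) =
      s37al_Wser M ℓ x y h f := rfl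

/-- `W (j (d z)) = j (d ℓ z)` for `d ∣ M`. -/
theorem s37al_Wser_low (d : ℕ) [NeZero d] [NeZero (d * ℓ)] (hd : d ∣ M) (hd' : d ∣ M * ℓ) :
    s37al_Wser M ℓ x y h (jDiv (M * ℓ) d hd') = jLaurent (d * ℓ) := by
  obtain ⟨m, hm⟩ := hd
  exact s37al_Wser_jDiv M ℓ x y h d (d * ℓ) d m 1 ℓ hm.symm (one_mul ℓ) (mul_one d).symm rfl hd'

/-- `W (j (d ℓ z)) = j (d z)` for `d ∣ M`. -/
theorem s37al_Wser_high (d : ℕ) [NeZero d] [NeZero (d * ℓ)] (hd : d ∣ M) (hd' : d * ℓ ∣ M * ℓ) :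
    s37al_Wser M ℓ x y h (jDiv (M * ℓ) (d * ℓ) hd') = jLaurent d := by
  obtain ⟨m, hm⟩ := hd
  exact s37al_Wser_jDiv M ℓ x y h (d * ℓ) d d m ℓ 1 hm.symm (mul_one ℓ) rfl (mul_one d).symm hd'

end Ser

/-! ### `W ∘ α = β` and `W ∘ β = α` -/

section Swap

variable (M ℓ : ℕ) (x y : ℤ) (h : x * ℓ - y * M = 1) [NeZero M] [NeZero ℓ]

theorem s37al_Walg_alpha (f : FunField M) :
    s37al_Walg M ℓ x y h (heckeAlphaBar QBar M ℓ f) = heckeBetaBar QBar M ℓ f := by
  have key : ((s37al_Walg M ℓ x y h : FunField (M * ℓ) →+* FunField (M * ℓ)).comp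
      (heckeAlphaBar QBar M ℓ : FunField M →+* FunField (M * ℓ))) =
      (heckeBetaBar QBar M ℓ : FunField M →+* FunField (M * ℓ)) := by
    refine s37al_ringHom_ext _ _ ?_ ?_
    · intro c
      show s37al_Walg M ℓ x y h (heckeAlphaBar QBar M ℓ (algebraMap QBar (FunField M) c)) =
        heckeBetaBar QBar M ℓ (algebraMap QBar (FunField M) c)
      rw [AlgHom.commutes, AlgHom.commutes, AlgHom.commutes]
    · intro d _ hd
      have hd0 : d * ℓ ≠ 0 := mul_ne_zero (NeZero.ne d) (NeZero.ne ℓ)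
      haveI : NeZero (d * ℓ) := ⟨hd0⟩
      apply Subtype.ext
      show s37al_Wser M ℓ x y h (heckeAlphaBar QBar M ℓ (jDiv M d hd)) =
        qExpand QBar ℓ (jLaurent d)
      have h1 : heckeAlphaBar QBar M ℓ (jDiv M d hd) =
          jDiv (M * ℓ) d (hd.trans (dvd_mul_right M ℓ)) := Subtype.ext rfl
      rw [h1, s37al_Wser_low M ℓ x y h d hd, s37al_qExpand_jLaurent]
  exact RingHom.congr_fun key f

theorem s37al_Walg_beta (f : FunField M) :
    s37al_Walg M ℓ x y h (heckeBetaBar QBar M ℓ f) = heckeAlphaBar QBar M ℓ f := by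
  have key : ((s37al_Walg M ℓ x y h : FunField (M * ℓ) →+* FunField (M * ℓ)).comp
      (heckeBetaBar QBar M ℓ : FunField M →+* FunField (M * ℓ))) =
      (heckeAlphaBar QBar M ℓ : FunField M →+* FunField (M * ℓ)) := by
    refine s37al_ringHom_ext _ _ ?_ ?_
    · intro c
      show s37al_Walg M ℓ x y h (heckeBetaBar QBar M ℓ (algebraMap QBar (FunField M) c)) =
        heckeAlphaBar QBar M ℓ (algebraMap QBar (FunField M) c)
      rw [AlgHom.commutes, AlgHom.commutes, AlgHom.commutes]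
    · intro d _ hd
      have hd0 : d * ℓ ≠ 0 := mul_ne_zero (NeZero.ne d) (NeZero.ne ℓ)
      haveI : NeZero (d * ℓ) := ⟨hd0⟩
      apply Subtype.ext
      show s37al_Wser M ℓ x y h (heckeBetaBar QBar M ℓ (jDiv M d hd)) = jLaurent d
      have h1 : heckeBetaBar QBar M ℓ (jDiv M d hd) =
          jDiv (M * ℓ) (d * ℓ) (Nat.mul_dvd_mul_right hd ℓ) :=
        Subtype.ext (s37al_qExpand_jLaurent d ℓ)
      rw [h1, s37al_Wser_high M ℓ x y h d hd]
  exact RingHom.congr_fun key f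

end Swap

/-! ### The export -/

/-- **[ES-AL]** the Atkin-Lehner involution `W_ℓ` of `F̄_{Mℓ}` swaps the two degeneracy maps. -/
theorem s37al_W (M ℓ : ℕ) [NeZero M] [NeZero ℓ] (hc : Nat.Coprime M ℓ) :
    ∃ W : ↥(modularFunctionFieldBar (M * ℓ)) →ₐ[AlgebraicClosure ℚ]
        ↥(modularFunctionFieldBar (M * ℓ)),
      (∀ f : ↥(modularFunctionFieldBar M),
        W (heckeAlphaBar (AlgebraicClosure ℚ) M ℓ f) = heckeBetaBar (AlgebraicClosure ℚ) M ℓ f) ∧
      (∀ f : ↥(modularFunctionFieldBar M),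
        W (heckeBetaBar (AlgebraicClosure ℚ) M ℓ f) = heckeAlphaBar (AlgebraicClosure ℚ) M ℓ f) := by
  have hb := Nat.gcd_eq_gcd_ab M ℓ
  rw [Nat.Coprime.gcd_eq_one hc] at hb
  have h : (Nat.gcdB M ℓ) * (ℓ : ℤ) - (-(Nat.gcdA M ℓ)) * (M : ℤ) = 1 := by
    have : ((1 : ℕ) : ℤ) = 1 := rfl
    rw [this] at hb
    rw [hb]
    ring
  exact ⟨s37al_Walg M ℓ (Nat.gcdB M ℓ) (-(Nat.gcdA M ℓ)) h,
    s37al_Walg_alpha M ℓ _ _ h, s37al_Walg_beta M ℓ _ _ h⟩

end Fermat.Agent.S37
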