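/-
S37 (Eichler–Shimura congruence relation in the packaged form `SpecializationExists`), TOP INTERFACE.
Architect: lead.  Prefix `s37_`.  Definitions and `Prop`s only (plus the final composition).

ROUTE.  Fix `ℓ ∤ N p`, `A` a valuation ring of `Q̄` over `ℓ`, `J = J₀(N)(Q̄)`.
  [FORMAL]  `J' := J ⧸ Λ₀`, `Λ₀ :=` the subgroup generated by `τ x - x` (`τ` in the inertia group of `A`)
            and `σ₀² x - T_ℓ σ₀ x + ℓ x` (`σ₀` one Frobenius lift).  All clauses of `IsSpecialization` and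
            `SpecialFibreRelation` are formal EXCEPT `injective_torsion`, i.e. `Λ₀ ∩ J[p^∞] = 0`.
  [RHO]     there is an additive map `ρ : J → G` (any abelian group `G`) and endomorphisms `Φ, Ψ` of `G` with
            `ρ ∘ τ = ρ`, `ρ ∘ σ = Φ ∘ ρ` (Frobenius lifts), `ρ ∘ T_ℓ = (Φ + Ψ) ∘ ρ`, `Ψ ∘ Φ = ℓ`,
            and `ρ` injective on torsion of order prime to `ℓ`.   Then `ρ(Λ₀) = 0`, so `Λ₀ ∩ J[p^∞] = 0`.
-/
import Mathlib
import Fermat.Prelude.Def_ModularCurve_HeckeModule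

set_option autoImplicit false

open ModularCurve

noncomputable section

namespace Fermat.Agent.S37

/-- **[RHO]** at `(N, ℓ, A)`: a "reduction map" on `J₀(N)(Q̄)` with the Eichler–Shimura congruence. -/
def s37_RhoAt (N ℓ : ℕ) [NeZero N] (hℓ : ℓ.Prime)
    (A : ValuationSubring (AlgebraicClosure ℚ)) : Prop :=
  ∃ (G : Type) (_ : AddCommGroup G) (ρ : JZero N →+ G) (Φ Ψ : G →+ G),
    (∀ τ ∈ A.inertiaSubgroupIn ℚ, ∀ x : JZero N, ρ (τ • x) = ρ x) ∧
    (∀ σ : AlgebraicClosure ℚ ≃ₐ[ℚ] AlgebraicClosure ℚ, A.IsFrobeniusAt σ ℓ →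
      ∀ x : JZero N, ρ (σ • x) = Φ (ρ x)) ∧
    (∀ x : JZero N, ρ (heckeOperatorBar N ⟨ℓ, hℓ⟩ x) = Φ (ρ x) + Ψ (ρ x)) ∧
    (∀ g : G, Ψ (Φ g) = ℓ • g) ∧
    (∀ m : ℕ, ¬ ℓ ∣ m → ∀ x : JZero N, m • x = 0 → ρ x = 0 → x = 0)

/-- **[RHO]** for all levels and all primes not dividing the level. -/
def s37_RhoStatement : Prop :=
  ∀ (N : ℕ) [NeZero N] (ℓ : ℕ) (hℓ : ℓ.Prime), ¬ ℓ ∣ N →
    ∀ A : ValuationSubring (AlgebraicClosure ℚ), A.LiesOverPrime ℓ → s37_RhoAt N ℓ hℓ A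

/-- The statement S37, verbatim. -/
def s37_Goal : Prop :=
  ∀ (N p : ℕ) [NeZero N] (_ : ModularCurve.HeckeOperatorsCommuteBar N),
    letI := ModularCurve.heckeModuleBar N
    ∀ (_ : SMulCommClass (AlgebraicClosure ℚ ≃ₐ[ℚ] AlgebraicClosure ℚ) ModularCurve.HeckeAlg
      (ModularCurve.JZero N)),
      ModularCurve.SpecializationExists (K := ℚ) (L := AlgebraicClosure ℚ) N p
        (ModularCurve.JZero N)

/-- **[FORMAL]** the quotient construction. -/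
def s37_FormalStatement : Prop := s37_RhoStatement → s37_Goal

end Fermat.Agent.S37
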