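/-
S37, THE CUT OF [RHO] (architect: lead).  Prefix `s37_`.  Definitions, `Prop`s and the composition.

Notation: `ℓ ∤ N`, `A` a valuation ring of `Q̄` over `ℓ`, `k` its residue field,
`M := s18_level N ℓ` (`= lcm(N,4)` resp. `lcm(N,9)`), `red := ModularCurve.reductionModL A M`
(the Prelude's reduction map `J₀(M)(Q̄) → Pic⁰(F_k(M))`).

  `G := Pic⁰(F_k(M))`,  `ρ := red ∘ c`,  `Φ := Frob_*`,  `Ψ := ℓ · (Frob⁻¹)_*`

where `c : J₀(N) → J₀(M)` is the conorm and `Frob` acts coefficientwise on `F_k(M) ⊆ k((q))`.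

  [RI]       the reduction inputs EXIST at level `M`: `ModularCurve.ReductionInputsModL A M`
             (specialisation of places on the smooth model + the divisor of an integral function
             specialises to the divisor of its reduction).
  [EQ]       `red (σ • x) = σ̄ • red x` for `σ` in the decomposition group of `A`.
  [ES]       the Eichler-Shimura congruence `red ∘ T_ℓ = (Frob_* + ℓ · Frob⁻¹_*) ∘ red` at level `M`.
  [INJ]      `red` is injective on torsion prime to `ℓ` (= the statement S18).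
  [DESCEND]  the conorm `c : J₀(N) → J₀(M)`: Galois equivariant, commutes with `T_ℓ`, injective on
             torsion.
-/
import Mathlib
import Fermat.Prelude.Def_ModularCurve_HeckeModule
import Fermat.Prelude.Def_ModularCurve_ReductionModL
import Fermat.Prelude.Def_EllipticCurve_FrobeniusTrace
import Fermat.Agent.S37.Defs
import Fermat.Agent.S18.Defs

set_option autoImplicit false

open ModularCurve AlgebraicCurve IntermediateField

noncomputable section

namespace Fermat.Agent.S37

/-! ### The coefficientwise action of `Aut(k)` on `F_k(M)` -/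

section CoeffAut

variable (k : Type) [Field k] (M : ℕ) [NeZero M]

theorem s37_coeffMap_mem_aux (e : k →+* k) {x : LaurentSeries k}
    (hx : x ∈ Subfield.closure
      (Set.range (algebraMap k (LaurentSeries k)) ∪ divisorExpansionsC k M)) :
    coeffMap e x ∈ modularFunctionFieldFullC k M := by
  induction hx using Subfield.closure_induction with
  | mem y hy =>
      rcases hy with ⟨a, rfl⟩ | ⟨d, hd, hdM, rfl⟩
      · rw [coeffMap_algebraMap]
        exact (modularFunctionFieldFullC k M).algebraMap_mem _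
      · haveI := hd
        rw [coeffMap_qExpand, coeffMap_jqModC]
        exact jqModCd_mem_full k M hdM
  | one => rw [map_one]; exact one_mem _
  | add x y _ _ hx hy => rw [map_add]; exact add_mem hx hy
  | neg x _ hx => rw [map_neg]; exact neg_mem hx
  | inv x _ hx => rw [map_inv₀]; exact inv_mem hx
  | mul x y _ _ hx hy => rw [map_mul]; exact mul_mem hx hy

theorem s37_coeffMap_mem (e : k →+* k) {x : LaurentSeries k}
    (hx : x ∈ modularFunctionFieldFullC k M) :
    coeffMap e x ∈ modularFunctionFieldFullC k M :=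
  s37_coeffMap_mem_aux k M e hx

/-- The coefficientwise action of `e ∈ Aut(k)` on `F_k(M)`, as a ring automorphism. -/
def s37_coeffRingAut (e : k ≃+* k) :
    ↥(modularFunctionFieldFullC k M) ≃+* ↥(modularFunctionFieldFullC k M) where
  toFun x := ⟨coeffMap (e : k →+* k) (x : LaurentSeries k), s37_coeffMap_mem k M _ x.2⟩
  invFun x := ⟨coeffMap (e.symm : k →+* k) (x : LaurentSeries k), s37_coeffMap_mem k M _ x.2⟩
  left_inv x := Subtype.ext <| by
    show coeffMap (e.symm : k →+* k) (coeffMap (e : k →+* k) (x : LaurentSeries k))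
      = (x : LaurentSeries k)
    rw [coeffMap_coeffMap,
      coeffMap_congr (g := RingHom.id k) (RingHom.ext fun a => e.symm_apply_apply a)
        (x : LaurentSeries k),
      coeffMap_id]
  right_inv x := Subtype.ext <| by
    show coeffMap (e : k →+* k) (coeffMap (e.symm : k →+* k) (x : LaurentSeries k))
      = (x : LaurentSeries k)
    rw [coeffMap_coeffMap,
      coeffMap_congr (g := RingHom.id k) (RingHom.ext fun a => e.apply_symm_apply a)
        (x : LaurentSeries k),
      coeffMap_id]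
  map_mul' x y :=
    Subtype.ext (map_mul (coeffMap (e : k →+* k)) (x : LaurentSeries k) (y : LaurentSeries k))
  map_add' x y :=
    Subtype.ext (map_add (coeffMap (e : k →+* k)) (x : LaurentSeries k) (y : LaurentSeries k))

/-- The coefficientwise action of `e ∈ Aut(k)` on `F_k(M)`, as a semilinear automorphism
(so that it acts on places, divisors and `Pic⁰`). -/
def s37_coeffAut (e : k ≃+* k) : SemilinearAut k ↥(modularFunctionFieldFullC k M) :=
  ⟨(s37_coeffRingAut k M e, e), fun a => Subtype.ext (coeffMap_algebraMap (e : k →+* k) a)⟩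

theorem s37_coe_coeffAut_smul (e : k ≃+* k) (x : ↥(modularFunctionFieldFullC k M)) :
    ((s37_coeffAut k M e • x : ↥(modularFunctionFieldFullC k M)) : LaurentSeries k) =
      coeffMap (e : k →+* k) (x : LaurentSeries k) := rfl

theorem s37_coeffAut_refl : s37_coeffAut k M (RingEquiv.refl k) = 1 := by
  refine Subtype.ext (Prod.ext (RingEquiv.ext fun x => Subtype.ext ?_) rfl)
  show coeffMap ((RingEquiv.refl k : k ≃+* k) : k →+* k) (x : LaurentSeries k) = _
  rw [show ((RingEquiv.refl k : k ≃+* k) : k →+* k) = RingHom.id k from rfl, coeffMap_id]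
  rfl

end CoeffAut

/-! ### The packages -/

section Packages

/-- The automorphism of the residue field of `A` induced by an element of the decomposition
group of `A`. -/
def s37_resAut (A : ValuationSubring (AlgebraicClosure ℚ))
    (σ : AlgebraicClosure ℚ ≃ₐ[ℚ] AlgebraicClosure ℚ) (hσ : σ ∈ A.decompositionSubgroup ℚ) :
    IsLocalRing.ResidueField A ≃+* IsLocalRing.ResidueField A :=
  MulSemiringAction.toRingAut (A.decompositionSubgroup ℚ) (IsLocalRing.ResidueField A) ⟨σ, hσ⟩

theorem s37_resAut_apply (A : ValuationSubring (AlgebraicClosure ℚ))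
    (σ : AlgebraicClosure ℚ ≃ₐ[ℚ] AlgebraicClosure ℚ) (hσ : σ ∈ A.decompositionSubgroup ℚ)
    (a : IsLocalRing.ResidueField A) :
    s37_resAut A σ hσ a = (⟨σ, hσ⟩ : A.decompositionSubgroup ℚ) • a := rfl

/-- **[RI]** the reduction inputs exist at every level `M` prime to `ℓ` with `4 ∣ M` or `9 ∣ M`. -/
def s37_RedInputsStatement : Prop :=
  ∀ (M : ℕ) [NeZero M] {ℓ : ℕ} [Fact ℓ.Prime], ¬ ℓ ∣ M → (4 ∣ M ∨ 9 ∣ M) →
    ∀ A : ValuationSubring (AlgebraicClosure ℚ), A.LiesOverPrime ℓ →
      ModularCurve.ReductionInputsModL A M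

/-- **[EQ]** the reduction map is equivariant for the decomposition group. -/
def s37_EquivStatement : Prop :=
  ∀ (M : ℕ) [NeZero M] {ℓ : ℕ} [Fact ℓ.Prime], ¬ ℓ ∣ M → (4 ∣ M ∨ 9 ∣ M) →
    ∀ A : ValuationSubring (AlgebraicClosure ℚ), A.LiesOverPrime ℓ →
      ModularCurve.ReductionInputsModL A M →
      ∀ (σ : AlgebraicClosure ℚ ≃ₐ[ℚ] AlgebraicClosure ℚ) (hσ : σ ∈ A.decompositionSubgroup ℚ)
        (x : JZero M),
        reductionModL A M (σ • x) =
          s37_coeffAut (IsLocalRing.ResidueField A) M (s37_resAut A σ hσ) • reductionModL A M x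

/-- **[ES]** the Eichler-Shimura congruence relation at level `M`:
`red ∘ T_ℓ = (Frob_* + ℓ · Frob⁻¹_*) ∘ red`. -/
def s37_ESStatement : Prop :=
  ∀ (M : ℕ) [NeZero M] (ℓ : ℕ) (hℓ : ℓ.Prime), ¬ ℓ ∣ M → (4 ∣ M ∨ 9 ∣ M) →
    ∀ A : ValuationSubring (AlgebraicClosure ℚ), A.LiesOverPrime ℓ →
      ModularCurve.ReductionInputsModL A M →
      ∀ φ : IsLocalRing.ResidueField A ≃+* IsLocalRing.ResidueField A, (∀ a, φ a = a ^ ℓ) →
        ∀ x : JZero M,
          reductionModL A M (heckeOperatorBar M ⟨ℓ, hℓ⟩ x) =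
            s37_coeffAut (IsLocalRing.ResidueField A) M φ • reductionModL A M x +
              ℓ • ((s37_coeffAut (IsLocalRing.ResidueField A) M φ)⁻¹ • reductionModL A M x)

/-- **[INJ]** = the statement S18 (as a `Prop`). -/
def s37_InjStatement : Prop :=
  ∀ (N : ℕ) [NeZero N] {ℓ : ℕ} [Fact ℓ.Prime], ¬ ℓ ∣ N →
    ∀ A : ValuationSubring (AlgebraicClosure ℚ), A.LiesOverPrime ℓ →
      ModularCurve.ReductionInputsModL A N → ∀ m : ℕ, ¬ ℓ ∣ m →
        ∀ z : ModularCurve.JZero N, m • z = 0 → ModularCurve.reductionModL A N z = 0 → z = 0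

/-- **[DESCEND]** the conorm `J₀(N) → J₀(M)`, `M = s18_level N ℓ`. -/
def s37_DescendStatement : Prop :=
  ∀ (N : ℕ) [NeZero N] (ℓ : ℕ) (hℓ : ℓ.Prime), ¬ ℓ ∣ N →
    haveI : NeZero (S18.s18_level N ℓ) := ⟨S18.s18_level_ne_zero N ℓ⟩
    ∃ c : JZero N →+ JZero (S18.s18_level N ℓ),
      (∀ (σ : AlgebraicClosure ℚ ≃ₐ[ℚ] AlgebraicClosure ℚ) (x : JZero N),
        c (σ • x) = σ • c x) ∧
      (∀ x : JZero N,
        c (heckeOperatorBar N ⟨ℓ, hℓ⟩ x) = heckeOperatorBar (S18.s18_level N ℓ) ⟨ℓ, hℓ⟩ (c x)) ∧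
      (∀ m : ℕ, ¬ ℓ ∣ m → ∀ x : JZero N, m • x = 0 → c x = 0 → x = 0)

/-- **[FROB]** the residue field of `A` is perfect: the Frobenius is an automorphism. -/
def s37_FrobStatement : Prop :=
  ∀ {ℓ : ℕ} [Fact ℓ.Prime] (A : ValuationSubring (AlgebraicClosure ℚ)), A.LiesOverPrime ℓ →
    ∃ φ : IsLocalRing.ResidueField A ≃+* IsLocalRing.ResidueField A, ∀ a, φ a = a ^ ℓ

end Packages

/-! ### The composition -/

/-- **The composition**: [RHO] from [RI], [EQ], [ES], [INJ], [DESCEND], [FROB]. -/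
theorem s37_rho_of (hRI : s37_RedInputsStatement) (hEQ : s37_EquivStatement)
    (hES : s37_ESStatement) (hINJ : s37_InjStatement) (hD : s37_DescendStatement)
    (hF : s37_FrobStatement) : s37_RhoStatement := by
  intro N _ ℓ hℓ hℓN A hA
  haveI : Fact ℓ.Prime := ⟨hℓ⟩
  haveI : NeZero (S18.s18_level N ℓ) := ⟨S18.s18_level_ne_zero N ℓ⟩
  have hℓM : ¬ ℓ ∣ S18.s18_level N ℓ := S18.s18_level_not_dvd N ℓ hℓN
  have h49 := S18.s18_level_dvd N ℓ
  have h := hRI (S18.s18_level N ℓ) hℓM h49 A hA
  obtain ⟨c, hc1, hc2, hc3⟩ := hD N ℓ hℓ hℓN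
  obtain ⟨φ, hφ⟩ := hF A hA
  let g := s37_coeffAut (IsLocalRing.ResidueField A) (S18.s18_level N ℓ) φ
  refine ⟨JZeroC (IsLocalRing.ResidueField A) (S18.s18_level N ℓ), inferInstance,
    (reductionModL A (S18.s18_level N ℓ)).comp c,
    DistribMulAction.toAddMonoidHom _ g,
    ℓ • DistribMulAction.toAddMonoidHom _ g⁻¹, ?_, ?_, ?_, ?_, ?_⟩
  · -- inertia
    rintro τ ⟨t, ht, rfl⟩ x
    have ht' : MulSemiringAction.toRingAut (A.decompositionSubgroup ℚ)
        (IsLocalRing.ResidueField A) t = 1 := ht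
    have h1 := hEQ (S18.s18_level N ℓ) hℓM h49 A hA h
      ((A.decompositionSubgroup ℚ).subtype t) t.2 (c x)
    have h2 : s37_resAut A ((A.decompositionSubgroup ℚ).subtype t) t.2 =
        RingEquiv.refl (IsLocalRing.ResidueField A) := ht'
    rw [h2, s37_coeffAut_refl, one_smul] at h1
    show reductionModL A (S18.s18_level N ℓ) (c (_ • x)) =
      reductionModL A (S18.s18_level N ℓ) (c x)
    rw [hc1]
    exact h1
  · -- Frobenius lifts
    rintro σ ⟨hσ, hx⟩ x
    have h1 := hEQ (S18.s18_level N ℓ) hℓM h49 A hA h σ hσ (c x)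
    have h2 : s37_resAut A σ hσ = φ := by
      ext a
      rw [s37_resAut_apply, hx, hφ]
    rw [h2] at h1
    show reductionModL A (S18.s18_level N ℓ) (c (σ • x)) =
      g • reductionModL A (S18.s18_level N ℓ) (c x)
    rw [hc1]
    exact h1
  · -- Eichler-Shimura
    intro x
    have h1 := hES (S18.s18_level N ℓ) ℓ hℓ hℓM h49 A hA h φ hφ (c x)
    show reductionModL A (S18.s18_level N ℓ) (c (heckeOperatorBar N ⟨ℓ, hℓ⟩ x)) =
      g • reductionModL A (S18.s18_level N ℓ) (c x) +
        ℓ • (g⁻¹ • reductionModL A (S18.s18_level N ℓ) (c x))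
    rw [hc2]
    exact h1
  · -- `Ψ ∘ Φ = ℓ`
    intro y
    show ℓ • (g⁻¹ • (g • y)) = ℓ • y
    rw [inv_smul_smul]
  · -- injectivity on torsion
    intro m hm x hmx hx
    refine hc3 m hm x hmx ?_
    refine hINJ (S18.s18_level N ℓ) hℓM A hA h m hm (c x) ?_ hx
    rw [← map_nsmul, hmx, map_zero]

end Fermat.Agent.S37
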