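/-
S37, package (3) [ES]: THE CUT (sub-architect: helper9).  Prefix `s37es_`.
Definitions, `Prop`s and the composition only.

GOAL  `s37_ESStatement` (RhoDefs.lean): at level `M` (`ℓ ∤ M`), with `red = reductionModL A M`,
`g = s37_coeffAut k M φ` (`φ` the Frobenius of the residue field `k` of `A`),

    red (T_ℓ x) = g • red x + ℓ • (g⁻¹ • red x)          in `Pic⁰ (F_k(M))`.

ROUTE (NO moving lemma, NO charts, NO j-values: only the norm congruence and Riemann's inequality).
`T_ℓ = α_* ∘ β^*` on divisors, `α = heckeAlphaBar` (inclusion `F̄_M ⊆ F̄_{Mℓ}`), `β = heckeBetaBar`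
(`y(q) ↦ y(q^ℓ)`), `r = placeReductionModL h`.  Put, for a divisor `D` of `F̄_M`,

    E(D) := r_*(T D) - g • r_* D - ℓ • g⁻¹ • r_* D          (a divisor of `F_k(M)`).

 (1) [PRIN]  `E` kills principal divisors.  For a "valid" `y` (`y ∈ A((q)) ∩ F̄_M`, `ȳ ∈ F_k(M)`,
     `ȳ ≠ 0`): `T (div y) = div (N_α (β y))` (norm formula, part of [HI]);
     [NORM]: `N_α(β y) = y(q^ℓ) · w`, `w ∈ A((q))`, `w(q^ℓ) = ∏_{ζ^ℓ = 1} y(ζ q)`, and mod the
     maximal ideal `y(q^ℓ) ≡ (g⁻¹ ȳ)^ℓ`, `w ≡ g ȳ` (as `ζ ≡ 1`); the place reduction `r` sends the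
     divisor of a valid function to the divisor of its reduction, and `div (g • f) = g • div f`.
     Principal divisors are generated by the divisors of valid functions (`PrincipalGeneratedByIntegral`).
 (2) [FIN]  `E` is bounded: `0 ≤ r_*(T P) (Q) ≤ deg (T P) = [F̄_{Mℓ} : β F̄_M]` and
     `0 ≤ (g • r P + ℓ • g⁻¹ • r P)(Q) ≤ ℓ + 1`, so `|E(P)(Q)| ≤ C` for all places `P`, `Q`.
     [RIEMANN]: there is `g₀` such that every divisor of degree `≥ g₀` is linearly equivalent to an
     effective one.  For places `P`, `P'` and `n := 2 g₀ C + 1`:  `n (P - P') + g₀ P' ~ D_n ≥ 0`,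
     `deg D_n = g₀`, so `n (E P - E P') = E D_n - g₀ E P'` has all coefficients of absolute value
     `≤ 2 g₀ C < n`: `E P = E P'`.  All places have degree one, hence `E D = (deg D) · E P₀ = 0` for
     `D` of degree `0`:  the congruence holds ON DIVISORS of degree `0`.

THE LEAVES, FINAL FORM (04:10Z; see the end of the file: `s37es_E`, `s37es_of'`)
  [HI]         `s37es_HIStatement`      (helper14)
  [ES-CONJ]    `s37es_ConjStatement`    the norm is the product over the conjugates
                                         (`s37es_nm_main` helper17 + `s37al_W` helper8)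
  [ES-KILL-OF] `HI → Conj → s37es_KillStatement`    `E` kills principal divisors
                                         (with the congruence `s37cg_main` / `s37ec_div`)
  [ES-BOUND]   `s37es_BoundStatement`   `|E(P)(Q)| ≤ C`
  [ES-ZERO-OF] `Kill → Bound → s37es_ZeroStatement`  (= [BDD], `s37t_BddVecStatement`)
  [ES-FIN-OF]  `HI → Zero → s37_ESStatement`

THE LEAVES, FIRST FORM (04:00Z; kept, the `Prop`s are true)
  [HI]         `s37es_HIStatement`      the Hecke inputs (helper14: `s37hi_main`)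
  [ES-EMB]     `s37es_EmbStatement`     the `ℓ` conjugate embeddings `F̄_{Mℓ} → Q̄((t))` over `F̄_M`
                                         (`t = q^{1/ℓ}`; analytic, template S18/DownFricke.lean)
  [ES-DEG]     `s37es_DegStatement`     `[F̄_{Mℓ} : F̄_M] = ℓ + 1`
  [ES-CONJ-OF] `Emb → Deg → s37es_ConjStatement`   the norm is the product over the conjugates
  [ES-INT]     `s37es_IntStatement`     integrality and reduction of `∏_ζ y(ζ t)` (pure algebra)
  [ES-FROB]    `s37es_FrobSerStatement` `x ^ ℓ = (φ x)(q^ℓ)` in `k((q))` (pure algebra)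
  [ES-NORM-OF] `Conj → Int → FrobSer → s37es_NormStatement`
  [ES-PRIN-OF] `HI → Norm → s37es_PrinStatement`
  [ES-RIEMANN] `s37es_RiemannStatement` Riemann's inequality (weak form) for `F̄_M`
  [ES-FIN-OF]  `HI → Prin → Riemann → s37_ESStatement`
-/
import Mathlib
import Fermat.Prelude.Def_ModularCurve_HeckeModule
import Fermat.Prelude.Def_ModularCurve_ReductionModL
import Fermat.Agent.S37.RhoDefs
import Fermat.Agent.S18.DownSeries

set_option autoImplicit false

open ModularCurve AlgebraicCurve IntermediateField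

noncomputable section

namespace Fermat.Agent.S37

/-- The norm `N_α (β y)` of `y(q^ℓ)` from `F̄_{Mℓ}` down to `F̄_M`. -/
def s37es_norm (M ℓ : ℕ) [NeZero M] [NeZero ℓ] (y : ↥(modularFunctionFieldBar M)) :
    ↥(modularFunctionFieldBar M) :=
  letI := algebraAlong (heckeAlphaBar (AlgebraicClosure ℚ) M ℓ)
  Algebra.norm ↥(modularFunctionFieldBar M) (heckeBetaBar (AlgebraicClosure ℚ) M ℓ y)

/-- **[HI]** the Hecke inputs hold (so that `heckeOperatorBar` is the correspondence `α_* ∘ β^*`). -/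
def s37es_HIStatement : Prop :=
  ∀ (M ℓ : ℕ) [NeZero M] [NeZero ℓ], HeckeInputsAlong (AlgebraicClosure ℚ) M ℓ

/-- **[ES-EMB]** for every `ℓ`-th root of unity `ζ` there is an embedding of `F̄_{Mℓ}` into
`Q̄((t))` (`t = q^{1/ℓ}`) which is `y(q) ↦ y(t^ℓ)` on `α (F̄_M)` and `y(q^ℓ) ↦ y(ζ t)` on
`β (F̄_M)`.  (Analytically: `f ↦ f ∘ γ` for a suitable `γ ∈ Γ₀(M)`.) -/
def s37es_EmbStatement : Prop :=
  ∀ (M ℓ : ℕ) [NeZero M] [NeZero ℓ], ℓ.Prime → ¬ ℓ ∣ M →
    ∀ ζ : (AlgebraicClosure ℚ)ˣ, ζ ^ ℓ = 1 →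
      ∃ e : ↥(modularFunctionFieldBar (M * ℓ)) →+* LaurentSeries (AlgebraicClosure ℚ),
        (∀ x : ↥(modularFunctionFieldBar M),
          e (heckeAlphaBar (AlgebraicClosure ℚ) M ℓ x) =
            qExpand (AlgebraicClosure ℚ) ℓ (x : LaurentSeries (AlgebraicClosure ℚ))) ∧
        (∀ x : ↥(modularFunctionFieldBar M),
          e (heckeBetaBar (AlgebraicClosure ℚ) M ℓ x) =
            S18.s18d_tau ζ (x : LaurentSeries (AlgebraicClosure ℚ)))

/-- **[ES-DEG]** `[F̄_{Mℓ} : F̄_M] = ℓ + 1` for a prime `ℓ ∤ M`. -/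
def s37es_DegStatement : Prop :=
  ∀ (M ℓ : ℕ) [NeZero M] [NeZero ℓ], ℓ.Prime → ¬ ℓ ∣ M →
    finrankAlong (AlgebraicClosure ℚ) (heckeAlphaBar (AlgebraicClosure ℚ) M ℓ) = ℓ + 1

/-- **[ES-CONJ]** the norm of `y(q^ℓ)` is the product of its `ℓ + 1` conjugates
`y(q^ℓ)`, `y(ζ^i q^{1/ℓ})` (`i < ℓ`, `ζ` a primitive `ℓ`-th root of unity); written in the
variable `t = q^{1/ℓ}`. -/
def s37es_ConjStatement : Prop :=
  ∀ (M ℓ : ℕ) [NeZero M] [NeZero ℓ], ℓ.Prime → ¬ ℓ ∣ M →
    ∀ ζ : (AlgebraicClosure ℚ)ˣ, IsPrimitiveRoot ζ ℓ →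
      ∀ y : ↥(modularFunctionFieldBar M),
        qExpand (AlgebraicClosure ℚ) ℓ
            ((s37es_norm M ℓ y : ↥(modularFunctionFieldBar M)) :
              LaurentSeries (AlgebraicClosure ℚ)) =
          qExpand (AlgebraicClosure ℚ) ℓ
              (qExpand (AlgebraicClosure ℚ) ℓ (y : LaurentSeries (AlgebraicClosure ℚ))) *
            ∏ i ∈ Finset.range ℓ,
              S18.s18d_tau (ζ ^ i) (y : LaurentSeries (AlgebraicClosure ℚ))

/-- **[ES-INT]** for `y ∈ A((q))` the product `∏_{i < ℓ} y(ζ^i t)` is `w(t^ℓ)` with `w ∈ A((q))`,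
and `w` reduces to the coefficientwise Frobenius of `ȳ`. -/
def s37es_IntStatement : Prop :=
  ∀ (ℓ : ℕ) [NeZero ℓ], ℓ.Prime →
    ∀ A : ValuationSubring (AlgebraicClosure ℚ), A.LiesOverPrime ℓ →
      ∀ φ : IsLocalRing.ResidueField A ≃+* IsLocalRing.ResidueField A, (∀ a, φ a = a ^ ℓ) →
        ∀ ζ : (AlgebraicClosure ℚ)ˣ, IsPrimitiveRoot ζ ℓ →
          ∀ y : LaurentSeries A, ∃ w : LaurentSeries A,
            qExpand (AlgebraicClosure ℚ) ℓ (coeffMap A.subtype w) =
                ∏ i ∈ Finset.range ℓ, S18.s18d_tau (ζ ^ i) (coeffMap A.subtype y) ∧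
              coeffMap (IsLocalRing.residue A) w =
                coeffMap (φ : IsLocalRing.ResidueField A →+* IsLocalRing.ResidueField A)
                  (coeffMap (IsLocalRing.residue A) y)

/-- **[ES-FROB]** in characteristic `ℓ`: `x ^ ℓ = (φ x)(q^ℓ)` for Laurent series. -/
def s37es_FrobSerStatement : Prop :=
  ∀ (ℓ : ℕ) [NeZero ℓ], ℓ.Prime →
    ∀ A : ValuationSubring (AlgebraicClosure ℚ), A.LiesOverPrime ℓ →
      ∀ φ : IsLocalRing.ResidueField A ≃+* IsLocalRing.ResidueField A, (∀ a, φ a = a ^ ℓ) →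
        ∀ x : LaurentSeries (IsLocalRing.ResidueField A),
          x ^ ℓ = qExpand (IsLocalRing.ResidueField A) ℓ
            (coeffMap (φ : IsLocalRing.ResidueField A →+* IsLocalRing.ResidueField A) x)

/-- **[ES-NORM]** the norm congruence: for `y ∈ A((q)) ∩ F̄_M` the norm `N_α (β y)` has
coefficients in `A` and reduces to `(φ⁻¹ ȳ)^ℓ · (φ ȳ)`. -/
def s37es_NormStatement : Prop :=
  ∀ (M ℓ : ℕ) [NeZero M] [NeZero ℓ], ℓ.Prime → ¬ ℓ ∣ M →
    ∀ A : ValuationSubring (AlgebraicClosure ℚ), A.LiesOverPrime ℓ →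
      ∀ φ : IsLocalRing.ResidueField A ≃+* IsLocalRing.ResidueField A, (∀ a, φ a = a ^ ℓ) →
        ∀ (y : LaurentSeries A) (hy : coeffMap A.subtype y ∈ modularFunctionFieldBar M),
          ∃ z : LaurentSeries A,
            coeffMap A.subtype z =
                ((s37es_norm M ℓ ⟨coeffMap A.subtype y, hy⟩ : ↥(modularFunctionFieldBar M)) :
                  LaurentSeries (AlgebraicClosure ℚ)) ∧
              coeffMap (IsLocalRing.residue A) z =
                coeffMap (φ.symm : IsLocalRing.ResidueField A →+* IsLocalRing.ResidueField A)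
                    (coeffMap (IsLocalRing.residue A) y) ^ ℓ *
                  coeffMap (φ : IsLocalRing.ResidueField A →+* IsLocalRing.ResidueField A)
                    (coeffMap (IsLocalRing.residue A) y)

/-- **[ES-PRIN]** the congruence holds on principal divisors, as an identity of divisors. -/
def s37es_PrinStatement : Prop :=
  ∀ (M ℓ : ℕ) [NeZero M] [NeZero ℓ], ℓ.Prime → ¬ ℓ ∣ M →
    ∀ A : ValuationSubring (AlgebraicClosure ℚ), A.LiesOverPrime ℓ →
      ∀ h : ModularCurve.ReductionInputsModL A M,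
        ∀ φ : IsLocalRing.ResidueField A ≃+* IsLocalRing.ResidueField A, (∀ a, φ a = a ^ ℓ) →
          ∀ (hα : HeckeAlphaBarIntegral (AlgebraicClosure ℚ) M ℓ)
            (hβ : HeckeBetaBarIntegral (AlgebraicClosure ℚ) M ℓ)
            [HasPrincipalDivisors (AlgebraicClosure ℚ) ↥(modularFunctionFieldBar (M * ℓ))],
            ∀ D ∈ Divisor.principal (K := AlgebraicClosure ℚ) (F := ↥(modularFunctionFieldBar M)),
              Finsupp.mapDomain (placeReductionModL h) (heckeDivBar hα hβ D) =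
                s37_coeffAut (IsLocalRing.ResidueField A) M φ •
                    Finsupp.mapDomain (placeReductionModL h) D +
                  ℓ • ((s37_coeffAut (IsLocalRing.ResidueField A) M φ)⁻¹ •
                    Finsupp.mapDomain (placeReductionModL h) D)

/-- **[ES-RIEMANN]** Riemann's inequality, weak form: every divisor of `F̄_M` of degree `≥ g₀` is
linearly equivalent to an effective divisor. -/
def s37es_RiemannStatement : Prop :=
  ∀ (M : ℕ) [NeZero M], ∃ g₀ : ℕ,
    ∀ D : Divisor (AlgebraicClosure ℚ) ↥(modularFunctionFieldBar M),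
      (g₀ : ℤ) ≤ Divisor.degree D →
        ∃ f : ↥(modularFunctionFieldBar M), f ≠ 0 ∧
          ∀ P : Place (AlgebraicClosure ℚ) ↥(modularFunctionFieldBar M), 0 ≤ D P + P.ord f

/-! ### The error homomorphism `E` and the final cut (04:10Z) -/

section ErrorHom

set_option synthInstance.maxHeartbeats 400000

variable {M ℓ : ℕ} [NeZero M] [NeZero ℓ] {A : ValuationSubring (AlgebraicClosure ℚ)}

/-- The error homomorphism `E = r_* ∘ T - g • r_* - ℓ • g⁻¹ • r_*` on divisors, where
`T = α_* ∘ β^*` (`heckeDivBar`), `r = placeReductionModL h`, `g = s37_coeffAut k M φ`. -/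
def s37es_E (h : ModularCurve.ReductionInputsModL A M)
    (φ : IsLocalRing.ResidueField A ≃+* IsLocalRing.ResidueField A)
    (hα : HeckeAlphaBarIntegral (AlgebraicClosure ℚ) M ℓ)
    (hβ : HeckeBetaBarIntegral (AlgebraicClosure ℚ) M ℓ)
    [HasPrincipalDivisors (AlgebraicClosure ℚ) ↥(modularFunctionFieldBar (M * ℓ))] :
    Divisor (AlgebraicClosure ℚ) ↥(modularFunctionFieldBar M) →+
      Divisor (IsLocalRing.ResidueField A)
        ↥(modularFunctionFieldFullC (IsLocalRing.ResidueField A) M) :=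
  (reductionDivAlong (placeReductionModL h)).comp (heckeDivBar hα hβ) -
    (DistribSMul.toAddMonoidHom _ (s37_coeffAut (IsLocalRing.ResidueField A) M φ)).comp
      (reductionDivAlong (placeReductionModL h)) -
    ℓ • (DistribSMul.toAddMonoidHom _
      (s37_coeffAut (IsLocalRing.ResidueField A) M φ)⁻¹).comp
      (reductionDivAlong (placeReductionModL h))

theorem s37es_E_apply (h : ModularCurve.ReductionInputsModL A M)
    (φ : IsLocalRing.ResidueField A ≃+* IsLocalRing.ResidueField A)
    (hα : HeckeAlphaBarIntegral (AlgebraicClosure ℚ) M ℓ)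
    (hβ : HeckeBetaBarIntegral (AlgebraicClosure ℚ) M ℓ)
    [HasPrincipalDivisors (AlgebraicClosure ℚ) ↥(modularFunctionFieldBar (M * ℓ))]
    (D : Divisor (AlgebraicClosure ℚ) ↥(modularFunctionFieldBar M)) :
    s37es_E h φ hα hβ D =
      Finsupp.mapDomain (placeReductionModL h) (heckeDivBar hα hβ D) -
        s37_coeffAut (IsLocalRing.ResidueField A) M φ •
          Finsupp.mapDomain (placeReductionModL h) D -
        ℓ • ((s37_coeffAut (IsLocalRing.ResidueField A) M φ)⁻¹ •
          Finsupp.mapDomain (placeReductionModL h) D) := rfl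

end ErrorHom

set_option synthInstance.maxHeartbeats 400000

/-- **[ES-KILL]** `E` kills principal divisors. -/
def s37es_KillStatement : Prop :=
  ∀ (M ℓ : ℕ) [NeZero M] [NeZero ℓ], ℓ.Prime → ¬ ℓ ∣ M →
    ∀ A : ValuationSubring (AlgebraicClosure ℚ), A.LiesOverPrime ℓ →
      ∀ h : ModularCurve.ReductionInputsModL A M,
        ∀ φ : IsLocalRing.ResidueField A ≃+* IsLocalRing.ResidueField A, (∀ a, φ a = a ^ ℓ) →
          ∀ (hα : HeckeAlphaBarIntegral (AlgebraicClosure ℚ) M ℓ)
            (hβ : HeckeBetaBarIntegral (AlgebraicClosure ℚ) M ℓ)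
            [HasPrincipalDivisors (AlgebraicClosure ℚ) ↥(modularFunctionFieldBar (M * ℓ))],
            ∀ D ∈ Divisor.principal (K := AlgebraicClosure ℚ) (F := ↥(modularFunctionFieldBar M)),
              s37es_E h φ hα hβ D = 0

/-- **[ES-BOUND]** the coefficients of `E P` (`P` a place) are bounded, uniformly in `P`. -/
def s37es_BoundStatement : Prop :=
  ∀ (M ℓ : ℕ) [NeZero M] [NeZero ℓ], ℓ.Prime → ¬ ℓ ∣ M →
    ∀ A : ValuationSubring (AlgebraicClosure ℚ), A.LiesOverPrime ℓ →
      ∀ h : ModularCurve.ReductionInputsModL A M,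
        ∀ φ : IsLocalRing.ResidueField A ≃+* IsLocalRing.ResidueField A,
          ∀ (hα : HeckeAlphaBarIntegral (AlgebraicClosure ℚ) M ℓ)
            (hβ : HeckeBetaBarIntegral (AlgebraicClosure ℚ) M ℓ)
            [HasPrincipalDivisors (AlgebraicClosure ℚ) ↥(modularFunctionFieldBar (M * ℓ))],
            ∃ C : ℤ, ∀ (P : Place (AlgebraicClosure ℚ) ↥(modularFunctionFieldBar M))
              (Q : Place (IsLocalRing.ResidueField A)
                ↥(modularFunctionFieldFullC (IsLocalRing.ResidueField A) M)),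
              |s37es_E h φ hα hβ (Finsupp.single P 1) Q| ≤ C

/-- **[ES-ZERO]** `E` vanishes on divisors of degree `0`. -/
def s37es_ZeroStatement : Prop :=
  ∀ (M ℓ : ℕ) [NeZero M] [NeZero ℓ], ℓ.Prime → ¬ ℓ ∣ M →
    ∀ A : ValuationSubring (AlgebraicClosure ℚ), A.LiesOverPrime ℓ →
      ∀ h : ModularCurve.ReductionInputsModL A M,
        ∀ φ : IsLocalRing.ResidueField A ≃+* IsLocalRing.ResidueField A, (∀ a, φ a = a ^ ℓ) →
          ∀ (hα : HeckeAlphaBarIntegral (AlgebraicClosure ℚ) M ℓ)
            (hβ : HeckeBetaBarIntegral (AlgebraicClosure ℚ) M ℓ)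
            [HasPrincipalDivisors (AlgebraicClosure ℚ) ↥(modularFunctionFieldBar (M * ℓ))],
            ∀ D ∈ Divisor.degZero (K := AlgebraicClosure ℚ) (F := ↥(modularFunctionFieldBar M)),
              s37es_E h φ hα hβ D = 0

/-- **The composition** (first form, 04:00Z): [ES] from the leaves. -/
theorem s37es_of (hHI : s37es_HIStatement) (hEmb : s37es_EmbStatement)
    (hDeg : s37es_DegStatement)
    (hConjOf : s37es_EmbStatement → s37es_DegStatement → s37es_ConjStatement)
    (hInt : s37es_IntStatement) (hFrob : s37es_FrobSerStatement)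
    (hNormOf : s37es_ConjStatement → s37es_IntStatement → s37es_FrobSerStatement →
      s37es_NormStatement)
    (hPrinOf : s37es_HIStatement → s37es_NormStatement → s37es_PrinStatement)
    (hRiem : s37es_RiemannStatement)
    (hFinOf : s37es_HIStatement → s37es_PrinStatement → s37es_RiemannStatement →
      s37_ESStatement) :
    s37_ESStatement :=
  hFinOf hHI (hPrinOf hHI (hNormOf (hConjOf hEmb hDeg) hInt hFrob)) hRiem

/-- **The composition** (final form, 04:10Z): [ES] from
[HI], [ES-CONJ] (`s37es_nm_main` + `s37al_W`), [ES-KILL-OF], [ES-BOUND], [ES-ZERO-OF] (= [BDD]) and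
[ES-FIN-OF]. -/
theorem s37es_of' (hHI : s37es_HIStatement) (hConj : s37es_ConjStatement)
    (hKillOf : s37es_HIStatement → s37es_ConjStatement → s37es_KillStatement)
    (hBound : s37es_BoundStatement)
    (hZeroOf : s37es_KillStatement → s37es_BoundStatement → s37es_ZeroStatement)
    (hFinOf : s37es_HIStatement → s37es_ZeroStatement → s37_ESStatement) :
    s37_ESStatement :=
  hFinOf hHI (hZeroOf (hKillOf hHI hConj) hBound)

end Fermat.Agent.S37
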