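/-
S37, package [ES], leaf [ES-CONG] (helper11): THE FORMAL-SERIES CONGRUENCE.

Over a ring `k` of characteristic `ℓ`:  `x ^ ℓ = (φ x)(q^ℓ)`  and  `x(q^ℓ) = (φ⁻¹ x) ^ ℓ`
(`φ` the Frobenius, acting coefficientwise on Laurent series).  Consequence: if `A` is a
valuation ring with residue field of characteristic `ℓ`, `ζ ^ ℓ = 1`, `Y ∈ A((q))` and
`n(q^ℓ) = Y(q^(ℓ²)) · ∏_{i<ℓ} Y(ζ^i q)`, then `n` has coefficients in `A` and its reduction is
`(φ⁻¹ Ȳ) ^ ℓ · φ Ȳ`.  (With the `q`-expansion of the norm `N_α(β y)` this is the Eichler-Shimura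
congruence on functions.)  Mathlib + the Prelude's `qExpand`, `coeffMap` only.
-/
import Mathlib
import Fermat.Prelude.Def_ModularCurve_X0
import Fermat.Prelude.Def_ModularCurve_LaurentCoeff
import Fermat.Prelude.Thm_ModularCurve_coeffMap_qExpand

set_option autoImplicit false
set_option linter.unusedSectionVars false
set_option linter.style.haveILetI false

open ModularCurve

noncomputable section

namespace Fermat.Agent.S37

section PS

variable {k : Type*} [CommRing k]

/-- `coeffMap` on the image of a power series. -/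
theorem s37cg_coeffMap_coe {S : Type*} [CommRing S] (f : k →+* S) (g : PowerSeries k) :
    coeffMap f (HahnSeries.ofPowerSeries ℤ k g) =
      HahnSeries.ofPowerSeries ℤ S (PowerSeries.map f g) := by
  ext i
  rw [coeffMap_coeff, PowerSeries.coeff_coe, PowerSeries.coeff_coe]
  split_ifs with h
  · exact map_zero f
  · rw [PowerSeries.coeff_map]

/-- `qExpand` on the image of a power series. -/
theorem s37cg_qExpand_coe (N : ℕ) [NeZero N] (g : PowerSeries k) :
    qExpand k N (HahnSeries.ofPowerSeries ℤ k g) =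
      HahnSeries.ofPowerSeries ℤ k (PowerSeries.expand N (NeZero.ne N) g) := by
  have hN : (0 : ℤ) < (N : ℤ) := by exact_mod_cast Nat.pos_of_ne_zero (NeZero.ne N)
  ext i
  by_cases hi : (N : ℤ) ∣ i
  · obtain ⟨m, rfl⟩ := hi
    rw [qExpand_coeff_mul, PowerSeries.coeff_coe, PowerSeries.coeff_coe]
    by_cases hm : m < 0
    · rw [if_pos hm, if_pos (mul_neg_of_pos_of_neg hN hm)]
    · rw [if_neg hm, if_neg (not_lt.mpr (mul_nonneg hN.le (not_lt.mp hm)))]
      obtain ⟨j, rfl⟩ := Int.eq_ofNat_of_zero_le (not_lt.mp hm)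
      have h1 : ((N : ℤ) * (j : ℤ)).natAbs = N * j := by
        rw [← Nat.cast_mul, Int.natAbs_natCast]
      rw [h1, Int.natAbs_natCast, PowerSeries.coeff_expand_mul]
  · rw [qExpand_coeff_of_not_dvd N _ hi, PowerSeries.coeff_coe]
    split_ifs with h
    · rfl
    · rw [PowerSeries.coeff_expand, if_neg]
      intro hd
      exact hi (Int.natCast_dvd.mpr hd)

/-- **Frobenius on Laurent series**: `(Σ aₙ qⁿ) ^ ℓ = Σ aₙ^ℓ q^(nℓ)` in characteristic `ℓ`. -/
theorem s37cg_frob (ℓ : ℕ) [NeZero ℓ] [Fact ℓ.Prime] [CharP k ℓ] (x : LaurentSeries k) :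
    x ^ ℓ = qExpand k ℓ (coeffMap (frobenius k ℓ) x) := by
  haveI : ExpChar k ℓ := ExpChar.prime Fact.out
  have hps : ∀ f : PowerSeries k,
      f ^ ℓ = PowerSeries.expand ℓ (NeZero.ne ℓ) (PowerSeries.map (frobenius k ℓ) f) := by
    intro f
    rw [← PowerSeries.map_expand]
    exact (MvPowerSeries.map_frobenius_expand ℓ (NeZero.ne ℓ)).symm
  have h1 : x ^ ℓ = HahnSeries.single ((ℓ : ℤ) * x.order) (1 : k) *
      HahnSeries.ofPowerSeries ℤ k (x.powerSeriesPart ^ ℓ) := by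
    conv_lhs => rw [← LaurentSeries.single_order_mul_powerSeriesPart x]
    rw [mul_pow, HahnSeries.single_pow, one_pow, nsmul_eq_mul, map_pow]
  have h2 : qExpand k ℓ (coeffMap (frobenius k ℓ) x) =
      HahnSeries.single ((ℓ : ℤ) * x.order) (1 : k) *
        HahnSeries.ofPowerSeries ℤ k (PowerSeries.expand ℓ (NeZero.ne ℓ)
          (PowerSeries.map (frobenius k ℓ) x.powerSeriesPart)) := by
    conv_lhs => rw [← LaurentSeries.single_order_mul_powerSeriesPart x]
    rw [map_mul, map_mul, coeffMap_single, qExpand_single, map_one, s37cg_coeffMap_coe,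
      s37cg_qExpand_coe]
  rw [h1, h2, hps]

/-- `x(q^ℓ) = (φ⁻¹ x) ^ ℓ` for the Frobenius automorphism `φ` of a perfect ring of
characteristic `ℓ`. -/
theorem s37cg_qExpand (ℓ : ℕ) [NeZero ℓ] [Fact ℓ.Prime] [CharP k ℓ] (φ : k ≃+* k)
    (hφ : ∀ a, φ a = a ^ ℓ) (x : LaurentSeries k) :
    qExpand k ℓ x = (coeffMap (φ.symm : k →+* k) x) ^ ℓ := by
  rw [s37cg_frob ℓ, coeffMap_coeffMap]
  congr 1
  have h : (frobenius k ℓ).comp (φ.symm : k →+* k) = RingHom.id k := by
    ext a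
    show (φ.symm a) ^ ℓ = a
    rw [← hφ, RingEquiv.apply_symm_apply]
  rw [h, coeffMap_id]

/-- `x ^ ℓ = (φ x)(q^ℓ)`. -/
theorem s37cg_pow (ℓ : ℕ) [NeZero ℓ] [Fact ℓ.Prime] [CharP k ℓ] (φ : k ≃+* k)
    (hφ : ∀ a, φ a = a ^ ℓ) (x : LaurentSeries k) :
    x ^ ℓ = qExpand k ℓ (coeffMap (φ : k →+* k) x) := by
  rw [s37cg_frob ℓ]
  congr 1
  exact coeffMap_congr (RingHom.ext fun a => (hφ a).symm) x

end PS

section Core

/-- A Laurent series all of whose coefficients lie in the range of `ι` is in the range of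
`coeffMap ι`. -/
theorem s37cg_lift {A L : Type*} [CommRing A] [CommRing L] (ι : A →+* L) (x : LaurentSeries L)
    (h : ∀ m, ∃ r, ι r = x.coeff m) : ∃ y : LaurentSeries A, coeffMap ι y = x := by
  classical
  choose r hr using h
  refine ⟨⟨fun m => if x.coeff m = 0 then 0 else r m, x.isPWO_support.mono ?_⟩, ?_⟩
  · intro m hm
    simp only [Function.mem_support, ne_eq, ite_eq_left_iff, not_forall] at hm
    obtain ⟨h1, -⟩ := hm
    exact h1
  · ext m
    rw [coeffMap_coeff]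
    show ι (if x.coeff m = 0 then 0 else r m) = x.coeff m
    split_ifs with h0
    · rw [map_zero, h0]
    · exact hr m

theorem s37cg_coeffMap_injective {A L : Type*} [CommRing A] [CommRing L] (ι : A →+* L)
    (hι : Function.Injective ι) : Function.Injective (coeffMap ι) := by
  intro a b h
  ext m
  have := congrArg (fun x : LaurentSeries L => x.coeff m) h
  simp only [coeffMap_coeff] at this
  exact hι this

/-- **The formal-series congruence**, abstract form. -/
theorem s37cg_core {A L k : Type*} [CommRing A] [CommRing L] [Field k] (ι : A →+* L)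
    (hι : Function.Injective ι) (res : A →+* k) (ℓ : ℕ) [NeZero ℓ] [Fact ℓ.Prime] [CharP k ℓ]
    (φ : k ≃+* k) (hφ : ∀ a, φ a = a ^ ℓ) (Y : LaurentSeries A) (Z : ℕ → LaurentSeries A)
    (hZ : ∀ i < ℓ, coeffMap res (Z i) = coeffMap res Y) (n : LaurentSeries L)
    (hn : qExpand L ℓ n = coeffMap ι (qExpand A (ℓ * ℓ) Y * ∏ i ∈ Finset.range ℓ, Z i)) :
    ∃ nA : LaurentSeries A, coeffMap ι nA = n ∧
      coeffMap res nA = (coeffMap (φ.symm : k →+* k) (coeffMap res Y)) ^ ℓ *
        coeffMap (φ : k →+* k) (coeffMap res Y) := by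
  obtain ⟨P, hP⟩ : ∃ P, P = qExpand A (ℓ * ℓ) Y * ∏ i ∈ Finset.range ℓ, Z i := ⟨_, rfl⟩
  rw [← hP] at hn
  have hcoef : ∀ m, n.coeff m = ι (P.coeff ((ℓ : ℤ) * m)) := by
    intro m
    rw [← qExpand_coeff_mul (R := L) ℓ n m, hn, coeffMap_coeff]
  obtain ⟨nA, hnA⟩ := s37cg_lift ι n (fun m => ⟨_, (hcoef m).symm⟩)
  refine ⟨nA, hnA, ?_⟩
  have hq : qExpand A ℓ nA = P := by
    apply s37cg_coeffMap_injective ι hι
    rw [coeffMap_qExpand, hnA, hn]
  have h1 : qExpand k ℓ (coeffMap res nA) = coeffMap res P := by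
    rw [← coeffMap_qExpand, hq]
  have h2 : coeffMap res P =
      qExpand k (ℓ * ℓ) (coeffMap res Y) * (coeffMap res Y) ^ ℓ := by
    rw [hP, map_mul, map_prod, coeffMap_qExpand,
      Finset.prod_congr rfl (fun i hi => hZ i (Finset.mem_range.mp hi)), Finset.prod_const,
      Finset.card_range]
  have h3 : qExpand k (ℓ * ℓ) (coeffMap res Y) =
      qExpand k ℓ ((coeffMap (φ.symm : k →+* k) (coeffMap res Y)) ^ ℓ) := by
    rw [← qExpand_qExpand, s37cg_qExpand ℓ φ hφ (coeffMap res Y)]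
  have h4 : (coeffMap res Y) ^ ℓ = qExpand k ℓ (coeffMap (φ : k →+* k) (coeffMap res Y)) :=
    s37cg_pow ℓ φ hφ _
  apply qExpand_injective (R := k) ℓ
  rw [h1, h2, h3, h4, map_mul]

end Core

section Val

variable {L : Type*} [Field L] (A : ValuationSubring L)

/-- An `ℓ`-th root of unity lies in `A` and reduces to `1` in characteristic `ℓ`. -/
theorem s37cg_root_mem (ℓ : ℕ) [Fact ℓ.Prime] [CharP (IsLocalRing.ResidueField A) ℓ]
    (u : Lˣ) (hu : u ^ ℓ = 1) : ∃ a : A, (a : L) = u ∧ IsLocalRing.residue A a = 1 := by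
  have hℓ0 : ℓ ≠ 0 := (Fact.out : ℓ.Prime).ne_zero
  have huL : (u : L) ^ ℓ = 1 := by
    rw [← Units.val_pow_eq_pow_val, hu, Units.val_one]
  have hv : A.valuation (u : L) = 1 := by
    have h1 : A.valuation (u : L) ^ ℓ = 1 := by
      rw [← map_pow, huL, map_one]
    exact (pow_eq_one_iff_of_nonneg zero_le hℓ0).mp h1
  have hmem : (u : L) ∈ A := by
    rw [← A.valuation_le_one_iff, hv]
  refine ⟨⟨u, hmem⟩, rfl, ?_⟩
  have h2 : (IsLocalRing.residue A ⟨u, hmem⟩) ^ ℓ = 1 := by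
    rw [← map_pow]
    have : (⟨(u : L), hmem⟩ : A) ^ ℓ = 1 := Subtype.ext huL
    rw [this, map_one]
  have h3 : (IsLocalRing.residue A ⟨u, hmem⟩ - 1) ^ ℓ = 0 := by
    rw [sub_pow_char, h2, one_pow, sub_self]
  exact sub_eq_zero.mp (pow_eq_zero_iff hℓ0 |>.mp h3)

/-- **[ES-CONG]** the formal-series congruence over a valuation ring. -/
theorem s37cg_main (ℓ : ℕ) [NeZero ℓ] [Fact ℓ.Prime] [CharP (IsLocalRing.ResidueField A) ℓ]
    (φ : IsLocalRing.ResidueField A ≃+* IsLocalRing.ResidueField A) (hφ : ∀ a, φ a = a ^ ℓ)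
    (ζ : Lˣ) (hζ : ζ ^ ℓ = 1) (Y : LaurentSeries A) (T : ℕ → LaurentSeries L)
    (hT : ∀ i m, (T i).coeff m = (((ζ ^ i) ^ m : Lˣ) : L) * ((Y.coeff m : A) : L))
    (n : LaurentSeries L)
    (hn : qExpand L ℓ n =
      qExpand L (ℓ * ℓ) (coeffMap A.subtype Y) * ∏ i ∈ Finset.range ℓ, T i) :
    ∃ nA : LaurentSeries A, coeffMap A.subtype nA = n ∧
      coeffMap (IsLocalRing.residue A) nA =
        (coeffMap (φ.symm : IsLocalRing.ResidueField A →+* IsLocalRing.ResidueField A)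
          (coeffMap (IsLocalRing.residue A) Y)) ^ ℓ *
        coeffMap (φ : IsLocalRing.ResidueField A →+* IsLocalRing.ResidueField A)
          (coeffMap (IsLocalRing.residue A) Y) := by
  have hu : ∀ (i : ℕ) (m : ℤ), ((ζ ^ i) ^ m : Lˣ) ^ ℓ = 1 := by
    intro i m
    rw [← zpow_natCast, ← zpow_mul, mul_comm, zpow_mul, zpow_natCast, ← pow_mul, mul_comm,
      pow_mul, hζ, one_pow, one_zpow]
  choose a ha1 ha2 using fun (i : ℕ) (m : ℤ) => s37cg_root_mem A ℓ ((ζ ^ i) ^ m) (hu i m)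
  let Z : ℕ → LaurentSeries A := fun i =>
    ⟨fun m => a i m * Y.coeff m, Y.isPWO_support.mono (fun m hm => by
      simp only [Function.mem_support, ne_eq] at hm ⊢
      intro h
      exact hm (by rw [h, mul_zero]))⟩
  have hZc : ∀ i m, (Z i).coeff m = a i m * Y.coeff m := fun _ _ => rfl
  have hZT : ∀ i, coeffMap A.subtype (Z i) = T i := by
    intro i
    ext m
    rw [coeffMap_coeff, hZc, hT, map_mul]
    show ((a i m : A) : L) * ((Y.coeff m : A) : L) = _
    rw [ha1]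
  have hZ : ∀ i < ℓ, coeffMap (IsLocalRing.residue A) (Z i) =
      coeffMap (IsLocalRing.residue A) Y := by
    intro i _
    ext m
    rw [coeffMap_coeff, coeffMap_coeff, hZc, map_mul, ha2, one_mul]
  refine s37cg_core A.subtype Subtype.val_injective (IsLocalRing.residue A) ℓ φ hφ Y Z hZ n ?_
  rw [hn, map_mul, map_prod, coeffMap_qExpand]
  congr 1
  exact Finset.prod_congr rfl (fun i _ => (hZT i).symm)

end Val

end Fermat.Agent.S37
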