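/-
S37 / [ES], shared definitions: the substitution `t ↦ c t` on Laurent series.
Owner: helper17.  Prefix `s37es_tw`.

For a unit `c` of a commutative ring `R`, `s37es_tw c : R((t)) ≃+* R((t))` is the ring automorphism
`x(t) ↦ x(c t)`, i.e. `coeff n (s37es_tw c x) = c ^ n * coeff n x`.

* `s37es_tw_qExpand`  : `x(t^ℓ)` is fixed when `c ^ ℓ = 1`;
* `s37es_tw_coeffMap` : compatibility with a change of coefficients;
* `s37es_tw_mul`, `s37es_tw_one`, `s37es_tw_inv_apply` : it is an action of `Rˣ`.
-/
import Mathlib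
import Fermat.Prelude.Def_ModularCurve_LaurentCoeff
import Fermat.Prelude.Def_ModularCurve_X0

set_option autoImplicit false

open ModularCurve

noncomputable section

namespace Fermat.Agent.S37

variable {R S : Type*} [CommRing R] [CommRing S]

/-- The underlying function of `s37es_tw`. -/
def s37es_twFun (c : Rˣ) (x : LaurentSeries R) : LaurentSeries R :=
  ⟨fun n => ((c ^ n : Rˣ) : R) * x.coeff n,
    x.isPWO_support.mono fun n hn => by
      rw [Function.mem_support] at hn
      rw [HahnSeries.mem_support]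
      intro h
      exact hn (by rw [h, mul_zero])⟩

theorem s37es_twFun_coeff (c : Rˣ) (x : LaurentSeries R) (n : ℤ) :
    (s37es_twFun c x).coeff n = ((c ^ n : Rˣ) : R) * x.coeff n := rfl

theorem s37es_twFun_support (c : Rˣ) (x : LaurentSeries R) :
    (s37es_twFun c x).support = x.support := by
  ext n
  rw [HahnSeries.mem_support, HahnSeries.mem_support, s37es_twFun_coeff, ne_eq, ne_eq,
    Units.mul_right_eq_zero]

theorem s37es_twFun_mul (c : Rˣ) (x y : LaurentSeries R) :
    s37es_twFun c (x * y) = s37es_twFun c x * s37es_twFun c y := by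
  ext n
  rw [s37es_twFun_coeff, HahnSeries.coeff_mul, HahnSeries.coeff_mul, Finset.mul_sum]
  refine Finset.sum_congr ?_ fun ij hij => ?_
  · ext ij
    rw [Finset.mem_antidiagonal, Finset.mem_antidiagonal, s37es_twFun_support,
      s37es_twFun_support]
  · rw [Finset.mem_antidiagonal] at hij
    rw [s37es_twFun_coeff, s37es_twFun_coeff, ← hij.2.2, zpow_add, Units.val_mul]
    ring

/-- **The substitution `t ↦ c t`** on Laurent series, as a ring homomorphism. -/
def s37es_twHom (c : Rˣ) : LaurentSeries R →+* LaurentSeries R where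
  toFun := s37es_twFun c
  map_one' := by
    ext n
    rw [s37es_twFun_coeff, HahnSeries.coeff_one]
    split_ifs with h
    · subst h
      rw [zpow_zero, Units.val_one, mul_one]
    · rw [mul_zero]
  map_mul' := s37es_twFun_mul c
  map_zero' := by
    ext n
    rw [s37es_twFun_coeff, HahnSeries.coeff_zero, mul_zero]
  map_add' x y := by
    ext n
    rw [HahnSeries.coeff_add, s37es_twFun_coeff, s37es_twFun_coeff, s37es_twFun_coeff,
      HahnSeries.coeff_add, mul_add]

theorem s37es_twHom_coeff (c : Rˣ) (x : LaurentSeries R) (n : ℤ) :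
    (s37es_twHom c x).coeff n = ((c ^ n : Rˣ) : R) * x.coeff n := rfl

theorem s37es_twHom_one (x : LaurentSeries R) : s37es_twHom (1 : Rˣ) x = x := by
  ext n
  rw [s37es_twHom_coeff, one_zpow, Units.val_one, one_mul]

theorem s37es_twHom_mul (c d : Rˣ) (x : LaurentSeries R) :
    s37es_twHom (c * d) x = s37es_twHom c (s37es_twHom d x) := by
  ext n
  rw [s37es_twHom_coeff, s37es_twHom_coeff, s37es_twHom_coeff, mul_zpow, Units.val_mul,
    mul_assoc]

/-- **The substitution `t ↦ c t`** on Laurent series, as a ring automorphism. -/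
def s37es_tw (c : Rˣ) : LaurentSeries R ≃+* LaurentSeries R where
  toFun := s37es_twHom c
  invFun := s37es_twHom c⁻¹
  left_inv x := by rw [← s37es_twHom_mul, inv_mul_cancel, s37es_twHom_one]
  right_inv x := by rw [← s37es_twHom_mul, mul_inv_cancel, s37es_twHom_one]
  map_mul' := map_mul (s37es_twHom c)
  map_add' := map_add (s37es_twHom c)

@[simp]
theorem s37es_tw_coeff (c : Rˣ) (x : LaurentSeries R) (n : ℤ) :
    (s37es_tw c x).coeff n = ((c ^ n : Rˣ) : R) * x.coeff n := rfl

theorem s37es_tw_one (x : LaurentSeries R) : s37es_tw (1 : Rˣ) x = x :=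
  s37es_twHom_one x

theorem s37es_tw_mul (c d : Rˣ) (x : LaurentSeries R) :
    s37es_tw (c * d) x = s37es_tw c (s37es_tw d x) :=
  s37es_twHom_mul c d x

theorem s37es_tw_inv_apply (c : Rˣ) (x : LaurentSeries R) :
    s37es_tw c⁻¹ (s37es_tw c x) = x :=
  (s37es_tw c).left_inv x

theorem s37es_tw_apply_inv (c : Rˣ) (x : LaurentSeries R) :
    s37es_tw c (s37es_tw c⁻¹ x) = x :=
  (s37es_tw c).right_inv x

theorem s37es_tw_injective (c : Rˣ) : Function.Injective (s37es_tw c) :=
  (s37es_tw c).injective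

theorem s37es_tw_single (c : Rˣ) (n : ℤ) (r : R) :
    s37es_tw c (HahnSeries.single n r) = HahnSeries.single n (((c ^ n : Rˣ) : R) * r) := by
  ext m
  rw [s37es_tw_coeff]
  rcases eq_or_ne m n with rfl | hm
  · rw [HahnSeries.coeff_single_same, HahnSeries.coeff_single_same]
  · rw [HahnSeries.coeff_single_of_ne hm, HahnSeries.coeff_single_of_ne hm, mul_zero]

theorem s37es_tw_C (c : Rˣ) (r : R) : s37es_tw c (HahnSeries.C r) = HahnSeries.C r := by
  have h : (HahnSeries.C r : LaurentSeries R) = HahnSeries.single 0 r := rfl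
  rw [h, s37es_tw_single, zpow_zero, Units.val_one, one_mul]

/-- `x(t^ℓ)` is invariant under `t ↦ c t` when `c ^ ℓ = 1`. -/
theorem s37es_tw_qExpand (c : Rˣ) (ℓ : ℕ) [NeZero ℓ] (hc : c ^ ℓ = 1) (x : LaurentSeries R) :
    s37es_tw c (qExpand R ℓ x) = qExpand R ℓ x := by
  ext n
  rw [s37es_tw_coeff]
  by_cases hn : (ℓ : ℤ) ∣ n
  · obtain ⟨m, rfl⟩ := hn
    rw [zpow_mul, zpow_natCast, hc, one_zpow, Units.val_one, one_mul]
  · rw [qExpand_coeff_of_not_dvd ℓ x hn, mul_zero]

/-- Compatibility with a change of coefficients. -/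
theorem s37es_tw_coeffMap (f : R →+* S) (c : Rˣ) (x : LaurentSeries R) :
    coeffMap f (s37es_tw c x) = s37es_tw (Units.map (f : R →* S) c) (coeffMap f x) := by
  ext n
  rw [coeffMap_coeff, s37es_tw_coeff, s37es_tw_coeff, coeffMap_coeff, map_mul, ← map_zpow,
    Units.coe_map]
  rfl

/-- If `c` maps to `1`, the substitution disappears after the change of coefficients. -/
theorem s37es_tw_coeffMap_of_eq_one (f : R →+* S) (c : Rˣ) (hc : f (c : R) = 1)
    (x : LaurentSeries R) : coeffMap f (s37es_tw c x) = coeffMap f x := by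
  have h1 : Units.map (f : R →* S) c = 1 := Units.ext (by rw [Units.coe_map]; exact hc)
  rw [s37es_tw_coeffMap, h1, s37es_tw_one]

/-- The order is unchanged. -/
theorem s37es_tw_eq_zero_iff (c : Rˣ) (x : LaurentSeries R) : s37es_tw c x = 0 ↔ x = 0 :=
  map_eq_zero_iff (s37es_tw c) (s37es_tw_injective c)

end Fermat.Agent.S37
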