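/-
S37 / [ES], leaf [ES-NORM] (owner: helper17).  Prefix `s37es_nm_`.

`F = F̄_M`, `F' = F̄_{Mℓ}`, `α = heckeAlphaBar` (inclusion), `β = heckeBetaBar` (`q ↦ q^ℓ`), `ℓ ∤ M` prime.
GIVEN the Atkin-Lehner involution `W` of `F'` (`W ∘ α = β`, `W ∘ β = α`; = the export of [ES-AL]):

* `s37es_nm_abs`     : (pure algebra) norm = product over a full system of embeddings into ANY field;
* `s37es_nm_finrank` : `[F' : α F] = ℓ + 1`                          (from `s18d_finrank` = S24);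
* `s37es_nm_sigma`   : the `ℓ + 1` embeddings `F' → Q̄((t))` over `F` (`F → Q̄((t))` is `y ↦ y(t^ℓ)`):
                       `τ_∞ x = x(t^ℓ)` and `τ_i x = (W x)(ζ^i t)`, `i < ℓ`;
* `s37es_nm_norm`    : `N_α(x)(t^ℓ) = x(t^ℓ) · ∏_{i<ℓ} (W x)(ζ^i t)`;
* `s37es_nm_main`    : `N_α(β y)(t^ℓ) = y(t^{ℓ²}) · ∏_{i<ℓ} y(ζ^i t)`.
-/
import Mathlib
import Fermat.Prelude.Def_ModularCurve_HeckeOperator
import Fermat.Agent.S37.EsTwist
import Fermat.Agent.S18.DownDeg

set_option autoImplicit false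
set_option linter.style.haveILetI false
set_option linter.unusedSectionVars false

open ModularCurve AlgebraicCurve IntermediateField
open Fermat.Agent.S24

noncomputable section

namespace Fermat.Agent.S37

/-! ### Pure algebra -/

/-- **Norm = product over a full system of embeddings** (the target field `E` need not be
algebraically closed): if `σ : I → (F' →+* E)` is an injective family of ring homomorphisms
extending `ι : F →+* E`, and `|I| = [F' : F]`, then `ι (N_{F'/F} x) = ∏ i, σ i x`. -/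
theorem s37es_nm_abs {F F' E I : Type*} [Field F] [Field F'] [Field E] [Algebra F F']
    [FiniteDimensional F F'] [Algebra.IsSeparable F F'] [Fintype I]
    (ι : F →+* E) (σ : I → (F' →+* E)) (hσ : Function.Injective σ)
    (hι : ∀ i (y : F), σ i (algebraMap F F' y) = ι y)
    (hcard : Fintype.card I = Module.finrank F F') (x : F') :
    ι (Algebra.norm F x) = ∏ i, σ i x := by
  classical
  letI : Algebra F (AlgebraicClosure E) :=
    ((algebraMap E (AlgebraicClosure E)).comp ι).toAlgebra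
  let e : I → (F' →ₐ[F] AlgebraicClosure E) := fun i =>
    { ((algebraMap E (AlgebraicClosure E)).comp (σ i)) with
      commutes' := fun y => by
        show algebraMap E (AlgebraicClosure E) (σ i (algebraMap F F' y)) =
          algebraMap E (AlgebraicClosure E) (ι y)
        rw [hι] }
  have he_apply : ∀ i z, e i z = algebraMap E (AlgebraicClosure E) (σ i z) := fun _ _ => rfl
  have hinj : Function.Injective e := by
    intro i k hik
    apply hσ
    ext z
    have h := DFunLike.congr_fun hik z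
    rw [he_apply, he_apply] at h
    exact (algebraMap E (AlgebraicClosure E)).injective h
  have hbij : Function.Bijective e := by
    rw [Fintype.bijective_iff_injective_and_card]
    exact ⟨hinj, by rw [hcard, AlgHom.card]⟩
  have h1 := Algebra.norm_eq_prod_embeddings F (AlgebraicClosure E) x
  have h2 : (∏ τ : F' →ₐ[F] AlgebraicClosure E, τ x) = ∏ i, e i x :=
    (Fintype.prod_bijective e hbij (fun i => e i x) (fun τ => τ x) (fun _ => rfl)).symm
  rw [h2] at h1
  have h3 : (∏ i, e i x) = algebraMap E (AlgebraicClosure E) (∏ i, σ i x) := by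
    rw [map_prod]
    exact Finset.prod_congr rfl fun i _ => he_apply i x
  rw [h3] at h1
  exact (algebraMap E (AlgebraicClosure E)).injective h1


/-! ### The degree -/

section Degree

variable (M ℓ : ℕ) [NeZero M] [NeZero ℓ]

theorem s37es_nm_alpha_jF : heckeAlphaBar QBar M ℓ (jF M) = jF (M * ℓ) :=
  Subtype.ext rfl

/-- `[F̄_{Mℓ} : α F̄_M] = ℓ + 1`. -/
theorem s37es_nm_finrank (hℓ : ℓ.Prime) (hℓM : ¬ ℓ ∣ M) :
    finrankAlong QBar (heckeAlphaBar QBar M ℓ) = ℓ + 1 := by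
  letI : Algebra (FunField M) (FunField (M * ℓ)) := algebraAlong (heckeAlphaBar QBar M ℓ)
  have hmap : (QBar⟮jF M⟯).map (heckeAlphaBar QBar M ℓ) = QBar⟮jF (M * ℓ)⟯ := by
    rw [IntermediateField.adjoin_map, Set.image_singleton, s37es_nm_alpha_jF]
  letI : Algebra QBar⟮jF M⟯ (FunField (M * ℓ)) :=
    ((heckeAlphaBar QBar M ℓ).toRingHom.comp (algebraMap QBar⟮jF M⟯ (FunField M))).toAlgebra
  haveI : IsScalarTower QBar⟮jF M⟯ (FunField M) (FunField (M * ℓ)) :=
    IsScalarTower.of_algebraMap_eq fun _ => rfl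
  have h1 := Module.finrank_mul_finrank QBar⟮jF M⟯ (FunField M) (FunField (M * ℓ))
  have h2 : Module.finrank QBar⟮jF M⟯ (FunField (M * ℓ)) =
      Module.finrank QBar⟮jF (M * ℓ)⟯ (FunField (M * ℓ)) :=
    Algebra.finrank_eq_of_equiv_equiv
      (((QBar⟮jF M⟯).equivMap (heckeAlphaBar QBar M ℓ)).toRingEquiv.trans
        (IntermediateField.equivOfEq hmap).toRingEquiv) (RingEquiv.refl _)
      (by ext x; rfl)
  rw [h2, Fermat.Agent.S18.s18d_finrank, Fermat.Agent.S18.s18d_finrank,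
    Comb.dedekindPsi_mul ((Nat.Prime.coprime_iff_not_dvd hℓ).2 hℓM).symm] at h1
  have h3 : ModularCurve.dedekindPsi ℓ = ℓ + 1 := by
    have := Comb.dedekindPsi_prime_pow hℓ 0
    simpa using this
  rw [h3] at h1
  have hpos := Fermat.Agent.S18.s18d_psi_pos M
  exact Nat.eq_of_mul_eq_mul_left hpos h1

end Degree


/-! ### The embeddings -/

section Embeddings

variable (M ℓ : ℕ) [NeZero M] [NeZero ℓ]

/-- The hypothesis of [ES-NORM] (= the export of [ES-AL]): the Atkin-Lehner involution. -/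
def s37es_nm_WHyp : Prop :=
  ∃ W : FunField (M * ℓ) →ₐ[QBar] FunField (M * ℓ),
    (∀ f : FunField M, W (heckeAlphaBar QBar M ℓ f) = heckeBetaBar QBar M ℓ f) ∧
      ∀ f : FunField M, W (heckeBetaBar QBar M ℓ f) = heckeAlphaBar QBar M ℓ f

/-- The embedding `F̄_M → Q̄((t))`, `y ↦ y(t^ℓ)`. -/
def s37es_nm_iota : FunField M →+* LaurentSeries QBar :=
  (qExpand QBar ℓ).comp (algebraMap (FunField M) (LaurentSeries QBar))

theorem s37es_nm_iota_apply (y : FunField M) :
    s37es_nm_iota M ℓ y = qExpand QBar ℓ (y : LaurentSeries QBar) := rfl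

/-- The `ℓ + 1` embeddings of `F̄_{Mℓ}` into `Q̄((t))`. -/
def s37es_nm_sigma (W : FunField (M * ℓ) →ₐ[QBar] FunField (M * ℓ)) (ζ : QBarˣ) :
    Option (Fin ℓ) → (FunField (M * ℓ) →+* LaurentSeries QBar)
  | none => (qExpand QBar ℓ).comp (algebraMap (FunField (M * ℓ)) (LaurentSeries QBar))
  | some i => ((s37es_tw (ζ ^ (i : ℕ))).toRingHom.comp
      (algebraMap (FunField (M * ℓ)) (LaurentSeries QBar))).comp W.toRingHom

theorem s37es_nm_sigma_none (W : FunField (M * ℓ) →ₐ[QBar] FunField (M * ℓ)) (ζ : QBarˣ)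
    (x : FunField (M * ℓ)) :
    s37es_nm_sigma M ℓ W ζ none x = qExpand QBar ℓ (x : LaurentSeries QBar) := rfl

theorem s37es_nm_sigma_some (W : FunField (M * ℓ) →ₐ[QBar] FunField (M * ℓ)) (ζ : QBarˣ)
    (i : Fin ℓ) (x : FunField (M * ℓ)) :
    s37es_nm_sigma M ℓ W ζ (some i) x =
      s37es_tw (ζ ^ (i : ℕ)) ((W x : FunField (M * ℓ)) : LaurentSeries QBar) := rfl

theorem s37es_nm_coeff_j : (jLaurent 1).coeff (-1) = 1 := by
  have h := coord_coeff_jLaurent_pow_self 1
  rwa [pow_one, Nat.cast_one] at h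

theorem s37es_nm_sigma_commutes (W : FunField (M * ℓ) →ₐ[QBar] FunField (M * ℓ))
    (hWα : ∀ f : FunField M, W (heckeAlphaBar QBar M ℓ f) = heckeBetaBar QBar M ℓ f)
    (ζ : QBarˣ) (hζ : ζ ^ ℓ = 1) (o : Option (Fin ℓ)) (y : FunField M) :
    s37es_nm_sigma M ℓ W ζ o (heckeAlphaBar QBar M ℓ y) = s37es_nm_iota M ℓ y := by
  cases o with
  | none =>
    rw [s37es_nm_sigma_none, coe_heckeAlphaBar, s37es_nm_iota_apply]
  | some i =>
    rw [s37es_nm_sigma_some, hWα, coe_heckeBetaBar, s37es_nm_iota_apply]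
    refine s37es_tw_qExpand _ ℓ ?_ _
    rw [← pow_mul, mul_comm, pow_mul, hζ, one_pow]

theorem s37es_nm_sigma_injective (hℓ : ℓ.Prime)
    (W : FunField (M * ℓ) →ₐ[QBar] FunField (M * ℓ))
    (hWβ : ∀ f : FunField M, W (heckeBetaBar QBar M ℓ f) = heckeAlphaBar QBar M ℓ f)
    (ζ : QBarˣ) (hζ : IsPrimitiveRoot ζ ℓ) :
    Function.Injective (s37es_nm_sigma M ℓ W ζ) := by
  -- evaluate at `β j` and compare the coefficients of `t⁻¹`
  have hnone : (s37es_nm_sigma M ℓ W ζ none (heckeBetaBar QBar M ℓ (jF M))).coeff (-1) = 0 := by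
    rw [s37es_nm_sigma_none]
    refine qExpand_coeff_of_not_dvd ℓ _ ?_
    intro h
    have h1 : ((ℓ : ℤ)) ∣ 1 := (dvd_neg.1 h)
    have h2 : (ℓ : ℤ) = 1 := Int.eq_one_of_dvd_one (by positivity) h1
    have h3 : ℓ = 1 := by exact_mod_cast h2
    exact hℓ.one_lt.ne' h3
  have hsome : ∀ i : Fin ℓ,
      (s37es_nm_sigma M ℓ W ζ (some i) (heckeBetaBar QBar M ℓ (jF M))).coeff (-1) =
        (((ζ ^ (i : ℕ)) ^ (-1 : ℤ) : QBarˣ) : QBar) := by
    intro i
    rw [s37es_nm_sigma_some, hWβ, coe_heckeAlphaBar, s37es_tw_coeff]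
    have : ((jF M : FunField M) : LaurentSeries QBar) = jLaurent 1 := rfl
    rw [this, s37es_nm_coeff_j, mul_one]
  intro o o' h
  have hc : (s37es_nm_sigma M ℓ W ζ o (heckeBetaBar QBar M ℓ (jF M))).coeff (-1) =
      (s37es_nm_sigma M ℓ W ζ o' (heckeBetaBar QBar M ℓ (jF M))).coeff (-1) := by rw [h]
  cases o with
  | none =>
    cases o' with
    | none => rfl
    | some k =>
      rw [hnone, hsome] at hc
      exact absurd hc.symm (Units.ne_zero _)
  | some i =>
    cases o' with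
    | none =>
      rw [hnone, hsome] at hc
      exact absurd hc (Units.ne_zero _)
    | some k =>
      rw [hsome, hsome] at hc
      have h1 : (ζ ^ (i : ℕ)) ^ (-1 : ℤ) = (ζ ^ (k : ℕ)) ^ (-1 : ℤ) := Units.ext hc
      rw [zpow_neg_one, zpow_neg_one, inv_inj] at h1
      have h2 := hζ.pow_inj i.2 k.2 h1
      exact congrArg some (Fin.ext h2)

/-- **[ES-NORM]**, general form: `N_α(x)(t^ℓ) = x(t^ℓ) · ∏_{i<ℓ} (W x)(ζ^i t)`. -/
theorem s37es_nm_norm (hℓ : ℓ.Prime) (hℓM : ¬ ℓ ∣ M)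
    (W : FunField (M * ℓ) →ₐ[QBar] FunField (M * ℓ))
    (hWα : ∀ f : FunField M, W (heckeAlphaBar QBar M ℓ f) = heckeBetaBar QBar M ℓ f)
    (hWβ : ∀ f : FunField M, W (heckeBetaBar QBar M ℓ f) = heckeAlphaBar QBar M ℓ f)
    (ζ : QBarˣ) (hζ : IsPrimitiveRoot ζ ℓ) (x : FunField (M * ℓ)) :
    qExpand QBar ℓ
      (((letI := algebraAlong (heckeAlphaBar QBar M ℓ); Algebra.norm (FunField M) x :
        FunField M)) : LaurentSeries QBar) =
      qExpand QBar ℓ (x : LaurentSeries QBar) *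
        ∏ i ∈ Finset.range ℓ,
          s37es_tw (ζ ^ i) ((W x : FunField (M * ℓ)) : LaurentSeries QBar) := by
  letI : Algebra (FunField M) (FunField (M * ℓ)) := algebraAlong (heckeAlphaBar QBar M ℓ)
  have hfr : Module.finrank (FunField M) (FunField (M * ℓ)) = ℓ + 1 :=
    s37es_nm_finrank M ℓ hℓ hℓM
  haveI : FiniteDimensional (FunField M) (FunField (M * ℓ)) :=
    Module.finite_of_finrank_pos (by rw [hfr]; omega)
  haveI : Algebra.IsSeparable (FunField M) (FunField (M * ℓ)) := inferInstance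
  have h := s37es_nm_abs (s37es_nm_iota M ℓ) (s37es_nm_sigma M ℓ W ζ)
    (s37es_nm_sigma_injective M ℓ hℓ W hWβ ζ hζ)
    (fun o y => s37es_nm_sigma_commutes M ℓ W hWα ζ hζ.pow_eq_one o y)
    (by rw [Fintype.card_option, Fintype.card_fin, hfr]) x
  rw [Fintype.prod_option, s37es_nm_sigma_none] at h
  rw [s37es_nm_iota_apply] at h
  rw [h, ← Fin.prod_univ_eq_prod_range
    (fun i => s37es_tw (ζ ^ i) ((W x : FunField (M * ℓ)) : LaurentSeries QBar)) ℓ]
  rfl

/-- **[ES-NORM]**: `N_α(β y)(t^ℓ) = y(t^{ℓ²}) · ∏_{i<ℓ} y(ζ^i t)`. -/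
theorem s37es_nm_main (hℓ : ℓ.Prime) (hℓM : ¬ ℓ ∣ M) (hW : s37es_nm_WHyp M ℓ)
    (ζ : QBarˣ) (hζ : IsPrimitiveRoot ζ ℓ) (y : FunField M) :
    qExpand QBar ℓ
      (((letI := algebraAlong (heckeAlphaBar QBar M ℓ);
        Algebra.norm (FunField M) (heckeBetaBar QBar M ℓ y) : FunField M)) :
          LaurentSeries QBar) =
      qExpand QBar (ℓ * ℓ) (y : LaurentSeries QBar) *
        ∏ i ∈ Finset.range ℓ, s37es_tw (ζ ^ i) (y : LaurentSeries QBar) := by
  obtain ⟨W, hWα, hWβ⟩ := hW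
  rw [s37es_nm_norm M ℓ hℓ hℓM W hWα hWβ ζ hζ, hWβ, coe_heckeBetaBar, qExpand_qExpand]
  simp only [coe_heckeAlphaBar]

end Embeddings

end Fermat.Agent.S37
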