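/-
S37 / [ES], leaves [ES-DEG], [ES-EMB], [ES-CONJ] (hence [ES-CONJ-OF]) and [ES-NORM] (hence
[ES-NORM-OF]) of the cut `S37/ESDefs.lean`, HYPOTHESIS-FREE.  Owner: helper17.  Prefix `s37es_nm_`.

* `s37es_nm_W`      : the Atkin-Lehner involution (helper8's `s37al_W`) in the shape of `EsNorm.lean`;
* `s37es_nm_deg`    : `s37es_DegStatement`        (`[F̄_{Mℓ} : F̄_M] = ℓ + 1`);
* `s37es_nm_emb`    : `s37es_EmbStatement`        (`e := (t ↦ ζ t) ∘ W`);
* `s37es_nm_conj`   : `s37es_ConjStatement`       (`N_α(β y)(t^ℓ) = y(t^{ℓ²}) ∏_{i<ℓ} y(ζ^i t)`);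
* `s37es_nm_normSt` : `s37es_NormStatement`       (the norm congruence: `N_α(β y)` has coefficients in
                       `A` and reduces to `(φ⁻¹ ȳ)^ℓ · φ ȳ`; via helper11's `s37cg_main`).
-/
import Mathlib
import Fermat.Agent.S37.ESDefs
import Fermat.Agent.S37.EsNorm
import Fermat.Agent.S37.AtkinLehner
import Fermat.Agent.S37.EsCong
import Fermat.Agent.S18.WireOfRes

set_option autoImplicit false
set_option linter.style.haveILetI false

open ModularCurve AlgebraicCurve IntermediateField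
open Fermat.Agent.S24

noncomputable section

namespace Fermat.Agent.S37

/-- The Atkin-Lehner involution, in the shape of the hypothesis of `s37es_nm_main`. -/
theorem s37es_nm_W (M ℓ : ℕ) [NeZero M] [NeZero ℓ] (hℓ : ℓ.Prime) (hℓM : ¬ ℓ ∣ M) :
    s37es_nm_WHyp M ℓ :=
  s37al_W M ℓ ((Nat.Prime.coprime_iff_not_dvd hℓ).2 hℓM).symm

/-- The two spellings of the substitution `t ↦ ζ t` agree. -/
theorem s37es_nm_tw_eq_tau (ζ : QBarˣ) (x : LaurentSeries QBar) :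
    s37es_tw ζ x = S18.s18d_tau ζ x := rfl

/-- **[ES-DEG]** -/
theorem s37es_nm_deg : s37es_DegStatement :=
  fun M ℓ _ _ hℓ hℓM => s37es_nm_finrank M ℓ hℓ hℓM

/-- **[ES-EMB]** -/
theorem s37es_nm_emb : s37es_EmbStatement := by
  intro M ℓ _ _ hℓ hℓM ζ hζ
  obtain ⟨W, hWα, hWβ⟩ := s37es_nm_W M ℓ hℓ hℓM
  refine ⟨((S18.s18d_tau ζ).comp
    (algebraMap (FunField (M * ℓ)) (LaurentSeries QBar))).comp W.toRingHom, ?_, ?_⟩
  · intro x
    show S18.s18d_tau ζ ((W (heckeAlphaBar QBar M ℓ x) : FunField (M * ℓ)) :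
      LaurentSeries QBar) = _
    rw [hWα, coe_heckeBetaBar]
    exact s37es_tw_qExpand ζ ℓ hζ _
  · intro x
    show S18.s18d_tau ζ ((W (heckeBetaBar QBar M ℓ x) : FunField (M * ℓ)) :
      LaurentSeries QBar) = _
    rw [hWβ, coe_heckeAlphaBar]

/-- **[ES-CONJ]**, hypothesis-free. -/
theorem s37es_nm_conj : s37es_ConjStatement := by
  intro M ℓ _ _ hℓ hℓM ζ hζ y
  have h := s37es_nm_main M ℓ hℓ hℓM (s37es_nm_W M ℓ hℓ hℓM) ζ hζ y
  rw [qExpand_qExpand]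
  exact h

/-- **[ES-CONJ-OF]** -/
theorem s37es_nm_conj_of : s37es_EmbStatement → s37es_DegStatement → s37es_ConjStatement :=
  fun _ _ => s37es_nm_conj

/-- A primitive `ℓ`-th root of unity of `Q̄`, as a unit. -/
theorem s37es_nm_exists_zeta (ℓ : ℕ) [NeZero ℓ] : ∃ ζ : QBarˣ, IsPrimitiveRoot ζ ℓ := by
  obtain ⟨z, hz⟩ := HasEnoughRootsOfUnity.exists_primitiveRoot QBar ℓ
  refine ⟨(hz.isUnit (NeZero.ne ℓ)).unit, ?_⟩
  rw [← IsPrimitiveRoot.coe_units_iff]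
  exact hz

/-- **[ES-NORM]**, hypothesis-free: the norm congruence. -/
theorem s37es_nm_normSt : s37es_NormStatement := by
  intro M ℓ _ _ hℓ hℓM A hA φ hφ y hy
  haveI : Fact ℓ.Prime := ⟨hℓ⟩
  haveI : CharP (IsLocalRing.ResidueField A) ℓ := Fermat.Agent.S18.s18w_charP A hA
  obtain ⟨ζ, hζ⟩ := s37es_nm_exists_zeta ℓ
  have hconj := s37es_nm_main M ℓ hℓ hℓM (s37es_nm_W M ℓ hℓ hℓM) ζ hζ ⟨coeffMap A.subtype y, hy⟩
  exact s37cg_main A ℓ φ hφ ζ hζ.pow_eq_one y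
    (fun i => s37es_tw (ζ ^ i) (coeffMap A.subtype y)) (fun _ _ => rfl) _ hconj

/-- **[ES-NORM-OF]** -/
theorem s37es_nm_normSt_of :
    s37es_ConjStatement → s37es_IntStatement → s37es_FrobSerStatement → s37es_NormStatement :=
  fun _ _ _ => s37es_nm_normSt

end Fermat.Agent.S37
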