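/-
S37, package [DESCEND], leaf [D-GAL] (helper12).  Prefix `s37dg_`.

GENERIC PART.  Restriction of places, ramification indices, inertia degrees, pull-back and
push-forward of divisors along an embedding `φ : F →ₐ[K] F'` of function fields are compatible with
semilinear automorphisms `g` of `F`, `g'` of `F'` intertwined by `φ`
(`SemilinearAut.IntertwinesAlong φ g g'`, i.e. `g' • φ x = φ (g • x)`).  Consequently the conorm
`Pic⁰(F) → Pic⁰(F')` is equivariant.
-/
import Mathlib
import Fermat.Prelude.Def_AlgebraicCurve_Correspondence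

set_option autoImplicit false

open AlgebraicCurve

noncomputable section

namespace Fermat.Agent.S37

section Generic

variable {K F F' : Type*} [Field K] [Field F] [Field F'] [Algebra K F] [Algebra K F']
variable (φ : F →ₐ[K] F') (hφ : φ.toRingHom.IsIntegral)
variable {g : SemilinearAut K F} {g' : SemilinearAut K F'}

theorem s37dg_mem_restrictAlong (w : Place K F') (x : F) :
    x ∈ (w.restrictAlong φ hφ).toValuationSubring ↔ φ x ∈ w.toValuationSubring :=
  Iff.rfl

theorem s37dg_mem_smul (g : SemilinearAut K F) (v : Place K F) (x : F) :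
    x ∈ (g • v).toValuationSubring ↔ g⁻¹ • x ∈ v.toValuationSubring := by
  rw [SemilinearAut.smul_toValuationSubring]
  exact ValuationSubring.mem_pointwise_smul_iff_inv_smul_mem

/-- (1) restriction of places is equivariant. -/
theorem s37dg_restrictAlong_smul (h : SemilinearAut.IntertwinesAlong φ.toRingHom g g')
    (w : Place K F') :
    (g' • w).restrictAlong φ hφ = g • w.restrictAlong φ hφ := by
  apply Place.ext
  ext x
  rw [s37dg_mem_restrictAlong, s37dg_mem_smul, s37dg_mem_smul, s37dg_mem_restrictAlong]
  have := h.inv x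
  rw [show (φ.toRingHom (g⁻¹ • x)) = φ (g⁻¹ • x) from rfl, show φ.toRingHom x = φ x from rfl]
    at this
  rw [this]

theorem s37dg_ord_smul' (g : SemilinearAut K F) (v : Place K F) (x : F) :
    (g • v).ord x = v.ord (g⁻¹ • x) := by
  have := SemilinearAut.ord_smul g v (g⁻¹ • x)
  rwa [smul_inv_smul] at this

theorem s37dg_ord_smul_apply (h : SemilinearAut.IntertwinesAlong φ.toRingHom g g')
    (w : Place K F') (f : F) :
    (g' • w).ord (φ f) = w.ord (φ (g⁻¹ • f)) := by
  rw [s37dg_ord_smul']
  have := h.inv f
  rw [show (φ.toRingHom (g⁻¹ • f)) = φ (g⁻¹ • f) from rfl, show φ.toRingHom f = φ f from rfl]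
    at this
  rw [this]

/-- (2) ramification indices are invariant. -/
theorem s37dg_ramificationIndexAlong_smul (h : SemilinearAut.IntertwinesAlong φ.toRingHom g g')
    (w : Place K F') :
    (g' • w).ramificationIndexAlong φ = w.ramificationIndexAlong φ := by
  letI := algebraAlong φ
  show sInf {n : ℕ | 0 < n ∧ ∃ f : F, f ≠ 0 ∧ (g' • w).ord (φ f) = n} =
    sInf {n : ℕ | 0 < n ∧ ∃ f : F, f ≠ 0 ∧ w.ord (φ f) = n}
  congr 1
  ext n
  constructor
  · rintro ⟨hn, f, hf, hfn⟩
    refine ⟨hn, g⁻¹ • f, ?_, ?_⟩
    · exact (smul_ne_zero_iff_ne (g⁻¹)).mpr hf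
    · rw [← s37dg_ord_smul_apply φ h]
      exact hfn
  · rintro ⟨hn, f, hf, hfn⟩
    refine ⟨hn, g • f, ?_, ?_⟩
    · exact (smul_ne_zero_iff_ne g).mpr hf
    · rw [s37dg_ord_smul_apply φ h, inv_smul_smul]
      exact hfn

/-- (3) the pull-back of divisors is equivariant. -/
theorem s37dg_pullbackAlong_smul [HasPrincipalDivisors K F']
    (h : SemilinearAut.IntertwinesAlong φ.toRingHom g g') (D : Divisor K F) :
    Divisor.pullbackAlong φ hφ (g • D) = g' • Divisor.pullbackAlong φ hφ D := by
  ext w
  rw [Divisor.pullbackAlong_apply, SemilinearAut.divisor_smul_apply,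
    SemilinearAut.divisor_smul_apply, Divisor.pullbackAlong_apply,
    s37dg_restrictAlong_smul φ hφ h.inv, s37dg_ramificationIndexAlong_smul φ h.inv]

/-! ### The push-forward side -/

section Push

variable [Algebra F F'] [IsScalarTower K F F'] [Algebra.IsIntegral F F']

/-- `x ↦ g • x` as a ring isomorphism between the valuation rings of `w ∩ F` and `(g' • w) ∩ F`. -/
def s37dg_restrictEquiv (h : ∀ x : F, g' • algebraMap F F' x = algebraMap F F' (g • x))
    (w : Place K F') :
    (w.restrict F).toValuationSubring ≃+* ((g' • w).restrict F).toValuationSubring where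
  toFun a := ⟨g • (a : F), by
    have ha : algebraMap F F' (a : F) ∈ w.toValuationSubring := a.2
    show algebraMap F F' (g • (a : F)) ∈ (g' • w).toValuationSubring
    rw [s37dg_mem_smul, ← h, inv_smul_smul]
    exact ha⟩
  invFun b := ⟨g⁻¹ • (b : F), by
    have hb : algebraMap F F' (b : F) ∈ (g' • w).toValuationSubring := b.2
    rw [s37dg_mem_smul] at hb
    show algebraMap F F' (g⁻¹ • (b : F)) ∈ w.toValuationSubring
    have h2 := h (g⁻¹ • (b : F))
    rw [smul_inv_smul] at h2
    rw [← h2, inv_smul_smul] at hb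
    exact hb⟩
  left_inv a := Subtype.ext (inv_smul_smul g (a : F))
  right_inv b := Subtype.ext (smul_inv_smul g (b : F))
  map_mul' a b := Subtype.ext (smul_mul' g (a : F) (b : F))
  map_add' a b := Subtype.ext (smul_add g (a : F) (b : F))

theorem s37dg_inertiaDeg_smul (h : ∀ x : F, g' • algebraMap F F' x = algebraMap F F' (g • x))
    (w : Place K F') : (g' • w).inertiaDeg F = w.inertiaDeg F := by
  symm
  refine Algebra.finrank_eq_of_equiv_equiv
    (IsLocalRing.ResidueField.mapEquiv (s37dg_restrictEquiv h w))
    (SemilinearAut.smulResidueRingEquiv g' w) ?_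
  refine Ideal.Quotient.ringHom_ext (RingHom.ext fun a => ?_)
  show Place.restrictResidueMap F (g' • w)
      (IsLocalRing.ResidueField.mapEquiv (s37dg_restrictEquiv h w) (IsLocalRing.residue _ a)) =
    SemilinearAut.smulResidueRingEquiv g' w
      (Place.restrictResidueMap F w (IsLocalRing.residue _ a))
  rw [IsLocalRing.ResidueField.mapEquiv_apply, IsLocalRing.ResidueField.map_residue,
    Place.restrictResidueMap_residue, Place.restrictResidueMap_residue]
  show _ = IsLocalRing.ResidueField.mapEquiv _ (IsLocalRing.residue _ _)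
  rw [IsLocalRing.ResidueField.mapEquiv_apply, IsLocalRing.ResidueField.map_residue]
  refine congrArg _ (Subtype.ext ?_)
  show algebraMap F F' (g • (a : F)) = g' • algebraMap F F' (a : F)
  rw [h]

end Push

/-- inertia degrees are invariant. -/
theorem s37dg_inertiaDegAlong_smul (h : SemilinearAut.IntertwinesAlong φ.toRingHom g g')
    (w : Place K F') :
    (g' • w).inertiaDegAlong φ hφ = w.inertiaDegAlong φ hφ := by
  letI := algebraAlong φ
  haveI := isScalarTower_along φ
  haveI := isIntegral_along φ hφ
  exact s37dg_inertiaDeg_smul (g := g) (g' := g') (fun x => h x) w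

/-- (4) the push-forward of divisors is equivariant. -/
theorem s37dg_pushforwardAlong_smul (h : SemilinearAut.IntertwinesAlong φ.toRingHom g g')
    (D : Divisor K F') :
    Divisor.pushforwardAlong φ hφ (g' • D) = g • Divisor.pushforwardAlong φ hφ D := by
  induction D using Finsupp.induction with
  | zero => simp
  | single_add w n D _ _ ih =>
      rw [smul_add, map_add, map_add, smul_add, ih, SemilinearAut.smul_single,
        Divisor.pushforwardAlong_single, Divisor.pushforwardAlong_single,
        SemilinearAut.smul_single, s37dg_restrictAlong_smul φ hφ h,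
        s37dg_inertiaDegAlong_smul φ hφ h]

/-! ### The conorm on `Pic⁰` -/

section Conorm

variable [HasPrincipalDivisors K F'] (hFI : FundamentalIdentityAlong K φ hφ)

/-- The pull-back of divisors of degree `0` along `φ`. -/
def s37dg_pullbackDegZeroAlong :
    Divisor.degZero (K := K) (F := F) →+ Divisor.degZero (K := K) (F := F') :=
  ((Divisor.pullbackAlong φ hφ).domRestrict (Divisor.degZero (K := K) (F := F))).codRestrict _
    fun D => Divisor.pullbackAlong_mem_degZero φ hφ hFI D.2

@[simp]
theorem s37dg_coe_pullbackDegZeroAlong (D : Divisor.degZero (K := K) (F := F)) :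
    (s37dg_pullbackDegZeroAlong φ hφ hFI D : Divisor K F') =
      Divisor.pullbackAlong φ hφ (D : Divisor K F) := rfl

/-- The conorm `Pic⁰(F) → Pic⁰(F')` along `φ`. -/
def s37dg_pullbackHomAlong : Pic0 K F →+ Pic0 K F' :=
  QuotientAddGroup.map _ _ (s37dg_pullbackDegZeroAlong φ hφ hFI) (by
    rintro ⟨D, hD0⟩ hD
    simp only [AddSubgroup.mem_addSubgroupOf] at hD ⊢
    exact Divisor.isPrincipal_pullbackAlong φ hφ hD)

theorem s37dg_pullbackHomAlong_mk (D : Divisor.degZero (K := K) (F := F)) :
    s37dg_pullbackHomAlong φ hφ hFI (Pic0.mk D) =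
      Pic0.mk (s37dg_pullbackDegZeroAlong φ hφ hFI D) := rfl

/-- The conorm along `φ` is the Prelude's `Pic0.pullbackHom` for the algebra structure given by
`φ`. -/
theorem s37dg_pullbackHomAlong_eq :
    s37dg_pullbackHomAlong φ hφ hFI =
      (letI := algebraAlong φ
       haveI := isScalarTower_along φ
       haveI := isIntegral_along φ hφ
       haveI : FundamentalIdentity K F F' := hFI
       Pic0.pullbackHom F') := rfl

/-- (5) **the conorm is equivariant**. -/
theorem s37dg_pullbackHomAlong_smul (h : SemilinearAut.IntertwinesAlong φ.toRingHom g g')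
    (x : Pic0 K F) :
    s37dg_pullbackHomAlong φ hφ hFI (g • x) = g' • s37dg_pullbackHomAlong φ hφ hFI x := by
  obtain ⟨D, rfl⟩ := Pic0.mk_surjective x
  rw [SemilinearAut.pic0_smul_mk, s37dg_pullbackHomAlong_mk, s37dg_pullbackHomAlong_mk,
    SemilinearAut.pic0_smul_mk]
  refine congrArg Pic0.mk (Subtype.ext ?_)
  rw [s37dg_coe_pullbackDegZeroAlong, SemilinearAut.coe_degZeroSMulHom,
    SemilinearAut.coe_degZeroSMulHom, s37dg_coe_pullbackDegZeroAlong]
  exact s37dg_pullbackAlong_smul φ hφ h (D : Divisor K F)

end Conorm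

end Generic

end Fermat.Agent.S37
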