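/-
S37, package [DESCEND], leaf [D-GAL] (helper12).  Prefix `s37dg_`.

MODULAR INSTANCE.  For `N ∣ M` the inclusion `F̄_N ⊆ F̄_M` of the modular function fields over any
field `L ⊇ ℚ` is intertwined by the coefficientwise Galois actions; hence the conorm
`J₀(N) → J₀(M)` is Galois equivariant (clause (a) of `s37_DescendStatement`).
-/
import Mathlib
import Fermat.Prelude.Def_ModularCurve_HeckeOperator
import Fermat.Agent.S37.DescGal

set_option autoImplicit false

open AlgebraicCurve ModularCurve

noncomputable section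

namespace Fermat.Agent.S37

section Mod

variable (L : Type*) [Field L] [Algebra ℚ L]

theorem s37dg_baseChange_mono {F₀ F₁ : IntermediateField ℚ (LaurentSeries ℚ)} (h : F₀ ≤ F₁) :
    laurentBaseChange L F₀ ≤ laurentBaseChange L F₁ := by
  rw [laurentBaseChange, IntermediateField.adjoin_le_iff]
  rintro _ ⟨y, hy, rfl⟩
  exact coeffEmb_mem_laurentBaseChange L (h hy)

theorem s37dg_full_le {N M : ℕ} [NeZero N] [NeZero M] (h : N ∣ M) :
    laurentBaseChange L (modularFunctionFieldFull N) ≤
      laurentBaseChange L (modularFunctionFieldFull M) :=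
  s37dg_baseChange_mono L (full_degeneracy_le h)

/-- The inclusion `F_L(N) ⊆ F_L(M)` for `N ∣ M`. -/
def s37dg_incl {N M : ℕ} [NeZero N] [NeZero M] (h : N ∣ M) :
    laurentBaseChange L (modularFunctionFieldFull N) →ₐ[L]
      laurentBaseChange L (modularFunctionFieldFull M) :=
  IntermediateField.inclusion (s37dg_full_le L h)

@[simp]
theorem s37dg_coe_incl {N M : ℕ} [NeZero N] [NeZero M] (h : N ∣ M)
    (x : laurentBaseChange L (modularFunctionFieldFull N)) :
    (s37dg_incl L h x : LaurentSeries L) = (x : LaurentSeries L) :=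
  IntermediateField.coe_inclusion _ x

/-- For `M = N * ℓ` the inclusion is the Prelude's `heckeAlphaBar`. -/
theorem s37dg_incl_eq_alpha (N ℓ : ℕ) [NeZero N] [NeZero ℓ] :
    s37dg_incl L (dvd_mul_right N ℓ) = heckeAlphaBar L N ℓ := rfl

variable {L}

/-- The inclusion is intertwined by the coefficientwise Galois actions. -/
theorem s37dg_incl_intertwines {N M : ℕ} [NeZero N] [NeZero M] (h : N ∣ M) (σ : L ≃ₐ[ℚ] L) :
    SemilinearAut.IntertwinesAlong (s37dg_incl L h).toRingHom
      (arithmeticGalois (modularFunctionFieldFull N) σ)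
      (arithmeticGalois (modularFunctionFieldFull M) σ) := by
  intro x
  apply Subtype.ext
  show ((arithmeticGalois (modularFunctionFieldFull M) σ • (s37dg_incl L h x) :
      laurentBaseChange L (modularFunctionFieldFull M)) : LaurentSeries L) =
    ((s37dg_incl L h (arithmeticGalois (modularFunctionFieldFull N) σ • x) :
      laurentBaseChange L (modularFunctionFieldFull M)) : LaurentSeries L)
  rw [coe_arithmeticGalois_smul, s37dg_coe_incl, s37dg_coe_incl, coe_arithmeticGalois_smul]

/-- **[D-GAL]** the conorm `Pic⁰(F_L(N)) → Pic⁰(F_L(M))` is Galois equivariant. -/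
theorem s37dg_conorm_smul {N M : ℕ} [NeZero N] [NeZero M] (h : N ∣ M)
    (hφ : (s37dg_incl L h).toRingHom.IsIntegral)
    [HasPrincipalDivisors L (laurentBaseChange L (modularFunctionFieldFull M))]
    (hFI : FundamentalIdentityAlong L (s37dg_incl L h) hφ) (σ : L ≃ₐ[ℚ] L)
    (x : Pic0 L (laurentBaseChange L (modularFunctionFieldFull N))) :
    s37dg_pullbackHomAlong (s37dg_incl L h) hφ hFI (σ • x) =
      σ • s37dg_pullbackHomAlong (s37dg_incl L h) hφ hFI x := by
  rw [galois_smul_pic0_def, galois_smul_pic0_def]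
  exact s37dg_pullbackHomAlong_smul (s37dg_incl L h) hφ hFI (s37dg_incl_intertwines h σ) x

end Mod

/-- **[D-GAL]**, clause (a) of `s37_DescendStatement`: for `N ∣ M` the conorm
`c : J₀(N) → J₀(M)` satisfies `c (σ • x) = σ • c x`. -/
theorem s37dg_main {N M : ℕ} [NeZero N] [NeZero M] (h : N ∣ M)
    (hφ : (s37dg_incl (AlgebraicClosure ℚ) h).toRingHom.IsIntegral)
    [HasPrincipalDivisors (AlgebraicClosure ℚ) (modularFunctionFieldBar M)]
    (hFI : FundamentalIdentityAlong (AlgebraicClosure ℚ) (s37dg_incl (AlgebraicClosure ℚ) h) hφ)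
    (σ : AlgebraicClosure ℚ ≃ₐ[ℚ] AlgebraicClosure ℚ) (x : JZero N) :
    (s37dg_pullbackHomAlong (s37dg_incl (AlgebraicClosure ℚ) h) hφ hFI (σ • x) : JZero M) =
      σ • s37dg_pullbackHomAlong (s37dg_incl (AlgebraicClosure ℚ) h) hφ hFI x :=
  s37dg_conorm_smul h hφ hFI σ x

end Fermat.Agent.S37
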