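/-
S37 [DESCEND], clause (c) (helper22): THE CONORM IS INJECTIVE ON TORSION.  Prefix `s37di_`.
Generic part (no modular vocabulary).

`φ : F → F'` an embedding of function fields over an algebraically closed field `K`,
`c : Pic⁰(F) → Pic⁰(F')` the conorm (pull-back of divisors).  If
  * an element of `F'` without zeros and poles is constant (`hconst`),
  * every place of `F` extends to `F'` (`hsurj`),
  * an `m`-th root in `F'` of an element of `F` all of whose orders are divisible by `m` lies in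
    `F` (`hroot`: no unramified cyclic subextension),
then `c` is injective on `m`-torsion.
-/
import Mathlib
import Fermat.Prelude.Def_AlgebraicCurve_Correspondence
import Fermat.Agent.S24.PlaceBasic

set_option autoImplicit false

open AlgebraicCurve Fermat.Agent.S24

noncomputable section

namespace Fermat.Agent.S37

variable {K F F' : Type*} [Field K] [Field F] [Field F'] [Algebra K F] [Algebra K F']

theorem s37di_mk_eq_zero_iff (D : Divisor.degZero (K := K) (F := F)) :
    Pic0.mk D = 0 ↔ (D : Divisor K F) ∈ Divisor.principal (K := K) (F := F) := by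
  unfold Pic0.mk
  rw [QuotientAddGroup.eq_zero_iff, AddSubgroup.mem_addSubgroupOf]

theorem s37di_nsmul_mk (m : ℕ) (D : Divisor.degZero (K := K) (F := F)) :
    m • Pic0.mk D = Pic0.mk (m • D) := rfl

theorem s37di_ramificationIndexAlong_pos (φ : F →ₐ[K] F') (hφ : φ.toRingHom.IsIntegral)
    (w : Place K F') : 0 < Place.ramificationIndexAlong φ w := by
  let _ := algebraAlong φ
  have := isScalarTower_along φ
  have := isIntegral_along φ hφ
  exact w.ramificationIndex_pos (F := F)

/-- **[D-INJ], generic form.** -/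
theorem s37di_generic [IsAlgClosed K] [HasPrincipalDivisors K F'] (φ : F →ₐ[K] F')
    (hφ : φ.toRingHom.IsIntegral) (c : Pic0 K F →+ Pic0 K F')
    (hc : ∀ D : Divisor.degZero (K := K) (F := F),
      ∃ h : Divisor.pullbackAlong φ hφ (D : Divisor K F) ∈ Divisor.degZero (K := K) (F := F'),
        c (Pic0.mk D) = Pic0.mk ⟨Divisor.pullbackAlong φ hφ (D : Divisor K F), h⟩)
    (hconst : ∀ g : F', g ≠ 0 → (∀ w : Place K F', w.ord g = 0) →
      ∃ a : K, g = algebraMap K F' a)
    (hsurj : ∀ v : Place K F, ∃ w : Place K F', w.restrictAlong φ hφ = v)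
    (m : ℕ) (hm : m ≠ 0)
    (hroot : ∀ (g : F') (f : F), g ^ m = φ f → (∀ Q : Place K F, (m : ℤ) ∣ Q.ord f) →
      ∃ y : F, φ y = g)
    (x : Pic0 K F) (hmx : m • x = 0) (hcx : c x = 0) : x = 0 := by
  obtain ⟨D, rfl⟩ := Pic0.mk_surjective x
  -- `m D = div f`
  rw [s37di_nsmul_mk, s37di_mk_eq_zero_iff] at hmx
  obtain ⟨f, hf0, hf⟩ := hmx
  have hf' : ∀ v : Place K F, (m : ℤ) * (D : Divisor K F) v = v.ord f := by
    intro v
    rw [← hf v]
    simp
  -- `c D = div g`
  obtain ⟨h, hcD⟩ := hc D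
  rw [hcD, s37di_mk_eq_zero_iff] at hcx
  obtain ⟨g, hg0, hg⟩ := hcx
  have hg' : ∀ w : Place K F', w.ord g =
      (Place.ramificationIndexAlong φ w : ℤ) * (D : Divisor K F) (w.restrictAlong φ hφ) := by
    intro w
    rw [← hg w]
    exact Divisor.pullbackAlong_apply φ hφ _ w
  have hφf0 : φ f ≠ 0 := (map_ne_zero φ).2 hf0
  -- `g ^ m / φ f` is constant
  have hq0 : g ^ m / φ f ≠ 0 := div_ne_zero (pow_ne_zero _ hg0) hφf0
  obtain ⟨a, ha⟩ := hconst (g ^ m / φ f) hq0 (fun w => by
    rw [div_eq_mul_inv, w.ord_mul (pow_ne_zero _ hg0) (inv_ne_zero hφf0), w.ord_inv,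
      place_ord_pow, hg' w, Place.ord_restrictAlong φ hφ w f, ← hf']
    ring)
  have ha0 : a ≠ 0 := by
    rintro rfl
    rw [map_zero] at ha
    exact hq0 ha
  obtain ⟨b, hb⟩ := IsAlgClosed.exists_pow_nat_eq a (Nat.pos_of_ne_zero hm)
  have hb0 : b ≠ 0 := by
    rintro rfl
    rw [zero_pow hm] at hb
    exact ha0 hb.symm
  have hbF : algebraMap K F' b ≠ 0 := (map_ne_zero _).2 hb0
  have hpow : (g / algebraMap K F' b) ^ m = φ f := by
    rw [div_pow, ← map_pow, hb, ← ha, div_div_cancel₀ (pow_ne_zero _ hg0)]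
  obtain ⟨y, hy⟩ := hroot (g / algebraMap K F' b) f hpow (fun Q => ⟨_, (hf' Q).symm⟩)
  have hy0 : y ≠ 0 := by
    rintro rfl
    rw [map_zero] at hy
    exact div_ne_zero hg0 hbF hy.symm
  rw [s37di_mk_eq_zero_iff]
  refine ⟨y, hy0, fun v => ?_⟩
  obtain ⟨w, rfl⟩ := hsurj v
  have he := s37di_ramificationIndexAlong_pos φ hφ w
  have h1 : w.ord (φ y) = w.ord g := by
    rw [hy, div_eq_mul_inv, w.ord_mul hg0 (inv_ne_zero hbF), w.ord_inv, place_ord_algebraMap]
    ring
  rw [Place.ord_restrictAlong φ hφ w y, hg' w] at h1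
  have he' : (Place.ramificationIndexAlong φ w : ℤ) ≠ 0 := by exact_mod_cast he.ne'
  exact (mul_left_cancel₀ he' h1).symm

/-- Every place of `F` extends to `F'`, by the fundamental identity. -/
theorem s37di_surj [HasPrincipalDivisors K F'] (φ : F →ₐ[K] F')
    (hφ : φ.toRingHom.IsIntegral) (hFI : FundamentalIdentityAlong K φ hφ)
    (hfin : FiniteAlong K φ) (hdeg : ∀ v : Place K F, v.deg ≠ 0) (v : Place K F) :
    ∃ w : Place K F', w.restrictAlong φ hφ = v := by
  classical
  let _ := algebraAlong φ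
  have := isScalarTower_along φ
  have := isIntegral_along φ hφ
  have hFI' : FundamentalIdentity K F F' := hFI
  have hfin' : Module.Finite F F' := hfin
  have h1 := hFI'.sum_ramificationIndex_mul_deg v
  have hpos : 0 < Module.finrank F F' := Module.finrank_pos
  have h2 : ∑ w ∈ v.fiber F', (w.ramificationIndex F : ℤ) * (w.deg : ℤ) ≠ 0 := by
    rw [h1]
    have h3 : (v.deg : ℤ) ≠ 0 := by exact_mod_cast hdeg v
    have h4 : (Module.finrank F F' : ℤ) ≠ 0 := by exact_mod_cast hpos.ne'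
    exact mul_ne_zero h4 h3
  obtain ⟨w, hw, -⟩ := Finset.exists_ne_zero_of_sum_ne_zero h2
  exact ⟨w, Place.mem_fiber.1 hw⟩

/-! ### The conorm -/

/-- The conorm `Pic⁰(F) → Pic⁰(F')` along `φ` (the Prelude's `Pic0.pullbackHom` for the algebra
structure given by `φ`). -/
def s37di_conorm [HasPrincipalDivisors K F'] (φ : F →ₐ[K] F') (hφ : φ.toRingHom.IsIntegral)
    (hFI : FundamentalIdentityAlong K φ hφ) : Pic0 K F →+ Pic0 K F' :=
  letI := algebraAlong φ
  haveI := isScalarTower_along φ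
  haveI := isIntegral_along φ hφ
  haveI : FundamentalIdentity K F F' := hFI
  Pic0.pullbackHom F'

theorem s37di_conorm_mk [HasPrincipalDivisors K F'] (φ : F →ₐ[K] F')
    (hφ : φ.toRingHom.IsIntegral) (hFI : FundamentalIdentityAlong K φ hφ)
    (D : Divisor.degZero (K := K) (F := F)) :
    s37di_conorm φ hφ hFI (Pic0.mk D) =
      Pic0.mk ⟨Divisor.pullbackAlong φ hφ (D : Divisor K F),
        Divisor.pullbackAlong_mem_degZero φ hφ hFI D.2⟩ := rfl

/-- **[D-INJ], generic form, for the conorm.** -/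
theorem s37di_conorm_inj [IsAlgClosed K] [HasPrincipalDivisors K F'] (φ : F →ₐ[K] F')
    (hφ : φ.toRingHom.IsIntegral) (hFI : FundamentalIdentityAlong K φ hφ)
    (hfin : FiniteAlong K φ) (hdeg : ∀ v : Place K F, v.deg ≠ 0)
    (hconst : ∀ g : F', g ≠ 0 → (∀ w : Place K F', w.ord g = 0) →
      ∃ a : K, g = algebraMap K F' a)
    (m : ℕ) (hm : m ≠ 0)
    (hroot : ∀ (g : F') (f : F), g ^ m = φ f → (∀ Q : Place K F, (m : ℤ) ∣ Q.ord f) →
      ∃ y : F, φ y = g)
    (x : Pic0 K F) (hmx : m • x = 0) (hcx : s37di_conorm φ hφ hFI x = 0) : x = 0 :=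
  s37di_generic φ hφ (s37di_conorm φ hφ hFI) (fun D => ⟨_, s37di_conorm_mk φ hφ hFI D⟩) hconst
    (s37di_surj φ hφ hFI hfin hdeg) m hm hroot x hmx hcx

end Fermat.Agent.S37
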