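/-
S37 [DESCEND], clause (c) (helper22): THE CONORM `J₀(N) → J₀(M)`, `M = s18_level N ℓ`, IS INJECTIVE
ON TORSION.  Prefix `s37di_`.  Modular part.

  * `s37di_const`  : an element without zeros and poles is constant (function fields with a
                     coordinate over an algebraically closed field of characteristic `0`).
  * `s37di_incl`   : the inclusion `F̄_N → F̄_M` for the auxiliary level `M`.
  * `s37di_root`   : `hroot` for the inclusion (from `S18.s18d_core`).
  * `s37di_main`   : clause (c) for ANY additive map `c` which is the pull-back of divisors on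
                     `Pic0.mk`, with the fundamental identity and finiteness of the inclusion as
                     hypotheses.
-/
import Mathlib
import Fermat.Agent.S37.DescInj
import Fermat.Agent.S37.HeckeInputsDefs
import Fermat.Agent.S18.Defs
import Fermat.Agent.S18.DownCore

set_option autoImplicit false

open AlgebraicCurve ModularCurve Fermat.Agent.S24 IntermediateField

noncomputable section

namespace Fermat.Agent.S37

/-- An element without zeros and poles is constant. -/
theorem s37di_const {K F : Type} [Field K] [Field F] [Algebra K F] [IsAlgClosed K] [CharZero K]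
    (u : F) (hu : IsCoordinate K u) (g : F) (_hg0 : g ≠ 0)
    (hg : ∀ w : Place K F, w.ord g = 0) : ∃ a : K, g = algebraMap K F a := by
  by_cases hf : IsAlgebraic K g
  · obtain ⟨c, hc⟩ := coord_exists_const_of_isAlgebraic hf
    exact ⟨c, hc.symm⟩
  · exfalso
    have hcoord : IsCoordinate K g := coord_isCoordinate_of_transcendental hu hf
    obtain ⟨hfin, hsum⟩ := ff_fundamentalIdentity K F g hcoord
    have h0 : ∑ v ∈ hfin.toFinset, v.ord g = 0 := Finset.sum_eq_zero (fun v _ => hg v)
    rw [h0] at hsum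
    have := hcoord.finite
    have hpos : 0 < Module.finrank K⟮g⟯ F := Module.finrank_pos
    omega

theorem s37di_dvd_level (N ℓ : ℕ) : N ∣ S18.s18_level N ℓ := by
  unfold S18.s18_level
  split_ifs
  · exact Nat.dvd_lcm_left N 9
  · exact Nat.dvd_lcm_left N 4

/-- The numerical inequality `ψ(M) < 2 (M / N) ψ(N)` for the auxiliary level. -/
theorem s37di_psi_lt (N ℓ : ℕ) [NeZero N] :
    dedekindPsi (S18.s18_level N ℓ) <
      2 * (S18.s18_level N ℓ / N) * dedekindPsi N := by
  have key : ∀ p : ℕ, p.Prime →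
      dedekindPsi (Nat.lcm N (p ^ 2)) < 2 * (Nat.lcm N (p ^ 2) / N) * dedekindPsi N := by
    intro p hp
    by_cases hpN : p ^ 2 ∣ N
    · have hl : Nat.lcm N (p ^ 2) = N :=
        Nat.dvd_antisymm (Nat.lcm_dvd dvd_rfl hpN) (Nat.dvd_lcm_left _ _)
      rw [hl, Nat.div_self (Nat.pos_of_ne_zero (NeZero.ne N))]
      have := S18.s18d_psi_pos N
      omega
    · exact S18.s18d_psi_lt N p hp hpN
  unfold S18.s18_level
  split_ifs
  · have := key 3 Nat.prime_three
    rwa [show (3 : ℕ) ^ 2 = 9 by norm_num] at this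
  · have := key 2 Nat.prime_two
    rwa [show (2 : ℕ) ^ 2 = 4 by norm_num] at this

section Level

variable (N ℓ : ℕ) [NeZero N]

theorem s37di_neZero_level : NeZero (S18.s18_level N ℓ) := ⟨S18.s18_level_ne_zero N ℓ⟩

attribute [local instance] s37di_neZero_level

/-- The inclusion `F̄_N → F̄_M`, `M = s18_level N ℓ`. -/
def s37di_incl : ↥(modularFunctionFieldBar N) →ₐ[AlgebraicClosure ℚ]
    ↥(modularFunctionFieldBar (S18.s18_level N ℓ)) :=
  S18.s18d_incl (s37di_dvd_level N ℓ)

theorem s37di_coe_incl (y : ↥(modularFunctionFieldBar N)) :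
    ((s37di_incl N ℓ y : ↥(modularFunctionFieldBar (S18.s18_level N ℓ))) :
      LaurentSeries (AlgebraicClosure ℚ)) = (y : LaurentSeries (AlgebraicClosure ℚ)) :=
  S18.s18d_coe_incl _ y

/-- No unramified cyclic subextension: an `m`-th root in `F̄_M` of an element of `F̄_N` all of
whose orders are divisible by `m` lies in `F̄_N`. -/
theorem s37di_root (m : ℕ) (hm : m ≠ 0) (g : ↥(modularFunctionFieldBar (S18.s18_level N ℓ)))
    (f : ↥(modularFunctionFieldBar N)) (hgf : g ^ m = s37di_incl N ℓ f)
    (hord : ∀ Q : Place (AlgebraicClosure ℚ) ↥(modularFunctionFieldBar N),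
      (m : ℤ) ∣ Q.ord f) : ∃ y : ↥(modularFunctionFieldBar N), s37di_incl N ℓ y = g :=
  S18.s18d_core (Nat.mul_div_cancel' (s37di_dvd_level N ℓ)) (s37di_psi_lt N ℓ) m hm g f hgf hord

/-- `F̄_M` has principal divisors. -/
theorem s37di_hasPrincipalDivisors (M : ℕ) [NeZero M] :
    HasPrincipalDivisors (AlgebraicClosure ℚ) ↥(modularFunctionFieldBar M) :=
  coord_principalDivisor ff_fundamentalIdentity QBar (FunField M) (jF M) (final_jCoordinate M)

/-- **[D-INJ]** clause (c) of [DESCEND]: every additive map `c : J₀(N) → J₀(M)` which is the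
pull-back of divisors on `Pic0.mk` is injective on torsion. -/
theorem s37di_main
    [HasPrincipalDivisors (AlgebraicClosure ℚ) ↥(modularFunctionFieldBar (S18.s18_level N ℓ))]
    (hφ : (s37di_incl N ℓ).toRingHom.IsIntegral)
    (hFI : FundamentalIdentityAlong (AlgebraicClosure ℚ) (s37di_incl N ℓ) hφ)
    (hfin : FiniteAlong (AlgebraicClosure ℚ) (s37di_incl N ℓ))
    (c : JZero N →+ JZero (S18.s18_level N ℓ))
    (hc : ∀ D : Divisor.degZero (K := AlgebraicClosure ℚ) (F := ↥(modularFunctionFieldBar N)),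
      ∃ h : Divisor.pullbackAlong (s37di_incl N ℓ) hφ (D : Divisor (AlgebraicClosure ℚ) ↥(modularFunctionFieldBar N)) ∈
          Divisor.degZero (K := AlgebraicClosure ℚ)
            (F := ↥(modularFunctionFieldBar (S18.s18_level N ℓ))),
        c (Pic0.mk D) = Pic0.mk ⟨Divisor.pullbackAlong (s37di_incl N ℓ) hφ (D : Divisor (AlgebraicClosure ℚ) ↥(modularFunctionFieldBar N)), h⟩)
    (m : ℕ) (hm : m ≠ 0) (x : JZero N) (hmx : m • x = 0) (hcx : c x = 0) : x = 0 := by
  refine s37di_generic (s37di_incl N ℓ) hφ c hc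
    (fun g hg0 hg => s37di_const (jF (S18.s18_level N ℓ))
      (final_jCoordinate (S18.s18_level N ℓ)) g hg0 hg)
    (s37di_surj (s37di_incl N ℓ) hφ hFI hfin (fun v => ?_))
    m hm (fun g f hgf hord => s37di_root N ℓ m hm g f hgf hord) x hmx hcx
  rw [diff_degOneStatement QBar (FunField N) (jF N) (final_jCoordinate N) v]
  exact one_ne_zero

/-- **[D-INJ]** for the conorm `s37di_conorm`, with [HI-GEN] as the only hypothesis. -/
theorem s37di_of_gen (hG : s37hi_GenStatement) :
    ∃ (hφ : (s37di_incl N ℓ).toRingHom.IsIntegral)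
      (_ : HasPrincipalDivisors (AlgebraicClosure ℚ)
        ↥(modularFunctionFieldBar (S18.s18_level N ℓ)))
      (hFI : FundamentalIdentityAlong (AlgebraicClosure ℚ) (s37di_incl N ℓ) hφ),
      ∀ m : ℕ, m ≠ 0 → ∀ x : JZero N, m • x = 0 →
        s37di_conorm (s37di_incl N ℓ) hφ hFI x = 0 → x = 0 := by
  obtain ⟨hφ, hP, hfin, hFI, -⟩ := hG QBar (FunField N) (FunField (S18.s18_level N ℓ)) (jF N)
    (jF (S18.s18_level N ℓ)) (final_jCoordinate N) (final_jCoordinate (S18.s18_level N ℓ))
    (s37di_incl N ℓ)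
  refine ⟨hφ, hP, hFI, fun m hm x hmx hcx => ?_⟩
  exact s37di_main N ℓ hφ hFI hfin (s37di_conorm (s37di_incl N ℓ) hφ hFI)
    (fun D => ⟨_, s37di_conorm_mk (s37di_incl N ℓ) hφ hFI D⟩) m hm x hmx hcx

end Level

end Fermat.Agent.S37
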