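/-
S37 [DESCEND]: THE ASSEMBLY (helper22).  Prefix `s37da_`.

The canonical conorm `c : J₀(N) → J₀(M)`, `M = s18_level N ℓ`:

  * `s37da_galois`   clause (a): `c (σ • x) = σ • c x`            (helper12's `s37dg_main`)
  * `s37da_inj`      clause (c): `c` is injective on torsion       (`s37di_main`)
  * `s37da_HeckeDivStatement`  the DIVISOR-level form of clause (b):
        `incl^* ∘ T_ℓ^N = T_ℓ^M ∘ incl^*` on `Div(F̄_N)`
  * `s37da_main_of : s37da_HeckeDivStatement → s37_DescendStatement`.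
-/
import Mathlib
import Fermat.Agent.S37.RhoDefs
import Fermat.Agent.S37.HeckeInputs
import Fermat.Agent.S37.DescGalMod
import Fermat.Agent.S37.DescInjMod

set_option autoImplicit false

open AlgebraicCurve ModularCurve Fermat.Agent.S24

noncomputable section

namespace Fermat.Agent.S37

section Level

variable (N ℓ : ℕ) [NeZero N]

attribute [local instance] s37di_neZero_level

/-- The inclusion `F̄_N → F̄_M`, `M = s18_level N ℓ` (helper12's spelling). -/
def s37da_incl : ↥(modularFunctionFieldBar N) →ₐ[AlgebraicClosure ℚ]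
    ↥(modularFunctionFieldBar (S18.s18_level N ℓ)) :=
  s37dg_incl (AlgebraicClosure ℚ) (s37di_dvd_level N ℓ)

theorem s37da_incl_eq : s37da_incl N ℓ = s37di_incl N ℓ := rfl

theorem s37da_coe_incl (y : ↥(modularFunctionFieldBar N)) :
    ((s37da_incl N ℓ y : ↥(modularFunctionFieldBar (S18.s18_level N ℓ))) :
      LaurentSeries (AlgebraicClosure ℚ)) = (y : LaurentSeries (AlgebraicClosure ℚ)) :=
  s37di_coe_incl N ℓ y

theorem s37da_integral : (s37da_incl N ℓ).toRingHom.IsIntegral :=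
  s37hi_integral (K := QBar) (final_jCoordinate N) (final_jCoordinate (S18.s18_level N ℓ))
    (s37da_incl N ℓ)

theorem s37da_finite : FiniteAlong (AlgebraicClosure ℚ) (s37da_incl N ℓ) :=
  s37hi_finite (K := QBar) (final_jCoordinate N) (final_jCoordinate (S18.s18_level N ℓ))
    (s37da_incl N ℓ)

theorem s37da_principal :
    HasPrincipalDivisors (AlgebraicClosure ℚ) ↥(modularFunctionFieldBar (S18.s18_level N ℓ)) :=
  s37hi_principalBar (S18.s18_level N ℓ)

attribute [local instance] s37da_principal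

theorem s37da_fundamental :
    FundamentalIdentityAlong (AlgebraicClosure ℚ) (s37da_incl N ℓ) (s37da_integral N ℓ) :=
  s37hi_fundamental (K := QBar) (final_jCoordinate N)
    (final_jCoordinate (S18.s18_level N ℓ)) (s37da_incl N ℓ) (s37da_integral N ℓ)

/-- **The conorm** `J₀(N) → J₀(M)`, `M = s18_level N ℓ`. -/
def s37da_conorm : JZero N →+ JZero (S18.s18_level N ℓ) :=
  s37dg_pullbackHomAlong (s37da_incl N ℓ) (s37da_integral N ℓ) (s37da_fundamental N ℓ)

theorem s37da_conorm_mk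
    (D : Divisor.degZero (K := AlgebraicClosure ℚ) (F := ↥(modularFunctionFieldBar N))) :
    s37da_conorm N ℓ (Pic0.mk D) =
      Pic0.mk ⟨Divisor.pullbackAlong (s37da_incl N ℓ) (s37da_integral N ℓ)
          (D : Divisor (AlgebraicClosure ℚ) ↥(modularFunctionFieldBar N)),
        Divisor.pullbackAlong_mem_degZero (s37da_incl N ℓ) (s37da_integral N ℓ)
          (s37da_fundamental N ℓ) D.2⟩ := rfl

/-- Clause (a): the conorm is Galois equivariant. -/
theorem s37da_galois (σ : AlgebraicClosure ℚ ≃ₐ[ℚ] AlgebraicClosure ℚ) (x : JZero N) :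
    s37da_conorm N ℓ (σ • x) = σ • s37da_conorm N ℓ x :=
  s37dg_main (s37di_dvd_level N ℓ) (s37da_integral N ℓ) (s37da_fundamental N ℓ) σ x

/-- Clause (c): the conorm is injective on torsion. -/
theorem s37da_inj (m : ℕ) (hm : m ≠ 0) (x : JZero N) (hmx : m • x = 0)
    (hcx : s37da_conorm N ℓ x = 0) : x = 0 :=
  s37di_main N ℓ (s37da_integral N ℓ) (s37da_fundamental N ℓ) (s37da_finite N ℓ)
    (s37da_conorm N ℓ) (fun D => ⟨_, s37da_conorm_mk N ℓ D⟩) m hm x hmx hcx

end Level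

/-! ### Clause (b) -/

/-- **[D-HECKE], divisor level**: `incl^* ∘ T_ℓ^N = T_ℓ^M ∘ incl^*` on `Div(F̄_N)`,
`M = s18_level N ℓ`. -/
def s37da_HeckeDivStatement : Prop :=
  ∀ (N : ℕ) [NeZero N] (ℓ : ℕ) (hℓ : ℓ.Prime), ¬ ℓ ∣ N →
    haveI : NeZero ℓ := ⟨hℓ.ne_zero⟩
    haveI : NeZero (S18.s18_level N ℓ) := ⟨S18.s18_level_ne_zero N ℓ⟩
    haveI := s37hi_principalBar (N * ℓ)
    haveI := s37hi_principalBar (S18.s18_level N ℓ)
    haveI := s37hi_principalBar (S18.s18_level N ℓ * ℓ)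
    ∀ D : Divisor (AlgebraicClosure ℚ) ↥(modularFunctionFieldBar N),
      Divisor.pullbackAlong (s37da_incl N ℓ) (s37da_integral N ℓ)
          (heckeDivBar (s37hi_alpha_integral N ℓ) (s37hi_beta_integral N ℓ) D) =
        heckeDivBar (s37hi_alpha_integral (S18.s18_level N ℓ) ℓ)
          (s37hi_beta_integral (S18.s18_level N ℓ) ℓ)
          (Divisor.pullbackAlong (s37da_incl N ℓ) (s37da_integral N ℓ) D)

/-- **[D-HECKE], `Pic⁰` level** = clause (b) of `s37_DescendStatement` for the canonical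
conorm. -/
def s37da_HeckeStatement : Prop :=
  ∀ (N : ℕ) [NeZero N] (ℓ : ℕ) (hℓ : ℓ.Prime), ¬ ℓ ∣ N →
    haveI : NeZero (S18.s18_level N ℓ) := ⟨S18.s18_level_ne_zero N ℓ⟩
    ∀ x : JZero N,
      s37da_conorm N ℓ (heckeOperatorBar N ⟨ℓ, hℓ⟩ x) =
        heckeOperatorBar (S18.s18_level N ℓ) ⟨ℓ, hℓ⟩ (s37da_conorm N ℓ x)

/-- From divisors to `Pic⁰`. -/
theorem s37da_hecke_of_div (h : s37da_HeckeDivStatement) : s37da_HeckeStatement := by
  intro N _ ℓ hℓ hℓN x
  have : NeZero ℓ := ⟨hℓ.ne_zero⟩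
  have : NeZero (S18.s18_level N ℓ) := ⟨S18.s18_level_ne_zero N ℓ⟩
  have := s37hi_principalBar (N * ℓ)
  have := s37hi_principalBar (S18.s18_level N ℓ)
  have := s37hi_principalBar (S18.s18_level N ℓ * ℓ)
  obtain ⟨D, rfl⟩ := Pic0.mk_surjective x
  obtain ⟨h1, e1⟩ := s37hi_hecke hℓ D
  rw [e1, s37da_conorm_mk, s37da_conorm_mk]
  obtain ⟨h2, e2⟩ := s37hi_hecke (N := S18.s18_level N ℓ) hℓ
    ⟨Divisor.pullbackAlong (s37da_incl N ℓ) (s37da_integral N ℓ)
        (D : Divisor (AlgebraicClosure ℚ) ↥(modularFunctionFieldBar N)),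
      Divisor.pullbackAlong_mem_degZero (s37da_incl N ℓ) (s37da_integral N ℓ)
        (s37da_fundamental N ℓ) D.2⟩
  rw [e2]
  exact congrArg Pic0.mk (Subtype.ext (h N ℓ hℓ hℓN
    (D : Divisor (AlgebraicClosure ℚ) ↥(modularFunctionFieldBar N))))

/-- **The assembly of [DESCEND]**, from the `Pic⁰`-level clause (b). -/
theorem s37da_main_of' (h : s37da_HeckeStatement) : s37_DescendStatement := by
  intro N _ ℓ hℓ hℓN
  refine ⟨s37da_conorm N ℓ, fun σ x => s37da_galois N ℓ σ x, fun x => h N ℓ hℓ hℓN x,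
    fun m hm x hmx hcx => s37da_inj N ℓ m ?_ x hmx hcx⟩
  rintro rfl
  exact hm (dvd_zero ℓ)

/-- **The assembly of [DESCEND]**, from the divisor-level clause (b). -/
theorem s37da_main_of (h : s37da_HeckeDivStatement) : s37_DescendStatement :=
  s37da_main_of' (s37da_hecke_of_div h)

end Fermat.Agent.S37
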