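import Mathlib
import Fermat.Prelude.Def_AlgebraicCurve_Correspondence
import Fermat.Agent.S24.PlaceBasic

/-!
# S37, package [DESCEND], leaf [D-BC]: base change of correspondences (generic)

For a commutative square of `K`-embeddings of function fields

```
   F₁ --i'--> F'
   ^          ^
   a          a'
   F  --i-->  F₂
```

such that the norms are compatible (`N_{F'/F₂}(i' f) = i (N_{F₁/F} f)`, e.g. `F' = F₁ ⊗_F F₂`)
one has on divisors  `i^* ∘ a_* = a'_* ∘ i'^*`.

Also: functoriality of `restrictAlong`, `ramificationIndexAlong`, `pullbackAlong` in towers.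
No modular vocabulary.  Prefix `s37bc_`.
-/

set_option autoImplicit false
set_option linter.unusedSectionVars false
set_option linter.unusedVariables false
set_option linter.style.longLine false

noncomputable section

namespace Fermat.Agent.S37

open AlgebraicCurve Fermat.Agent.S24

/-! ### Towers -/

section tower

variable {K F F' F'' : Type*} [Field K] [Field F] [Field F'] [Field F'']
  [Algebra K F] [Algebra K F'] [Algebra K F'']

theorem s37bc_mem_restrictAlong (φ : F →ₐ[K] F') (hφ : φ.toRingHom.IsIntegral)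
    (w : Place K F') (f : F) :
    f ∈ (w.restrictAlong φ hφ).toValuationSubring ↔ φ f ∈ w.toValuationSubring := Iff.rfl

theorem s37bc_isIntegral_comp (φ : F →ₐ[K] F') (ψ : F' →ₐ[K] F'')
    (hφ : φ.toRingHom.IsIntegral) (hψ : ψ.toRingHom.IsIntegral) :
    (ψ.comp φ).toRingHom.IsIntegral :=
  RingHom.IsIntegral.trans _ _ hφ hψ

/-- Restriction of places is functorial. -/
theorem s37bc_restrictAlong_comp (φ : F →ₐ[K] F') (ψ : F' →ₐ[K] F'')
    (hφ : φ.toRingHom.IsIntegral) (hψ : ψ.toRingHom.IsIntegral)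
    (h : (ψ.comp φ).toRingHom.IsIntegral) (w : Place K F'') :
    w.restrictAlong (ψ.comp φ) h = (w.restrictAlong ψ hψ).restrictAlong φ hφ := by
  apply Place.ext
  ext f
  rfl

theorem s37bc_ramificationIndexAlong_pos (φ : F →ₐ[K] F') (hφ : φ.toRingHom.IsIntegral)
    (w : Place K F') : 0 < Place.ramificationIndexAlong φ w := by
  letI := algebraAlong φ
  haveI := isScalarTower_along φ
  haveI := isIntegral_along φ hφ
  exact w.ramificationIndex_pos

/-- A uniformizer. -/
theorem s37bc_exists_ord_eq_one (v : Place K F) : ∃ f : F, f ≠ 0 ∧ v.ord f = 1 := by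
  obtain ⟨π, hπ⟩ := place_exists_irreducible v
  refine ⟨(π : F), ?_, v.ord_coe_irreducible hπ⟩
  intro h0
  exact hπ.ne_zero (Subtype.ext h0)

/-- Ramification indices are multiplicative in towers. -/
theorem s37bc_ramificationIndexAlong_comp (φ : F →ₐ[K] F') (ψ : F' →ₐ[K] F'')
    (hφ : φ.toRingHom.IsIntegral) (hψ : ψ.toRingHom.IsIntegral) (w : Place K F'') :
    Place.ramificationIndexAlong (ψ.comp φ) w =
      Place.ramificationIndexAlong ψ w *
        Place.ramificationIndexAlong φ (w.restrictAlong ψ hψ) := by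
  have h := s37bc_isIntegral_comp φ ψ hφ hψ
  obtain ⟨f, hf0, hf⟩ := s37bc_exists_ord_eq_one (w.restrictAlong (ψ.comp φ) h)
  have h1 := Place.ord_restrictAlong (ψ.comp φ) h w f
  have h2 := Place.ord_restrictAlong ψ hψ w (φ f)
  have h3 := Place.ord_restrictAlong φ hφ (w.restrictAlong ψ hψ) f
  rw [hf, mul_one] at h1
  rw [← s37bc_restrictAlong_comp φ ψ hφ hψ h w, hf, mul_one] at h3
  rw [h3] at h2
  have h4 : ((Place.ramificationIndexAlong (ψ.comp φ) w : ℕ) : ℤ) =
      ((Place.ramificationIndexAlong ψ w *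
        Place.ramificationIndexAlong φ (w.restrictAlong ψ hψ) : ℕ) : ℤ) := by
    rw [← h1, Nat.cast_mul, ← h2]
    rfl
  exact_mod_cast h4

/-- Pull-back of divisors is functorial. -/
theorem s37bc_pullbackAlong_comp [HasPrincipalDivisors K F'] [HasPrincipalDivisors K F'']
    (φ : F →ₐ[K] F') (ψ : F' →ₐ[K] F'')
    (hφ : φ.toRingHom.IsIntegral) (hψ : ψ.toRingHom.IsIntegral)
    (h : (ψ.comp φ).toRingHom.IsIntegral) (D : Divisor K F) :
    Divisor.pullbackAlong (ψ.comp φ) h D =
      Divisor.pullbackAlong ψ hψ (Divisor.pullbackAlong φ hφ D) := by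
  ext w
  rw [Divisor.pullbackAlong_apply, Divisor.pullbackAlong_apply, Divisor.pullbackAlong_apply,
    s37bc_ramificationIndexAlong_comp φ ψ hφ hψ w, s37bc_restrictAlong_comp φ ψ hφ hψ h w]
  push_cast
  ring

theorem s37bc_pullbackAlong_congr [HasPrincipalDivisors K F'] {φ φ' : F →ₐ[K] F'} (h : φ = φ')
    (hφ : φ.toRingHom.IsIntegral) (hφ' : φ'.toRingHom.IsIntegral) :
    Divisor.pullbackAlong φ hφ = Divisor.pullbackAlong φ' hφ' := by
  subst h
  rfl

end tower

/-! ### Norms, principal divisors, supports -/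

section basic

variable {K F F' : Type*} [Field K] [Field F] [Field F'] [Algebra K F] [Algebra K F']

/-- The norm along an embedding. -/
def s37bc_normAlong (φ : F →ₐ[K] F') (x : F') : F :=
  letI := algebraAlong φ
  Algebra.norm F x

theorem s37bc_normAlong_ne_zero (φ : F →ₐ[K] F') (hfin : FiniteAlong K φ) {f : F'}
    (hf : f ≠ 0) : s37bc_normAlong φ f ≠ 0 := by
  letI := algebraAlong φ
  haveI : Module.Finite F F' := hfin
  exact Algebra.norm_ne_zero_iff.mpr hf

/-- The push-forward of the divisor of `f` is the divisor of the norm of `f`. -/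
theorem s37bc_pushforwardAlong_div (φ : F →ₐ[K] F') (hφ : φ.toRingHom.IsIntegral)
    (hfin : FiniteAlong K φ) (hN : NormFormulaAlong K φ hfin) {f : F'} (hf : f ≠ 0)
    {D : Divisor K F'} (hD : ∀ w, D w = w.ord f) (v : Place K F) :
    Divisor.pushforwardAlong φ hφ D v = v.ord (s37bc_normAlong φ f) := by
  letI := algebraAlong φ
  haveI := isScalarTower_along φ
  haveI : Module.Finite F F' := hfin
  exact hN f hf D hD v

/-- The pull-back of the divisor of `f` is the divisor of the image of `f`. -/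
theorem s37bc_pullbackAlong_div [HasPrincipalDivisors K F'] (φ : F →ₐ[K] F')
    (hφ : φ.toRingHom.IsIntegral) {f : F} {D : Divisor K F} (hD : ∀ v, D v = v.ord f)
    (w : Place K F') : Divisor.pullbackAlong φ hφ D w = w.ord (φ f) := by
  letI := algebraAlong φ
  haveI := isScalarTower_along φ
  haveI := isIntegral_along φ hφ
  exact Divisor.pullback_apply_eq_ord hD w

/-- The push-forward of a divisor vanishes at the places which are not below its support. -/
theorem s37bc_pushforwardAlong_apply_eq_zero (φ : F →ₐ[K] F') (hφ : φ.toRingHom.IsIntegral)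
    (D : Divisor K F') (v : Place K F) (h : ∀ w ∈ D.support, w.restrictAlong φ hφ ≠ v) :
    Divisor.pushforwardAlong φ hφ D v = 0 := by
  classical
  letI := algebraAlong φ
  haveI := isScalarTower_along φ
  haveI := isIntegral_along φ hφ
  show Divisor.pushforward F D v = 0
  rw [Divisor.pushforward_apply]
  exact Finset.sum_eq_zero fun w hw => if_neg (h w hw)

/-- The pull-back of a divisor vanishes at the places which are not above its support. -/
theorem s37bc_pullbackAlong_apply_eq_zero [HasPrincipalDivisors K F'] (φ : F →ₐ[K] F')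
    (hφ : φ.toRingHom.IsIntegral) (D : Divisor K F) (w : Place K F')
    (h : w.restrictAlong φ hφ ∉ D.support) : Divisor.pullbackAlong φ hφ D w = 0 := by
  rw [Divisor.pullbackAlong_apply, Finsupp.notMem_support_iff.1 h, mul_zero]

theorem s37bc_mem_support_of_pullbackAlong [HasPrincipalDivisors K F'] (φ : F →ₐ[K] F')
    (hφ : φ.toRingHom.IsIntegral) (D : Divisor K F) (w : Place K F')
    (h : w ∈ (Divisor.pullbackAlong φ hφ D).support) : w.restrictAlong φ hφ ∈ D.support := by
  by_contra hn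
  exact (Finsupp.mem_support_iff.1 h) (s37bc_pullbackAlong_apply_eq_zero φ hφ D w hn)

end basic

/-! ### Base change -/

section basechange

variable {K F F₁ F₂ F' : Type*} [Field K] [Field F] [Field F₁] [Field F₂] [Field F']
  [Algebra K F] [Algebra K F₁] [Algebra K F₂] [Algebra K F']
  [HasPrincipalDivisors K F₁] [HasPrincipalDivisors K F₂] [HasPrincipalDivisors K F']
  (a : F →ₐ[K] F₁) (i : F →ₐ[K] F₂) (a' : F₂ →ₐ[K] F') (i' : F₁ →ₐ[K] F')
  (ha : a.toRingHom.IsIntegral) (hi : i.toRingHom.IsIntegral)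
  (ha' : a'.toRingHom.IsIntegral) (hi' : i'.toRingHom.IsIntegral)

/-- `i^* ∘ a_*`. -/
def s37bc_lhs : Divisor K F₁ →+ Divisor K F₂ :=
  (Divisor.pullbackAlong i hi).comp (Divisor.pushforwardAlong a ha)

/-- `a'_* ∘ i'^*`. -/
def s37bc_rhs : Divisor K F₁ →+ Divisor K F₂ :=
  (Divisor.pushforwardAlong a' ha').comp (Divisor.pullbackAlong i' hi')

theorem s37bc_lhs_apply (D : Divisor K F₁) :
    s37bc_lhs a i ha hi D = Divisor.pullbackAlong i hi (Divisor.pushforwardAlong a ha D) := rfl

theorem s37bc_rhs_apply (D : Divisor K F₁) :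
    s37bc_rhs a' i' ha' hi' D =
      Divisor.pushforwardAlong a' ha' (Divisor.pullbackAlong i' hi' D) := rfl

/-- Support of `i^* a_* R`. -/
theorem s37bc_lhs_eq_zero (R : Divisor K F₁) (Q : Place K F₂)
    (h : ∀ w ∈ R.support, w.restrictAlong a ha ≠ Q.restrictAlong i hi) :
    s37bc_lhs a i ha hi R Q = 0 := by
  rw [s37bc_lhs_apply, Divisor.pullbackAlong_apply,
    s37bc_pushforwardAlong_apply_eq_zero a ha R _ h, mul_zero]

/-- Support of `a'_* i'^* R`. -/
theorem s37bc_rhs_eq_zero (hcomm : a'.comp i = i'.comp a) (R : Divisor K F₁) (Q : Place K F₂)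
    (h : ∀ w ∈ R.support, w.restrictAlong a ha ≠ Q.restrictAlong i hi) :
    s37bc_rhs a' i' ha' hi' R Q = 0 := by
  rw [s37bc_rhs_apply]
  apply s37bc_pushforwardAlong_apply_eq_zero
  intro W hW hWQ
  have h1 := s37bc_mem_support_of_pullbackAlong i' hi' R W hW
  apply h _ h1
  rw [← hWQ, ← s37bc_restrictAlong_comp a i' ha hi' (s37bc_isIntegral_comp a i' ha hi') W,
    ← s37bc_restrictAlong_comp i a' hi ha' (s37bc_isIntegral_comp i a' hi ha') W]
  exact (Place.restrictAlong_congr hcomm _ _ W).symm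

/-- The two maps agree on principal divisors. -/
theorem s37bc_principal (hfa : FiniteAlong K a) (hfa' : FiniteAlong K a')
    (hNa : NormFormulaAlong K a hfa) (hNa' : NormFormulaAlong K a' hfa')
    (hnorm : ∀ f : F₁, s37bc_normAlong a' (i' f) = i (s37bc_normAlong a f))
    {f : F₁} (hf : f ≠ 0) {D : Divisor K F₁} (hD : ∀ w, D w = w.ord f) :
    s37bc_lhs a i ha hi D = s37bc_rhs a' i' ha' hi' D := by
  ext Q
  have hf' : i' f ≠ 0 := by
    intro h0
    exact hf ((map_eq_zero i').1 h0)
  rw [s37bc_lhs_apply, s37bc_rhs_apply,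
    s37bc_pullbackAlong_div i hi (f := s37bc_normAlong a f)
      (fun v => s37bc_pushforwardAlong_div a ha hfa hNa hf hD v) Q,
    s37bc_pushforwardAlong_div a' ha' hfa' hNa' hf'
      (fun W => s37bc_pullbackAlong_div i' hi' hD W) Q, hnorm]

/-- The two maps agree on a single place. -/
theorem s37bc_single (hcomm : a'.comp i = i'.comp a)
    (hfa : FiniteAlong K a) (hfa' : FiniteAlong K a')
    (hNa : NormFormulaAlong K a hfa) (hNa' : NormFormulaAlong K a' hfa')
    (hnorm : ∀ f : F₁, s37bc_normAlong a' (i' f) = i (s37bc_normAlong a f))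
    (P₁ : Place K F₁)
    (hWA : ∃ f : F₁, f ≠ 0 ∧ P₁.ord f ≠ 0 ∧ ∀ P₁' : Place K F₁, P₁' ≠ P₁ →
      P₁'.restrictAlong a ha = P₁.restrictAlong a ha → P₁'.ord f = 0) :
    s37bc_lhs a i ha hi (Finsupp.single P₁ 1) =
      s37bc_rhs a' i' ha' hi' (Finsupp.single P₁ 1) := by
  classical
  obtain ⟨f, hf0, hf1, hfo⟩ := hWA
  obtain ⟨Df, hDf, -⟩ := HasPrincipalDivisors.exists_divisor (K := K) f hf0
  have hP := s37bc_principal a i a' i' ha hi ha' hi' hfa hfa' hNa hNa' hnorm hf0 hDf
  ext Q
  by_cases hQ : Q.restrictAlong i hi = P₁.restrictAlong a ha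
  · -- on the fibre: move
    have hR : ∀ w ∈ (Df - Finsupp.single P₁ (P₁.ord f)).support,
        w.restrictAlong a ha ≠ Q.restrictAlong i hi := by
      intro w hw hEq
      apply Finsupp.mem_support_iff.1 hw
      rw [Finsupp.sub_apply, hDf]
      by_cases hwP : w = P₁
      · rw [hwP, Finsupp.single_eq_same, sub_self]
      · rw [hfo w hwP (hEq.trans hQ), Finsupp.single_eq_of_ne hwP, sub_self]
    have h1 := s37bc_lhs_eq_zero a i ha hi _ Q hR
    have h2 := s37bc_rhs_eq_zero a i a' i' ha hi ha' hi' hcomm _ Q hR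
    have e : Finsupp.single P₁ (P₁.ord f) = P₁.ord f • Finsupp.single P₁ (1 : ℤ) := by
      rw [Finsupp.smul_single, smul_eq_mul, mul_one]
    rw [map_sub, Finsupp.sub_apply, e, map_zsmul, Finsupp.smul_apply, smul_eq_mul] at h1 h2
    have h3 : s37bc_lhs a i ha hi Df Q = s37bc_rhs a' i' ha' hi' Df Q := by rw [hP]
    have h4 : P₁.ord f * s37bc_lhs a i ha hi (Finsupp.single P₁ 1) Q =
        P₁.ord f * s37bc_rhs a' i' ha' hi' (Finsupp.single P₁ 1) Q := by linarith
    exact mul_left_cancel₀ hf1 h4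
  · -- off the fibre: both sides vanish
    have hS : ∀ w ∈ (Finsupp.single P₁ (1 : ℤ)).support,
        w.restrictAlong a ha ≠ Q.restrictAlong i hi := by
      intro w hw hEq
      have hw' : w = P₁ := by
        by_contra hne
        exact (Finsupp.mem_support_iff.1 hw) (Finsupp.single_eq_of_ne hne)
      rw [hw'] at hEq
      exact hQ hEq.symm
    rw [s37bc_lhs_eq_zero a i ha hi _ Q hS,
      s37bc_rhs_eq_zero a i a' i' ha hi ha' hi' hcomm _ Q hS]

/-- **[D-BC]** base change: `i^* ∘ a_* = a'_* ∘ i'^*` on divisors. -/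
theorem s37bc_main (hcomm : a'.comp i = i'.comp a)
    (hfa : FiniteAlong K a) (hfa' : FiniteAlong K a')
    (hNa : NormFormulaAlong K a hfa) (hNa' : NormFormulaAlong K a' hfa')
    (hnorm : ∀ f : F₁, s37bc_normAlong a' (i' f) = i (s37bc_normAlong a f))
    (hWA : ∀ P₁ : Place K F₁, ∃ f : F₁, f ≠ 0 ∧ P₁.ord f ≠ 0 ∧ ∀ P₁' : Place K F₁, P₁' ≠ P₁ →
      P₁'.restrictAlong a ha = P₁.restrictAlong a ha → P₁'.ord f = 0)
    (D : Divisor K F₁) :
    Divisor.pullbackAlong i hi (Divisor.pushforwardAlong a ha D) =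
      Divisor.pushforwardAlong a' ha' (Divisor.pullbackAlong i' hi' D) := by
  have key : s37bc_lhs a i ha hi = s37bc_rhs a' i' ha' hi' := by
    apply Finsupp.addHom_ext
    intro P₁ n
    have e : Finsupp.single P₁ n = n • Finsupp.single P₁ (1 : ℤ) := by
      rw [Finsupp.smul_single, smul_eq_mul, mul_one]
    rw [e, map_zsmul, map_zsmul,
      s37bc_single a i a' i' ha hi ha' hi' hcomm hfa hfa' hNa hNa' hnorm P₁ (hWA P₁)]
  exact DFunLike.congr_fun key D

end basechange

/-! ### Correspondences -/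

section corr

variable {K F F₁ F₂ F' : Type*} [Field K] [Field F] [Field F₁] [Field F₂] [Field F']
  [Algebra K F] [Algebra K F₁] [Algebra K F₂] [Algebra K F']
  [HasPrincipalDivisors K F₁] [HasPrincipalDivisors K F₂] [HasPrincipalDivisors K F']
  (α β : F →ₐ[K] F₁) (i : F →ₐ[K] F₂) (α' β' : F₂ →ₐ[K] F') (i' : F₁ →ₐ[K] F')
  (hα : α.toRingHom.IsIntegral) (hβ : β.toRingHom.IsIntegral) (hi : i.toRingHom.IsIntegral)
  (hα' : α'.toRingHom.IsIntegral) (hβ' : β'.toRingHom.IsIntegral)
  (hi' : i'.toRingHom.IsIntegral)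

include hi' in
/-- **Base change of a correspondence**: `i^* ∘ (α_* β^*) = (α'_* β'^*) ∘ i^*`. -/
theorem s37bc_corr (hcα : α'.comp i = i'.comp α) (hcβ : β'.comp i = i'.comp β)
    (hfα : FiniteAlong K α) (hfα' : FiniteAlong K α')
    (hNα : NormFormulaAlong K α hfα) (hNα' : NormFormulaAlong K α' hfα')
    (hnorm : ∀ f : F₁, s37bc_normAlong α' (i' f) = i (s37bc_normAlong α f))
    (hWA : ∀ P₁ : Place K F₁, ∃ f : F₁, f ≠ 0 ∧ P₁.ord f ≠ 0 ∧ ∀ P₁' : Place K F₁, P₁' ≠ P₁ →
      P₁'.restrictAlong α hα = P₁.restrictAlong α hα → P₁'.ord f = 0)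
    (D : Divisor K F) :
    Divisor.pullbackAlong i hi (Divisor.correspondence β α hβ hα D) =
      Divisor.correspondence β' α' hβ' hα' (Divisor.pullbackAlong i hi D) := by
  rw [Divisor.correspondence_apply, Divisor.correspondence_apply,
    s37bc_main α i α' i' hα hi hα' hi' hcα hfα hfα' hNα hNα' hnorm hWA,
    ← s37bc_pullbackAlong_comp β i' hβ hi' (s37bc_isIntegral_comp β i' hβ hi') D,
    ← s37bc_pullbackAlong_comp i β' hi hβ' (s37bc_isIntegral_comp i β' hi hβ') D]
  congr 1
  exact DFunLike.congr_fun (s37bc_pullbackAlong_congr hcβ.symm _ _) D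

end corr

end Fermat.Agent.S37
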