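/-
S37 / [DESCEND] / [D-BC] (helper19): WEAK APPROXIMATION in the form needed by `s37bc_main`.
Prefix `s37bc_`.  Generic (`Type*`), `K` algebraically closed of characteristic `0`, `F/K` a
function field with a coordinate (S24's `IsCoordinate`).

* `s37bc_exists_regular_coord` : a coordinate regular at finitely many given places.
* `s37bc_wa` : for a finite set `S` of places and `v ∉ S` there is `f ≠ 0` with `ord_v f > 0`
  and `ord_w f = 0` for `w ∈ S`.
* `s37bc_hWA` : the hypothesis `hWA` of `s37bc_main` / `s37bc_corr`.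
* `s37bc_main'`, `s37bc_corr'` : `s37bc_main`, `s37bc_corr` with `hWA` discharged.
-/
import Mathlib
import Fermat.Prelude.Def_AlgebraicCurve_Correspondence
import Fermat.Agent.S24.PlaceBasic
import Fermat.Agent.S24.FFApprox
import Fermat.Agent.S24.CoordDiv
import Fermat.Agent.S37.DescBC

set_option autoImplicit false

open AlgebraicCurve

noncomputable section

namespace Fermat.Agent.S37

section WA

variable {K F : Type*} [Field K] [Field F] [Algebra K F]

/-- A translate-inverse of a coordinate is transcendental. -/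
theorem s37bc_transcendental_inv_sub {u : F} (hu : Transcendental K u) (c : K) :
    Transcendental K (u - algebraMap K F c)⁻¹ := by
  intro h
  have h1 : IsAlgebraic K (u - algebraMap K F c) := by
    have := h.inv
    rwa [inv_inv] at this
  have h2 : IsAlgebraic K ((u - algebraMap K F c) + algebraMap K F c) :=
    h1.add (isAlgebraic_algebraMap c)
  rw [sub_add_cancel] at h2
  exact hu h2

/-- Regularity of `(u - c₀)⁻¹` at a place whose centre is not `c₀`. -/
theorem s37bc_inv_sub_mem (w : Place K F) {u : F} (hu0 : u ≠ 0) (c₀ : K)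
    (h : (∃ c : K, c ≠ c₀ ∧ u - algebraMap K F c ∈ w.toValuationSubring.nonunits) ∨
      u⁻¹ ∈ w.toValuationSubring.nonunits) :
    (u - algebraMap K F c₀)⁻¹ ∈ w.toValuationSubring := by
  rcases h with ⟨c, hc, hcu⟩ | hinv
  · -- `u - c₀ = (u - c) + (c - c₀)` is a unit
    have h1 : u - algebraMap K F c ∈ w.toValuationSubring := S24.place_nonunits_subset w hcu
    have h2 : algebraMap K F (c - c₀) ∈ w.toValuationSubring :=
      (S24.ff3_subalgebra w).algebraMap_mem _
    have h3 : u - algebraMap K F c₀ = (u - algebraMap K F c) + algebraMap K F (c - c₀) := by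
      rw [map_sub]; ring
    have hmem : u - algebraMap K F c₀ ∈ w.toValuationSubring := by
      rw [h3]; exact w.toValuationSubring.add_mem _ _ h1 h2
    have hnot : u - algebraMap K F c₀ ∉ w.toValuationSubring.nonunits := by
      intro hn
      have hd : algebraMap K F (c - c₀) ∈ w.toValuationSubring.nonunits := by
        have hsub : algebraMap K F (c - c₀) =
            (u - algebraMap K F c₀) - (u - algebraMap K F c) := by
          rw [map_sub]; ring
        rw [hsub]
        have hI : ∀ {x y : F}, x ∈ w.toValuationSubring.nonunits →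
            y ∈ w.toValuationSubring.nonunits → x - y ∈ w.toValuationSubring.nonunits := by
          intro x y hx hy
          rw [ValuationSubring.mem_nonunits_iff] at hx hy ⊢
          calc w.toValuationSubring.valuation (x - y)
              ≤ max (w.toValuationSubring.valuation x) (w.toValuationSubring.valuation y) :=
                Valuation.map_sub _ _ _
            _ < 1 := max_lt hx hy
        exact hI hn hcu
      exact S24.place_algebraMap_not_mem_nonunits w (sub_ne_zero.mpr hc) hd
    exact S24.ff3_inv_mem w hmem hnot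
  · -- pole of `u`
    have hnu : u ∉ w.toValuationSubring := S24.place_not_mem_of_inv_mem_nonunits w hu0 hinv
    have hnot : u - algebraMap K F c₀ ∉ w.toValuationSubring := by
      intro hm
      apply hnu
      have : u = (u - algebraMap K F c₀) + algebraMap K F c₀ := by ring
      rw [this]
      exact w.toValuationSubring.add_mem _ _ hm ((S24.ff3_subalgebra w).algebraMap_mem _)
    rcases S24.place_mem_or_inv_mem_nonunits w (u - algebraMap K F c₀) with h | h
    · exact absurd h hnot
    · exact S24.place_nonunits_subset w h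

/-- A coordinate that is regular at finitely many given places. -/
theorem s37bc_exists_regular_coord [IsAlgClosed K] {u : F} (hu : S24.IsCoordinate K u)
    (T : Finset (Place K F)) :
    ∃ u' : F, S24.IsCoordinate K u' ∧ ∀ w ∈ T, u' ∈ w.toValuationSubring := by
  classical
  have halg := S24.diff_isAlgebraic_of_isCoordinate hu
  let cen : Place K F → K := fun w =>
    if h : ∃ c : K, u - algebraMap K F c ∈ w.toValuationSubring.nonunits then h.choose else 0
  haveI : Infinite K := IsAlgClosed.instInfinite
  obtain ⟨c₀, hc₀⟩ := Infinite.exists_notMem_finset (T.image cen)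
  have hu0 : u ≠ 0 := by
    rintro rfl
    exact hu.transcendental (isAlgebraic_zero)
  refine ⟨(u - algebraMap K F c₀)⁻¹,
    S24.coord_isCoordinate_of_transcendental hu
      (s37bc_transcendental_inv_sub hu.transcendental c₀), fun w hw => ?_⟩
  apply s37bc_inv_sub_mem w hu0 c₀
  rcases S24.diff_centre halg w with hc | hinf
  · left
    refine ⟨cen w, ?_, ?_⟩
    · rintro heq
      exact hc₀ (Finset.mem_image.mpr ⟨w, hw, heq⟩)
    · show u - algebraMap K F (dite _ _ _) ∈ _
      rw [dif_pos hc]
      exact hc.choose_spec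
  · exact Or.inr hinf

/-- Separation, for a coordinate regular at all the places involved. -/
theorem s37bc_wa_regular [CharZero K] {u : F} (hu : S24.IsCoordinate K u)
    (S : Finset (Place K F)) (v : Place K F)
    (hS : ∀ w ∈ S, u ∈ w.toValuationSubring) (hv : u ∈ v.toValuationSubring) (hvS : v ∉ S) :
    ∃ f : F, f ≠ 0 ∧ f ∈ v.toValuationSubring.nonunits ∧
      ∀ w ∈ S, f ∈ w.toValuationSubring ∧ f ∉ w.toValuationSubring.nonunits := by
  classical
  haveI := S24.ff3_isDedekindDomain hu
  haveI := S24.ff3_isFractionRing hu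
  by_cases hSe : S = ∅
  · have hne := S24.ff3_centreIdeal_ne_bot v hv
    obtain ⟨b, hb, hb0⟩ := Submodule.exists_mem_ne_zero_of_ne_bot hne
    refine ⟨(b : F), ?_, (S24.ff3_mem_centreIdeal v hv b).1 hb, ?_⟩
    · intro h0
      exact hb0 (Subtype.ext h0)
    · intro w hw
      rw [hSe] at hw
      exact absurd hw (Finset.notMem_empty w)
  · let J : Place K F → Ideal (integralClosure (Algebra.adjoin K {u}) F) := fun w =>
      if h : u ∈ w.toValuationSubring then S24.ff3_centreIdeal w h else ⊤
    have hJ : ∀ w (h : u ∈ w.toValuationSubring), J w = S24.ff3_centreIdeal w h :=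
      fun w h => dif_pos h
    have hprime : ∀ w ∈ S, (J w).IsPrime := by
      intro w hw
      rw [hJ w (hS w hw)]
      infer_instance
    obtain ⟨w0, hw0S⟩ := Finset.nonempty_of_ne_empty hSe
    have hnot : ¬ ((↑(S24.ff3_centreIdeal v hv) :
          Set (integralClosure (Algebra.adjoin K {u}) F)) ⊆
        ⋃ w ∈ (↑S : Set (Place K F)),
          (↑(J w) : Set (integralClosure (Algebra.adjoin K {u}) F))) := by
      intro hsub
      rw [Ideal.subset_union_prime w0 w0 (fun i hi _ _ => hprime i hi)] at hsub
      obtain ⟨w, hwS, hle⟩ := hsub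
      have hvw : w ∉ ({v} : Finset (Place K F)) := by
        rw [Finset.mem_singleton]
        rintro rfl
        exact hvS hwS
      obtain ⟨g, hg1, hg2⟩ := S24.ff3_exists_separating ({v} : Finset (Place K F)) w
        (fun x hx => by rw [Finset.mem_singleton] at hx; rw [hx]; exact hv) (hS w hwS) hvw
      have hgv : g ∈ S24.ff3_centreIdeal v hv :=
        (S24.ff3_mem_centreIdeal v hv g).2 (hg1 v (Finset.mem_singleton_self v))
      have hgw := hle hgv
      rw [hJ w (hS w hwS), S24.ff3_mem_centreIdeal] at hgw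
      exact hg2 hgw
    rw [Set.not_subset] at hnot
    obtain ⟨f, hfv, hfS⟩ := hnot
    have hfS' : ∀ w ∈ S, (f : F) ∉ w.toValuationSubring.nonunits := by
      intro w hw hmem
      apply hfS
      rw [Set.mem_iUnion₂]
      refine ⟨w, hw, ?_⟩
      rw [SetLike.mem_coe, hJ w (hS w hw), S24.ff3_mem_centreIdeal]
      exact hmem
    refine ⟨(f : F), ?_, (S24.ff3_mem_centreIdeal v hv f).1 hfv,
      fun w hw => ⟨S24.ff3_integral_mem w (hS w hw) f.2, hfS' w hw⟩⟩
    intro h0
    apply hfS' w0 hw0S
    rw [h0]
    exact S24.place_zero_mem_nonunits w0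

/-- **Weak approximation**: for a finite set `S` of places and a place `v ∉ S` there is a
nonzero function vanishing at `v` and of order `0` at every place of `S`. -/
theorem s37bc_wa [IsAlgClosed K] [CharZero K] {u : F} (hu : S24.IsCoordinate K u)
    (S : Finset (Place K F)) (v : Place K F) (hvS : v ∉ S) :
    ∃ f : F, f ≠ 0 ∧ 0 < v.ord f ∧ ∀ w ∈ S, w.ord f = 0 := by
  classical
  obtain ⟨u', hu', hreg⟩ := s37bc_exists_regular_coord hu (insert v S)
  obtain ⟨f, hf0, hfv, hfS⟩ := s37bc_wa_regular hu' S v
    (fun w hw => hreg w (Finset.mem_insert_of_mem hw)) (hreg v (Finset.mem_insert_self v S)) hvS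
  refine ⟨f, hf0, (S24.place_mem_nonunits_iff v hf0).1 hfv, fun w hw => ?_⟩
  exact (S24.place_ord_eq_zero_iff w hf0).2 (hfS w hw)

end WA

section Apply

variable {K F F₁ : Type*} [Field K] [Field F] [Field F₁] [Algebra K F] [Algebra K F₁]
  [HasPrincipalDivisors K F₁]

/-- The hypothesis `hWA` of `s37bc_main`, from weak approximation on the upper field. -/
theorem s37bc_hWA [IsAlgClosed K] [CharZero K] {u : F₁} (hu : S24.IsCoordinate K u)
    (a : F →ₐ[K] F₁) (ha : a.toRingHom.IsIntegral) (P₁ : Place K F₁) :
    ∃ f : F₁, f ≠ 0 ∧ P₁.ord f ≠ 0 ∧ ∀ P₁' : Place K F₁, P₁' ≠ P₁ →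
      P₁'.restrictAlong a ha = P₁.restrictAlong a ha → P₁'.ord f = 0 := by
  classical
  obtain ⟨f, hf0, hfv, hfS⟩ := s37bc_wa hu
    ((Place.fiberAlong a ha (P₁.restrictAlong a ha)).erase P₁) P₁
    (Finset.notMem_erase P₁ _)
  refine ⟨f, hf0, hfv.ne', fun P₁' hne hres => hfS P₁' ?_⟩
  rw [Finset.mem_erase]
  exact ⟨hne, Place.mem_fiberAlong.mpr hres⟩

end Apply

section Main

variable {K F F₁ F₂ F' : Type*} [Field K] [Field F] [Field F₁] [Field F₂] [Field F']
  [Algebra K F] [Algebra K F₁] [Algebra K F₂] [Algebra K F']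
  [HasPrincipalDivisors K F₁] [HasPrincipalDivisors K F₂] [HasPrincipalDivisors K F']
  [IsAlgClosed K] [CharZero K]

/-- `s37bc_main` with weak approximation discharged. -/
theorem s37bc_main' {u : F₁} (hu : S24.IsCoordinate K u)
    (a : F →ₐ[K] F₁) (i : F →ₐ[K] F₂) (a' : F₂ →ₐ[K] F') (i' : F₁ →ₐ[K] F')
    (ha : a.toRingHom.IsIntegral) (hi : i.toRingHom.IsIntegral)
    (ha' : a'.toRingHom.IsIntegral) (hi' : i'.toRingHom.IsIntegral)
    (hcomm : a'.comp i = i'.comp a)
    (hfa : FiniteAlong K a) (hfa' : FiniteAlong K a')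
    (hNa : NormFormulaAlong K a hfa) (hNa' : NormFormulaAlong K a' hfa')
    (hnorm : ∀ f : F₁, s37bc_normAlong a' (i' f) = i (s37bc_normAlong a f))
    (D : Divisor K F₁) :
    Divisor.pullbackAlong i hi (Divisor.pushforwardAlong a ha D) =
      Divisor.pushforwardAlong a' ha' (Divisor.pullbackAlong i' hi' D) :=
  s37bc_main a i a' i' ha hi ha' hi' hcomm hfa hfa' hNa hNa' hnorm
    (fun P₁ => s37bc_hWA hu a ha P₁) D

/-- `s37bc_corr` with weak approximation discharged. -/
theorem s37bc_corr' {u : F₁} (hu : S24.IsCoordinate K u)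
    (α β : F →ₐ[K] F₁) (i : F →ₐ[K] F₂) (α' β' : F₂ →ₐ[K] F') (i' : F₁ →ₐ[K] F')
    (hα : α.toRingHom.IsIntegral) (hβ : β.toRingHom.IsIntegral) (hi : i.toRingHom.IsIntegral)
    (hα' : α'.toRingHom.IsIntegral) (hβ' : β'.toRingHom.IsIntegral)
    (hi' : i'.toRingHom.IsIntegral)
    (hcα : α'.comp i = i'.comp α) (hcβ : β'.comp i = i'.comp β)
    (hfα : FiniteAlong K α) (hfα' : FiniteAlong K α')
    (hNα : NormFormulaAlong K α hfα) (hNα' : NormFormulaAlong K α' hfα')
    (hnorm : ∀ f : F₁, s37bc_normAlong α' (i' f) = i (s37bc_normAlong α f))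
    (D : Divisor K F) :
    Divisor.pullbackAlong i hi (Divisor.correspondence β α hβ hα D) =
      Divisor.correspondence β' α' hβ' hα' (Divisor.pullbackAlong i hi D) :=
  s37bc_corr α β i α' β' i' hα hβ hi hα' hβ' hi' hcα hcβ hfα hfα' hNα hNα' hnorm
    (fun P₁ => s37bc_hWA hu α hα P₁) D

end Main

end Fermat.Agent.S37
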