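/-
S37 / [DESCEND] / [D-BC] (helper19): THE MODULAR INSTANCE of the base change of correspondences
= clause (b) of `s37_DescendStatement`: the conorm `J₀(N) → J₀(M)` commutes with `T_ℓ`
(`N ∣ M`, `ℓ` prime, `ℓ ∤ M`).  Prefix `s37bc_`.

Route: `s37bc_corr'` (generic base change, `S37/DescBC.lean` + weak approximation
`S37/DescBCApprox.lean`) with
* the commuting squares `α_M ∘ i = i' ∘ α_N`, `β_M ∘ i = i' ∘ β_N` (inclusions / `q ↦ q^ℓ`);
* the base change of the norm `N_{α_M}(i' x) = i (N_{α_N} x)`, from helper17's explicit norm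
  formula `s37es_nm_norm` at the two levels and the compatibility `W_M ∘ i' = i' ∘ W_N` of
  helper8's Atkin-Lehner maps (two ring homs that agree on constants and on the generators);
* helper14's [HECKE-INPUTS] for integrality / finiteness / the norm formula.
-/
import Mathlib
import Fermat.Prelude.Def_ModularCurve_HeckeModule
import Fermat.Agent.S37.DescBCApprox
import Fermat.Agent.S37.EsNorm
import Fermat.Agent.S37.AtkinLehner
import Fermat.Agent.S37.HeckeInputs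
import Fermat.Agent.S37.DescGalMod

set_option autoImplicit false

open ModularCurve AlgebraicCurve Fermat.Agent.S24

noncomputable section

namespace Fermat.Agent.S37

section Squares

variable {N M : ℕ} [NeZero N] [NeZero M] (ℓ : ℕ) [NeZero ℓ] (h : N ∣ M)

/-- The inclusion `F̄_{Nℓ} ⊆ F̄_{Mℓ}`. -/
def s37bc_inclL : FunField (N * ℓ) →ₐ[QBar] FunField (M * ℓ) :=
  s37dg_incl QBar (Nat.mul_dvd_mul_right h ℓ)

theorem s37bc_coe_inclL (x : FunField (N * ℓ)) :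
    ((s37bc_inclL ℓ h x : FunField (M * ℓ)) : LaurentSeries QBar) = (x : LaurentSeries QBar) :=
  s37dg_coe_incl QBar _ x

/-- The square of the `α`'s commutes. -/
theorem s37bc_sq_alpha :
    (heckeAlphaBar QBar M ℓ).comp (s37dg_incl QBar h) =
      (s37bc_inclL ℓ h).comp (heckeAlphaBar QBar N ℓ) := by
  apply AlgHom.ext
  intro x
  apply Subtype.ext
  rw [AlgHom.comp_apply, AlgHom.comp_apply, coe_heckeAlphaBar, s37bc_coe_inclL,
    coe_heckeAlphaBar, s37dg_coe_incl]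

/-- The square of the `β`'s commutes. -/
theorem s37bc_sq_beta :
    (heckeBetaBar QBar M ℓ).comp (s37dg_incl QBar h) =
      (s37bc_inclL ℓ h).comp (heckeBetaBar QBar N ℓ) := by
  apply AlgHom.ext
  intro x
  apply Subtype.ext
  rw [AlgHom.comp_apply, AlgHom.comp_apply, coe_heckeBetaBar, s37bc_coe_inclL,
    coe_heckeBetaBar, s37dg_coe_incl]

theorem s37bc_sq_alpha_apply (y : FunField N) :
    heckeAlphaBar QBar M ℓ (s37dg_incl QBar h y) = s37bc_inclL ℓ h (heckeAlphaBar QBar N ℓ y) :=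
  congrArg (fun f : FunField N →ₐ[QBar] FunField (M * ℓ) => f y) (s37bc_sq_alpha ℓ h)

theorem s37bc_sq_beta_apply (y : FunField N) :
    heckeBetaBar QBar M ℓ (s37dg_incl QBar h y) = s37bc_inclL ℓ h (heckeBetaBar QBar N ℓ y) :=
  congrArg (fun f : FunField N →ₐ[QBar] FunField (M * ℓ) => f y) (s37bc_sq_beta ℓ h)

end Squares

section Generators

variable (N ℓ : ℕ) [NeZero N] [NeZero ℓ]

theorem s37bc_jDiv_alpha (d : ℕ) [NeZero d] (hd : d ∣ N) (hd' : d ∣ N * ℓ) :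
    jDiv (N * ℓ) d hd' = heckeAlphaBar QBar N ℓ (jDiv N d hd) := by
  apply Subtype.ext
  rw [coe_heckeAlphaBar]
  rfl

theorem s37bc_jDiv_beta (d : ℕ) [NeZero d] [NeZero (d * ℓ)] (hd : d ∣ N)
    (hd' : d * ℓ ∣ N * ℓ) :
    jDiv (N * ℓ) (d * ℓ) hd' = heckeBetaBar QBar N ℓ (jDiv N d hd) := by
  apply Subtype.ext
  rw [coe_heckeBetaBar]
  show jLaurent (d * ℓ) = qExpand QBar ℓ (jLaurent d)
  rw [s37al_qExpand_jLaurent]

end Generators

section WCompat

variable {N M : ℕ} [NeZero N] [NeZero M] (ℓ : ℕ) [NeZero ℓ] (h : N ∣ M)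

/-- The Atkin-Lehner maps at the levels `N` and `M` are compatible. -/
theorem s37bc_W_compat (hℓ : ℓ.Prime)
    (WN : FunField (N * ℓ) →ₐ[QBar] FunField (N * ℓ))
    (hWNα : ∀ f : FunField N, WN (heckeAlphaBar QBar N ℓ f) = heckeBetaBar QBar N ℓ f)
    (hWNβ : ∀ f : FunField N, WN (heckeBetaBar QBar N ℓ f) = heckeAlphaBar QBar N ℓ f)
    (WM : FunField (M * ℓ) →ₐ[QBar] FunField (M * ℓ))
    (hWMα : ∀ f : FunField M, WM (heckeAlphaBar QBar M ℓ f) = heckeBetaBar QBar M ℓ f)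
    (hWMβ : ∀ f : FunField M, WM (heckeBetaBar QBar M ℓ f) = heckeAlphaBar QBar M ℓ f)
    (x : FunField (N * ℓ)) :
    WM (s37bc_inclL ℓ h x) = s37bc_inclL ℓ h (WN x) := by
  have key : (WM : FunField (M * ℓ) →+* FunField (M * ℓ)).comp
      (s37bc_inclL ℓ h : FunField (N * ℓ) →+* FunField (M * ℓ)) =
      (s37bc_inclL ℓ h : FunField (N * ℓ) →+* FunField (M * ℓ)).comp
        (WN : FunField (N * ℓ) →+* FunField (N * ℓ)) := by
    apply s37al_ringHom_ext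
    · intro c
      simp only [RingHom.comp_apply, RingHom.coe_coe, AlgHom.commutes]
    · intro d _ hd
      simp only [RingHom.comp_apply, RingHom.coe_coe]
      by_cases hℓd : ℓ ∣ d
      · obtain ⟨d', rfl⟩ := hℓd
        have hd'0 : d' ≠ 0 := by
          rintro rfl
          exact (NeZero.ne (ℓ * 0)) (mul_zero ℓ)
        haveI : NeZero d' := ⟨hd'0⟩
        have hd'N : d' ∣ N := by
          have : ℓ * d' ∣ ℓ * N := by rwa [mul_comm ℓ N]
          exact (Nat.mul_dvd_mul_iff_left hℓ.pos).1 this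
        have hcomm : ℓ * d' = d' * ℓ := mul_comm _ _
        have hgen : ∀ (e : ℕ) [NeZero e] (he : e ∣ N * ℓ), e = d' * ℓ →
            WM (s37bc_inclL ℓ h (jDiv (N * ℓ) e he)) =
              s37bc_inclL ℓ h (WN (jDiv (N * ℓ) e he)) := by
          intro e _ he hee
          subst hee
          rw [s37bc_jDiv_beta N ℓ d' hd'N he, hWNβ, ← s37bc_sq_beta_apply, hWMβ,
            s37bc_sq_alpha_apply]
        exact hgen (ℓ * d') hd hcomm
      · have hdN : d ∣ N :=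
          (Nat.Coprime.dvd_mul_right
            ((Nat.Prime.coprime_iff_not_dvd hℓ).2 hℓd).symm).1 hd
        rw [s37bc_jDiv_alpha N ℓ d hdN hd, hWNα, ← s37bc_sq_alpha_apply, hWMα,
          s37bc_sq_beta_apply]
  exact congrArg (fun f : FunField (N * ℓ) →+* FunField (M * ℓ) => f x) key

end WCompat

section Norm

variable {N M : ℕ} [NeZero N] [NeZero M] (ℓ : ℕ) [NeZero ℓ] (h : N ∣ M)

theorem s37bc_exists_zeta : ∃ ζ : QBarˣ, IsPrimitiveRoot ζ ℓ := by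
  obtain ⟨z, hz⟩ := HasEnoughRootsOfUnity.exists_primitiveRoot QBar ℓ
  refine ⟨(hz.isUnit (NeZero.ne ℓ)).unit, ?_⟩
  rw [← IsPrimitiveRoot.coe_units_iff]
  exact hz

/-- **Base change of the norm**: `N_{F̄_{Mℓ}/F̄_M}(x) = N_{F̄_{Nℓ}/F̄_N}(x)` for
`x ∈ F̄_{Nℓ}`. -/
theorem s37bc_mod_norm (hℓ : ℓ.Prime) (hℓM : ¬ ℓ ∣ M) (x : FunField (N * ℓ)) :
    s37bc_normAlong (heckeAlphaBar QBar M ℓ) (s37bc_inclL ℓ h x) =
      s37dg_incl QBar h (s37bc_normAlong (heckeAlphaBar QBar N ℓ) x) := by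
  have hℓN : ¬ ℓ ∣ N := fun hN => hℓM (hN.trans h)
  have hcN : Nat.Coprime N ℓ := ((Nat.Prime.coprime_iff_not_dvd hℓ).2 hℓN).symm
  have hcM : Nat.Coprime M ℓ := ((Nat.Prime.coprime_iff_not_dvd hℓ).2 hℓM).symm
  obtain ⟨WN, hWNα, hWNβ⟩ := s37al_W N ℓ hcN
  obtain ⟨WM, hWMα, hWMβ⟩ := s37al_W M ℓ hcM
  obtain ⟨ζ, hζ⟩ := s37bc_exists_zeta ℓ
  have h1 := s37es_nm_norm M ℓ hℓ hℓM WM hWMα hWMβ ζ hζ (s37bc_inclL ℓ h x)
  have h2 := s37es_nm_norm N ℓ hℓ hℓN WN hWNα hWNβ ζ hζ x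
  rw [s37bc_W_compat ℓ h hℓ WN hWNα hWNβ WM hWMα hWMβ x, s37bc_coe_inclL, s37bc_coe_inclL,
    ← h2] at h1
  apply Subtype.ext
  rw [s37dg_coe_incl]
  exact qExpand_injective (R := QBar) ℓ h1

end Norm

section Divisors

variable {N M : ℕ} [NeZero N] [NeZero M] (ℓ : ℕ) [NeZero ℓ] (h : N ∣ M)

/-- **Clause (b) of [DESCEND] on divisors**: `i^* ∘ T_ℓ = T_ℓ ∘ i^*` on ALL divisors, for ANY
choice of the proofs of integrality. -/
theorem s37bc_mod_div (hℓ : ℓ.Prime) (hℓM : ¬ ℓ ∣ M)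
    [HasPrincipalDivisors QBar (FunField (N * ℓ))] [HasPrincipalDivisors QBar (FunField M)]
    [HasPrincipalDivisors QBar (FunField (M * ℓ))]
    (hi : (s37dg_incl QBar h).toRingHom.IsIntegral)
    (hαN : HeckeAlphaBarIntegral QBar N ℓ) (hβN : HeckeBetaBarIntegral QBar N ℓ)
    (hαM : HeckeAlphaBarIntegral QBar M ℓ) (hβM : HeckeBetaBarIntegral QBar M ℓ)
    (D : Divisor QBar (FunField N)) :
    Divisor.pullbackAlong (s37dg_incl QBar h) hi (heckeDivBar hαN hβN D) =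
      heckeDivBar hαM hβM (Divisor.pullbackAlong (s37dg_incl QBar h) hi D) := by
  have huNℓ : IsCoordinate QBar (jF (N * ℓ)) := final_jCoordinate (N * ℓ)
  have huMℓ : IsCoordinate QBar (jF (M * ℓ)) := final_jCoordinate (M * ℓ)
  have hi' : (s37bc_inclL ℓ h).toRingHom.IsIntegral := s37hi_integral huNℓ huMℓ _
  exact s37bc_corr' huNℓ (heckeAlphaBar QBar N ℓ) (heckeBetaBar QBar N ℓ) (s37dg_incl QBar h)
    (heckeAlphaBar QBar M ℓ) (heckeBetaBar QBar M ℓ) (s37bc_inclL ℓ h)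
    hαN hβN hi hαM hβM hi' (s37bc_sq_alpha ℓ h) (s37bc_sq_beta ℓ h)
    (s37hi_alpha_finite N ℓ) (s37hi_alpha_finite M ℓ)
    (s37hi_alpha_normFormula N ℓ _) (s37hi_alpha_normFormula M ℓ _)
    (s37bc_mod_norm ℓ h hℓ hℓM) D

end Divisors

section Pic

variable {N M : ℕ} [NeZero N] [NeZero M] (ℓ : ℕ) [NeZero ℓ] (h : N ∣ M)

/-- **Clause (b) of [DESCEND]**: any `c : J₀(N) → J₀(M)` that is the pull-back of divisor
classes along the inclusion `F̄_N ⊆ F̄_M` commutes with `T_ℓ` (`ℓ` prime, `ℓ ∤ M`). -/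
theorem s37bc_mod (hℓ : ℓ.Prime) (hℓM : ¬ ℓ ∣ M)
    [HasPrincipalDivisors QBar (FunField M)]
    (hi : (s37dg_incl QBar h).toRingHom.IsIntegral)
    (c : JZero N →+ JZero M)
    (hc : ∀ D : Divisor.degZero (K := QBar) (F := FunField N),
      ∃ hD : Divisor.pullbackAlong (s37dg_incl QBar h) hi
          (D : Divisor QBar (FunField N)) ∈ Divisor.degZero (K := QBar) (F := FunField M),
        c (Pic0.mk D) = Pic0.mk ⟨Divisor.pullbackAlong (s37dg_incl QBar h) hi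
          (D : Divisor QBar (FunField N)), hD⟩)
    (x : JZero N) :
    c (heckeOperatorBar N ⟨ℓ, hℓ⟩ x) = heckeOperatorBar M ⟨ℓ, hℓ⟩ (c x) := by
  haveI := s37hi_principalBar (N * ℓ)
  haveI := s37hi_principalBar (M * ℓ)
  obtain ⟨D, rfl⟩ := Pic0.mk_surjective x
  obtain ⟨hT, hTeq⟩ := s37hi_hecke (N := N) (ℓ := ℓ) hℓ D
  rw [hTeq]
  obtain ⟨h1, h1eq⟩ := hc ⟨_, hT⟩
  rw [h1eq]
  obtain ⟨h2, h2eq⟩ := hc D
  rw [h2eq]
  obtain ⟨hT', hT'eq⟩ := s37hi_hecke (N := M) (ℓ := ℓ) hℓ ⟨_, h2⟩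
  rw [hT'eq]
  congr 1
  apply Subtype.ext
  exact s37bc_mod_div ℓ h hℓ hℓM hi (s37hi_alpha_integral N ℓ) (s37hi_beta_integral N ℓ)
    (s37hi_alpha_integral M ℓ) (s37hi_beta_integral M ℓ) (D : Divisor QBar (FunField N))

end Pic

end Fermat.Agent.S37
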