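/-
S37 / [DESCEND] (helper19): `s37_DescendStatement`, HYPOTHESIS-FREE, by plugging clause (b)
(`s37bc_mod_div`, `S37/DescBCMod.lean`) into helper22's assembly `s37da_main_of`
(`S37/DescAsm.lean`; clauses (a) helper12, (c) helper22).  Prefix `s37bc_`.
-/
import Mathlib
import Fermat.Agent.S37.DescAsm
import Fermat.Agent.S37.DescBCMod

set_option autoImplicit false

open ModularCurve AlgebraicCurve Fermat.Agent.S24

noncomputable section

namespace Fermat.Agent.S37

/-- Clause (b) of [DESCEND] at the divisor level, in the shape of helper22's assembly. -/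
theorem s37bc_heckeDiv : s37da_HeckeDivStatement := by
  intro N _ ℓ hℓ hℓN
  intro D
  haveI : NeZero ℓ := ⟨hℓ.ne_zero⟩
  haveI : Fact ℓ.Prime := ⟨hℓ⟩
  haveI : NeZero (S18.s18_level N ℓ) := ⟨S18.s18_level_ne_zero N ℓ⟩
  haveI := s37hi_principalBar (N * ℓ)
  haveI := s37hi_principalBar (S18.s18_level N ℓ)
  haveI := s37hi_principalBar (S18.s18_level N ℓ * ℓ)
  exact s37bc_mod_div ℓ (s37di_dvd_level N ℓ) hℓ (S18.s18_level_not_dvd N ℓ hℓN)
    (s37da_integral N ℓ) (s37hi_alpha_integral N ℓ) (s37hi_beta_integral N ℓ)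
    (s37hi_alpha_integral (S18.s18_level N ℓ) ℓ) (s37hi_beta_integral (S18.s18_level N ℓ) ℓ) D

/-- **[DESCEND]**, hypothesis-free. -/
theorem s37bc_descend : s37_DescendStatement :=
  s37da_main_of s37bc_heckeDiv

end Fermat.Agent.S37
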