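/-
S37, package [EQ] (sub-architect: helper3).  Prefix `s37eq_`.

  `s37eq_main : s37t_BddVecStatement → s37_EquivStatement`

The reduction map `J₀(M)(Q̄) → Pic⁰(F_k(M))` is equivariant for the decomposition group of `A`,
from the boundedness lemma [BDD] alone:  with `g` the action of `σ` on `F̄_M`, `ḡ` the
coefficientwise action of the induced automorphism of the residue field on `F_k(M)` and `r` the
place reduction, the homomorphism

  `E := r_* ∘ g_* - ḡ_* ∘ r_* : Div F̄_M → Div F_k(M)`

kills the divisor of every valid series `y` (the series `y^σ` is valid, with reduction `ḡ • ȳ`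
and divisor `g • div y`), hence every principal divisor; its values on places have coefficients
in `{-1, 0, 1}`; so `E = 0` on divisors of degree `0`.
-/
import Mathlib
import Fermat.Agent.S37.RhoDefs
import Fermat.Agent.S37.BddDefs
import Fermat.Agent.S24.Final

set_option autoImplicit false
set_option synthInstance.maxHeartbeats 400000

open ModularCurve AlgebraicCurve IntermediateField

noncomputable section

namespace Fermat.Agent.S37

/-! ### (V) the conjugate of an integral series -/

/-- The restriction of an element of the decomposition group of `A` to `A`. -/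
def s37eq_resHom (A : ValuationSubring (AlgebraicClosure ℚ))
    (σ : AlgebraicClosure ℚ ≃ₐ[ℚ] AlgebraicClosure ℚ) (hσ : σ ∈ A.decompositionSubgroup ℚ) :
    A →+* A :=
  MulSemiringAction.toRingHom (A.decompositionSubgroup ℚ) A ⟨σ, hσ⟩

theorem s37eq_coe_resHom (A : ValuationSubring (AlgebraicClosure ℚ))
    (σ : AlgebraicClosure ℚ ≃ₐ[ℚ] AlgebraicClosure ℚ) (hσ : σ ∈ A.decompositionSubgroup ℚ)
    (a : A) : ((s37eq_resHom A σ hσ a : A) : AlgebraicClosure ℚ) = σ (a : AlgebraicClosure ℚ) :=
  rfl

theorem s37eq_residue_resHom (A : ValuationSubring (AlgebraicClosure ℚ))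
    (σ : AlgebraicClosure ℚ ≃ₐ[ℚ] AlgebraicClosure ℚ) (hσ : σ ∈ A.decompositionSubgroup ℚ)
    (a : A) : IsLocalRing.residue A (s37eq_resHom A σ hσ a) =
      s37_resAut A σ hσ (IsLocalRing.residue A a) :=
  rfl

/-- **(V)** the conjugate `y^σ` of a series `y ∈ A((q))` by an element of the decomposition
group. -/
theorem s37eq_valid (A : ValuationSubring (AlgebraicClosure ℚ))
    (σ : AlgebraicClosure ℚ ≃ₐ[ℚ] AlgebraicClosure ℚ) (hσ : σ ∈ A.decompositionSubgroup ℚ)
    (y : LaurentSeries A) :
    coeffMap A.subtype (coeffMap (s37eq_resHom A σ hσ) y) =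
        coeffMap (σ : AlgebraicClosure ℚ →+* AlgebraicClosure ℚ) (coeffMap A.subtype y) ∧
      coeffMap (IsLocalRing.residue A) (coeffMap (s37eq_resHom A σ hσ) y) =
        coeffMap ((s37_resAut A σ hσ : IsLocalRing.ResidueField A ≃+* IsLocalRing.ResidueField A) :
          IsLocalRing.ResidueField A →+* IsLocalRing.ResidueField A)
          (coeffMap (IsLocalRing.residue A) y) := by
  constructor
  · rw [coeffMap_coeffMap, coeffMap_coeffMap]
    exact coeffMap_congr (RingHom.ext fun a => s37eq_coe_resHom A σ hσ a) y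
  · rw [coeffMap_coeffMap, coeffMap_coeffMap]
    exact coeffMap_congr (RingHom.ext fun a => s37eq_residue_resHom A σ hσ a) y

/-! ### (K) `E` kills the principal divisors -/

section Kill

variable {M : ℕ} [NeZero M] {A : ValuationSubring (AlgebraicClosure ℚ)}

set_option maxHeartbeats 1000000 in
/-- **(K)**, generators: the place reduction intertwines `g` and `ḡ` on the divisors of valid
series. -/
theorem s37eq_kill_gen
    {r : Place (AlgebraicClosure ℚ) (modularFunctionFieldBar M) →
      Place (IsLocalRing.ResidueField A)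
        (modularFunctionFieldFullC (IsLocalRing.ResidueField A) M)}
    (hr : IsPlaceReductionModL A M r)
    (σ : AlgebraicClosure ℚ ≃ₐ[ℚ] AlgebraicClosure ℚ) (hσ : σ ∈ A.decompositionSubgroup ℚ)
    {D : Divisor (AlgebraicClosure ℚ) (modularFunctionFieldBar M)}
    (hD : D ∈ integralPrincipalDivisors A (IsLocalRing.residue A) M) :
    Finsupp.mapDomain r (arithmeticGalois (modularFunctionFieldFull M) σ • D) =
      s37_coeffAut (IsLocalRing.ResidueField A) M (s37_resAut A σ hσ) •
        Finsupp.mapDomain r D := by
  obtain ⟨y, hy, hyk, hne, hDy⟩ := hD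
  obtain ⟨h1, h2⟩ := s37eq_valid A σ hσ y
  have hy' : coeffMap A.subtype (coeffMap (s37eq_resHom A σ hσ) y) ∈
      laurentBaseChange (AlgebraicClosure ℚ) (modularFunctionFieldFull M) := by
    rw [h1]; exact coeffMap_mem_laurentBaseChange σ hy
  have hyk' : coeffMap (IsLocalRing.residue A) (coeffMap (s37eq_resHom A σ hσ) y) ∈
      modularFunctionFieldFullC (IsLocalRing.ResidueField A) M := by
    rw [h2]; exact s37_coeffMap_mem _ M _ hyk
  have hup : arithmeticGalois (modularFunctionFieldFull M) σ •
      (⟨coeffMap A.subtype y, hy⟩ : ↥(modularFunctionFieldBar M)) =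
      ⟨coeffMap A.subtype (coeffMap (s37eq_resHom A σ hσ) y), hy'⟩ := Subtype.ext h1.symm
  have hdn : s37_coeffAut (IsLocalRing.ResidueField A) M (s37_resAut A σ hσ) •
      (⟨coeffMap (IsLocalRing.residue A) y, hyk⟩ :
        ↥(modularFunctionFieldFullC (IsLocalRing.ResidueField A) M)) =
      ⟨coeffMap (IsLocalRing.residue A) (coeffMap (s37eq_resHom A σ hσ) y), hyk'⟩ :=
    Subtype.ext h2.symm
  have hne' : coeffMap (IsLocalRing.residue A) (coeffMap (s37eq_resHom A σ hσ) y) ≠ 0 := by
    intro h0
    have h4 : s37_coeffAut (IsLocalRing.ResidueField A) M (s37_resAut A σ hσ) •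
      (⟨coeffMap (IsLocalRing.residue A) y, hyk⟩ :
        ↥(modularFunctionFieldFullC (IsLocalRing.ResidueField A) M)) = 0 := by
      rw [hdn]; exact Subtype.ext h0
    rw [smul_eq_zero_iff_eq] at h4
    exact hne (congrArg Subtype.val h4)
  ext Q
  rw [hr.2 _ hy' hyk' hne' (arithmeticGalois (modularFunctionFieldFull M) σ • D) ?_ Q,
    SemilinearAut.divisor_smul_apply, hr.2 y hy hyk hne D hDy, ← hdn]
  · have h5 := SemilinearAut.ord_smul
      (s37_coeffAut (IsLocalRing.ResidueField A) M (s37_resAut A σ hσ))
      ((s37_coeffAut (IsLocalRing.ResidueField A) M (s37_resAut A σ hσ))⁻¹ • Q)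
      (⟨coeffMap (IsLocalRing.residue A) y, hyk⟩ :
        ↥(modularFunctionFieldFullC (IsLocalRing.ResidueField A) M))
    rw [smul_inv_smul] at h5
    exact h5
  · intro P
    rw [SemilinearAut.divisor_smul_apply, hDy, ← hup]
    have h5 := SemilinearAut.ord_smul (arithmeticGalois (modularFunctionFieldFull M) σ)
      ((arithmeticGalois (modularFunctionFieldFull M) σ)⁻¹ • P)
      (⟨coeffMap A.subtype y, hy⟩ : ↥(modularFunctionFieldBar M))
    rw [smul_inv_smul] at h5
    exact h5.symm

set_option maxHeartbeats 1000000 in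
/-- **(K)**: the place reduction intertwines `g` and `ḡ` on principal divisors. -/
theorem s37eq_kill
    {r : Place (AlgebraicClosure ℚ) (modularFunctionFieldBar M) →
      Place (IsLocalRing.ResidueField A)
        (modularFunctionFieldFullC (IsLocalRing.ResidueField A) M)}
    (hr : IsPlaceReductionModL A M r)
    (hgen : PrincipalGeneratedByIntegral A (IsLocalRing.residue A) M)
    (σ : AlgebraicClosure ℚ ≃ₐ[ℚ] AlgebraicClosure ℚ) (hσ : σ ∈ A.decompositionSubgroup ℚ)
    {D : Divisor (AlgebraicClosure ℚ) (modularFunctionFieldBar M)}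
    (hD : D ∈ Divisor.principal (K := AlgebraicClosure ℚ) (F := modularFunctionFieldBar M)) :
    Finsupp.mapDomain r (arithmeticGalois (modularFunctionFieldFull M) σ • D) =
      s37_coeffAut (IsLocalRing.ResidueField A) M (s37_resAut A σ hσ) •
        Finsupp.mapDomain r D := by
  have hD' := hgen hD
  clear hD
  induction hD' using AddSubgroup.closure_induction with
  | mem E hE => exact s37eq_kill_gen hr σ hσ hE
  | zero => rw [smul_zero, Finsupp.mapDomain_zero, smul_zero]
  | add E E' _ _ hE hE' =>
    rw [smul_add, Finsupp.mapDomain_add, Finsupp.mapDomain_add, smul_add, hE, hE']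
  | neg E _ hE =>
    have hneg : ∀ {X Y : Type} (f : X → Y) (v : X →₀ ℤ),
        Finsupp.mapDomain f (-v) = -Finsupp.mapDomain f v := fun f v => by
      rw [← Finsupp.mapDomain.addMonoidHom_apply, map_neg, Finsupp.mapDomain.addMonoidHom_apply]
    rw [smul_neg, hneg, hneg, smul_neg, hE]

end Kill

/-! ### (B) the boundedness lemma -/

section Bdd

/-- **(B)** a map on places which intertwines two semilinear automorphisms on principal divisors
intertwines them on all divisors of degree `0` (from [BDD]). -/
theorem s37eq_bdd_apply (hB : s37t_BddVecStatement) {K F : Type} [Field K] [Field F]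
    [Algebra K F] [IsAlgClosed K] [CharZero K] {u : F} (hu : S24.IsCoordinate K u)
    {k Fk : Type} [Field k] [Field Fk] [Algebra k Fk]
    (r : Place K F → Place k Fk) (g : SemilinearAut K F) (gk : SemilinearAut k Fk)
    (hprin : ∀ D ∈ Divisor.principal (K := K) (F := F),
      Finsupp.mapDomain r (g • D) = gk • Finsupp.mapDomain r D) :
    ∀ D ∈ Divisor.degZero (K := K) (F := F),
      Finsupp.mapDomain r (g • D) = gk • Finsupp.mapDomain r D := by
  classical
  set E : Divisor K F →+ (Place k Fk →₀ ℤ) :=
    (Finsupp.mapDomain.addMonoidHom r).comp (DistribSMul.toAddMonoidHom (Divisor K F) g) -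
      (DistribSMul.toAddMonoidHom (Divisor k Fk) gk).comp (Finsupp.mapDomain.addMonoidHom r)
    with hE
  have hEapp : ∀ D, E D = Finsupp.mapDomain r (g • D) - gk • Finsupp.mapDomain r D :=
    fun D => rfl
  have h1 : ∀ D ∈ Divisor.principal (K := K) (F := F), E D = 0 := by
    intro D hD
    rw [hEapp, hprin D hD, sub_self]
  have h2 : ∀ (P : Place K F) (Q : Place k Fk), |E (Finsupp.single P 1) Q| ≤ 1 := by
    intro P Q
    rw [hEapp, SemilinearAut.smul_single, Finsupp.mapDomain_single, Finsupp.mapDomain_single,
      SemilinearAut.smul_single, Finsupp.sub_apply, Finsupp.single_apply, Finsupp.single_apply]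
    split_ifs <;> simp
  intro D hD
  have h3 := hB K F u hu (Place k Fk) E h1 1 h2 D hD
  rw [hEapp, sub_eq_zero] at h3
  exact h3

end Bdd

/-! ### The main theorem -/

set_option maxHeartbeats 1000000 in
/-- **[EQ]** from [BDD]. -/
theorem s37eq_main (hB : s37t_BddVecStatement) : s37_EquivStatement := by
  intro M _ ℓ _ hℓM h49 A hA h σ hσ x
  obtain ⟨D, rfl⟩ := Pic0.mk_surjective x
  have hr := isPlaceReductionModL_placeReductionModL h
  have hgen : PrincipalGeneratedByIntegral A (IsLocalRing.residue A) M := h.choose_spec.2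
  have key := s37eq_bdd_apply hB (S24.final_jCoordinate M) (placeReductionModL h)
    (arithmeticGalois (modularFunctionFieldFull M) σ)
    (s37_coeffAut (IsLocalRing.ResidueField A) M (s37_resAut A σ hσ))
    (fun D hD => s37eq_kill hr hgen σ hσ hD) D.1 D.2
  rw [galois_smul_pic0_def, SemilinearAut.pic0_smul_mk, reductionModL_mk h, reductionModL_mk h,
    SemilinearAut.pic0_smul_mk]
  congr 1
  apply Subtype.ext
  exact key

/-- **[EQ]** from the scalar form of [BDD]. -/
theorem s37eq_main' (hB : s37t_BddStatement) : s37_EquivStatement :=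
  s37eq_main (s37t_bddVec_of hB)

end Fermat.Agent.S37
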