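/-
S37, package [EQ] (sub-architect: helper3): THE RESULT, hypothesis-free.

  `s37eq_final : s37_EquivStatement`

(`s37eq_main` of `S37/EqBdd.lean` applied to helper21's boundedness lemma `s37t_bddVec_main`.)
-/
import Mathlib
import Fermat.Agent.S37.EqBdd
import Fermat.Agent.S37.Riemann

set_option autoImplicit false

namespace Fermat.Agent.S37

/-- **[EQ]** the reduction map `J₀(M)(Q̄) → Pic⁰(F_k(M))` is equivariant for the decomposition
group of `A`. -/
theorem s37eq_final : s37_EquivStatement := s37eq_main s37t_bddVec_main

end Fermat.Agent.S37
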