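/-
S37, package [ES], leaf [ES-MOVE] (helper10).  Prefix `s37mv_`.

(A) `s37mv_abs`      the abstract MOVING LEMMA: an additive map `E : Div X → Div Y` which
                     kills enough divisors and whose values on points have "small support"
                     is zero.
(B) `s37mv_pic`      the passage `Div → Pic⁰`: a divisor-level Eichler-Shimura identity
                     (up to principal divisors, on divisors of degree `0`) gives the
                     conclusion of `s37_ESStatement`.
(C) `s37mv_es`       (A) + (B) for `E := r_* ∘ T_ℓ - (g + ℓ g⁻¹) ∘ r_*`.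
-/
import Mathlib
import Fermat.Prelude.Def_ModularCurve_HeckeModule
import Fermat.Prelude.Def_ModularCurve_ReductionModL
import Fermat.Agent.S37.RhoDefs

set_option autoImplicit false
set_option synthInstance.maxHeartbeats 400000
set_option maxHeartbeats 1000000

open ModularCurve AlgebraicCurve

noncomputable section

namespace Fermat.Agent.S37

/-! ### (A) the abstract moving lemma -/

/-- **The abstract moving lemma.**  `E : Div X → Div Y` additive, `T P ⊆ Y` a "target set" for
every point `P`, such that `E (P)` is supported in `T P`; if every point `P₀` can be moved, i.e.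
there is a divisor `D` killed by `E` which contains `P₀` and all of whose other points have
targets disjoint from `T P₀`, then `E = 0`. -/
theorem s37mv_abs {X Y : Type*} (E : (X →₀ ℤ) →+ (Y →₀ ℤ)) (T : X → Set Y)
    (hsupp : ∀ P Q, E (Finsupp.single P 1) Q ≠ 0 → Q ∈ T P)
    (hmove : ∀ P₀, ∃ D : X →₀ ℤ, E D = 0 ∧ D P₀ ≠ 0 ∧
      ∀ P ∈ D.support, P ≠ P₀ → Disjoint (T P) (T P₀)) :
    E = 0 := by
  classical
  have hsingle : ∀ (P : X) (n : ℤ), E (Finsupp.single P n) = n • E (Finsupp.single P 1) := by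
    intro P n
    rw [← map_zsmul, Finsupp.smul_single, smul_eq_mul, mul_one]
  have key : ∀ P₀, E (Finsupp.single P₀ 1) = 0 := by
    intro P₀
    obtain ⟨D, hD0, hDP, hdisj⟩ := hmove P₀
    ext Q
    rw [Finsupp.zero_apply]
    by_contra hne
    have hQ : Q ∈ T P₀ := hsupp P₀ Q hne
    have hsum : E D = ∑ P ∈ D.support, D P • E (Finsupp.single P 1) := by
      conv_lhs => rw [← Finsupp.sum_single D]
      rw [Finsupp.sum, map_sum]
      exact Finset.sum_congr rfl fun P _ => hsingle P (D P)
    have h1 : (E D) Q = D P₀ * E (Finsupp.single P₀ 1) Q := by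
      rw [hsum, Finsupp.finsetSum_apply]
      rw [Finset.sum_eq_single P₀]
      · rw [Finsupp.smul_apply, smul_eq_mul]
      · intro P hP hPne
        rw [Finsupp.smul_apply, smul_eq_mul]
        have : E (Finsupp.single P 1) Q = 0 := by
          by_contra h'
          exact (Set.disjoint_left.mp (hdisj P hP hPne)) (hsupp P Q h') hQ
        rw [this, mul_zero]
      · intro hP
        exact absurd (Finsupp.notMem_support_iff.mp hP) hDP
    rw [hD0, Finsupp.zero_apply] at h1
    rcases mul_eq_zero.mp h1.symm with h | h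
    · exact hDP h
    · exact hne h
  refine Finsupp.addHom_ext fun P n => ?_
  rw [hsingle, key, smul_zero, AddMonoidHom.zero_apply]

/-! ### (B) from divisors to `Pic⁰` -/

section Pic

variable (M : ℕ) [NeZero M] (ℓ : ℕ) [NeZero ℓ]
variable (A : ValuationSubring (AlgebraicClosure ℚ))

local notation "kA" => IsLocalRing.ResidueField A
local notation "Qb" => AlgebraicClosure ℚ

/-- **From divisors to `Pic⁰`.**  If the Hecke inputs exist at `(M, ℓ)` and the divisor-level
Eichler-Shimura identity `r_* (T_ℓ D) ≡ g • r_* D + ℓ • g⁻¹ • r_* D` holds modulo principal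
divisors for every divisor `D` of degree `0` (`r` the chosen place reduction), then the
reduction map satisfies `red ∘ T_ℓ = (g + ℓ g⁻¹) ∘ red` on `J₀(M)`. -/
theorem s37mv_pic (hℓ : ℓ.Prime) (h : ModularCurve.ReductionInputsModL A M)
    (g : SemilinearAut kA ↥(modularFunctionFieldFullC kA M))
    (hHI : HeckeInputsAlong Qb M ℓ)
    (hdiv : ∀ (hα : HeckeAlphaBarIntegral Qb M ℓ) (hβ : HeckeBetaBarIntegral Qb M ℓ)
      (_ : HasPrincipalDivisors Qb ↥(modularFunctionFieldBar (M * ℓ))),
      ∀ D : Divisor Qb ↥(modularFunctionFieldBar M),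
        D ∈ Divisor.degZero (K := Qb) (F := ↥(modularFunctionFieldBar M)) →
        Finsupp.mapDomain (placeReductionModL h) (heckeDivBar hα hβ D) -
          (g • Finsupp.mapDomain (placeReductionModL h) D +
            ℓ • (g⁻¹ • Finsupp.mapDomain (placeReductionModL h) D)) ∈
          Divisor.principal (K := kA) (F := ↥(modularFunctionFieldFullC kA M)))
    (x : JZero M) :
    reductionModL A M (heckeOperatorBar M ⟨ℓ, hℓ⟩ x) =
      g • reductionModL A M x + ℓ • (g⁻¹ • reductionModL A M x) := by
  obtain ⟨hα, hβ, hP, hfin, hFI, hN⟩ := hHI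
  have hdiv' := hdiv hα hβ hP
  obtain ⟨D, rfl⟩ := Pic0.mk_surjective x
  have hT : heckeOperatorBar M ⟨ℓ, hℓ⟩ (Pic0.mk D) =
      Pic0.mk (Pic0.degZeroCorrespondence (heckeBetaBar Qb M ℓ) (heckeAlphaBar Qb M ℓ)
        hβ hα hFI D) := by
    show heckeOperatorAlong Qb M ℓ (Pic0.mk D) = _
    rw [heckeOperatorAlong_eq hα hβ hFI hfin hN]
    rfl
  rw [hT, reductionModL_mk h, reductionModL_mk h, SemilinearAut.pic0_smul_mk,
    SemilinearAut.pic0_smul_mk]
  have hn : ∀ D' : Divisor.degZero (K := kA) (F := ↥(modularFunctionFieldFullC kA M)),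
      ℓ • Pic0.mk D' = Pic0.mk (ℓ • D') := fun D' => rfl
  rw [hn, ← Pic0.mk_add]
  show (QuotientAddGroup.mk _ : Pic0 kA ↥(modularFunctionFieldFullC kA M)) =
    QuotientAddGroup.mk _
  rw [QuotientAddGroup.eq_iff_sub_mem, AddSubgroup.mem_addSubgroupOf]
  exact hdiv' D D.2

/-! ### (C) the error term of the Eichler-Shimura relation on divisors -/

/-- The error term `E := r_* ∘ T_ℓ - (g + ℓ g⁻¹) ∘ r_*` of the Eichler-Shimura relation on
divisors, for a map `r` on places and a semilinear automorphism `g` of the reduced function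
field. -/
def s37mv_E (r : Place Qb ↥(modularFunctionFieldBar M) →
      Place kA ↥(modularFunctionFieldFullC kA M))
    (g : SemilinearAut kA ↥(modularFunctionFieldFullC kA M))
    (hα : HeckeAlphaBarIntegral Qb M ℓ) (hβ : HeckeBetaBarIntegral Qb M ℓ)
    [HasPrincipalDivisors Qb ↥(modularFunctionFieldBar (M * ℓ))] :
    Divisor Qb ↥(modularFunctionFieldBar M) →+ Divisor kA ↥(modularFunctionFieldFullC kA M) :=
  (Finsupp.mapDomain.addMonoidHom r).comp (heckeDivBar hα hβ) -
    AddMonoidHom.comp
      (DistribSMul.toAddMonoidHom (Divisor kA ↥(modularFunctionFieldFullC kA M)) g +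
        ℓ • DistribSMul.toAddMonoidHom (Divisor kA ↥(modularFunctionFieldFullC kA M)) g⁻¹)
      (Finsupp.mapDomain.addMonoidHom r)

theorem s37mv_E_apply (r : Place Qb ↥(modularFunctionFieldBar M) →
      Place kA ↥(modularFunctionFieldFullC kA M))
    (g : SemilinearAut kA ↥(modularFunctionFieldFullC kA M))
    (hα : HeckeAlphaBarIntegral Qb M ℓ) (hβ : HeckeBetaBarIntegral Qb M ℓ)
    [HasPrincipalDivisors Qb ↥(modularFunctionFieldBar (M * ℓ))]
    (D : Divisor Qb ↥(modularFunctionFieldBar M)) :
    s37mv_E M ℓ A r g hα hβ D =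
      Finsupp.mapDomain r (heckeDivBar hα hβ D) -
        (g • Finsupp.mapDomain r D + ℓ • (g⁻¹ • Finsupp.mapDomain r D)) := rfl

/-- **[ES] from the vanishing of the error term** (for the chosen place reduction). -/
theorem s37mv_es_of_E (hℓ : ℓ.Prime) (h : ModularCurve.ReductionInputsModL A M)
    (g : SemilinearAut kA ↥(modularFunctionFieldFullC kA M))
    (hHI : HeckeInputsAlong Qb M ℓ)
    (hE : ∀ (hα : HeckeAlphaBarIntegral Qb M ℓ) (hβ : HeckeBetaBarIntegral Qb M ℓ)
      (_ : HasPrincipalDivisors Qb ↥(modularFunctionFieldBar (M * ℓ))),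
      s37mv_E M ℓ A (placeReductionModL h) g hα hβ = 0)
    (x : JZero M) :
    reductionModL A M (heckeOperatorBar M ⟨ℓ, hℓ⟩ x) =
      g • reductionModL A M x + ℓ • (g⁻¹ • reductionModL A M x) := by
  refine s37mv_pic M ℓ A hℓ h g hHI (fun hα hβ hP D _ => ?_) x
  have h0 := congrArg (fun E => E D) (hE hα hβ hP)
  simp only [AddMonoidHom.zero_apply] at h0
  rw [s37mv_E_apply] at h0
  rw [h0]
  exact AddSubgroup.zero_mem _

/-- **[ES] by moving** : the Eichler-Shimura relation at `(M, ℓ, A)` for `g` follows from a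
support statement and a moving statement for the error term `E` (abstract moving lemma). -/
theorem s37mv_es (hℓ : ℓ.Prime) (h : ModularCurve.ReductionInputsModL A M)
    (g : SemilinearAut kA ↥(modularFunctionFieldFullC kA M))
    (hHI : HeckeInputsAlong Qb M ℓ)
    (T : Place Qb ↥(modularFunctionFieldBar M) →
      Set (Place kA ↥(modularFunctionFieldFullC kA M)))
    (hsupp : ∀ (hα : HeckeAlphaBarIntegral Qb M ℓ) (hβ : HeckeBetaBarIntegral Qb M ℓ)
      (_ : HasPrincipalDivisors Qb ↥(modularFunctionFieldBar (M * ℓ))),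
      ∀ P Q, s37mv_E M ℓ A (placeReductionModL h) g hα hβ (Finsupp.single P 1) Q ≠ 0 → Q ∈ T P)
    (hmove : ∀ (hα : HeckeAlphaBarIntegral Qb M ℓ) (hβ : HeckeBetaBarIntegral Qb M ℓ)
      (_ : HasPrincipalDivisors Qb ↥(modularFunctionFieldBar (M * ℓ))),
      ∀ P₀, ∃ D : Divisor Qb ↥(modularFunctionFieldBar M),
        s37mv_E M ℓ A (placeReductionModL h) g hα hβ D = 0 ∧ D P₀ ≠ 0 ∧
          ∀ P ∈ D.support, P ≠ P₀ → Disjoint (T P) (T P₀))
    (x : JZero M) :
    reductionModL A M (heckeOperatorBar M ⟨ℓ, hℓ⟩ x) =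
      g • reductionModL A M x + ℓ • (g⁻¹ • reductionModL A M x) :=
  s37mv_es_of_E M ℓ A hℓ h g hHI
    (fun hα hβ hP => s37mv_abs _ T (hsupp hα hβ hP) (hmove hα hβ hP)) x

end Pic

end Fermat.Agent.S37
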