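/-
S37, package [ES], leaves [ES-BOUND] and (first form) [ES-FIN-OF] (helper10).  Prefix `s37fin_`.

  `s37es_bound_main : s37es_BoundStatement`                      ([ES-BOUND], hypothesis-free)
  `s37fin_main : s37es_HIStatement → s37es_PrinStatement → s37es_RiemannStatement → s37_ESStatement`
  `s37fin_zero_of : s37es_RiemannStatement → s37es_KillStatement → s37es_BoundStatement →
      s37es_ZeroStatement`,  `s37fin_fin_of : s37es_HIStatement → s37es_ZeroStatement → s37_ESStatement`
  `s37fin_es_of : s37es_RiemannStatement → s37es_KillStatement → s37_ESStatement`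

The error term `E := r_* ∘ T_ℓ - (g + ℓ g⁻¹) ∘ r_*` kills principal divisors ([ES-PRIN]) and is
bounded on places; by Riemann's inequality it vanishes on divisors of degree `0`
(`s37fin_bdd`), and `s37mv_pic` passes to `Pic⁰`.
-/
import Mathlib
import Fermat.Agent.S37.ESDefs
import Fermat.Agent.S37.EsMove
import Fermat.Agent.S24.Final
import Fermat.Agent.S24.FFIdentity
import Fermat.Agent.S37.BddDefs
import Fermat.Agent.S37.HeckeInputs

set_option autoImplicit false
set_option synthInstance.maxHeartbeats 400000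
set_option maxHeartbeats 1000000
set_option linter.style.haveILetI false

open ModularCurve AlgebraicCurve

noncomputable section

namespace Fermat.Agent.S37

/-! ### Generic part -/

section Generic

variable {K F : Type*} [Field K] [Field F] [Algebra K F]

/-- The coefficients of the value of a homomorphism on an effective divisor are bounded by the
degree (all places of degree one). -/
theorem s37fin_effective {X : Type*} (hdeg : ∀ v : Place K F, v.deg = 1)
    (E : Divisor K F →+ (X →₀ ℤ)) (C : ℤ)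
    (hC : ∀ (P : Place K F) (Q : X), |E (Finsupp.single P 1) Q| ≤ C)
    (D : Divisor K F) (hD : ∀ v, 0 ≤ D v) (Q : X) : |E D Q| ≤ C * Divisor.degree D := by
  classical
  induction D using Finsupp.induction with
  | zero => simp
  | single_add P n D hP hn ih =>
    have hDP : D P = 0 := Finsupp.notMem_support_iff.mp hP
    have hn0 : 0 ≤ n := by
      have := hD P
      rw [Finsupp.add_apply, Finsupp.single_eq_same, hDP, add_zero] at this
      exact this
    have hD' : ∀ v, 0 ≤ D v := by
      intro v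
      by_cases hv : v = P
      · rw [hv, hDP]
      · have := hD v
        rw [Finsupp.add_apply, Finsupp.single_eq_of_ne hv, zero_add] at this
        exact this
    have h1 : E (Finsupp.single P n) Q = n * E (Finsupp.single P 1) Q := by
      have : (Finsupp.single P n : Divisor K F) = n • Finsupp.single P 1 := by
        rw [Finsupp.smul_single, smul_eq_mul, mul_one]
      rw [this, map_zsmul, Finsupp.smul_apply, smul_eq_mul]
    rw [map_add, map_add, Finsupp.add_apply, Divisor.degree_single, hdeg, h1]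
    have h2 : |n * E (Finsupp.single P 1) Q| ≤ n * C := by
      rw [abs_mul, abs_of_nonneg hn0]
      exact mul_le_mul_of_nonneg_left (hC P Q) hn0
    have h3 := ih hD'
    calc |n * E (Finsupp.single P 1) Q + E D Q|
        ≤ |n * E (Finsupp.single P 1) Q| + |E D Q| := abs_add_le _ _
      _ ≤ n * C + C * Divisor.degree D := add_le_add h2 h3
      _ = C * (n * ((1 : ℕ) : ℤ) + Divisor.degree D) := by push_cast; ring

/-- **Boundedness lemma for one field.**  If every divisor of degree `≥ g₀` is linearly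
equivalent to an effective divisor, then a homomorphism `E : Div F → (X →₀ ℤ)` which kills
principal divisors and has bounded coefficients on places vanishes on divisors of degree `0`. -/
theorem s37fin_bdd {X : Type*} (hdeg : ∀ v : Place K F, v.deg = 1)
    [HasPrincipalDivisors K F]
    (hR : ∃ g₀ : ℕ, ∀ D : Divisor K F, (g₀ : ℤ) ≤ Divisor.degree D →
      ∃ f : F, f ≠ 0 ∧ ∀ P : Place K F, 0 ≤ D P + P.ord f)
    (E : Divisor K F →+ (X →₀ ℤ))
    (hprin : ∀ D ∈ Divisor.principal (K := K) (F := F), E D = 0)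
    (C : ℤ) (hC : ∀ (P : Place K F) (Q : X), |E (Finsupp.single P 1) Q| ≤ C)
    (D : Divisor K F) (hD : D ∈ Divisor.degZero (K := K) (F := F)) : E D = 0 := by
  classical
  by_cases hne : Nonempty (Place K F)
  swap
  · rw [not_nonempty_iff] at hne
    rw [Subsingleton.elim D 0, map_zero]
  obtain ⟨O⟩ := hne
  obtain ⟨g₀, hg₀⟩ := hR
  set c : ℤ := (g₀ : ℤ) with hc
  have hc0 : 0 ≤ c := Int.natCast_nonneg g₀
  ext Q
  rw [Finsupp.zero_apply]
  have hC0 : 0 ≤ C := (abs_nonneg _).trans (hC O Q)
  have hD0 : Divisor.degree D = 0 := Divisor.mem_degZero.mp hD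
  have key : ∀ n : ℕ, (n : ℤ) * |E D Q| ≤ 2 * (c * C) := by
    intro n
    set B : Divisor K F := (n : ℤ) • D + c • Finsupp.single O 1 with hB
    have hdegB : Divisor.degree B = c := by
      rw [hB, map_add, map_zsmul, map_zsmul, hD0, Divisor.degree_single, hdeg]
      simp
    obtain ⟨f, hf, hfB⟩ := hg₀ B (by rw [hdegB])
    obtain ⟨Df, hDf, hDf0⟩ := HasPrincipalDivisors.exists_divisor (K := K) f hf
    have hDfp : Df ∈ Divisor.principal (K := K) (F := F) := ⟨f, hf, hDf⟩
    have heff : ∀ v, 0 ≤ (Df + B) v := by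
      intro v
      rw [Finsupp.add_apply, hDf v, add_comm]
      exact hfB v
    have h1 := s37fin_effective hdeg E C hC (Df + B) heff Q
    have e1 : Divisor.degree (Df + B) = c := by rw [map_add, hDf0, zero_add, hdegB]
    have e2 : E (Df + B) Q = (n : ℤ) * E D Q + c * E (Finsupp.single O 1) Q := by
      rw [map_add, hprin Df hDfp, zero_add, hB, map_add, map_zsmul, map_zsmul,
        Finsupp.add_apply, Finsupp.smul_apply, Finsupp.smul_apply, smul_eq_mul, smul_eq_mul]
    rw [e1, e2] at h1
    have h2 : |c * E (Finsupp.single O 1) Q| ≤ c * C := by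
      rw [abs_mul, abs_of_nonneg hc0]
      exact mul_le_mul_of_nonneg_left (hC O Q) hc0
    have h3 : |(n : ℤ) * E D Q| ≤ |(n : ℤ) * E D Q + c * E (Finsupp.single O 1) Q| +
        |c * E (Finsupp.single O 1) Q| := by
      have := abs_sub ((n : ℤ) * E D Q + c * E (Finsupp.single O 1) Q)
        (c * E (Finsupp.single O 1) Q)
      rw [add_sub_cancel_right] at this
      exact this
    rw [abs_mul, abs_of_nonneg (Nat.cast_nonneg n)] at h3
    have h4 : C * c = c * C := mul_comm _ _
    linarith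
  by_contra hne
  have hpos : 1 ≤ |E D Q| := Int.one_le_abs hne
  have h5 := key (2 * (c * C)).toNat.succ
  have h6 : (2 * (c * C)) < ((2 * (c * C)).toNat.succ : ℤ) := by
    have : 0 ≤ 2 * (c * C) := by positivity
    push_cast
    rw [Int.toNat_of_nonneg this]
    omega
  have h7 : ((2 * (c * C)).toNat.succ : ℤ) ≤ ((2 * (c * C)).toNat.succ : ℤ) * |E D Q| :=
    le_mul_of_one_le_right (Nat.cast_nonneg _) hpos
  linarith

/-- Pull-backs of effective divisors are effective. -/
theorem s37fin_pullbackAlong_nonneg {F' : Type*} [Field F'] [Algebra K F']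
    [HasPrincipalDivisors K F'] (φ : F →ₐ[K] F') (hφ : φ.toRingHom.IsIntegral)
    (D : Divisor K F) (hD : ∀ v, 0 ≤ D v) (w : Place K F') :
    0 ≤ Divisor.pullbackAlong φ hφ D w := by
  rw [Divisor.pullbackAlong_apply]
  exact mul_nonneg (Nat.cast_nonneg _) (hD _)

/-- Push-forwards of effective divisors are effective. -/
theorem s37fin_pushforwardAlong_nonneg {F' : Type*} [Field F'] [Algebra K F']
    (φ : F →ₐ[K] F') (hφ : φ.toRingHom.IsIntegral)
    (D : Divisor K F') (hD : ∀ w, 0 ≤ D w) (v : Place K F) :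
    0 ≤ Divisor.pushforwardAlong φ hφ D v := by
  classical
  letI := algebraAlong φ
  haveI := isScalarTower_along φ
  haveI := isIntegral_along φ hφ
  show 0 ≤ Divisor.pushforward F D v
  rw [Divisor.pushforward_apply]
  refine Finset.sum_nonneg fun w _ => ?_
  split_ifs
  · exact mul_nonneg (hD w) (Nat.cast_nonneg _)
  · exact le_rfl

/-- The coefficients of the image of an effective divisor under a map of places are bounded
by the degree. -/
theorem s37fin_mapDomain_bound {X : Type*} (hdeg : ∀ v : Place K F, v.deg = 1)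
    (r : Place K F → X) (D : Divisor K F) (hD : ∀ v, 0 ≤ D v) (Q : X) :
    |Finsupp.mapDomain r D Q| ≤ Divisor.degree D := by
  classical
  have h := s37fin_effective (X := X) hdeg (Finsupp.mapDomain.addMonoidHom r) 1
    (fun P Q' => by
      rw [Finsupp.mapDomain.addMonoidHom_apply, Finsupp.mapDomain_single,
        Finsupp.single_apply]
      split_ifs <;> simp) D hD Q
  rwa [one_mul, Finsupp.mapDomain.addMonoidHom_apply] at h

end Generic

/-! ### The modular part -/

section Modular

variable (M : ℕ) [NeZero M] (ℓ : ℕ) [NeZero ℓ]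
variable (A : ValuationSubring (AlgebraicClosure ℚ))

local notation "kA" => IsLocalRing.ResidueField A
local notation "Qb" => AlgebraicClosure ℚ

/-- All places of `F̄_M` have degree one. -/
theorem s37fin_deg_one (P : Place Qb ↥(modularFunctionFieldBar M)) : P.deg = 1 :=
  S24.diff_degOneStatement Qb ↥(modularFunctionFieldBar M) (S24.jF M)
    (S24.final_jCoordinate M) P

/-- `F̄_M` has principal divisors. -/
theorem s37fin_hasPD : HasPrincipalDivisors Qb ↥(modularFunctionFieldBar M) :=
  S24.coord_principalDivisor S24.ff_fundamentalIdentity Qb ↥(modularFunctionFieldBar M)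
    (S24.jF M) (S24.final_jCoordinate M)

/-- The Hecke correspondence maps effective divisors to effective divisors. -/
theorem s37fin_hecke_nonneg (hα : HeckeAlphaBarIntegral Qb M ℓ)
    (hβ : HeckeBetaBarIntegral Qb M ℓ)
    [HasPrincipalDivisors Qb ↥(modularFunctionFieldBar (M * ℓ))]
    (D : Divisor Qb ↥(modularFunctionFieldBar M)) (hD : ∀ v, 0 ≤ D v)
    (v : Place Qb ↥(modularFunctionFieldBar M)) : 0 ≤ heckeDivBar hα hβ D v :=
  s37fin_pushforwardAlong_nonneg (heckeAlphaBar Qb M ℓ) hα _
    (s37fin_pullbackAlong_nonneg (heckeBetaBar Qb M ℓ) hβ D hD) v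

/-- The degree of `T_ℓ (P)`. -/
theorem s37fin_hecke_degree (hα : HeckeAlphaBarIntegral Qb M ℓ)
    (hβ : HeckeBetaBarIntegral Qb M ℓ)
    [HasPrincipalDivisors Qb ↥(modularFunctionFieldBar (M * ℓ))]
    (hFI : FundamentalIdentityAlong Qb (heckeBetaBar Qb M ℓ) hβ)
    (P : Place Qb ↥(modularFunctionFieldBar M)) :
    Divisor.degree (heckeDivBar hα hβ (Finsupp.single P 1)) =
      (finrankAlong Qb (heckeBetaBar Qb M ℓ) : ℤ) := by
  have h := Divisor.degree_correspondence (heckeBetaBar Qb M ℓ) (heckeAlphaBar Qb M ℓ) hβ hα hFI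
    (Finsupp.single P 1)
  rw [Divisor.degree_single, s37fin_deg_one, Nat.cast_one, mul_one, mul_one] at h
  exact h

/-- **Boundedness of the error term on places.** -/
theorem s37fin_E_bound (r : Place Qb ↥(modularFunctionFieldBar M) →
      Place kA ↥(modularFunctionFieldFullC kA M))
    (g : SemilinearAut kA ↥(modularFunctionFieldFullC kA M))
    (hα : HeckeAlphaBarIntegral Qb M ℓ) (hβ : HeckeBetaBarIntegral Qb M ℓ)
    [HasPrincipalDivisors Qb ↥(modularFunctionFieldBar (M * ℓ))]
    (hFI : FundamentalIdentityAlong Qb (heckeBetaBar Qb M ℓ) hβ)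
    (P : Place Qb ↥(modularFunctionFieldBar M))
    (Q : Place kA ↥(modularFunctionFieldFullC kA M)) :
    |s37mv_E M ℓ A r g hα hβ (Finsupp.single P 1) Q| ≤
      (finrankAlong Qb (heckeBetaBar Qb M ℓ) : ℤ) + ℓ + 1 := by
  classical
  rw [s37mv_E_apply]
  have h1 : |Finsupp.mapDomain r (heckeDivBar hα hβ (Finsupp.single P 1)) Q| ≤
      (finrankAlong Qb (heckeBetaBar Qb M ℓ) : ℤ) := by
    have hnn : ∀ v, 0 ≤ heckeDivBar hα hβ (Finsupp.single P 1) v :=
      s37fin_hecke_nonneg M ℓ hα hβ _ (fun v => by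
        rw [Finsupp.single_apply]; split_ifs <;> simp)
    have := s37fin_mapDomain_bound (s37fin_deg_one M) r _ hnn Q
    rwa [s37fin_hecke_degree M ℓ hα hβ hFI] at this
  have h2 : ∀ g' : SemilinearAut kA ↥(modularFunctionFieldFullC kA M),
      |(g' • Finsupp.mapDomain r (Finsupp.single P (1 : ℤ))) Q| ≤ 1 := by
    intro g'
    rw [Finsupp.mapDomain_single, SemilinearAut.smul_single, Finsupp.single_apply]
    split_ifs <;> simp
  rw [Finsupp.sub_apply, Finsupp.add_apply, Finsupp.smul_apply, nsmul_eq_mul]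
  have h3 := h2 g
  have h4 := h2 g⁻¹
  have hℓ0 : (0 : ℤ) ≤ (ℓ : ℤ) := Int.natCast_nonneg ℓ
  have h5 : |(ℓ : ℤ) * (g⁻¹ • Finsupp.mapDomain r (Finsupp.single P (1 : ℤ))) Q| ≤ ℓ := by
    rw [abs_mul, abs_of_nonneg hℓ0]
    calc (ℓ : ℤ) * |(g⁻¹ • Finsupp.mapDomain r (Finsupp.single P (1 : ℤ))) Q|
        ≤ (ℓ : ℤ) * 1 := mul_le_mul_of_nonneg_left h4 hℓ0
      _ = ℓ := mul_one _
  calc |Finsupp.mapDomain r (heckeDivBar hα hβ (Finsupp.single P 1)) Q -
        ((g • Finsupp.mapDomain r (Finsupp.single P (1 : ℤ))) Q +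
          (ℓ : ℤ) * (g⁻¹ • Finsupp.mapDomain r (Finsupp.single P (1 : ℤ))) Q)|
      ≤ |Finsupp.mapDomain r (heckeDivBar hα hβ (Finsupp.single P 1)) Q| +
        |(g • Finsupp.mapDomain r (Finsupp.single P (1 : ℤ))) Q +
          (ℓ : ℤ) * (g⁻¹ • Finsupp.mapDomain r (Finsupp.single P (1 : ℤ))) Q| := abs_sub _ _
    _ ≤ |Finsupp.mapDomain r (heckeDivBar hα hβ (Finsupp.single P 1)) Q| +
        (|(g • Finsupp.mapDomain r (Finsupp.single P (1 : ℤ))) Q| +
          |(ℓ : ℤ) * (g⁻¹ • Finsupp.mapDomain r (Finsupp.single P (1 : ℤ))) Q|) :=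
        add_le_add le_rfl (abs_add_le _ _)
    _ ≤ (finrankAlong Qb (heckeBetaBar Qb M ℓ) : ℤ) + ℓ + 1 := by linarith

end Modular

/-- **[ES-FIN-OF]** the Eichler-Shimura congruence on `Pic⁰` from the Hecke inputs, the
congruence on principal divisors and Riemann's inequality. -/
theorem s37fin_main (hHI : s37es_HIStatement) (hPrin : s37es_PrinStatement)
    (hRiem : s37es_RiemannStatement) : s37_ESStatement := by
  intro M _ ℓ hℓ hℓM _ A hA h φ hφ x
  haveI : NeZero ℓ := ⟨hℓ.ne_zero⟩
  refine s37mv_pic M ℓ A hℓ h (s37_coeffAut (IsLocalRing.ResidueField A) M φ) (hHI M ℓ)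
    (fun hα hβ hP D hD => ?_) x
  haveI := hP
  obtain ⟨_, hβ', hP', _, hFI', _⟩ := hHI M ℓ
  have hFI : FundamentalIdentityAlong (AlgebraicClosure ℚ)
      (heckeBetaBar (AlgebraicClosure ℚ) M ℓ) hβ := hFI'
  haveI := s37fin_hasPD M
  have hE : s37mv_E M ℓ A (placeReductionModL h)
      (s37_coeffAut (IsLocalRing.ResidueField A) M φ) hα hβ D = 0 := by
    refine s37fin_bdd (s37fin_deg_one M) (hRiem M) _ (fun D' hD' => ?_)
      ((finrankAlong (AlgebraicClosure ℚ) (heckeBetaBar (AlgebraicClosure ℚ) M ℓ) : ℤ) + ℓ + 1)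
      (fun P Q => s37fin_E_bound M ℓ A _ _ hα hβ hFI P Q) D hD
    rw [s37mv_E_apply, hPrin M ℓ hℓ hℓM A hA h φ hφ hα hβ D' hD', sub_self]
  rw [s37mv_E_apply] at hE
  rw [hE]
  exact AddSubgroup.zero_mem _

/-! ### The final form of the cut -/

section FinalForm

variable {M ℓ : ℕ} [NeZero M] [NeZero ℓ] {A : ValuationSubring (AlgebraicClosure ℚ)}

/-- The error homomorphism of `ESDefs.lean` is the one of `EsMove.lean`. -/
theorem s37fin_E_eq (h : ModularCurve.ReductionInputsModL A M)
    (φ : IsLocalRing.ResidueField A ≃+* IsLocalRing.ResidueField A)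
    (hα : HeckeAlphaBarIntegral (AlgebraicClosure ℚ) M ℓ)
    (hβ : HeckeBetaBarIntegral (AlgebraicClosure ℚ) M ℓ)
    [HasPrincipalDivisors (AlgebraicClosure ℚ) ↥(modularFunctionFieldBar (M * ℓ))]
    (D : Divisor (AlgebraicClosure ℚ) ↥(modularFunctionFieldBar M)) :
    s37es_E h φ hα hβ D =
      s37mv_E M ℓ A (placeReductionModL h) (s37_coeffAut (IsLocalRing.ResidueField A) M φ)
        hα hβ D := by
  rw [s37es_E_apply, s37mv_E_apply, sub_sub]

end FinalForm

/-- **[ES-BOUND]** the coefficients of `E P` are bounded by `[F̄_{Mℓ} : β F̄_M] + ℓ + 1`. -/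
theorem s37es_bound_main : s37es_BoundStatement := by
  intro M ℓ _ _ _ _ A _ h φ hα hβ hP
  obtain ⟨_, hβ', hP', _, hFI', _⟩ := s37hi_main M ℓ
  have hFI : FundamentalIdentityAlong (AlgebraicClosure ℚ)
      (heckeBetaBar (AlgebraicClosure ℚ) M ℓ) hβ := hFI'
  refine ⟨(finrankAlong (AlgebraicClosure ℚ) (heckeBetaBar (AlgebraicClosure ℚ) M ℓ) : ℤ) +
    ℓ + 1, fun P Q => ?_⟩
  rw [s37fin_E_eq]
  exact s37fin_E_bound M ℓ A _ _ hα hβ hFI P Q

/-- [ES-ZERO-OF] with the level-wise Riemann statement. -/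
theorem s37fin_zero_of (hRiem : s37es_RiemannStatement) (hKill : s37es_KillStatement)
    (hBound : s37es_BoundStatement) : s37es_ZeroStatement := by
  intro M ℓ _ _ hℓ hℓM A hA h φ hφ hα hβ hP D hD
  obtain ⟨C, hC⟩ := hBound M ℓ hℓ hℓM A hA h φ hα hβ
  haveI := s37fin_hasPD M
  exact s37fin_bdd (s37fin_deg_one M) (hRiem M) _
    (fun D' hD' => hKill M ℓ hℓ hℓM A hA h φ hφ hα hβ D' hD') C hC D hD

/-- [ES-FIN-OF], final form. -/
theorem s37fin_fin_of (hHI : s37es_HIStatement) (hZero : s37es_ZeroStatement) :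
    s37_ESStatement := by
  intro M _ ℓ hℓ hℓM _ A hA h φ hφ x
  haveI : NeZero ℓ := ⟨hℓ.ne_zero⟩
  refine s37mv_pic M ℓ A hℓ h (s37_coeffAut (IsLocalRing.ResidueField A) M φ) (hHI M ℓ)
    (fun hα hβ hP D hD => ?_) x
  haveI := hP
  have hE := hZero M ℓ hℓ hℓM A hA h φ hφ hα hβ D hD
  rw [s37fin_E_eq, s37mv_E_apply] at hE
  rw [hE]
  exact AddSubgroup.zero_mem _

/-- **[ES] from [RIEM] and [ES-KILL]** (everything else is proved). -/
theorem s37fin_es_of (hRiem : s37es_RiemannStatement) (hKill : s37es_KillStatement) :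
    s37_ESStatement :=
  s37fin_fin_of (fun M ℓ _ _ => s37hi_main M ℓ) (s37fin_zero_of hRiem hKill s37es_bound_main)

/-- The adapter: the generic Riemann statement of `BddDefs.lean` gives the level-wise
statement of the [ES] cut. -/
theorem s37fin_riemann_of (hR : s37t_RiemannStatement) : s37es_RiemannStatement := by
  intro M _
  obtain ⟨c, hc⟩ := hR (AlgebraicClosure ℚ) ↥(modularFunctionFieldBar M) (S24.jF M)
    (S24.final_jCoordinate M)
  refine ⟨c.toNat, fun D hD => ?_⟩
  obtain ⟨f, hf, hfD⟩ := hc D ((Int.self_le_toNat c).trans hD)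
  exact ⟨f, hf, fun P => by rw [add_comm]; exact hfD P⟩

/-- [ES] from the Hecke inputs, the congruence on principal divisors and the generic Riemann
statement. -/
theorem s37fin_main' (hHI : s37es_HIStatement) (hPrin : s37es_PrinStatement)
    (hRiem : s37t_RiemannStatement) : s37_ESStatement :=
  s37fin_main hHI hPrin (s37fin_riemann_of hRiem)

/-- **[ES] from the generic [RIEM] and [ES-KILL]**. -/
theorem s37fin_es_of' (hRiem : s37t_RiemannStatement) (hKill : s37es_KillStatement) :
    s37_ESStatement :=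
  s37fin_es_of (s37fin_riemann_of hRiem) hKill

example : s37es_BoundStatement := s37es_bound_main

end Fermat.Agent.S37
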