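/-
S37, package [ES], leaf [ES-CONG] (helper7).  Prefix `s37ec_`.

The formal-series norm congruence: over a valuation ring `A` (of any field `L`) whose residue
field `k` has characteristic `ℓ`, if `Y ∈ A((q))` and

  `n(q^ℓ) = Y(q^(ℓ²)) · ∏_{i<ℓ} Y(ζ^i q)`      (`ζ^ℓ = 1`)

then `n ∈ A((q))` and `n̄ = (Ȳ^(φ⁻¹))^ℓ · Ȳ^(φ)`, `φ` the Frobenius of `k`.

* `s37ec_frob`    : `x^ℓ = x^(φ)(q^ℓ)` in `k((q))`, `k` of characteristic `ℓ`;
* `s37ec_main`    : the congruence.
-/
import Mathlib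
import Fermat.Prelude.Def_ModularCurve_X0ModL

set_option autoImplicit false

open ModularCurve IsLocalRing

noncomputable section

namespace Fermat.Agent.S37

/-! ### Frobenius on Laurent series -/

section Frob

variable (k : Type*) [CommRing k] (ℓ : ℕ) [NeZero ℓ] [ExpChar k ℓ]

theorem s37ec_frob_powerSeries (f : PowerSeries k) (n : ℕ) :
    PowerSeries.coeff n (f ^ ℓ) =
      if ℓ ∣ n then (PowerSeries.coeff (n / ℓ) f) ^ ℓ else 0 := by
  have h := MvPowerSeries.map_frobenius_expand (σ := Unit) (R := k) ℓ (NeZero.ne ℓ) (f := f)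
  have h2 : f ^ ℓ = PowerSeries.map (frobenius k ℓ) (PowerSeries.expand ℓ (NeZero.ne ℓ) f) :=
    h.symm
  rw [h2, PowerSeries.coeff_map, PowerSeries.coeff_expand]
  split_ifs with hd
  · rfl
  · exact map_zero _

theorem s37ec_frob_coe (f : PowerSeries k) :
    ((f : PowerSeries k) : LaurentSeries k) ^ ℓ =
      qExpand k ℓ (coeffMap (frobenius k ℓ) ((f : PowerSeries k) : LaurentSeries k)) := by
  have hℓ0 : (ℓ : ℤ) ≠ 0 := by exact_mod_cast NeZero.ne ℓ
  have hℓpos : (0 : ℤ) < ℓ := by exact_mod_cast Nat.pos_of_ne_zero (NeZero.ne ℓ)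
  rw [← map_pow]
  ext n
  by_cases hd : (ℓ : ℤ) ∣ n
  · obtain ⟨m, rfl⟩ := hd
    rw [qExpand_coeff_mul, coeffMap_coeff, PowerSeries.coeff_coe, PowerSeries.coeff_coe]
    by_cases hm : m < 0
    · have h1 : (ℓ : ℤ) * m < 0 := mul_neg_of_pos_of_neg hℓpos hm
      rw [if_pos h1, if_pos hm, map_zero]
    · have h1 : ¬ (ℓ : ℤ) * m < 0 := not_lt.mpr (mul_nonneg hℓpos.le (not_lt.mp hm))
      rw [if_neg h1, if_neg hm, s37ec_frob_powerSeries]
      have h2 : ((ℓ : ℤ) * m).natAbs = ℓ * m.natAbs := by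
        rw [Int.natAbs_mul, Int.natAbs_natCast]
      rw [h2, if_pos (Dvd.intro _ rfl), Nat.mul_div_cancel_left _ (Nat.pos_of_ne_zero (NeZero.ne ℓ))]
      rfl
  · rw [qExpand_coeff_of_not_dvd ℓ _ hd, PowerSeries.coeff_coe]
    split_ifs with h1
    · rfl
    · rw [s37ec_frob_powerSeries, if_neg]
      intro h2
      apply hd
      have h3 : (n.natAbs : ℤ) = n := Int.natAbs_of_nonneg (not_lt.mp h1)
      rw [← h3]
      exact_mod_cast h2

/-- **Frobenius on Laurent series**: `x(q)^ℓ = x^(φ)(q^ℓ)` in characteristic `ℓ`. -/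
theorem s37ec_frob (x : LaurentSeries k) :
    x ^ ℓ = qExpand k ℓ (coeffMap (frobenius k ℓ) x) := by
  have h1 : (HahnSeries.single x.order (1 : k) : LaurentSeries k) ^ ℓ =
      qExpand k ℓ (coeffMap (frobenius k ℓ) (HahnSeries.single x.order (1 : k))) := by
    rw [HahnSeries.single_pow, coeffMap_single, qExpand_single, one_pow,
      RingHom.map_one (frobenius k ℓ), nsmul_eq_mul]
  have h2 := LaurentSeries.single_order_mul_powerSeriesPart x
  calc x ^ ℓ = ((HahnSeries.single x.order (1 : k) : LaurentSeries k) *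
        ((x.powerSeriesPart : PowerSeries k) : LaurentSeries k)) ^ ℓ := by rw [h2]
    _ = qExpand k ℓ (coeffMap (frobenius k ℓ) ((HahnSeries.single x.order (1 : k) :
        LaurentSeries k) * ((x.powerSeriesPart : PowerSeries k) : LaurentSeries k))) := by
      rw [mul_pow, map_mul, map_mul, s37ec_frob_coe, h1]
    _ = _ := by rw [h2]

end Frob

/-! ### Twists `Y(u q)` with integral coefficients -/

section Twist

variable {R : Type*} [CommRing R]

/-- `Y(u q)` for a unit `u`. -/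
def s37ec_twist (u : Rˣ) (Y : LaurentSeries R) : LaurentSeries R where
  coeff m := ((u ^ m : Rˣ) : R) * Y.coeff m
  isPWO_support' := Y.isPWO_support.mono fun m hm h0 => hm (by
    show ((u ^ m : Rˣ) : R) * Y.coeff m = 0
    rw [h0, mul_zero])

theorem s37ec_twist_coeff (u : Rˣ) (Y : LaurentSeries R) (m : ℤ) :
    (s37ec_twist u Y).coeff m = ((u ^ m : Rˣ) : R) * Y.coeff m := rfl

theorem s37ec_coeffMap_twist {S : Type*} [CommRing S] (f : R →+* S) (u : Rˣ)
    (Y : LaurentSeries R) :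
    coeffMap f (s37ec_twist u Y) = s37ec_twist (Units.map (f : R →* S) u) (coeffMap f Y) := by
  ext m
  rw [coeffMap_coeff, s37ec_twist_coeff, s37ec_twist_coeff, map_mul, coeffMap_coeff,
    ← map_zpow]
  rfl

theorem s37ec_twist_one (Y : LaurentSeries R) : s37ec_twist (1 : Rˣ) Y = Y := by
  ext m
  rw [s37ec_twist_coeff, one_zpow, Units.val_one, one_mul]

end Twist

/-! ### The congruence -/

section Main

variable {L : Type*} [Field L] (A : ValuationSubring L) (ℓ : ℕ) [NeZero ℓ]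

theorem s37ec_mem_of_pow_eq_one {ζ : L} (hζ : ζ ^ ℓ = 1) : ζ ∈ A := by
  rcases A.mem_or_inv_mem ζ with h | h
  · exact h
  · have h1 : ζ = ζ⁻¹ ^ (ℓ - 1) := by
      have hζ0 : ζ ≠ 0 := by
        rintro rfl
        rw [zero_pow (NeZero.ne ℓ)] at hζ
        exact zero_ne_one hζ
      have h2 : ζ ^ (ℓ - 1) * ζ = 1 := by
        rw [← pow_succ, Nat.sub_add_cancel (Nat.pos_of_ne_zero (NeZero.ne ℓ)), hζ]
      rw [inv_pow]
      exact eq_inv_of_mul_eq_one_right h2
    rw [h1]
    exact pow_mem h _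

omit [NeZero ℓ] in
theorem s37ec_charP (hℓp : ℓ.Prime) (hℓ : (ℓ : A) ∈ maximalIdeal A) :
    CharP (ResidueField A) ℓ := by
  rw [CharP.charP_iff_prime_eq_zero hℓp]
  have h1 : residue A (ℓ : A) = 0 := (residue_eq_zero_iff _).mpr hℓ
  rwa [map_natCast] at h1

theorem s37ec_residue_eq_one (hℓp : ℓ.Prime) (hℓ : (ℓ : A) ∈ maximalIdeal A) (u : A)
    (hu : u ^ ℓ = 1) : residue A u = 1 := by
  have := s37ec_charP A ℓ hℓp hℓ
  have : Fact ℓ.Prime := ⟨hℓp⟩
  have h1 : (residue A u - 1) ^ ℓ = 0 := by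
    rw [sub_pow_char, one_pow, ← map_pow, hu, map_one, sub_self]
  exact sub_eq_zero.mp (pow_eq_zero_iff (NeZero.ne ℓ) |>.mp h1)

/-- **[ES-CONG]** the formal-series norm congruence. -/
theorem s37ec_main (hℓp : ℓ.Prime) (hℓ : (ℓ : A) ∈ maximalIdeal A) (ζ : L) (hζ : ζ ^ ℓ = 1)
    (Y : LaurentSeries A) (Z : ℕ → LaurentSeries L)
    (hZ : ∀ i, i < ℓ → ∀ m : ℤ, (Z i).coeff m = ζ ^ ((i : ℤ) * m) * ((Y.coeff m : A) : L))
    (n : LaurentSeries L)
    (hn : qExpand L ℓ n =
      qExpand L (ℓ * ℓ) (coeffMap A.subtype Y) * ∏ i ∈ Finset.range ℓ, Z i)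
    (φ : ResidueField A ≃+* ResidueField A) (hφ : ∀ a, φ a = a ^ ℓ) :
    ∃ nA : LaurentSeries A, coeffMap A.subtype nA = n ∧
      coeffMap (residue A) nA =
        (coeffMap (φ.symm : ResidueField A →+* ResidueField A) (coeffMap (residue A) Y)) ^ ℓ *
          coeffMap (φ : ResidueField A →+* ResidueField A) (coeffMap (residue A) Y) := by
  classical
  have := s37ec_charP A ℓ hℓp hℓ
  have : Fact ℓ.Prime := ⟨hℓp⟩
  -- the root of unity, as a unit of `A`
  have hζA : ζ ∈ A := s37ec_mem_of_pow_eq_one A ℓ hζ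
  have hζA1 : (⟨ζ, hζA⟩ : A) ^ ℓ = 1 := Subtype.ext hζ
  let u : Aˣ := Units.ofPowEqOne (⟨ζ, hζA⟩ : A) ℓ hζA1 (NeZero.ne ℓ)
  have hu : (u : A) = ⟨ζ, hζA⟩ := rfl
  have huL : ((Units.map (A.subtype : A →* L) u : Lˣ) : L) = ζ := rfl
  have hures : Units.map (residue A : A →* ResidueField A) u = 1 := by
    ext
    exact s37ec_residue_eq_one A ℓ hℓp hℓ _ hζA1
  -- the integral twists
  let ZA : ℕ → LaurentSeries A := fun i => s37ec_twist (u ^ i) Y
  have hZA : ∀ i, i < ℓ → coeffMap A.subtype (ZA i) = Z i := by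
    intro i hi
    ext m
    rw [hZ i hi m, coeffMap_coeff, s37ec_twist_coeff, map_mul]
    congr 1
    rw [← huL, ← Units.val_zpow_eq_zpow_val, zpow_mul, zpow_natCast, ← map_pow, ← map_zpow]
    rfl
  have hZAres : ∀ i, coeffMap (residue A) (ZA i) = coeffMap (residue A) Y := by
    intro i
    rw [s37ec_coeffMap_twist, map_pow, hures, one_pow, s37ec_twist_one]
  -- the integral product
  let RA : LaurentSeries A := qExpand A (ℓ * ℓ) Y * ∏ i ∈ Finset.range ℓ, ZA i
  have hRA : coeffMap A.subtype RA = qExpand L ℓ n := by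
    rw [hn, map_mul, coeffMap_qExpand, map_prod]
    congr 1
    exact Finset.prod_congr rfl fun i hi => hZA i (Finset.mem_range.mp hi)
  have hRAres : coeffMap (residue A) RA =
      qExpand (ResidueField A) (ℓ * ℓ) (coeffMap (residue A) Y) *
        (coeffMap (residue A) Y) ^ ℓ := by
    rw [map_mul, coeffMap_qExpand, map_prod]
    congr 1
    rw [Finset.prod_congr rfl fun i _ => hZAres i, Finset.prod_const, Finset.card_range]
  -- the coefficients of `n`
  have hncoeff : ∀ m : ℤ, n.coeff m = ((RA.coeff ((ℓ : ℤ) * m) : A) : L) := by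
    intro m
    rw [← qExpand_coeff_mul ℓ n m, ← hRA]
    rfl
  let nA : LaurentSeries A :=
    { coeff := fun m => RA.coeff ((ℓ : ℤ) * m)
      isPWO_support' := n.isPWO_support.mono fun m hm h0 => hm (by
        have h1 := hncoeff m
        rw [h0] at h1
        exact Subtype.ext h1.symm) }
  have hnA : coeffMap A.subtype nA = n := by
    ext m
    rw [hncoeff m]
    rfl
  have hsubinj : Function.Injective (coeffMap A.subtype) := by
    intro a b hab
    ext m
    exact congrArg (fun x : LaurentSeries L => x.coeff m) hab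
  have hqnA : qExpand A ℓ nA = RA := by
    apply hsubinj
    rw [coeffMap_qExpand, hnA, hRA]
  refine ⟨nA, hnA, ?_⟩
  apply qExpand_injective (R := ResidueField A) ℓ
  rw [← coeffMap_qExpand, hqnA, hRAres, map_mul, ← qExpand_qExpand ℓ ℓ]
  have hφ1 : (φ : ResidueField A →+* ResidueField A) = frobenius (ResidueField A) ℓ :=
    RingHom.ext fun a => hφ a
  have h1 : (coeffMap (residue A) Y) ^ ℓ =
      qExpand (ResidueField A) ℓ
        (coeffMap (φ : ResidueField A →+* ResidueField A) (coeffMap (residue A) Y)) := by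
    rw [hφ1]
    exact s37ec_frob (ResidueField A) ℓ _
  have h2 : qExpand (ResidueField A) ℓ (coeffMap (residue A) Y) =
      (coeffMap (φ.symm : ResidueField A →+* ResidueField A) (coeffMap (residue A) Y)) ^ ℓ := by
    rw [s37ec_frob (ResidueField A) ℓ, ← hφ1, coeffMap_coeffMap]
    congr 1
    have h3 : (φ : ResidueField A →+* ResidueField A).comp
        (φ.symm : ResidueField A →+* ResidueField A) = RingHom.id _ :=
      RingHom.ext fun a => φ.apply_symm_apply a
    rw [h3, coeffMap_id]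
  rw [h1, h2]

end Main

end Fermat.Agent.S37
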