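/-
S37, package [ES], leaf [ES-CONG], function-field form (helper7).  Prefix `s37ec_`.

The norm congruence of `S37/EsNormCong.lean` inside `F_k(M)`: if `Y ∈ A((q))` has reduction
`ȳ ∈ F_k(M)` and `n(q^ℓ) = Y(q^(ℓ²)) · ∏_{i<ℓ} Y(ζ^i q)`, then `n ∈ A((q))`, its reduction lies
in `F_k(M)` and equals `(g⁻¹ • ȳ)^ℓ · (g • ȳ)`, `g` the coefficientwise Frobenius; hence
`ord_Q(n̄) = ℓ · ord_{gQ}(ȳ) + ord_{g⁻¹Q}(ȳ)` at every place `Q`, i.e.
`div n̄ = (g + ℓ g⁻¹) • div ȳ`.
-/
import Mathlib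
import Fermat.Agent.S37.RhoDefs
import Fermat.Agent.S37.EsNormCong

set_option autoImplicit false

open ModularCurve AlgebraicCurve IsLocalRing

noncomputable section

namespace Fermat.Agent.S37

section

variable (k : Type) [Field k] (M : ℕ) [NeZero M]

theorem s37ec_coe_inv_smul (e : k ≃+* k) (x : ↥(modularFunctionFieldFullC k M)) :
    (((s37_coeffAut k M e)⁻¹ • x : ↥(modularFunctionFieldFullC k M)) : LaurentSeries k) =
      coeffMap (e.symm : k →+* k) (x : LaurentSeries k) := rfl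

/-- The reduction `(ȳ^(φ⁻¹))^ℓ · ȳ^(φ)` as an element of `F_k(M)`. -/
theorem s37ec_coe_red (e : k ≃+* k) (ℓ : ℕ) (x : ↥(modularFunctionFieldFullC k M)) :
    ((((s37_coeffAut k M e)⁻¹ • x) ^ ℓ * (s37_coeffAut k M e • x) :
      ↥(modularFunctionFieldFullC k M)) : LaurentSeries k) =
      (coeffMap (e.symm : k →+* k) (x : LaurentSeries k)) ^ ℓ *
        coeffMap (e : k →+* k) (x : LaurentSeries k) := rfl

omit [NeZero M] in
/-- `div ((g⁻¹ • x)^ℓ · (g • x)) = (ℓ g⁻¹ + g) • div x`, placewise. -/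
theorem s37ec_ord_red (g : SemilinearAut k ↥(modularFunctionFieldFullC k M)) (ℓ : ℕ)
    (x : ↥(modularFunctionFieldFullC k M)) (hx : x ≠ 0)
    (Q : Place k ↥(modularFunctionFieldFullC k M)) :
    Q.ord ((g⁻¹ • x) ^ ℓ * (g • x)) = (ℓ : ℤ) * (g • Q).ord x + (g⁻¹ • Q).ord x := by
  have h1 : g⁻¹ • x ≠ 0 := (smul_ne_zero_iff_ne _).mpr hx
  have h2 : g • x ≠ 0 := (smul_ne_zero_iff_ne _).mpr hx
  rw [Place.ord_mul Q (pow_ne_zero _ h1) h2, ← zpow_natCast, Place.ord_zpow]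
  have h3 : Q.ord (g⁻¹ • x) = (g • Q).ord x := by
    have := SemilinearAut.ord_smul g Q (g⁻¹ • x)
    rw [smul_inv_smul] at this
    exact this.symm
  have h4 : Q.ord (g • x) = (g⁻¹ • Q).ord x := by
    have := SemilinearAut.ord_smul g (g⁻¹ • Q) x
    rwa [smul_inv_smul] at this
  rw [h3, h4]

end

section Main

set_option synthInstance.maxHeartbeats 400000

variable {L : Type} [Field L] (A : ValuationSubring L) (M : ℕ) [NeZero M] (ℓ : ℕ) [NeZero ℓ]

/-- **[ES-CONG], function-field form.** -/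
theorem s37ec_valid (hℓp : ℓ.Prime) (hℓ : (ℓ : A) ∈ maximalIdeal A) (ζ : L) (hζ : ζ ^ ℓ = 1)
    (Y : LaurentSeries A)
    (hYk : coeffMap (residue A) Y ∈ modularFunctionFieldFullC (ResidueField A) M)
    (Z : ℕ → LaurentSeries L)
    (hZ : ∀ i, i < ℓ → ∀ m : ℤ, (Z i).coeff m = ζ ^ ((i : ℤ) * m) * ((Y.coeff m : A) : L))
    (n : LaurentSeries L)
    (hn : qExpand L ℓ n =
      qExpand L (ℓ * ℓ) (coeffMap A.subtype Y) * ∏ i ∈ Finset.range ℓ, Z i)
    (φ : ResidueField A ≃+* ResidueField A) (hφ : ∀ a, φ a = a ^ ℓ) :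
    ∃ (nA : LaurentSeries A)
      (hnk : coeffMap (residue A) nA ∈ modularFunctionFieldFullC (ResidueField A) M),
      coeffMap A.subtype nA = n ∧
      (⟨coeffMap (residue A) nA, hnk⟩ : ↥(modularFunctionFieldFullC (ResidueField A) M)) =
        ((s37_coeffAut (ResidueField A) M φ)⁻¹ •
            (⟨coeffMap (residue A) Y, hYk⟩ :
              ↥(modularFunctionFieldFullC (ResidueField A) M))) ^ ℓ *
          (s37_coeffAut (ResidueField A) M φ •
            (⟨coeffMap (residue A) Y, hYk⟩ :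
              ↥(modularFunctionFieldFullC (ResidueField A) M))) := by
  obtain ⟨nA, h1, h2⟩ := s37ec_main A ℓ hℓp hℓ ζ hζ Y Z hZ n hn φ hφ
  have hnk : coeffMap (residue A) nA ∈ modularFunctionFieldFullC (ResidueField A) M := by
    rw [h2]
    exact (((s37_coeffAut (ResidueField A) M φ)⁻¹ •
        (⟨coeffMap (residue A) Y, hYk⟩ :
          ↥(modularFunctionFieldFullC (ResidueField A) M))) ^ ℓ *
      (s37_coeffAut (ResidueField A) M φ •
        (⟨coeffMap (residue A) Y, hYk⟩ :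
          ↥(modularFunctionFieldFullC (ResidueField A) M)))).2
  exact ⟨nA, hnk, h1, Subtype.ext h2⟩

/-- **[ES-CONG], divisor form**: `n` is an admissible integral function and
`div n̄ = (g + ℓ g⁻¹) • div ȳ`. -/
theorem s37ec_div (hℓp : ℓ.Prime) (hℓ : (ℓ : A) ∈ maximalIdeal A) (ζ : L) (hζ : ζ ^ ℓ = 1)
    (Y : LaurentSeries A)
    (hYk : coeffMap (residue A) Y ∈ modularFunctionFieldFullC (ResidueField A) M)
    (hY0 : coeffMap (residue A) Y ≠ 0)
    (Z : ℕ → LaurentSeries L)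
    (hZ : ∀ i, i < ℓ → ∀ m : ℤ, (Z i).coeff m = ζ ^ ((i : ℤ) * m) * ((Y.coeff m : A) : L))
    (n : LaurentSeries L)
    (hn : qExpand L ℓ n =
      qExpand L (ℓ * ℓ) (coeffMap A.subtype Y) * ∏ i ∈ Finset.range ℓ, Z i)
    (φ : ResidueField A ≃+* ResidueField A) (hφ : ∀ a, φ a = a ^ ℓ) :
    ∃ (nA : LaurentSeries A)
      (hnk : coeffMap (residue A) nA ∈ modularFunctionFieldFullC (ResidueField A) M),
      coeffMap A.subtype nA = n ∧ coeffMap (residue A) nA ≠ 0 ∧
      ∀ Q : Place (ResidueField A) ↥(modularFunctionFieldFullC (ResidueField A) M),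
        Q.ord (⟨coeffMap (residue A) nA, hnk⟩ :
            ↥(modularFunctionFieldFullC (ResidueField A) M)) =
          (ℓ : ℤ) * (s37_coeffAut (ResidueField A) M φ • Q).ord
              (⟨coeffMap (residue A) Y, hYk⟩ :
                ↥(modularFunctionFieldFullC (ResidueField A) M)) +
            ((s37_coeffAut (ResidueField A) M φ)⁻¹ • Q).ord
              (⟨coeffMap (residue A) Y, hYk⟩ :
                ↥(modularFunctionFieldFullC (ResidueField A) M)) := by
  obtain ⟨nA, hnk, h1, h2⟩ := s37ec_valid A M ℓ hℓp hℓ ζ hζ Y hYk Z hZ n hn φ hφ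
  have hx : (⟨coeffMap (residue A) Y, hYk⟩ :
      ↥(modularFunctionFieldFullC (ResidueField A) M)) ≠ 0 :=
    fun h => hY0 (congrArg Subtype.val h)
  refine ⟨nA, hnk, h1, ?_, fun Q => ?_⟩
  · intro h0
    have h3 : (⟨coeffMap (residue A) nA, hnk⟩ :
        ↥(modularFunctionFieldFullC (ResidueField A) M)) = 0 := Subtype.ext h0
    rw [h2] at h3
    rcases mul_eq_zero.mp h3 with h4 | h4
    · exact (smul_ne_zero_iff_ne _).mpr hx (pow_eq_zero_iff (NeZero.ne ℓ) |>.mp h4)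
    · exact (smul_ne_zero_iff_ne _).mpr hx h4
  · rw [h2]
    exact s37ec_ord_red (ResidueField A) M _ ℓ _ hx Q

end Main

end Fermat.Agent.S37
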