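/-
S37, package [ES], leaf [ES-PRIN-OF] (helper7).  Prefix `s37ep_`.

  `s37ep_main : s37es_HIStatement → s37es_NormStatement → s37es_PrinStatement`

The Eichler-Shimura congruence on PRINCIPAL divisors, as an identity of divisors of `F_k(M)`:

  `r_* (T (div y)) = g • r_* (div y) + ℓ • g⁻¹ • r_* (div y)`.

For a valid `y`: `T (div y) = α_* (β^* div y) = α_* (div (β y)) = div (N_α (β y))` (norm formula),
`N_α (β y)` is valid with reduction `(g⁻¹ ȳ)^ℓ · (g ȳ)` ([ES-NORM]), the place reduction `r` sends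
the divisor of a valid function to the divisor of its reduction (twice), and
`div ((g⁻¹ ȳ)^ℓ · (g ȳ)) = ℓ • g⁻¹ • div ȳ + g • div ȳ`.  Principal divisors are generated by the
divisors of valid functions.
-/
import Mathlib
import Fermat.Agent.S37.ESDefs
import Fermat.Agent.S37.EsCongF

set_option autoImplicit false

open ModularCurve AlgebraicCurve IntermediateField IsLocalRing

noncomputable section

namespace Fermat.Agent.S37

set_option synthInstance.maxHeartbeats 400000
set_option linter.style.haveILetI false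

section Hecke

variable {M ℓ : ℕ} [NeZero M] [NeZero ℓ]

/-- `T (div y) = div (N_α (β y))`: the Hecke correspondence on the divisor of a function. -/
theorem s37ep_hecke_div
    (hα : HeckeAlphaBarIntegral (AlgebraicClosure ℚ) M ℓ)
    (hβ : HeckeBetaBarIntegral (AlgebraicClosure ℚ) M ℓ)
    [HasPrincipalDivisors (AlgebraicClosure ℚ) ↥(modularFunctionFieldBar (M * ℓ))]
    (hfin : FiniteAlong (AlgebraicClosure ℚ) (heckeAlphaBar (AlgebraicClosure ℚ) M ℓ))
    (hN : NormFormulaAlong (AlgebraicClosure ℚ) (heckeAlphaBar (AlgebraicClosure ℚ) M ℓ) hfin)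
    (y : ↥(modularFunctionFieldBar M)) (hy : y ≠ 0)
    (D : Divisor (AlgebraicClosure ℚ) ↥(modularFunctionFieldBar M))
    (hD : ∀ P, D P = P.ord y)
    (P : Place (AlgebraicClosure ℚ) ↥(modularFunctionFieldBar M)) :
    heckeDivBar hα hβ D P = P.ord (s37es_norm M ℓ y) := by
  have hE : ∀ w : Place (AlgebraicClosure ℚ) ↥(modularFunctionFieldBar (M * ℓ)),
      Divisor.pullbackAlong (heckeBetaBar (AlgebraicClosure ℚ) M ℓ) hβ D w =
        w.ord (heckeBetaBar (AlgebraicClosure ℚ) M ℓ y) := by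
    intro w
    letI := algebraAlong (heckeBetaBar (AlgebraicClosure ℚ) M ℓ)
    haveI := isScalarTower_along (heckeBetaBar (AlgebraicClosure ℚ) M ℓ)
    haveI := isIntegral_along (heckeBetaBar (AlgebraicClosure ℚ) M ℓ) hβ
    exact Divisor.pullback_apply_eq_ord hD w
  have hβy : heckeBetaBar (AlgebraicClosure ℚ) M ℓ y ≠ 0 := (map_ne_zero _).mpr hy
  exact hN (heckeBetaBar (AlgebraicClosure ℚ) M ℓ y) hβy _ hE P

end Hecke

section Generic

/-- `E₁ = g • E₀ + ℓ • g⁻¹ • E₀` from the placewise formula. -/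
theorem s37ep_div_eq {K F : Type*} [Field K] [Field F] [Algebra K F] (g : SemilinearAut K F)
    (ℓ : ℕ) (x : F) (E₀ E₁ : Divisor K F) (h0 : ∀ Q, E₀ Q = Q.ord x)
    (h1 : ∀ Q : Place K F, E₁ Q = (ℓ : ℤ) * (g • Q).ord x + (g⁻¹ • Q).ord x) :
    E₁ = g • E₀ + ℓ • (g⁻¹ • E₀) := by
  ext Q
  rw [h1 Q, Finsupp.add_apply, Finsupp.smul_apply, SemilinearAut.divisor_smul_apply,
    SemilinearAut.divisor_smul_apply, inv_inv, h0, h0, nsmul_eq_mul]
  ring

variable (k : Type) [Field k] (M : ℕ) [NeZero M]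

/-- The reduction of the norm lies in `F_k(M)`. -/
theorem s37ep_red_mem (e : k ≃+* k) (ℓ : ℕ) (x : LaurentSeries k)
    (hx : x ∈ modularFunctionFieldFullC k M) :
    (coeffMap (e.symm : k →+* k) x) ^ ℓ * coeffMap (e : k →+* k) x ∈
      modularFunctionFieldFullC k M :=
  mul_mem (pow_mem (s37_coeffMap_mem k M _ hx) _) (s37_coeffMap_mem k M _ hx)

/-- The divisor of the reduction of the norm. -/
theorem s37ep_red_ord (e : k ≃+* k) (ℓ : ℕ) (x : LaurentSeries k)
    (hx : x ∈ modularFunctionFieldFullC k M) (hx0 : x ≠ 0) (z : LaurentSeries k)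
    (hz : z = (coeffMap (e.symm : k →+* k) x) ^ ℓ * coeffMap (e : k →+* k) x)
    (hzk : z ∈ modularFunctionFieldFullC k M)
    (Q : Place k ↥(modularFunctionFieldFullC k M)) :
    Q.ord (⟨z, hzk⟩ : ↥(modularFunctionFieldFullC k M)) =
      (ℓ : ℤ) * (s37_coeffAut k M e • Q).ord (⟨x, hx⟩ : ↥(modularFunctionFieldFullC k M)) +
        ((s37_coeffAut k M e)⁻¹ • Q).ord (⟨x, hx⟩ : ↥(modularFunctionFieldFullC k M)) := by
  have hx0' : (⟨x, hx⟩ : ↥(modularFunctionFieldFullC k M)) ≠ 0 :=
    fun h0 => hx0 (congrArg Subtype.val h0)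
  have h1 : (⟨z, hzk⟩ : ↥(modularFunctionFieldFullC k M)) =
      ((s37_coeffAut k M e)⁻¹ • (⟨x, hx⟩ : ↥(modularFunctionFieldFullC k M))) ^ ℓ *
        (s37_coeffAut k M e • (⟨x, hx⟩ : ↥(modularFunctionFieldFullC k M))) :=
    Subtype.ext hz
  rw [h1]
  exact s37ec_ord_red k M _ ℓ _ hx0' Q

theorem s37ep_red_ne_zero (e : k ≃+* k) (ℓ : ℕ) (x : LaurentSeries k) (hx0 : x ≠ 0) :
    (coeffMap (e.symm : k →+* k) x) ^ ℓ * coeffMap (e : k →+* k) x ≠ 0 := by
  have h1 : ∀ f : k ≃+* k, coeffMap (f : k →+* k) x ≠ 0 := by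
    intro f h0
    apply hx0
    ext m
    have h3 := congrArg (fun y : LaurentSeries k => y.coeff m) h0
    exact (map_eq_zero (f : k →+* k)).mp h3
  exact mul_ne_zero (pow_ne_zero _ (h1 _)) (h1 _)

end Generic

section Main

variable {M ℓ : ℕ} [NeZero M] [NeZero ℓ]

set_option maxHeartbeats 4000000 in
/-- The congruence on the divisor of ONE valid function. -/
theorem s37ep_valid (hNorm : s37es_NormStatement) (hℓ : ℓ.Prime) (hℓM : ¬ ℓ ∣ M)
    (A : ValuationSubring (AlgebraicClosure ℚ)) (hA : A.LiesOverPrime ℓ)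
    (r : Place (AlgebraicClosure ℚ) ↥(modularFunctionFieldBar M) →
      Place (ResidueField A) ↥(modularFunctionFieldFullC (ResidueField A) M))
    (hr : IsPlaceReductionModL A M r)
    (φ : ResidueField A ≃+* ResidueField A) (hφ : ∀ a, φ a = a ^ ℓ)
    (hα : HeckeAlphaBarIntegral (AlgebraicClosure ℚ) M ℓ)
    (hβ : HeckeBetaBarIntegral (AlgebraicClosure ℚ) M ℓ)
    [HasPrincipalDivisors (AlgebraicClosure ℚ) ↥(modularFunctionFieldBar (M * ℓ))]
    (hfin : FiniteAlong (AlgebraicClosure ℚ) (heckeAlphaBar (AlgebraicClosure ℚ) M ℓ))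
    (hN : NormFormulaAlong (AlgebraicClosure ℚ) (heckeAlphaBar (AlgebraicClosure ℚ) M ℓ) hfin)
    (D : Divisor (AlgebraicClosure ℚ) ↥(modularFunctionFieldBar M))
    (hD : D ∈ integralPrincipalDivisors A (residue A) M) :
    Finsupp.mapDomain r (heckeDivBar hα hβ D) =
      s37_coeffAut (ResidueField A) M φ • Finsupp.mapDomain r D +
        ℓ • ((s37_coeffAut (ResidueField A) M φ)⁻¹ • Finsupp.mapDomain r D) := by
  obtain ⟨y, hy, hyk, hne, hDy⟩ := hD
  have hy0 : (⟨coeffMap A.subtype y, hy⟩ : ↥(modularFunctionFieldBar M)) ≠ 0 := by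
    intro h0
    apply hne
    have h1 : coeffMap A.subtype y = 0 := congrArg Subtype.val h0
    have h2 : y = 0 := by
      ext m
      have h3 := congrArg (fun x : LaurentSeries (AlgebraicClosure ℚ) => x.coeff m) h1
      exact h3
    rw [h2, map_zero]
  obtain ⟨z, hz1, hz2⟩ := hNorm M ℓ hℓ hℓM A hA φ hφ y hy
  have hz : coeffMap A.subtype z ∈ modularFunctionFieldBar M := by
    rw [hz1]
    exact (s37es_norm M ℓ ⟨coeffMap A.subtype y, hy⟩).2
  have hzk : coeffMap (residue A) z ∈ modularFunctionFieldFullC (ResidueField A) M := by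
    rw [hz2]
    exact s37ep_red_mem (ResidueField A) M φ ℓ _ hyk
  have hzne : coeffMap (residue A) z ≠ 0 := by
    rw [hz2]
    exact s37ep_red_ne_zero (ResidueField A) φ ℓ _ hne
  have hTD : ∀ P, heckeDivBar hα hβ D P =
      P.ord (⟨coeffMap A.subtype z, hz⟩ : ↥(modularFunctionFieldBar M)) := by
    intro P
    rw [s37ep_hecke_div hα hβ hfin hN ⟨coeffMap A.subtype y, hy⟩ hy0 D hDy P]
    congr 1
    exact Subtype.ext hz1.symm
  have h1 := hr.2 y hy hyk hne D hDy
  have h2 := hr.2 z hz hzk hzne (heckeDivBar hα hβ D) hTD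
  have h3 : ∀ Q : Place (ResidueField A) ↥(modularFunctionFieldFullC (ResidueField A) M),
      Finsupp.mapDomain r (heckeDivBar hα hβ D) Q =
        (ℓ : ℤ) * (s37_coeffAut (ResidueField A) M φ • Q).ord
            (⟨coeffMap (residue A) y, hyk⟩ :
              ↥(modularFunctionFieldFullC (ResidueField A) M)) +
          ((s37_coeffAut (ResidueField A) M φ)⁻¹ • Q).ord
            (⟨coeffMap (residue A) y, hyk⟩ :
              ↥(modularFunctionFieldFullC (ResidueField A) M)) := by
    intro Q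
    rw [h2 Q]
    exact s37ep_red_ord (ResidueField A) M φ ℓ _ hyk hne _ hz2 hzk Q
  exact s37ep_div_eq (s37_coeffAut (ResidueField A) M φ) ℓ
    (⟨coeffMap (residue A) y, hyk⟩ : ↥(modularFunctionFieldFullC (ResidueField A) M))
    _ _ h1 h3

/-- **[ES-PRIN-OF]** -/
theorem s37ep_main : s37es_HIStatement → s37es_NormStatement → s37es_PrinStatement := by
  intro hHI hNorm M ℓ _ _ hℓ hℓM A hA h φ hφ hα hβ _ D hD
  obtain ⟨_, _, _, hfin, _, hN⟩ := hHI M ℓ
  have hr := isPlaceReductionModL_placeReductionModL h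
  have hgen : PrincipalGeneratedByIntegral A (residue A) M := h.choose_spec.2
  let g := s37_coeffAut (ResidueField A) M φ
  let act : ↥(SemilinearAut (ResidueField A) ↥(modularFunctionFieldFullC (ResidueField A) M)) →
      Divisor (ResidueField A) ↥(modularFunctionFieldFullC (ResidueField A) M) →+
        Divisor (ResidueField A) ↥(modularFunctionFieldFullC (ResidueField A) M) :=
    fun g' => DistribSMul.toAddMonoidHom _ g'
  let f₁ : Divisor (AlgebraicClosure ℚ) ↥(modularFunctionFieldBar M) →+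
      Divisor (ResidueField A) ↥(modularFunctionFieldFullC (ResidueField A) M) :=
    (Finsupp.mapDomain.addMonoidHom (placeReductionModL h)).comp (heckeDivBar hα hβ)
  let f₂ : Divisor (AlgebraicClosure ℚ) ↥(modularFunctionFieldBar M) →+
      Divisor (ResidueField A) ↥(modularFunctionFieldFullC (ResidueField A) M) :=
    (act g + ℓ • act g⁻¹).comp (Finsupp.mapDomain.addMonoidHom (placeReductionModL h))
  have key : Set.EqOn f₁ f₂ (integralPrincipalDivisors A (residue A) M) := fun E hE =>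
    s37ep_valid hNorm hℓ hℓM A hA (placeReductionModL h) hr φ hφ hα hβ hfin hN E hE
  exact AddMonoidHom.eqOn_closure key (hgen hD)

end Main

end Fermat.Agent.S37
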