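/-
S37, package [ES], leaf [ES-KILL-OF] (helper7).  Prefix `s37ep_`.

  `s37ep_kill_of : s37es_HIStatement → s37es_ConjStatement → s37es_KillStatement`

(final form of the cut, ESDefs.lean): the error homomorphism
`E = r_* ∘ T - g • r_* - ℓ • g⁻¹ • r_*` kills principal divisors.  This is `s37ep_main`
(`S37/EsPrin.lean`, the same identity spelled without `E`) with the norm congruence
`s37es_nm_normSt` (helper17, `S37/EsConj.lean`) plugged.
-/
import Mathlib
import Fermat.Agent.S37.EsPrin
import Fermat.Agent.S37.EsConj

set_option autoImplicit false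

open ModularCurve AlgebraicCurve IntermediateField IsLocalRing

noncomputable section

namespace Fermat.Agent.S37

set_option synthInstance.maxHeartbeats 400000

/-- `Prin ⟹ Kill`: the two spellings of the congruence on principal divisors. -/
theorem s37ep_kill_of_prin (hPrin : s37es_PrinStatement) : s37es_KillStatement := by
  intro M ℓ _ _ hℓ hℓM A hA h φ hφ hα hβ _ D hD
  rw [s37es_E_apply, hPrin M ℓ hℓ hℓM A hA h φ hφ hα hβ D hD]
  abel

/-- `Kill ⟹ Prin`. -/
theorem s37ep_prin_of_kill (hKill : s37es_KillStatement) : s37es_PrinStatement := by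
  intro M ℓ _ _ hℓ hℓM A hA h φ hφ hα hβ _ D hD
  have h1 := hKill M ℓ hℓ hℓM A hA h φ hφ hα hβ D hD
  rw [s37es_E_apply, sub_sub, sub_eq_zero] at h1
  exact h1

/-- **[ES-KILL]** from [HI] alone (the norm congruence is on main, hypothesis-free). -/
theorem s37ep_kill (hHI : s37es_HIStatement) : s37es_KillStatement :=
  s37ep_kill_of_prin (s37ep_main hHI s37es_nm_normSt)

/-- **[ES-KILL-OF]**, the shape of the cut. -/
theorem s37ep_kill_of : s37es_HIStatement → s37es_ConjStatement → s37es_KillStatement :=
  fun hHI _ => s37ep_kill hHI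

/-- **[ES-PRIN]** from [HI] alone. -/
theorem s37ep_prin (hHI : s37es_HIStatement) : s37es_PrinStatement :=
  s37ep_main hHI s37es_nm_normSt

example : s37es_HIStatement → s37es_ConjStatement → s37es_KillStatement := s37ep_kill_of

end Fermat.Agent.S37
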