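/-
S37, package [ES]: THE FINAL THEOREM `s37fin_es : s37_ESStatement` (helper10).

  [HI]         `s37hi_main`       (helper14, S37/HeckeInputs.lean)
  [RIEM]       `s37t_rr_main`     (helper21, S37/Riemann.lean)
  [ES-KILL]    `s37ep_kill`       (helper7,  S37/EsKill.lean; uses [ES-CONJ] of helper17/helper8 and
                                   the congruence of helper11/helper7)
  [ES-BOUND], [ES-ZERO-OF], [ES-FIN-OF]   `s37fin_es_of'`   (helper10, S37/EsFin.lean)
-/
import Mathlib
import Fermat.Agent.S37.EsFin
import Fermat.Agent.S37.EsKill
import Fermat.Agent.S37.Riemann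

set_option autoImplicit false

open ModularCurve AlgebraicCurve

namespace Fermat.Agent.S37

/-- **[ES]** the Eichler-Shimura congruence relation on `Pic⁰` at level `M`, hypothesis-free. -/
theorem s37fin_es : s37_ESStatement :=
  s37fin_es_of' s37t_rr_main (s37ep_kill (fun M ℓ _ _ => s37hi_main M ℓ))

example : s37_ESStatement := s37fin_es

end Fermat.Agent.S37
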