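import Fermat.Agent.S37.Defs

set_option autoImplicit false

open ModularCurve

noncomputable section

namespace Fermat.Agent.S37

section Inertia

variable {L : Type} [Field L] [Algebra ℚ L] (A : ValuationSubring L)

/-- Two Frobenius lifts differ by an element of the inertia group. -/
theorem s37f_frob_div_mem {σ σ₀ : L ≃ₐ[ℚ] L} {ℓ : ℕ}
    (hσ : A.IsFrobeniusAt σ ℓ) (hσ₀ : A.IsFrobeniusAt σ₀ ℓ) :
    σ₀⁻¹ * σ ∈ A.inertiaSubgroupIn ℚ := by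
  obtain ⟨h, hx⟩ := hσ
  obtain ⟨h₀, hx₀⟩ := hσ₀
  refine ⟨(⟨σ₀, h₀⟩ : A.decompositionSubgroup ℚ)⁻¹ * ⟨σ, h⟩, ?_, rfl⟩
  show _ ∈ MonoidHom.ker _
  rw [MonoidHom.mem_ker]
  ext x
  show ((⟨σ₀, h₀⟩ : A.decompositionSubgroup ℚ)⁻¹ * ⟨σ, h⟩) • x = x
  rw [mul_smul, hx x, ← hx₀ x, inv_smul_smul]

/-- The inertia group is stable under conjugation by the decomposition group. -/
theorem s37f_conj_mem {σ₀ τ : L ≃ₐ[ℚ] L}
    (h₀ : σ₀ ∈ A.decompositionSubgroup ℚ) (hτ : τ ∈ A.inertiaSubgroupIn ℚ) :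
    σ₀ * τ * σ₀⁻¹ ∈ A.inertiaSubgroupIn ℚ := by
  obtain ⟨t, ht, rfl⟩ := hτ
  refine ⟨(⟨σ₀, h₀⟩ : A.decompositionSubgroup ℚ) * t * (⟨σ₀, h₀⟩ : A.decompositionSubgroup ℚ)⁻¹,
    ?_, rfl⟩
  have hn : (A.inertiaSubgroup ℚ).Normal := by
    unfold ValuationSubring.inertiaSubgroup
    infer_instance
  exact hn.conj_mem t ht _

end Inertia



section Abstract

variable {R : Type} [CommRing R] {J : Type} [AddCommGroup J] [Module R J]
  {Γ : Type} [Group Γ] [DistribMulAction Γ J] [SMulCommClass Γ R J]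

/-- generators of the first kind: `τ x - x`, `τ ∈ I`. -/
def s37f_genI (I : Subgroup Γ) : Set J := {y | ∃ τ ∈ I, ∃ x : J, y = τ • x - x}

/-- generators of the second kind: `σ₀² x - t σ₀ x + ℓ x`. -/
def s37f_genF (σ₀ : Γ) (t : R) (ℓ : ℕ) : Set J :=
  {y | ∃ x : J, y = σ₀ • σ₀ • x - t • (σ₀ • x) + ℓ • x}

theorem s37f_smul_genI (I : Subgroup Γ) (r : R) {y : J} (hy : y ∈ s37f_genI (J := J) I) :
    r • y ∈ s37f_genI (J := J) I := by
  haveI : SMulCommClass R Γ J := SMulCommClass.symm Γ R J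
  obtain ⟨τ, hτ, x, rfl⟩ := hy
  exact ⟨τ, hτ, r • x, by rw [smul_sub, smul_comm r τ x]⟩

theorem s37f_smul_genF (σ₀ : Γ) (t : R) (ℓ : ℕ) (r : R) {y : J}
    (hy : y ∈ s37f_genF (J := J) σ₀ t ℓ) : r • y ∈ s37f_genF (J := J) σ₀ t ℓ := by
  haveI : SMulCommClass R Γ J := SMulCommClass.symm Γ R J
  obtain ⟨x, rfl⟩ := hy
  refine ⟨r • x, ?_⟩
  rw [smul_add, smul_sub, smul_comm r σ₀ (σ₀ • x), smul_comm r σ₀ x, smul_comm r t (σ₀ • x),
    smul_comm r σ₀ x, smul_comm r ℓ x]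

theorem s37f_act_genI (I : Subgroup Γ) (σ₀ : Γ) (hconj : ∀ τ ∈ I, σ₀ * τ * σ₀⁻¹ ∈ I) {y : J}
    (hy : y ∈ s37f_genI (J := J) I) : σ₀ • y ∈ s37f_genI (J := J) I := by
  obtain ⟨τ, hτ, x, rfl⟩ := hy
  refine ⟨σ₀ * τ * σ₀⁻¹, hconj τ hτ, σ₀ • x, ?_⟩
  rw [smul_sub, mul_smul, mul_smul, inv_smul_smul]

theorem s37f_act_genF (σ₀ : Γ) (t : R) (ℓ : ℕ) {y : J}
    (hy : y ∈ s37f_genF (J := J) σ₀ t ℓ) : σ₀ • y ∈ s37f_genF (J := J) σ₀ t ℓ := by
  obtain ⟨x, rfl⟩ := hy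
  refine ⟨σ₀ • x, ?_⟩
  rw [smul_add, smul_sub, smul_comm σ₀ t (σ₀ • x), smul_comm σ₀ ℓ x]

/-- the kernel of the quotient -/
def s37f_K (I : Subgroup Γ) (σ₀ : Γ) (t : R) (ℓ : ℕ) : Submodule R J :=
  Submodule.span R (s37f_genI (J := J) I ∪ s37f_genF (J := J) σ₀ t ℓ)

theorem s37f_act_mem_K (I : Subgroup Γ) (σ₀ : Γ) (hconj : ∀ τ ∈ I, σ₀ * τ * σ₀⁻¹ ∈ I)
    (t : R) (ℓ : ℕ) {k : J} (hk : k ∈ s37f_K (J := J) I σ₀ t ℓ) :
    σ₀ • k ∈ s37f_K (J := J) I σ₀ t ℓ := by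
  unfold s37f_K at hk ⊢
  induction hk using Submodule.span_induction with
  | mem y hy =>
    rcases hy with hy | hy
    · exact Submodule.subset_span (Or.inl (s37f_act_genI I σ₀ hconj hy))
    · exact Submodule.subset_span (Or.inr (s37f_act_genF σ₀ t ℓ hy))
  | zero => rw [smul_zero]; exact Submodule.zero_mem _
  | add x y _ _ hx hy => rw [smul_add]; exact Submodule.add_mem _ hx hy
  | smul r x _ hx => rw [smul_comm σ₀ r x]; exact Submodule.smul_mem _ r hx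

theorem s37f_rho_K {G : Type} [AddCommGroup G] (ρ : J →+ G) (I : Subgroup Γ) (σ₀ : Γ)
    (t : R) (ℓ : ℕ) (hI : ∀ y ∈ s37f_genI (J := J) I, ρ y = 0)
    (hF : ∀ y ∈ s37f_genF (J := J) σ₀ t ℓ, ρ y = 0)
    {k : J} (hk : k ∈ s37f_K (J := J) I σ₀ t ℓ) : ρ k = 0 := by
  have key : ∀ r : R, ρ (r • k) = 0 := by
    unfold s37f_K at hk
    induction hk using Submodule.span_induction with
    | mem y hy =>
      intro r
      rcases hy with hy | hy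
      · exact hI _ (s37f_smul_genI I r hy)
      · exact hF _ (s37f_smul_genF σ₀ t ℓ r hy)
    | zero => intro r; rw [smul_zero, map_zero]
    | add x y _ _ hx hy => intro r; rw [smul_add, map_add, hx r, hy r, add_zero]
    | smul r' x _ hx => intro r; rw [smul_smul]; exact hx _
  simpa using key 1

theorem s37f_rho_KI {G : Type} [AddCommGroup G] (ρ : J →+ G) (I : Subgroup Γ)
    (hI : ∀ y ∈ s37f_genI (J := J) I, ρ y = 0)
    {k : J} (hk : k ∈ Submodule.span R (s37f_genI (J := J) I)) : ρ k = 0 := by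
  have key : ∀ r : R, ρ (r • k) = 0 := by
    induction hk using Submodule.span_induction with
    | mem y hy => intro r; exact hI _ (s37f_smul_genI I r hy)
    | zero => intro r; rw [smul_zero, map_zero]
    | add x y _ _ hx hy => intro r; rw [smul_add, map_add, hx r, hy r, add_zero]
    | smul r' x _ hx => intro r; rw [smul_smul]; exact hx _
  simpa using key 1

/-- the companion endomorphism of `X² - t X + ℓ` on `Q × Q` -/
def s37f_companion (Q : Type) [AddCommGroup Q] [Module R Q] (t : R) (ℓ : ℕ) : Q × Q →+ Q × Q where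
  toFun y := (-(ℓ • y.2), y.1 + t • y.2)
  map_zero' := by simp
  map_add' y z := by
    ext
    · simp only [Prod.snd_add, smul_add, neg_add_rev, Prod.mk_add_mk]; abel
    · simp only [Prod.fst_add, Prod.snd_add, smul_add, Prod.mk_add_mk]; abel

theorem s37f_companion_rel (Q : Type) [AddCommGroup Q] [Module R Q] (t : R) (ℓ : ℕ)
    (y : Q × Q) :
    s37f_companion Q t ℓ (s37f_companion Q t ℓ y) - t • s37f_companion Q t ℓ y + ℓ • y = 0 := by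
  ext
  · simp only [s37f_companion, AddMonoidHom.coe_mk, ZeroHom.coe_mk, smul_add, Prod.smul_mk,
      smul_neg, Prod.mk_sub_mk, Prod.fst_add, Prod.fst_zero, Prod.smul_fst, Prod.snd_add,
      Prod.smul_snd, Prod.snd_zero]
    rw [smul_comm t ℓ y.2]
    abel
  · simp only [s37f_companion, AddMonoidHom.coe_mk, ZeroHom.coe_mk, smul_add, Prod.smul_mk,
      smul_neg, Prod.mk_sub_mk, Prod.fst_add, Prod.fst_zero, Prod.smul_fst, Prod.snd_add,
      Prod.smul_snd, Prod.snd_zero]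
    abel

end Abstract


section Main

theorem s37f_main : s37_FormalStatement := by
  intro hρ N p _ hcomm
  letI := ModularCurve.heckeModuleBar N
  intro hSMC ℓ hℓ hℓNp A hA
  have hℓN : ¬ ℓ ∣ N := fun h => hℓNp (h.mul_right p)
  have hℓp : ∀ n : ℕ, ¬ ℓ ∣ p ^ n := fun n h =>
    hℓNp ((hℓ.dvd_of_dvd_pow h).mul_left N)
  obtain ⟨G, _, ρ, Φ, Ψ, h1, h2, h3, h4, h5⟩ := hρ N ℓ hℓ hℓN A hA
  have hT : ∀ x : JZero N, heckeGen ⟨ℓ, hℓ⟩ • x = heckeOperatorBar N ⟨ℓ, hℓ⟩ x :=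
    fun x => heckeModuleBar_heckeGen_smul hcomm ⟨ℓ, hℓ⟩ x
  by_cases hF : ∃ σ₀ : AlgebraicClosure ℚ ≃ₐ[ℚ] AlgebraicClosure ℚ, A.IsFrobeniusAt σ₀ ℓ
  · obtain ⟨σ₀, hσ₀⟩ := hF
    have hconj : ∀ τ ∈ A.inertiaSubgroupIn ℚ, σ₀ * τ * σ₀⁻¹ ∈ A.inertiaSubgroupIn ℚ :=
      fun τ hτ => s37f_conj_mem A hσ₀.mem_decompositionSubgroup hτ
    let K : Submodule HeckeAlg (JZero N) :=
      s37f_K (A.inertiaSubgroupIn ℚ) σ₀ (heckeGen ⟨ℓ, hℓ⟩) ℓ
    have hgI : ∀ y ∈ s37f_genI (J := JZero N) (A.inertiaSubgroupIn ℚ), ρ y = 0 := by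
      rintro y ⟨τ, hτ, x, rfl⟩
      rw [map_sub, h1 τ hτ x, sub_self]
    have hgF : ∀ y ∈ s37f_genF (J := JZero N) σ₀ (heckeGen ⟨ℓ, hℓ⟩) ℓ, ρ y = 0 := by
      rintro y ⟨x, rfl⟩
      rw [map_add, map_sub, hT, h3, h2 σ₀ hσ₀, h2 σ₀ hσ₀, h4, map_nsmul]
      abel
    have hρK : ∀ k ∈ K, ρ k = 0 := fun k hk =>
      s37f_rho_K ρ (A.inertiaSubgroupIn ℚ) σ₀ _ ℓ hgI hgF hk
    let σlin : JZero N →ₗ[HeckeAlg] JZero N :=
      DistribMulAction.toLinearMap HeckeAlg (JZero N) σ₀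
    have hσK : K ≤ K.comap σlin := fun k hk =>
      s37f_act_mem_K (A.inertiaSubgroupIn ℚ) σ₀ hconj _ ℓ hk
    refine ⟨JZero N ⧸ K, inferInstance, inferInstance, K.mkQ.toAddMonoidHom,
      (K.mapQ K σlin hσK).toAddMonoidHom, ⟨?_, ?_, ?_, ?_⟩, ?_⟩
    · intro T x
      exact (K.mkQ).map_smul T x
    · intro τ hτ x
      show K.mkQ (τ • x) = K.mkQ x
      rw [← sub_eq_zero, ← map_sub, Submodule.mkQ_apply, Submodule.Quotient.mk_eq_zero]
      exact Submodule.subset_span (Or.inl ⟨τ, hτ, x, rfl⟩)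
    · intro σ hσ x
      show K.mkQ (σ • x) = K.mapQ K σlin hσK (K.mkQ x)
      have hτ := s37f_frob_div_mem A hσ hσ₀
      have e : σ • x = σ₀ • ((σ₀⁻¹ * σ) • x) := by rw [← mul_smul, mul_inv_cancel_left]
      rw [Submodule.mkQ_apply, Submodule.mkQ_apply, Submodule.mapQ_apply, e]
      show Submodule.Quotient.mk (σ₀ • ((σ₀⁻¹ * σ) • x)) = Submodule.Quotient.mk (σ₀ • x)
      rw [← sub_eq_zero, ← Submodule.Quotient.mk_sub, Submodule.Quotient.mk_eq_zero]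
      have e2 : σ₀ • ((σ₀⁻¹ * σ) • x) - σ₀ • x = σ₀ • ((σ₀⁻¹ * σ) • x - x) :=
        (smul_sub σ₀ _ _).symm
      rw [e2]
      exact s37f_act_mem_K (A.inertiaSubgroupIn ℚ) σ₀ hconj _ ℓ
        (Submodule.subset_span (Or.inl ⟨_, hτ, x, rfl⟩))
    · rintro x ⟨n, hn⟩ hx
      have hxK : x ∈ K := by
        have : K.mkQ x = 0 := hx
        rwa [Submodule.mkQ_apply, Submodule.Quotient.mk_eq_zero] at this
      exact h5 (p ^ n) (hℓp n) x hn (hρK x hxK)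
    · intro y
      obtain ⟨x, rfl⟩ := K.mkQ_surjective y
      show K.mapQ K σlin hσK (K.mapQ K σlin hσK (K.mkQ x)) -
        heckeGen ⟨ℓ, hℓ⟩ • K.mapQ K σlin hσK (K.mkQ x) + ℓ • K.mkQ x = 0
      rw [Submodule.mkQ_apply, Submodule.mapQ_apply, Submodule.mapQ_apply,
        ← Submodule.Quotient.mk_smul, ← Submodule.Quotient.mk_smul, ← Submodule.Quotient.mk_sub,
        ← Submodule.Quotient.mk_add, Submodule.Quotient.mk_eq_zero]
      exact Submodule.subset_span (Or.inr ⟨x, rfl⟩)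
  · let K : Submodule HeckeAlg (JZero N) :=
      Submodule.span HeckeAlg (s37f_genI (J := JZero N) (A.inertiaSubgroupIn ℚ))
    have hgI : ∀ y ∈ s37f_genI (J := JZero N) (A.inertiaSubgroupIn ℚ), ρ y = 0 := by
      rintro y ⟨τ, hτ, x, rfl⟩
      rw [map_sub, h1 τ hτ x, sub_self]
    have hρK : ∀ k ∈ K, ρ k = 0 := fun k hk =>
      s37f_rho_KI ρ (A.inertiaSubgroupIn ℚ) hgI hk
    refine ⟨(JZero N ⧸ K) × (JZero N ⧸ K), inferInstance, inferInstance,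
      (AddMonoidHom.inl (JZero N ⧸ K) (JZero N ⧸ K)).comp K.mkQ.toAddMonoidHom,
      s37f_companion (JZero N ⧸ K) (heckeGen ⟨ℓ, hℓ⟩) ℓ, ⟨?_, ?_, ?_, ?_⟩, ?_⟩
    · intro T x
      show ((K.mkQ (T • x), (0 : JZero N ⧸ K)) : (JZero N ⧸ K) × (JZero N ⧸ K)) =
        T • ((K.mkQ x, (0 : JZero N ⧸ K)) : (JZero N ⧸ K) × (JZero N ⧸ K))
      rw [Prod.smul_mk, smul_zero, map_smul]
    · intro τ hτ x
      show ((K.mkQ (τ • x), (0 : JZero N ⧸ K)) : (JZero N ⧸ K) × (JZero N ⧸ K)) =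
        (K.mkQ x, 0)
      have : K.mkQ (τ • x) = K.mkQ x := by
        rw [← sub_eq_zero, ← map_sub, Submodule.mkQ_apply, Submodule.Quotient.mk_eq_zero]
        exact Submodule.subset_span ⟨τ, hτ, x, rfl⟩
      rw [this]
    · intro σ hσ
      exact absurd ⟨σ, hσ⟩ hF
    · rintro x ⟨n, hn⟩ hx
      have hx1 : K.mkQ x = 0 := congrArg Prod.fst hx
      have hxK : x ∈ K := by
        rwa [Submodule.mkQ_apply, Submodule.Quotient.mk_eq_zero] at hx1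
      exact h5 (p ^ n) (hℓp n) x hn (hρK x hxK)
    · intro y
      exact s37f_companion_rel (JZero N ⧸ K) (heckeGen ⟨ℓ, hℓ⟩) ℓ y

end Main

end Fermat.Agent.S37
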