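/-
S37, [FROB] (lead): the residue field of a valuation ring of `Q̄` over `ℓ` is algebraically closed
of characteristic `ℓ`, hence perfect: the Frobenius is an automorphism.
-/
import Mathlib
import Fermat.Agent.S37.RhoDefs
import Fermat.Agent.S18.WireOfRes

set_option autoImplicit false

namespace Fermat.Agent.S37

/-- **[FROB]** -/
theorem s37_frob_main : s37_FrobStatement := by
  intro ℓ _ A hA
  haveI : CharP (IsLocalRing.ResidueField A) ℓ := Fermat.Agent.S18.s18w_charP A hA
  haveI : IsAlgClosed (IsLocalRing.ResidueField A) := Fermat.Agent.S18.s18w_isAlgClosed A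
  haveI : ExpChar (IsLocalRing.ResidueField A) ℓ := ExpChar.prime (Fact.out : ℓ.Prime)
  exact ⟨frobeniusEquiv (IsLocalRing.ResidueField A) ℓ, fun a => frobeniusEquiv_apply _ ℓ a⟩

end Fermat.Agent.S37
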