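/-
S37, package [RI], leaf [RI-PGI] (owner: helper18).  Prefix `s37pgi_`.

PART 0: the input from S28 / [RI-UNIT] and the functoriality of `F_k(M)` in the field `k`.

* `s37pgi_KeyStatement`: the KEY of S28 (`s28_KeyAt`) TOGETHER WITH the membership of the
  reduction of the key element in `F_{𝔽_ℓ}(M) = 𝔽_ℓ(j̄(q^d) : d ∣ M)` (Igusa's birationality;
  the membership is the content of [RI-UNIT], helper27).
* `s37pgi_coeffMap_mem`: a homomorphism of fields `φ : k₁ → k₂` maps `F_{k₁}(M)` into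
  `F_{k₂}(M)` (coefficientwise).
-/
import Mathlib
import Fermat.Prelude.Def_ModularCurve_ReductionModL

set_option autoImplicit false

open ModularCurve AlgebraicCurve IntermediateField Polynomial
open scoped MatrixGroups

noncomputable section

namespace Fermat.Agent.S37

/-- **KEY with membership**: there is `g ∈ ℤ((q))` whose image in `ℚ((q))` lies in `F_ℚ(M)`,
whose reduction modulo `ℓ` lies in `F_{𝔽_ℓ}(M)`, and such that `1, ḡ, …, ḡ^(ψ(M) - 1)` are
linearly independent over `𝔽_ℓ[j̄]`. -/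
def s37pgi_KeyStatement : Prop :=
  ∀ (M ℓ : ℕ) [NeZero M] [Fact ℓ.Prime], ¬ ℓ ∣ M →
    ∃ g : LaurentSeries ℤ,
      coeffMap (Int.castRingHom ℚ) g ∈ modularFunctionFieldFull M ∧
      coeffMap (Int.castRingHom (ZMod ℓ)) g ∈ modularFunctionFieldFullC (ZMod ℓ) M ∧
      ∀ Q : (ZMod ℓ)[X][X], Q ≠ 0 →
        Q.natDegree < Nat.card (SL(2, ℤ) ⧸ CongruenceSubgroup.Gamma0 M) →
        (Q.map (aeval (jqModC (ZMod ℓ))).toRingHom).eval
          (coeffMap (Int.castRingHom (ZMod ℓ)) g) ≠ 0

section Functoriality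

variable {k₁ k₂ : Type*} [Field k₁] [Field k₂]

theorem s37pgi_coeffMap_algebraMap (φ : k₁ →+* k₂) (c : k₁) :
    coeffMap φ (algebraMap k₁ (LaurentSeries k₁) c) =
      algebraMap k₂ (LaurentSeries k₂) (φ c) := by
  rw [algebraMap_laurentSeries_eq_single, algebraMap_laurentSeries_eq_single, coeffMap_single]

theorem s37pgi_coeffMap_mem_aux (φ : k₁ →+* k₂) (M : ℕ) [NeZero M] {x : LaurentSeries k₁}
    (hx : x ∈ Subfield.closure
      (Set.range (algebraMap k₁ (LaurentSeries k₁)) ∪ divisorExpansionsC k₁ M)) :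
    coeffMap φ x ∈ modularFunctionFieldFullC k₂ M := by
  induction hx using Subfield.closure_induction with
  | mem y hy =>
      rcases hy with ⟨a, rfl⟩ | ⟨d, hd, hdM, rfl⟩
      · rw [s37pgi_coeffMap_algebraMap]
        exact (modularFunctionFieldFullC k₂ M).algebraMap_mem _
      · haveI := hd
        rw [coeffMap_qExpand, coeffMap_jqModC]
        exact jqModCd_mem_full k₂ M hdM
  | one => rw [map_one]; exact one_mem _
  | add x y _ _ hx hy => rw [map_add]; exact add_mem hx hy
  | neg x _ hx => rw [map_neg]; exact neg_mem hx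
  | inv x _ hx => rw [map_inv₀]; exact inv_mem hx
  | mul x y _ _ hx hy => rw [map_mul]; exact mul_mem hx hy

/-- A homomorphism of fields maps `F_{k₁}(M)` into `F_{k₂}(M)`. -/
theorem s37pgi_coeffMap_mem (φ : k₁ →+* k₂) (M : ℕ) [NeZero M] {x : LaurentSeries k₁}
    (hx : x ∈ modularFunctionFieldFullC k₁ M) :
    coeffMap φ x ∈ modularFunctionFieldFullC k₂ M :=
  s37pgi_coeffMap_mem_aux φ M hx

end Functoriality

end Fermat.Agent.S37
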