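/-
S37, package [RI], leaf [RI-PGI] (owner: helper18).  Prefix `s37pgi_`.

PART 1: THE `q`-EXPANSION PRINCIPLE OVER A DISCRETE VALUATION RING.

`O` a discrete valuation ring of residue characteristic `ℓ ∤ M`, `K = Frac O` of characteristic
`0`, `κ` the residue field, `F = F_K(M) ⊆ K((q))`, `V = F ∩ R` the valuation ring of the Gauss
valuation (`R` = quotients `a / s` of integral series with `s̄ ≠ 0`; helper11's `s18ga_V`),
`ρ : V → κ((q))` the reduction.

    theorem s37pgi_rho_mem :  ρ(V) ⊆ F_κ(M) = κ(j̄(q^d) : d ∣ M)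

PROOF.  `V` is spanned over `V ∩ K(j)` by the powers `1, g, …, g^(ψ(M) - 1)` of the KEY element
(`s18ga_span`, basis argument), the reduction of `V ∩ K(j)` lies in `κ(j̄)` (`s18ga_bridge`), and
`ḡ ∈ F_{𝔽_ℓ}(M)` by `s37pgi_KeyStatement`.
-/
import Mathlib
import Fermat.Agent.S18.GaussAbs
import Fermat.Agent.S18.GaussQOfBasic
import Fermat.Agent.S18.GaussQOfFrac
import Fermat.Agent.S18.GaussQOfSpan
import Fermat.Agent.S18.GaussQOfIndep
import Fermat.Agent.S37.PgiKey

set_option autoImplicit false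
set_option linter.unusedSectionVars false
set_option linter.unusedVariables false
set_option linter.style.haveILetI false
set_option maxHeartbeats 1000000
set_option synthInstance.maxHeartbeats 400000

open ModularCurve AlgebraicCurve IntermediateField Polynomial
open scoped MatrixGroups
open Fermat.Agent.S18

noncomputable section

namespace Fermat.Agent.S37

section Local

variable (O K : Type) [CommRing O] [IsDomain O] [IsDiscreteValuationRing O] [Field K]
  [CharZero K] [Algebra O K] [IsFractionRing O K] (M : ℕ) [NeZero M]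

/-- Every element of `F_K(M)` is a quotient of two integral series. -/
theorem s37pgi_hfrac : ∀ y ∈ s18_F K M, ∃ a b : LaurentSeries O, b ≠ 0 ∧
    y * coeffMap (algebraMap O K) b = coeffMap (algebraMap O K) a :=
  fun y hy => s18gq_isFrac_of_mem O K M y hy

/-- The valuation ring `V = F_K(M) ∩ R` of the Gauss valuation. -/
abbrev s37pgi_V : ValuationSubring ↥(s18_F K M) :=
  s18ga_V (s18_F K M) (s37pgi_hfrac O K M)

/-- The reduction map `ρ : V → κ((q))`. -/
abbrev s37pgi_rho : ↥(s37pgi_V O K M) →+* LaurentSeries (IsLocalRing.ResidueField O) :=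
  s18ga_rhoV (s37pgi_hfrac O K M)

/-- Integral series in `F_K(M)` lie in `V`. -/
theorem s37pgi_int_mem_V (y : LaurentSeries O) (hy : coeffMap (algebraMap O K) y ∈ s18_F K M) :
    (⟨coeffMap (algebraMap O K) y, hy⟩ : ↥(s18_F K M)) ∈ s37pgi_V O K M := by
  rw [s18ga_mem_V_iff]
  exact s18ga_int_mem _

/-- The reduction of an integral series is its coefficientwise reduction. -/
theorem s37pgi_rho_int (y : LaurentSeries O) (hy : coeffMap (algebraMap O K) y ∈ s18_F K M) :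
    s37pgi_rho O K M ⟨⟨coeffMap (algebraMap O K) y, hy⟩, s37pgi_int_mem_V O K M y hy⟩ =
      coeffMap (IsLocalRing.residue O) y :=
  s18ga_rhoV_int (s37pgi_hfrac O K M) y _ rfl

/-- **The `q`-expansion principle over a discrete valuation ring**: the reduction of
`V = F_K(M) ∩ R` lies in `F_κ(M)`. -/
theorem s37pgi_rho_mem (hkey : s37pgi_KeyStatement) (ℓ : ℕ) [Fact ℓ.Prime] (hℓM : ¬ ℓ ∣ M)
    (hℓ : (ℓ : O) ∈ IsLocalRing.maximalIdeal O) (v : ↥(s37pgi_V O K M)) :
    s37pgi_rho O K M v ∈ modularFunctionFieldFullC (IsLocalRing.ResidueField O) M := by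
  classical
  obtain ⟨g, hgQ, hgℓ, hkeyg⟩ := hkey M ℓ hℓM
  haveI := s18gq_charP O ℓ hℓ
  letI : Algebra (ZMod ℓ) (IsLocalRing.ResidueField O) := ZMod.algebra _ ℓ
  have hfrac := s37pgi_hfrac O K M
  letI : Algebra O ↥(s18_F K M) := s18_algOFF O K (s18_F K M)
  haveI : IsScalarTower O K ↥(s18_F K M) := IsScalarTower.of_algebraMap_eq (fun _ => rfl)
  -- the data of the abstract core
  have hO : ∀ a : O, algebraMap O ↥(s18_F K M) a ∈ s37pgi_V O K M := fun a =>
    s18ga_hOV (s37pgi_hfrac O K M) a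
  have hρ : ∀ a : O, s37pgi_rho O K M (s18ga_iotaV hO a) =
      algebraMap (IsLocalRing.ResidueField O) (LaurentSeries (IsLocalRing.ResidueField O))
        (IsLocalRing.residue O a) := by
    intro a
    rw [s18ga_rhoV_int (s37pgi_hfrac O K M) (HahnSeries.C a) _ (s18ga_coe_algebraMap a),
      s18ga_coeffMap_C, HahnSeries.C_apply, ← algebraMap_laurentSeries_eq_single]
  have hunit : ∀ y : ↥(s37pgi_V O K M), s37pgi_rho O K M y ≠ 0 →
      ((y : ↥(s18_F K M)))⁻¹ ∈ s37pgi_V O K M := s18ga_hunitV (s37pgi_hfrac O K M)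
  have hx : ((s18_j K M : ↥(s18_F K M)) : LaurentSeries K) =
      coeffMap (algebraMap O K) (jqModC O) := s18gq_j_coe' O K M
  have hxV : s18_j K M ∈ s37pgi_V O K M := by
    rw [s18ga_mem_V_iff, hx]
    exact s18ga_int_mem _
  have hρt : s37pgi_rho O K M ⟨s18_j K M, hxV⟩ = jqModC (IsLocalRing.ResidueField O) := by
    rw [s18ga_rhoV_int (s37pgi_hfrac O K M) (jqModC O) _ hx, coeffMap_jqModC]
  have htr' : Transcendental (IsLocalRing.ResidueField O)
      (s37pgi_rho O K M ⟨s18_j K M, hxV⟩) := by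
    rw [hρt]
    exact s18gq_transc_jq _
  -- the powers of the key element
  have hgF : ∀ i : ℕ, coeffMap (algebraMap O K) (coeffMap (Int.castRingHom O) (g ^ i)) ∈
      s18_F K M := fun i => s18gq_g_mem O K M g hgQ i
  have hguV : ∀ i : ℕ, (⟨_, hgF i⟩ : ↥(s18_F K M)) ∈ s37pgi_V O K M := fun i => by
    rw [s18ga_mem_V_iff]
    exact s18ga_int_mem _
  have hρu : ∀ i : ℕ, s37pgi_rho O K M ⟨⟨_, hgF i⟩, hguV i⟩ =
      coeffMap (algebraMap (ZMod ℓ) (IsLocalRing.ResidueField O))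
        (coeffMap (Int.castRingHom (ZMod ℓ)) g ^ i) := by
    intro i
    rw [s18ga_rhoV_int (s37pgi_hfrac O K M) _ _ rfl, ← map_pow, coeffMap_coeffMap,
      coeffMap_coeffMap]
    exact coeffMap_congr (RingHom.ext_int _ _) _
  have hpoly : ∀ c : Fin (Nat.card (SL(2, ℤ) ⧸ CongruenceSubgroup.Gamma0 M)) →
      (IsLocalRing.ResidueField O)[X],
      ∑ i, aeval (s37pgi_rho O K M ⟨s18_j K M, hxV⟩) (c i) *
        s37pgi_rho O K M ⟨⟨_, hgF (i : ℕ)⟩, hguV (i : ℕ)⟩ = 0 → ∀ i, c i = 0 := by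
    intro c hc
    refine s18gq_indep_ext (jqModC (ZMod ℓ)) (coeffMap (Int.castRingHom (ZMod ℓ)) g) _ hkeyg c ?_
    rw [← hc]
    refine Finset.sum_congr rfl fun i _ => ?_
    rw [hρt, hρu, coeffMap_jqModC, map_pow]
  obtain ⟨hfin, hrank⟩ := s18ga_finrank_le (s18_j K M)
    (Nat.card (SL(2, ℤ) ⧸ CongruenceSubgroup.Gamma0 M)) (s18gq_span K M)
  have hu := s18ga_hu_of_poly (K := K) hunit hO hρ ⟨s18_j K M, hxV⟩ htr'
    (Nat.card (SL(2, ℤ) ⧸ CongruenceSubgroup.Gamma0 M))
    (fun i => ⟨⟨_, hgF (i : ℕ)⟩, hguV (i : ℕ)⟩) hpoly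
  obtain ⟨c, hcK, hcV, hsum⟩ := s18ga_span (K := K) hunit K⟮s18_j K M⟯
    (Nat.card (SL(2, ℤ) ⧸ CongruenceSubgroup.Gamma0 M)) hrank
    (fun i => ⟨⟨_, hgF (i : ℕ)⟩, hguV (i : ℕ)⟩) hu (v : ↥(s18_F K M)) v.2
  have hv : v = ∑ i, (⟨c i, hcV i⟩ : ↥(s37pgi_V O K M)) * ⟨⟨_, hgF (i : ℕ)⟩, hguV (i : ℕ)⟩ := by
    apply Subtype.ext
    rw [hsum, AddSubmonoidClass.coe_finsetSum]
    rfl
  rw [hv, map_sum]
  refine Subfield.sum_mem _ fun i _ => ?_
  rw [map_mul]
  refine mul_mem ?_ ?_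
  · -- the reduction of `V ∩ K(j)` lies in `κ(j̄)`
    obtain ⟨P, S, hS, hPS⟩ := s18ga_bridge (K := K) hunit hO hρ ⟨s18_j K M, hxV⟩ htr'
      ⟨c i, hcV i⟩ (hcK i)
    have hS0 : aeval (s37pgi_rho O K M ⟨s18_j K M, hxV⟩) S ≠ 0 := fun h =>
      hS ((transcendental_iff.mp htr') _ h)
    have hmem : ∀ P : (IsLocalRing.ResidueField O)[X],
        aeval (s37pgi_rho O K M ⟨s18_j K M, hxV⟩) P ∈
          modularFunctionFieldFullC (IsLocalRing.ResidueField O) M := by
      intro P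
      rw [hρt, Polynomial.aeval_eq_sum_range]
      refine Subfield.sum_mem _ fun n _ => ?_
      rw [Algebra.smul_def]
      exact mul_mem ((modularFunctionFieldFullC (IsLocalRing.ResidueField O) M).algebraMap_mem _)
        (pow_mem (jqModC_mem_full _ M) _)
    rw [eq_div_of_mul_eq hS0 hPS]
    exact div_mem (hmem P) (hmem S)
  · rw [hρu]
    exact s37pgi_coeffMap_mem _ M (pow_mem hgℓ _)

/-- **The `q`-expansion principle over a discrete valuation ring, for integral series.** -/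
theorem s37pgi_qep_dvr (hkey : s37pgi_KeyStatement) (ℓ : ℕ) [Fact ℓ.Prime] (hℓM : ¬ ℓ ∣ M)
    (hℓ : (ℓ : O) ∈ IsLocalRing.maximalIdeal O) (y : LaurentSeries O)
    (hy : coeffMap (algebraMap O K) y ∈ s18_F K M) :
    coeffMap (IsLocalRing.residue O) y ∈
      modularFunctionFieldFullC (IsLocalRing.ResidueField O) M := by
  rw [← s37pgi_rho_int O K M y hy]
  exact s37pgi_rho_mem O K M hkey ℓ hℓM hℓ _

end Local

end Fermat.Agent.S37
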