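/-
S37, package [RI], leaf [RI-PGI] (owner: helper18).  Prefix `s37pgi_`.

PART 2: DESCENT TO NUMBER FIELDS.  `A ⊆ Q̄` a valuation ring over `ℓ ∤ M`, `k` its residue field.

* `s37pgi_descend`: an integral series `y ∈ A((q))` with `ι y ∈ F̄_M` comes from a series
  `y₁ ∈ O((q))`, `O = A ∩ K0` (a discrete valuation ring), `K0 ⊆ Q̄` a number field, with
  `ι y₁ ∈ F_{K0}(M)`.
* `s37pgi_qep` : THE `q`-EXPANSION PRINCIPLE OVER `A`: the reduction of an integral series in
  `F̄_M` lies in `F_k(M)`.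
* `s37pgi_norm`: GAUSS NORMALISATION OVER `A`: a non-zero integral series in `F̄_M` is a constant
  `c ∈ A \ {0}` times an integral series (in `F̄_M`) with non-zero reduction.
-/
import Mathlib
import Fermat.Agent.S18.RatQDescent
import Fermat.Agent.S18.RatQRing
import Fermat.Agent.S37.PgiLocal

set_option autoImplicit false
set_option linter.unusedSectionVars false
set_option linter.unusedVariables false
set_option linter.style.haveILetI false
set_option maxHeartbeats 1000000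
set_option synthInstance.maxHeartbeats 400000

open ModularCurve AlgebraicCurve IntermediateField Polynomial
open scoped MatrixGroups
open Fermat.Agent.S18

noncomputable section

namespace Fermat.Agent.S37

section Descent

variable (M : ℕ) [NeZero M] {ℓ : ℕ} [Fact ℓ.Prime]
  (A : ValuationSubring (AlgebraicClosure ℚ))

/-- `ℓ` lies in the maximal ideal of `O = A ∩ K0`. -/
theorem s37pgi_ell_mem (hA : A.LiesOverPrime ℓ)
    (K0 : IntermediateField ℚ (AlgebraicClosure ℚ)) :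
    (ℓ : ↥(A.comap (algebraMap ↥K0 (AlgebraicClosure ℚ)))) ∈
      IsLocalRing.maximalIdeal ↥(A.comap (algebraMap ↥K0 (AlgebraicClosure ℚ))) := by
  apply s18rq_natCast_mem_maximalIdeal
  apply s18rq_nonunits_comap
  rw [map_natCast]
  exact hA

/-- `O = A ∩ K0` is a discrete valuation ring. -/
theorem s37pgi_dvr (hA : A.LiesOverPrime ℓ)
    (K0 : IntermediateField ℚ (AlgebraicClosure ℚ)) (hK0 : FiniteDimensional ℚ ↥K0) :
    IsDiscreteValuationRing ↥(A.comap (algebraMap ↥K0 (AlgebraicClosure ℚ))) := by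
  have hℓO : (ℓ : ↥K0) ∈ (A.comap (algebraMap ↥K0 (AlgebraicClosure ℚ))).nonunits := by
    apply s18rq_nonunits_comap
    rw [map_natCast]
    exact hA
  apply s18disc_main ℚ ↥K0
  apply s18rq_dvrQ _ ℓ
  apply s18rq_nonunits_comap
  rw [map_natCast]
  exact hℓO

/-- The inclusion `O = A ∩ K0 → A` is injective. -/
theorem s37pgi_incl_injective (K0 : IntermediateField ℚ (AlgebraicClosure ℚ)) :
    Function.Injective (s18rq_incl (algebraMap ↥K0 (AlgebraicClosure ℚ)) A) := by
  intro x y h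
  have h1 := congrArg (Subtype.val) h
  rw [s18rq_incl_coe, s18rq_incl_coe] at h1
  exact Subtype.ext ((algebraMap ↥K0 (AlgebraicClosure ℚ)).injective h1)

/-- The inclusion `O = A ∩ K0 → A` is a local homomorphism. -/
theorem s37pgi_incl_isLocalHom (K0 : IntermediateField ℚ (AlgebraicClosure ℚ)) :
    IsLocalHom (s18rq_incl (algebraMap ↥K0 (AlgebraicClosure ℚ)) A) :=
  ⟨fun x hx => (s18rq_isUnit_incl _ A x).1 hx⟩

/-- **Descent of an integral series.** -/
theorem s37pgi_descend (y : LaurentSeries ↥A)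
    (hy : coeffMap A.subtype y ∈ modularFunctionFieldBar M) :
    ∃ K0 : IntermediateField ℚ (AlgebraicClosure ℚ), FiniteDimensional ℚ ↥K0 ∧
      ∃ y1 : LaurentSeries ↥(A.comap (algebraMap ↥K0 (AlgebraicClosure ℚ))),
        coeffMap (algebraMap ↥(A.comap (algebraMap ↥K0 (AlgebraicClosure ℚ))) ↥K0) y1 ∈
          s18_F ↥K0 M ∧
        coeffMap (s18rq_incl (algebraMap ↥K0 (AlgebraicClosure ℚ)) A) y1 = y := by
  obtain ⟨K0, hK0, y0, hy0, hyy⟩ := s18rq_descent M hy
  refine ⟨K0, hK0, ?_⟩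
  have hk : ∀ k, algebraMap ↥K0 (AlgebraicClosure ℚ) (y0.coeff k) = (y.coeff k : _) := by
    intro k
    have := congrArg (fun z => z.coeff k) hyy
    simpa using this
  obtain ⟨y1, hy1⟩ := s18rq_lift
    (algebraMap ↥(A.comap (algebraMap ↥K0 (AlgebraicClosure ℚ))) ↥K0) y0
    (fun k => ⟨⟨y0.coeff k, by
      rw [ValuationSubring.mem_comap, hk k]
      exact (y.coeff k).2⟩, rfl⟩)
  refine ⟨y1, hy1 ▸ hy0, ?_⟩
  ext k
  rw [coeffMap_coeff, s18rq_incl_coe, ← hk k, ← hy1]
  rfl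

variable {M A}

/-- **THE `q`-EXPANSION PRINCIPLE OVER `A`.** -/
theorem s37pgi_qep (hkey : s37pgi_KeyStatement) (hℓM : ¬ ℓ ∣ M) (hA : A.LiesOverPrime ℓ)
    (y : LaurentSeries ↥A) (hy : coeffMap A.subtype y ∈ modularFunctionFieldBar M) :
    coeffMap (IsLocalRing.residue ↥A) y ∈
      modularFunctionFieldFullC (IsLocalRing.ResidueField ↥A) M := by
  obtain ⟨K0, hK0, y1, hy1, rfl⟩ := s37pgi_descend M A y hy
  haveI := s37pgi_dvr A hA K0 hK0
  haveI := s37pgi_incl_isLocalHom A K0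
  have h1 := s37pgi_qep_dvr ↥(A.comap (algebraMap ↥K0 (AlgebraicClosure ℚ))) ↥K0 M hkey ℓ hℓM
    (s37pgi_ell_mem A hA K0) y1 hy1
  have h2 := s37pgi_coeffMap_mem
    (IsLocalRing.ResidueField.map (s18rq_incl (algebraMap ↥K0 (AlgebraicClosure ℚ)) A)) M h1
  rw [coeffMap_coeffMap] at h2 ⊢
  exact h2

/-- **GAUSS NORMALISATION OVER `A`.** -/
theorem s37pgi_norm (hA : A.LiesOverPrime ℓ)
    (y : LaurentSeries ↥A) (hy : coeffMap A.subtype y ∈ modularFunctionFieldBar M)
    (hy0 : y ≠ 0) :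
    ∃ (c : ↥A) (y' : LaurentSeries ↥A), c ≠ 0 ∧ y = HahnSeries.C c * y' ∧
      coeffMap (IsLocalRing.residue ↥A) y' ≠ 0 := by
  obtain ⟨K0, hK0, y1, hy1, rfl⟩ := s37pgi_descend M A y hy
  haveI := s37pgi_dvr A hA K0 hK0
  obtain ⟨ϖ, hϖ⟩ := IsDiscreteValuationRing.exists_irreducible
    ↥(A.comap (algebraMap ↥K0 (AlgebraicClosure ℚ)))
  have hy10 : y1 ≠ 0 := by
    rintro rfl
    exact hy0 (map_zero _)
  obtain ⟨m, a', ha', rfl⟩ := s18ga_exists_factor hϖ y1 hy10
  refine ⟨s18rq_incl (algebraMap ↥K0 (AlgebraicClosure ℚ)) A (ϖ ^ m),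
    coeffMap (s18rq_incl (algebraMap ↥K0 (AlgebraicClosure ℚ)) A) a', ?_, ?_, ?_⟩
  · intro h0
    have := s37pgi_incl_injective A K0 (h0.trans (map_zero _).symm)
    exact pow_ne_zero _ hϖ.ne_zero this
  · rw [map_mul, map_pow, s18ga_coeffMap_C, ← map_pow, ← map_pow]
  · intro h0
    apply ha'
    ext k
    have := congrArg (fun z => z.coeff k) h0
    simp only [coeffMap_coeff, HahnSeries.coeff_zero] at this ⊢
    rw [s18rq_residue_incl] at this
    exact this

end Descent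

end Fermat.Agent.S37
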