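/-
S37, package [RI], leaf [RI-PGI] (owner: helper18).  Prefix `s37pgi_`.

PART 4: EVERY FUNCTION IS A CONSTANT TIMES A QUOTIENT OF VALID SERIES.

`A ⊆ Q̄` a valuation ring over `ℓ ∤ M`, `k` its residue field.  `y ∈ A((q))` is VALID if
`ι y ∈ F̄_M`, `ȳ ∈ F_k(M)` and `ȳ ≠ 0` (`s37pgi_Valid`).

    theorem s37pgi_frac :  f ∈ F̄_M, f ≠ 0  ⟹  f · ι y₂ = c · ι y₁,  c ∈ Q̄ˣ, y₁, y₂ valid.

PROOF.  The set of all such `f` (together with `0`) contains the constants and the generators
`j(q^d)` and is closed under products and inverses (trivially) and under sums: the numerator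
`c y₁ y₂' + c' y₁' y₂` is `c ·` (an integral series of `F̄_M`) if `c'/c ∈ A`, and a non-zero
integral series of `F̄_M` is a constant times a valid one by the Gauss normalisation
`s37pgi_norm` and the `q`-expansion principle `s37pgi_qep`.
-/
import Mathlib
import Fermat.Agent.S37.PgiDescent

set_option autoImplicit false
set_option linter.unusedSectionVars false
set_option linter.unusedVariables false
set_option linter.style.haveILetI false
set_option maxHeartbeats 1000000
set_option synthInstance.maxHeartbeats 400000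

open ModularCurve AlgebraicCurve IntermediateField Polynomial
open scoped MatrixGroups
open Fermat.Agent.S18

noncomputable section

namespace Fermat.Agent.S37

section Frac

variable (A : ValuationSubring (AlgebraicClosure ℚ)) (M : ℕ) [NeZero M]

/-- `y ∈ A((q))` is VALID: `ι y ∈ F̄_M` and `0 ≠ ȳ ∈ F_k(M)`. -/
def s37pgi_Valid (y : LaurentSeries ↥A) : Prop :=
  coeffMap A.subtype y ∈ modularFunctionFieldBar M ∧
    coeffMap (IsLocalRing.residue ↥A) y ∈
      modularFunctionFieldFullC (IsLocalRing.ResidueField ↥A) M ∧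
    coeffMap (IsLocalRing.residue ↥A) y ≠ 0

/-- `f` is `0` or a non-zero constant times a quotient of two valid series. -/
def s37pgi_Good (f : LaurentSeries (AlgebraicClosure ℚ)) : Prop :=
  f = 0 ∨ ∃ (c : AlgebraicClosure ℚ) (y₁ y₂ : LaurentSeries ↥A), c ≠ 0 ∧
    s37pgi_Valid A M y₁ ∧ s37pgi_Valid A M y₂ ∧
    f * coeffMap A.subtype y₂ =
      algebraMap (AlgebraicClosure ℚ) (LaurentSeries (AlgebraicClosure ℚ)) c *
        coeffMap A.subtype y₁

variable {A M}

theorem s37pgi_iota_injective : Function.Injective (coeffMap A.subtype) :=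
  s18rq_coeffMap_injective _ Subtype.val_injective

theorem s37pgi_iota_ne_zero {y : LaurentSeries ↥A}
    (h : coeffMap (IsLocalRing.residue ↥A) y ≠ 0) : coeffMap A.subtype y ≠ 0 := by
  intro h0
  have : y = 0 := s37pgi_iota_injective (h0.trans (map_zero _).symm)
  exact h (by rw [this, map_zero])

theorem s37pgi_Valid.ne_zero {y : LaurentSeries ↥A} (h : s37pgi_Valid A M y) :
    coeffMap A.subtype y ≠ 0 :=
  s37pgi_iota_ne_zero h.2.2

theorem s37pgi_valid_one : s37pgi_Valid A M 1 :=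
  ⟨by rw [map_one]; exact one_mem _, by rw [map_one]; exact one_mem _,
    by rw [map_one]; exact one_ne_zero⟩

theorem s37pgi_Valid.mul {y₁ y₂ : LaurentSeries ↥A} (h₁ : s37pgi_Valid A M y₁)
    (h₂ : s37pgi_Valid A M y₂) : s37pgi_Valid A M (y₁ * y₂) :=
  ⟨by rw [map_mul]; exact mul_mem h₁.1 h₂.1, by rw [map_mul]; exact mul_mem h₁.2.1 h₂.2.1,
    by rw [map_mul]; exact mul_ne_zero h₁.2.2 h₂.2.2⟩

theorem s37pgi_iota_C (a : ↥A) :
    coeffMap A.subtype (HahnSeries.C a : LaurentSeries ↥A) =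
      algebraMap (AlgebraicClosure ℚ) (LaurentSeries (AlgebraicClosure ℚ))
        (a : AlgebraicClosure ℚ) := by
  rw [s18ga_coeffMap_C, HahnSeries.C_apply, ← algebraMap_laurentSeries_eq_single]
  rfl

/-! ### Closure properties -/

theorem s37pgi_good_zero : s37pgi_Good A M 0 := Or.inl rfl

theorem s37pgi_good_const (a : AlgebraicClosure ℚ) :
    s37pgi_Good A M (algebraMap (AlgebraicClosure ℚ) (LaurentSeries (AlgebraicClosure ℚ)) a) := by
  by_cases ha : a = 0
  · left
    rw [ha, map_zero]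
  · right
    exact ⟨a, 1, 1, ha, s37pgi_valid_one, s37pgi_valid_one, rfl⟩

theorem s37pgi_good_one : s37pgi_Good A M 1 := by
  have := s37pgi_good_const (A := A) (M := M) 1
  rwa [map_one] at this

theorem s37pgi_gen_mem {d : ℕ} [NeZero d] (hd : d ∣ M) :
    qExpand (AlgebraicClosure ℚ) d (jqModC (AlgebraicClosure ℚ)) ∈ modularFunctionFieldBar M := by
  have h := coeffEmb_mem_laurentBaseChange (AlgebraicClosure ℚ) (jqd_mem_full M hd)
  rw [← jqModC_rat, coeffEmb, coeffMap_qExpand, coeffMap_jqModC] at h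
  exact h

theorem s37pgi_good_gen {d : ℕ} [NeZero d] (hd : d ∣ M) :
    s37pgi_Good A M (qExpand (AlgebraicClosure ℚ) d (jqModC (AlgebraicClosure ℚ))) := by
  right
  refine ⟨1, qExpand ↥A d (jqModC ↥A), 1, one_ne_zero, ⟨?_, ?_, ?_⟩, s37pgi_valid_one, ?_⟩
  · rw [coeffMap_qExpand, coeffMap_jqModC]
    exact s37pgi_gen_mem hd
  · rw [coeffMap_qExpand, coeffMap_jqModC]
    exact jqModCd_mem_full _ M hd
  · rw [coeffMap_qExpand, coeffMap_jqModC]
    intro h0
    exact jqModC_ne_zero_of_nontrivial (IsLocalRing.ResidueField ↥A)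
      (qExpand_injective d (h0.trans (map_zero _).symm))
  · rw [map_one, mul_one, map_one, one_mul, coeffMap_qExpand, coeffMap_jqModC]

theorem s37pgi_Good.neg {f : LaurentSeries (AlgebraicClosure ℚ)} (hf : s37pgi_Good A M f) :
    s37pgi_Good A M (-f) := by
  rcases hf with rfl | ⟨c, y₁, y₂, hc, h₁, h₂, h⟩
  · left
    exact neg_zero
  · right
    exact ⟨-c, y₁, y₂, neg_ne_zero.mpr hc, h₁, h₂, by rw [neg_mul, h, map_neg, neg_mul]⟩

theorem s37pgi_Good.inv {f : LaurentSeries (AlgebraicClosure ℚ)} (hf : s37pgi_Good A M f) :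
    s37pgi_Good A M f⁻¹ := by
  rcases hf with rfl | ⟨c, y₁, y₂, hc, h₁, h₂, h⟩
  · left
    exact inv_zero
  · right
    have hy₁ := h₁.ne_zero
    have hy₂ := h₂.ne_zero
    have hcc : algebraMap (AlgebraicClosure ℚ) (LaurentSeries (AlgebraicClosure ℚ)) c ≠ 0 := by
      rw [Ne, map_eq_zero]
      exact hc
    have hf0 : f ≠ 0 := by
      rintro rfl
      rw [zero_mul] at h
      exact mul_ne_zero hcc hy₁ h.symm
    refine ⟨c⁻¹, y₂, y₁, inv_ne_zero hc, h₂, h₁, ?_⟩
    rw [map_inv₀]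
    field_simp
    rw [mul_comm]
    exact h.symm

theorem s37pgi_Good.mul {f g : LaurentSeries (AlgebraicClosure ℚ)} (hf : s37pgi_Good A M f)
    (hg : s37pgi_Good A M g) : s37pgi_Good A M (f * g) := by
  rcases hf with rfl | ⟨c, y₁, y₂, hc, h₁, h₂, h⟩
  · left
    exact zero_mul _
  rcases hg with rfl | ⟨c', y₁', y₂', hc', h₁', h₂', h'⟩
  · left
    exact mul_zero _
  right
  refine ⟨c * c', y₁ * y₁', y₂ * y₂', mul_ne_zero hc hc', h₁.mul h₁', h₂.mul h₂', ?_⟩
  rw [map_mul, map_mul, map_mul]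
  calc f * g * (coeffMap A.subtype y₂ * coeffMap A.subtype y₂')
      = (f * coeffMap A.subtype y₂) * (g * coeffMap A.subtype y₂') := by ring
    _ = _ := by rw [h, h']; ring

/-- The sum, when `c' / c ∈ A`. -/
theorem s37pgi_good_add_aux {ℓ : ℕ} [Fact ℓ.Prime] (hkey : s37pgi_KeyStatement)
    (hℓM : ¬ ℓ ∣ M) (hA : A.LiesOverPrime ℓ)
    {f g : LaurentSeries (AlgebraicClosure ℚ)} (c c' : AlgebraicClosure ℚ)
    (y₁ y₂ y₁' y₂' : LaurentSeries ↥A) (hc : c ≠ 0) (hcc' : c' / c ∈ A)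
    (h₁ : s37pgi_Valid A M y₁) (h₂ : s37pgi_Valid A M y₂)
    (h₁' : s37pgi_Valid A M y₁') (h₂' : s37pgi_Valid A M y₂')
    (h : f * coeffMap A.subtype y₂ =
      algebraMap (AlgebraicClosure ℚ) (LaurentSeries (AlgebraicClosure ℚ)) c *
        coeffMap A.subtype y₁)
    (h' : g * coeffMap A.subtype y₂' =
      algebraMap (AlgebraicClosure ℚ) (LaurentSeries (AlgebraicClosure ℚ)) c' *
        coeffMap A.subtype y₁') :
    s37pgi_Good A M (f + g) := by
  -- the numerator
  set w : LaurentSeries ↥A := y₁ * y₂' + HahnSeries.C (⟨c' / c, hcc'⟩ : ↥A) * (y₁' * y₂) with hw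
  have hιw : coeffMap A.subtype w = coeffMap A.subtype y₁ * coeffMap A.subtype y₂' +
      algebraMap (AlgebraicClosure ℚ) (LaurentSeries (AlgebraicClosure ℚ)) (c' / c) *
        (coeffMap A.subtype y₁' * coeffMap A.subtype y₂) := by
    rw [hw, map_add, map_mul, map_mul, map_mul, s37pgi_iota_C]
  have hwF : coeffMap A.subtype w ∈ modularFunctionFieldBar M := by
    rw [hιw]
    exact add_mem (mul_mem h₁.1 h₂'.1)
      (mul_mem ((modularFunctionFieldBar M).algebraMap_mem _) (mul_mem h₁'.1 h₂.1))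
  have hcc : algebraMap (AlgebraicClosure ℚ) (LaurentSeries (AlgebraicClosure ℚ)) c ≠ 0 := by
    rw [Ne, map_eq_zero]
    exact hc
  have hsum : (f + g) * coeffMap A.subtype (y₂ * y₂') =
      algebraMap (AlgebraicClosure ℚ) (LaurentSeries (AlgebraicClosure ℚ)) c *
        coeffMap A.subtype w := by
    rw [hιw, map_mul, map_div₀]
    calc (f + g) * (coeffMap A.subtype y₂ * coeffMap A.subtype y₂')
        = (f * coeffMap A.subtype y₂) * coeffMap A.subtype y₂' +
          (g * coeffMap A.subtype y₂') * coeffMap A.subtype y₂ := by ring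
      _ = _ := by
        rw [h, h']
        field_simp
  by_cases hw0 : w = 0
  · left
    rw [hw0, map_zero, mul_zero] at hsum
    exact (mul_eq_zero.mp hsum).resolve_right (h₂.mul h₂').ne_zero
  · right
    obtain ⟨c₀, w', hc₀, hww', hw'⟩ := s37pgi_norm (M := M) hA w hwF hw0
    have hc₀' : (c₀ : AlgebraicClosure ℚ) ≠ 0 := fun h0 => hc₀ (Subtype.ext h0)
    have hc₀'' : algebraMap (AlgebraicClosure ℚ) (LaurentSeries (AlgebraicClosure ℚ))
        (c₀ : AlgebraicClosure ℚ) ≠ 0 := by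
      rw [Ne, map_eq_zero]
      exact hc₀'
    have hιw' : coeffMap A.subtype w =
        algebraMap (AlgebraicClosure ℚ) (LaurentSeries (AlgebraicClosure ℚ))
          (c₀ : AlgebraicClosure ℚ) * coeffMap A.subtype w' := by
      rw [hww', map_mul, s37pgi_iota_C]
    have hw'F : coeffMap A.subtype w' ∈ modularFunctionFieldBar M := by
      have e : coeffMap A.subtype w' =
          (algebraMap (AlgebraicClosure ℚ) (LaurentSeries (AlgebraicClosure ℚ))
            (c₀ : AlgebraicClosure ℚ))⁻¹ * coeffMap A.subtype w := by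
        rw [hιw']
        field_simp
      rw [e]
      exact mul_mem (inv_mem ((modularFunctionFieldBar M).algebraMap_mem _)) hwF
    refine ⟨c * c₀, w', y₂ * y₂', mul_ne_zero hc hc₀',
      ⟨hw'F, s37pgi_qep hkey hℓM hA w' hw'F, hw'⟩, h₂.mul h₂', ?_⟩
    rw [hsum, hιw', map_mul, mul_assoc]

theorem s37pgi_Good.add {ℓ : ℕ} [Fact ℓ.Prime] (hkey : s37pgi_KeyStatement)
    (hℓM : ¬ ℓ ∣ M) (hA : A.LiesOverPrime ℓ)
    {f g : LaurentSeries (AlgebraicClosure ℚ)} (hf : s37pgi_Good A M f)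
    (hg : s37pgi_Good A M g) : s37pgi_Good A M (f + g) := by
  rcases hf with rfl | ⟨c, y₁, y₂, hc, h₁, h₂, h⟩
  · rw [zero_add]
    exact hg
  rcases hg with rfl | ⟨c', y₁', y₂', hc', h₁', h₂', h'⟩
  · rw [add_zero]
    exact Or.inr ⟨c, y₁, y₂, hc, h₁, h₂, h⟩
  rcases A.mem_or_inv_mem (c' / c) with hcc | hcc
  · exact s37pgi_good_add_aux hkey hℓM hA c c' y₁ y₂ y₁' y₂' hc hcc h₁ h₂ h₁' h₂' h h'
  · rw [inv_div] at hcc
    rw [add_comm]
    exact s37pgi_good_add_aux hkey hℓM hA c' c y₁' y₂' y₁ y₂ hc' hcc h₁' h₂' h₁ h₂ h' h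

/-! ### The induction -/

theorem s37pgi_good_coeffEmb {ℓ : ℕ} [Fact ℓ.Prime] (hkey : s37pgi_KeyStatement)
    (hℓM : ¬ ℓ ∣ M) (hA : A.LiesOverPrime ℓ) {z : LaurentSeries ℚ}
    (hz : z ∈ modularFunctionFieldFull M) :
    s37pgi_Good A M (coeffEmb (AlgebraicClosure ℚ) z) := by
  have hz' : z ∈ Subfield.closure
      (Set.range (algebraMap ℚ (LaurentSeries ℚ)) ∪ divisorExpansions M) := hz
  induction hz' using Subfield.closure_induction with
  | mem y hy =>
      rcases hy with ⟨r, rfl⟩ | ⟨d, hd, hdM, rfl⟩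
      · rw [s18gq_coeffEmb_algebraMap]
        exact s37pgi_good_const _
      · haveI := hd
        rw [← jqModC_rat, coeffEmb, coeffMap_qExpand, coeffMap_jqModC]
        exact s37pgi_good_gen hdM
  | one => rw [map_one]; exact s37pgi_good_one
  | add x y _ _ hx hy => rw [map_add]; exact (hx ‹_›).add hkey hℓM hA (hy ‹_›)
  | neg x _ hx => rw [map_neg]; exact (hx ‹_›).neg
  | inv x _ hx => rw [map_inv₀]; exact (hx ‹_›).inv
  | mul x y _ _ hx hy => rw [map_mul]; exact (hx ‹_›).mul (hy ‹_›)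

theorem s37pgi_good_of_mem {ℓ : ℕ} [Fact ℓ.Prime] (hkey : s37pgi_KeyStatement)
    (hℓM : ¬ ℓ ∣ M) (hA : A.LiesOverPrime ℓ) {f : LaurentSeries (AlgebraicClosure ℚ)}
    (hf : f ∈ modularFunctionFieldBar M) : s37pgi_Good A M f := by
  rw [mem_laurentBaseChange_iff] at hf
  induction hf using Subfield.closure_induction with
  | mem y hy =>
      rcases hy with ⟨a, rfl⟩ | ⟨z, hz, rfl⟩
      · exact s37pgi_good_const _
      · exact s37pgi_good_coeffEmb hkey hℓM hA hz
  | one => exact s37pgi_good_one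
  | add x y _ _ hx hy => exact hx.add hkey hℓM hA hy
  | neg x _ hx => exact hx.neg
  | inv x _ hx => exact hx.inv
  | mul x y _ _ hx hy => exact hx.mul hy

/-- **Every non-zero function is a non-zero constant times a quotient of two valid series.** -/
theorem s37pgi_frac {ℓ : ℕ} [Fact ℓ.Prime] (hkey : s37pgi_KeyStatement)
    (hℓM : ¬ ℓ ∣ M) (hA : A.LiesOverPrime ℓ) {f : LaurentSeries (AlgebraicClosure ℚ)}
    (hf : f ∈ modularFunctionFieldBar M) (hf0 : f ≠ 0) :
    ∃ (c : AlgebraicClosure ℚ) (y₁ y₂ : LaurentSeries ↥A), c ≠ 0 ∧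
      s37pgi_Valid A M y₁ ∧ s37pgi_Valid A M y₂ ∧
      f * coeffMap A.subtype y₂ =
        algebraMap (AlgebraicClosure ℚ) (LaurentSeries (AlgebraicClosure ℚ)) c *
          coeffMap A.subtype y₁ :=
  (s37pgi_good_of_mem hkey hℓM hA hf).resolve_left hf0

end Frac

end Fermat.Agent.S37
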