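/-
S37, THE CUT OF [RI] (sub-architect: helper26).  Prefix `s37ri_`.  Definitions, `Prop`s and the
compositions.

TARGET: `s37_RedInputsStatement` - for `ℓ ∤ M`, `4 ∣ M` or `9 ∣ M`, `A` a valuation ring of `Q̄`
over `ℓ`, `k = A/m`:  there is `r : Places(F̄_M/Q̄) → Places(F_k(M)/k)` preserving degrees with
`r_*(div y) = div ȳ` for every VALID `y` (`y ∈ A((q))`, `ι y ∈ F̄_M`, `0 ≠ ȳ ∈ F_k(M)`), and the
principal divisors of `F̄_M` are generated by the divisors of valid `y`.

VOCABULARY.  For `x ∈ {j, 1/j}` a CHART ELEMENT is `y ∈ A((q))` with `ι y ∈ F̄_M` integral over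
the subring `A[x]` of `F̄_M` (`s37ri_IsChart`).  `P` is FINITE for `x` if `x - c` vanishes at `P`
for some `c ∈ A` (`s37ri_Fin`).  `f ∈ F̄_M` REDUCES to `g ∈ F_k(M)` if `f = a/s`, `g = ā/s̄` with
`a, s ∈ A((q))`, `s̄ ≠ 0` (`s37ri_Red`; we do NOT assume that an `f` integral over `A[x]` has an
integral `q`-expansion).  `SpecAt x P Q`: if `f` is integral over `A[x]`, reduces to `g` and
vanishes at `P`, then `g` vanishes at `Q` (`s37ri_SpecAt`; "vanishes" is `adicValuation < 1`,
NEVER `0 < ord`, because `Place.ord 0 = 0`).  `Spec P Q`: `SpecAt j P Q` if `P` is finite for `j`,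
`SpecAt (1/j) P Q` otherwise.

THE CUT.
  [RI]      = [RI-EXIST] + [RI-DIV] + [RI-DEG] + [RI-PGI]                    (`s37ri_of`)
  [RI-DIV]  = [RI-POS] + [RI-BOUND] + [RI-VALID] + [RI-COVER] + [RI-QEP] + [RI-FF0] + [RI-FFL]
              (the global degree argument [RI-GLOB], file `RIGlob.lean`)
  [RI-DEG]  = [RI-FF0] + [RI-FFL]                                           (`s37ri_deg_of`)
-/
import Mathlib
import Fermat.Prelude.Def_ModularCurve_ReductionModL
import Fermat.Agent.S37.RhoDefs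
import Fermat.Agent.S18.ModelDefs

set_option autoImplicit false

open ModularCurve AlgebraicCurve IntermediateField

noncomputable section

namespace Fermat.Agent.S37

/-! ### Vocabulary -/

section Vocabulary

variable (A : ValuationSubring (AlgebraicClosure ℚ)) (M : ℕ) [NeZero M]

/-- `j ∈ F̄_M` (the same element as `S18.s18_j Q̄ M`). -/
def s37ri_j : ↥(modularFunctionFieldBar M) := S18.s18_j (AlgebraicClosure ℚ) M

/-- `j̄ ∈ F_k(M)` (the same element as `S18.s18c_jF k M`). -/
def s37ri_jk (k : Type) [Field k] : ↥(modularFunctionFieldFullC k M) :=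
  ⟨jqModC k, jqModC_mem_full k M⟩

/-- The subring `A[x]` of `F̄_M`. -/
def s37ri_ring (x : ↥(modularFunctionFieldBar M)) : Subring ↥(modularFunctionFieldBar M) :=
  Subring.closure (Set.range (fun a : A =>
    algebraMap (AlgebraicClosure ℚ) ↥(modularFunctionFieldBar M) (a : AlgebraicClosure ℚ)) ∪ {x})

/-- `y ∈ A((q))` is a CHART ELEMENT for `x`: `ι y ∈ F̄_M` is integral over `A[x]`. -/
def s37ri_IsChart (x : ↥(modularFunctionFieldBar M)) (y : LaurentSeries A) : Prop :=
  ∃ hy : coeffMap A.subtype y ∈ modularFunctionFieldBar M,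
    IsIntegral ↥(s37ri_ring A M x) (⟨coeffMap A.subtype y, hy⟩ : ↥(modularFunctionFieldBar M))

/-- The place `P` is FINITE for the coordinate `x`: `x - c` vanishes at `P` for some `c ∈ A`. -/
def s37ri_Fin (x : ↥(modularFunctionFieldBar M))
    (P : Place (AlgebraicClosure ℚ) ↥(modularFunctionFieldBar M)) : Prop :=
  ∃ c : A, P.adicValuation
    (x - algebraMap (AlgebraicClosure ℚ) ↥(modularFunctionFieldBar M) (c : AlgebraicClosure ℚ)) < 1

/-- `f ∈ F̄_M` REDUCES to `g ∈ F_k(M)`: `f = a / s` and `g = ā / s̄` for two series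
`a, s ∈ A((q))` with `s̄ ≠ 0` (`g` is determined by `f`; a valid `y` reduces to `ȳ`, with `s = 1`;
this is the reduction map `ρ` of `S18.s18_HasRed` on the charts over `O = A ∩ K0`). -/
def s37ri_Red (f : ↥(modularFunctionFieldBar M))
    (g : ↥(modularFunctionFieldFullC (IsLocalRing.ResidueField A) M)) : Prop :=
  ∃ a s : LaurentSeries A, coeffMap (IsLocalRing.residue A) s ≠ 0 ∧
    (f : LaurentSeries (AlgebraicClosure ℚ)) * coeffMap A.subtype s = coeffMap A.subtype a ∧
    (g : LaurentSeries (IsLocalRing.ResidueField A)) * coeffMap (IsLocalRing.residue A) s =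
      coeffMap (IsLocalRing.residue A) a

/-- `P` specialises to `Q` in the chart of `x`: if `f ∈ F̄_M` is integral over `A[x]`, reduces
to `g` and vanishes at `P`, then `g` vanishes at `Q`. -/
def s37ri_SpecAt (x : ↥(modularFunctionFieldBar M))
    (P : Place (AlgebraicClosure ℚ) ↥(modularFunctionFieldBar M))
    (Q : Place (IsLocalRing.ResidueField A)
      ↥(modularFunctionFieldFullC (IsLocalRing.ResidueField A) M)) : Prop :=
  ∀ (f : ↥(modularFunctionFieldBar M))
    (g : ↥(modularFunctionFieldFullC (IsLocalRing.ResidueField A) M)),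
    IsIntegral ↥(s37ri_ring A M x) f → s37ri_Red A M f g →
    P.adicValuation f < 1 → Q.adicValuation g < 1

/-- `P` specialises to `Q`: in the chart of `j` if `P` is finite for `j`, in the chart of `1/j`
otherwise. -/
def s37ri_Spec (P : Place (AlgebraicClosure ℚ) ↥(modularFunctionFieldBar M))
    (Q : Place (IsLocalRing.ResidueField A)
      ↥(modularFunctionFieldFullC (IsLocalRing.ResidueField A) M)) : Prop :=
  (s37ri_Fin A M (s37ri_j M) P ∧ s37ri_SpecAt A M (s37ri_j M) P Q) ∨
    (¬ s37ri_Fin A M (s37ri_j M) P ∧ s37ri_SpecAt A M (s37ri_j M)⁻¹ P Q)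

end Vocabulary

/-! ### The four packages of [RI] -/

/-- **[RI-EXIST]** every place of `F̄_M` specialises to some place of `F_k(M)`. -/
def s37ri_ExistStatement : Prop :=
  ∀ (M : ℕ) [NeZero M] {ℓ : ℕ} [Fact ℓ.Prime], ¬ ℓ ∣ M → (4 ∣ M ∨ 9 ∣ M) →
    ∀ A : ValuationSubring (AlgebraicClosure ℚ), A.LiesOverPrime ℓ →
      ∀ P : Place (AlgebraicClosure ℚ) ↥(modularFunctionFieldBar M),
        ∃ Q : Place (IsLocalRing.ResidueField A)
          ↥(modularFunctionFieldFullC (IsLocalRing.ResidueField A) M), s37ri_Spec A M P Q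

/-- **[RI-DIV]** for EVERY map `r` on places with `P ⇝ r P`: the divisor of a valid `y`
specialises to the divisor of its reduction. -/
def s37ri_DivStatement : Prop :=
  ∀ (M : ℕ) [NeZero M] {ℓ : ℕ} [Fact ℓ.Prime], ¬ ℓ ∣ M → (4 ∣ M ∨ 9 ∣ M) →
    ∀ A : ValuationSubring (AlgebraicClosure ℚ), A.LiesOverPrime ℓ →
      ∀ r : Place (AlgebraicClosure ℚ) ↥(modularFunctionFieldBar M) →
        Place (IsLocalRing.ResidueField A)
          ↥(modularFunctionFieldFullC (IsLocalRing.ResidueField A) M),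
        (∀ P, s37ri_Spec A M P (r P)) →
        ∀ (y : LaurentSeries A)
          (hy : coeffMap A.subtype y ∈ modularFunctionFieldBar M)
          (hyk : coeffMap (IsLocalRing.residue A) y ∈
            modularFunctionFieldFullC (IsLocalRing.ResidueField A) M),
          coeffMap (IsLocalRing.residue A) y ≠ 0 →
          ∀ D : Divisor (AlgebraicClosure ℚ) ↥(modularFunctionFieldBar M),
            (∀ P, D P = P.ord (⟨coeffMap A.subtype y, hy⟩ : ↥(modularFunctionFieldBar M))) →
            ∀ Q, Finsupp.mapDomain r D Q =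
              Q.ord (⟨coeffMap (IsLocalRing.residue A) y, hyk⟩ :
                ↥(modularFunctionFieldFullC (IsLocalRing.ResidueField A) M))

/-- **[RI-DEG]** all places have degree one, on both sides. -/
def s37ri_DegStatement : Prop :=
  ∀ (M : ℕ) [NeZero M] {ℓ : ℕ} [Fact ℓ.Prime], ¬ ℓ ∣ M → (4 ∣ M ∨ 9 ∣ M) →
    ∀ A : ValuationSubring (AlgebraicClosure ℚ), A.LiesOverPrime ℓ →
      (∀ P : Place (AlgebraicClosure ℚ) ↥(modularFunctionFieldBar M), P.deg = 1) ∧
      (∀ Q : Place (IsLocalRing.ResidueField A)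
        ↥(modularFunctionFieldFullC (IsLocalRing.ResidueField A) M), Q.deg = 1)

/-- **[RI-PGI]** the principal divisors of `F̄_M` are generated by the divisors of valid `y`
(owner: helper18, `s37pgi_main`). -/
def s37ri_PgiStatement : Prop :=
  ∀ (M : ℕ) [NeZero M] {ℓ : ℕ} [Fact ℓ.Prime], ¬ ℓ ∣ M → (4 ∣ M ∨ 9 ∣ M) →
    ∀ A : ValuationSubring (AlgebraicClosure ℚ), A.LiesOverPrime ℓ →
      PrincipalGeneratedByIntegral A (IsLocalRing.residue A) M

/-- **The composition**: [RI] from [RI-EXIST], [RI-DIV], [RI-DEG], [RI-PGI]. -/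
theorem s37ri_of (hE : s37ri_ExistStatement) (hD : s37ri_DivStatement)
    (hG : s37ri_DegStatement) (hP : s37ri_PgiStatement) : s37_RedInputsStatement := by
  intro M _ ℓ _ hℓM h49 A hA
  refine ⟨fun P => (hE M hℓM h49 A hA P).choose, ⟨fun P => ?_, ?_⟩, hP M hℓM h49 A hA⟩
  · rw [(hG M hℓM h49 A hA).1 P, (hG M hℓM h49 A hA).2]
  · exact hD M hℓM h49 A hA _ (fun P => (hE M hℓM h49 A hA P).choose_spec)

/-! ### The packages of [RI-DIV] -/

/-- **[RI-POS]** (the local step; the proof uses the good model `S18.s18_ModelQStatement`):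
for `x ∈ {j, 1/j}`, a place `Q` of `F_k(M)` which is finite for `x̄`, a chart element `y` for `x`
with `ȳ ≠ 0`, and FINITELY many places `P` which are finite for `x` and specialise to `Q` in the
chart of `x`:  `Σ_P ord_P(y) ≤ ord_Q(ȳ)`. -/
def s37ri_PosStatement : Prop :=
  ∀ (M : ℕ) [NeZero M] {ℓ : ℕ} [Fact ℓ.Prime], ¬ ℓ ∣ M → (4 ∣ M ∨ 9 ∣ M) →
    ∀ A : ValuationSubring (AlgebraicClosure ℚ), A.LiesOverPrime ℓ →
      ∀ (x : ↥(modularFunctionFieldBar M))
        (Q : Place (IsLocalRing.ResidueField A)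
          ↥(modularFunctionFieldFullC (IsLocalRing.ResidueField A) M)),
        ((x = s37ri_j M ∧ 0 ≤ Q.ord (s37ri_jk M (IsLocalRing.ResidueField A))) ∨
          (x = (s37ri_j M)⁻¹ ∧ Q.ord (s37ri_jk M (IsLocalRing.ResidueField A)) ≤ 0)) →
      ∀ (y : LaurentSeries A)
        (hy : coeffMap A.subtype y ∈ modularFunctionFieldBar M)
        (hyk : coeffMap (IsLocalRing.residue A) y ∈
          modularFunctionFieldFullC (IsLocalRing.ResidueField A) M),
        IsIntegral ↥(s37ri_ring A M x)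
          (⟨coeffMap A.subtype y, hy⟩ : ↥(modularFunctionFieldBar M)) →
        coeffMap (IsLocalRing.residue A) y ≠ 0 →
        ∀ S : Finset (Place (AlgebraicClosure ℚ) ↥(modularFunctionFieldBar M)),
          (∀ P ∈ S, s37ri_Fin A M x P ∧ s37ri_SpecAt A M x P Q) →
          ∑ P ∈ S, P.ord (⟨coeffMap A.subtype y, hy⟩ : ↥(modularFunctionFieldBar M)) ≤
            Q.ord (⟨coeffMap (IsLocalRing.residue A) y, hyk⟩ :
              ↥(modularFunctionFieldFullC (IsLocalRing.ResidueField A) M))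

/-- **[RI-BOUND]** the degree of the polar divisor of `j̄` on `F_k(M)` is at most the degree of
the polar divisor of `j` on `F̄_M`
(`= [F_k(M) : k(j̄)] ≤ [F̄_M : Q̄(j)]`: reduce a primitive linear relation). -/
def s37ri_BoundStatement : Prop :=
  ∀ (M : ℕ) [NeZero M] {ℓ : ℕ} [Fact ℓ.Prime], ¬ ℓ ∣ M → (4 ∣ M ∨ 9 ∣ M) →
    ∀ A : ValuationSubring (AlgebraicClosure ℚ), A.LiesOverPrime ℓ →
      ∃ n : ℤ,
        (∀ T : Finset (Place (IsLocalRing.ResidueField A)
            ↥(modularFunctionFieldFullC (IsLocalRing.ResidueField A) M)),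
          (∀ Q ∈ T, Q.ord (s37ri_jk M (IsLocalRing.ResidueField A)) < 0) →
          ∑ Q ∈ T, (- Q.ord (s37ri_jk M (IsLocalRing.ResidueField A))) ≤ n) ∧
        ∃ S : Finset (Place (AlgebraicClosure ℚ) ↥(modularFunctionFieldBar M)),
          (∀ P ∈ S, P.ord (s37ri_j M) < 0) ∧ n ≤ ∑ P ∈ S, (- P.ord (s37ri_j M))

/-- **[RI-VALID]** every valid `y` is a quotient of two chart elements for `j` with non-zero
reductions: `d · y` is a chart element for some chart element `d` with `d̄ ≠ 0`. -/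
def s37ri_ValidStatement : Prop :=
  ∀ (M : ℕ) [NeZero M] {ℓ : ℕ} [Fact ℓ.Prime], ¬ ℓ ∣ M → (4 ∣ M ∨ 9 ∣ M) →
    ∀ A : ValuationSubring (AlgebraicClosure ℚ), A.LiesOverPrime ℓ →
      ∀ y : LaurentSeries A, coeffMap A.subtype y ∈ modularFunctionFieldBar M →
        coeffMap (IsLocalRing.residue A) y ∈
          modularFunctionFieldFullC (IsLocalRing.ResidueField A) M →
        coeffMap (IsLocalRing.residue A) y ≠ 0 →
        ∃ d : LaurentSeries A, s37ri_IsChart A M (s37ri_j M) d ∧
          coeffMap (IsLocalRing.residue A) d ≠ 0 ∧ s37ri_IsChart A M (s37ri_j M) (d * y)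

/-- **[RI-COVER]** a chart element for `j` is `jⁿ ·` a chart element for `1/j`. -/
def s37ri_CoverStatement : Prop :=
  ∀ (M : ℕ) [NeZero M] {ℓ : ℕ} [Fact ℓ.Prime], ¬ ℓ ∣ M → (4 ∣ M ∨ 9 ∣ M) →
    ∀ A : ValuationSubring (AlgebraicClosure ℚ), A.LiesOverPrime ℓ →
      ∀ b : LaurentSeries A, s37ri_IsChart A M (s37ri_j M) b →
        ∃ (n : ℕ) (b' : LaurentSeries A),
          s37ri_IsChart A M (s37ri_j M)⁻¹ b' ∧ b' * jqModC ↥A ^ n = b

/-- **[RI-QEP]** the `q`-expansion principle over `A`: the reduction of an element of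
`A((q)) ∩ F̄_M` lies in `F_k(M)` (owner: helper18, `s37pgi_qep`). -/
def s37ri_QepStatement : Prop :=
  ∀ (M : ℕ) [NeZero M] {ℓ : ℕ} [Fact ℓ.Prime], ¬ ℓ ∣ M →
    ∀ A : ValuationSubring (AlgebraicClosure ℚ), A.LiesOverPrime ℓ →
      ∀ y : LaurentSeries A, coeffMap A.subtype y ∈ modularFunctionFieldBar M →
        coeffMap (IsLocalRing.residue A) y ∈
          modularFunctionFieldFullC (IsLocalRing.ResidueField A) M

/-- **[RI-FF0]** the function field `F̄_M / Q̄`: principal divisors have degree `0`, all places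
have degree one (S24). -/
def s37ri_FF0Statement : Prop :=
  ∀ (M : ℕ) [NeZero M],
    HasPrincipalDivisors (AlgebraicClosure ℚ) ↥(modularFunctionFieldBar M) ∧
    ∀ P : Place (AlgebraicClosure ℚ) ↥(modularFunctionFieldBar M), P.deg = 1

/-- **[RI-FFL]** the function field `F_k(M) / k` in characteristic `ℓ ∤ M`, `k` algebraically
closed: principal divisors have degree `0`, all places have degree one
(owner: helper20, [FF-l]). -/
def s37ri_FFlStatement : Prop :=
  ∀ (M : ℕ) [NeZero M] {ℓ : ℕ} [Fact ℓ.Prime], ¬ ℓ ∣ M →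
    ∀ (k : Type) [Field k] [CharP k ℓ] [IsAlgClosed k],
      HasPrincipalDivisors k ↥(modularFunctionFieldFullC k M) ∧
      ∀ Q : Place k ↥(modularFunctionFieldFullC k M), Q.deg = 1

/-- **[RI-RES]** the residue field of `A` is algebraically closed of characteristic `ℓ`
(on main: helper6's `S18.s18w_isAlgClosed`, `S18.s18w_charP`). -/
def s37ri_ResStatement : Prop :=
  ∀ {ℓ : ℕ} [Fact ℓ.Prime] (A : ValuationSubring (AlgebraicClosure ℚ)), A.LiesOverPrime ℓ →
    CharP (IsLocalRing.ResidueField A) ℓ ∧ IsAlgClosed (IsLocalRing.ResidueField A)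

/-- **The composition**: [RI-DEG] from [RI-FF0], [RI-FFL], [RI-RES]. -/
theorem s37ri_deg_of (h0 : s37ri_FF0Statement) (hl : s37ri_FFlStatement)
    (hr : s37ri_ResStatement) : s37ri_DegStatement := by
  intro M _ ℓ _ hℓM _ A hA
  obtain ⟨hc, hac⟩ := hr A hA
  exact ⟨(h0 M).2, (hl M hℓM (IsLocalRing.ResidueField A)).2⟩

/-- **[RI-GLOB]** the global degree argument: [RI-DIV] from its packages (file `RIGlob.lean`). -/
def s37ri_GlobStatement : Prop :=
  s37ri_PosStatement → s37ri_BoundStatement → s37ri_ValidStatement → s37ri_CoverStatement →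
    s37ri_QepStatement → s37ri_FF0Statement → s37ri_FFlStatement → s37ri_ResStatement →
    s37ri_DivStatement

/-- **The composition**: [RI] from all the leaves. -/
theorem s37ri_of_leaves (hE : s37ri_ExistStatement) (hG : s37ri_GlobStatement)
    (hPos : s37ri_PosStatement) (hB : s37ri_BoundStatement) (hV : s37ri_ValidStatement)
    (hC : s37ri_CoverStatement) (hQ : s37ri_QepStatement) (h0 : s37ri_FF0Statement)
    (hl : s37ri_FFlStatement) (hr : s37ri_ResStatement) (hP : s37ri_PgiStatement) :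
    s37_RedInputsStatement :=
  s37ri_of hE (hG hPos hB hV hC hQ h0 hl hr) (s37ri_deg_of h0 hl hr) hP

end Fermat.Agent.S37
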