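/-
S37, split-off [RI-UNIT] of [RI] (owner: helper27), part 2.  Prefix `s37u_`.

KEY WITH AN EXPLICIT WITNESS WHOSE REDUCTION LIES IN `F_k(N)`: the statement `s28_KeyAt` of S28
hides its witness behind an existential; here the proof of `S28.chiH_keyAt` is repeated with the
explicit witness `tr_g0 N` (`N ≥ 2`), resp. `1` (`N = 1`), and combined with `s37u_g_mem`
(the reduction of `tr_g0 N` lies in `F_k(N)`).
-/
import Mathlib
import Fermat.Agent.S28.ChiH
import Fermat.Agent.S37.UnitRed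
import Fermat.Agent.S18.GaussQOfIndep

set_option autoImplicit false
set_option linter.unusedSectionVars false
set_option linter.unusedVariables false
set_option linter.style.haveILetI false

noncomputable section

namespace Fermat.Agent.S37

open UpperHalfPlane Function Filter Topology Asymptotics CongruenceSubgroup Polynomial
open Fermat.Agent.S22 Fermat.Agent.S24 ModularForm EisensteinSeries
open Fermat.Agent.S28
open scoped MatrixGroups ModularForm Manifold Real

/-- **KEY at level `N ≥ 2`, with the explicit witness `tr_g0 N`** (the proof of `chiH_keyAt`,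
ending with `dry_indep_of_keyR` instead of the existential). -/
theorem s37u_indep_two_le (N ℓ : ℕ) [NeZero N] [Fact ℓ.Prime] (hN : 2 ≤ N) (hℓ : ¬ ℓ ∣ N) :
    DryIndep ℓ (Nat.card (SL(2, ℤ) ⧸ CongruenceSubgroup.Gamma0 N)) (tr_g0 N) := by
  classical
  have hN0 : 0 < N := by omega
  have : Finite (XN N) := Comb.finite_X N (NeZero.ne N)
  let _ : Fintype (XN N) := Fintype.ofFinite _
  have hcard : 2 ≤ Fintype.card (XN N) := chiH_two_le_card N hN
  obtain ⟨k', hk'F, hk'C, ρ, -⟩ := resF_exists N ℓ hℓ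
  -- the analytic characteristic polynomial
  have hgr : ∀ x, anD_ModGrowth (anB_tr N (tr_gN N) x) := fun x =>
    anB_tr_growth (tr_gN_isModFun N) x
  obtain ⟨P, hP0, hPe, hProot⟩ := anD_exists_charPoly (anB_tr N (tr_gN N))
    (tr_gN_tr_mdiff N) hgr (tr_gN_tr_perm N)
  -- the series of the translates
  choose c Ps hc hc' hc0 hPs0 hPsc hHL using fun x => tr_gN_tr_UL N x
  set S : XN N → LaurentSeries ℂ := fun x => tr_ser (c x) (tr_kX N x) (Ps x) with hSdef
  have hSord : ∀ x, (S x).order = tr_kX N x := fun x => tr_ser_order (hc0 x) _ (hPs0 x)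
  have hSlead : ∀ x, (S x).leadingCoeff = c x := fun x =>
    chiH_ser_leadingCoeff (hc0 x) _ (hPs0 x)
  have hSne : ∀ x, S x ≠ 0 := fun x => tr_ser_ne_zero (hc0 x) _ (hPs0 x)
  have hScoef : ∀ x m, (S x).coeff m ∈ tr_R N := fun x m =>
    tr_ser_coeff_mem _ (hc x) _ (hPsc x) m
  set t : LaurentSeries ℂ := ModularCurve.qExpand ℂ N (ModularCurve.jqModC ℂ) with ht_def
  have ht : t.order < 0 := by
    rw [chiH_jN_order]
    have : (0 : ℤ) < N := by exact_mod_cast hN0
    omega
  have hA : ∀ j, aeval t (P j) =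
      ∑ s ∈ Finset.powersetCard j (Finset.univ : Finset (XN N)), ∏ x ∈ s, S x := fun j =>
    s28c_aeval_eq_esymm (anB_tr N (tr_gN N)) N S hHL j (P j) (hPe j)
  -- orders
  have hφ : 0 < N.totient := Nat.totient_pos.mpr hN0
  have hψ : (1 : ℤ) ≤ (ModularCurve.dedekindPsi N : ℤ) := by
    have := chiH_le_dedekindPsi N hN0
    have h2 : 1 ≤ ModularCurve.dedekindPsi N := by omega
    exact_mod_cast h2
  have hpos : 0 ≤ (S (QuotientGroup.mk 1 : XN N)).order := by
    rw [hSord, tr_kX_one, tr_J_sub N hN0]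
    have h1 : (0 : ℤ) ≤ (N.totient : ℤ) := by positivity
    have h2 : (0 : ℤ) ≤ (N : ℤ) := by positivity
    have h3 : (0 : ℤ) ≤ (ModularCurve.dedekindPsi N : ℤ) - 1 := by omega
    positivity
  have hneg : ∀ x, x ≠ (QuotientGroup.mk 1 : XN N) → (S x).order < 0 := by
    intro x hx
    rw [hSord, tr_kX_of_ne N hx]
    have : 0 < N.totient * N := Nat.mul_pos hφ hN0
    have : (0 : ℤ) < ((N.totient * N : ℕ) : ℤ) := by exact_mod_cast this
    omega
  have hsum : ∑ x, (S x).order = 0 := by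
    rw [Finset.sum_congr rfl fun x _ => hSord x]
    exact tr_kX_sum N
  obtain ⟨h0, -, hdeg, hlead⟩ := chiHd_K1 S (QuotientGroup.mk 1 : XN N) hpos hneg hSne hsum
    hcard t ht P hP0 hA
  -- coefficients in `tr_R N`
  have hPcoef : ∀ j i, (P j).coeff i ∈ tr_R N := fun j =>
    esymO_descent (tr_R N) t ht (chiH_jN_coeff_mem N _)
      (by rw [chiH_jN_leadingCoeff, inv_one]; exact (tr_R N).one_mem) (P j)
      (by rw [hA j]; exact esymO_coeff_mem (tr_R N) S hScoef j)
  have hcoef : ∀ i j, ((chiHd_chi (Fintype.card (XN N)) P).coeff i).coeff j ∈ tr_R N := by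
    intro i j
    rcases le_or_gt i (Fintype.card (XN N)) with hi | hi
    · rw [chiHd_coeff _ P i hi]
      have e : ((-1 : ℂ[X]) ^ (Fintype.card (XN N) - i) * P (Fintype.card (XN N) - i)) =
          Polynomial.C ((-1 : ℂ) ^ (Fintype.card (XN N) - i)) * P (Fintype.card (XN N) - i) := by
        simp
      rw [e, Polynomial.coeff_C_mul]
      exact (tr_R N).mul_mem (chiH_neg_one_pow_mem _ _) (hPcoef _ _)
    · rw [chiHd_coeff_of_lt _ P i hi]
      simp
  -- the constant term is a unit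
  obtain ⟨hcR, hcR', hcne⟩ := chiH_unit_prod (tr_R N) Finset.univ (fun x => (S x).leadingCoeff)
    (fun x _ => by rw [hSlead]; exact hc x) (fun x _ => by rw [hSlead]; exact hc' x)
    (fun x _ => by rw [hSlead]; exact hc0 x) (Fintype.card (XN N))
  -- the leading coefficient of the linear coefficient is a unit
  obtain ⟨hlR, hlR', hlne⟩ := chiH_unit_prod (tr_R N)
    ((Finset.univ : Finset (XN N)).erase (QuotientGroup.mk 1)) (fun x => (S x).leadingCoeff)
    (fun x _ => by rw [hSlead]; exact hc x) (fun x _ => by rw [hSlead]; exact hc' x)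
    (fun x _ => by rw [hSlead]; exact hc0 x) (Fintype.card (XN N) - 1)
  rw [chiH_jN_leadingCoeff, one_pow, mul_one] at hlead
  have hroot : ((chiHd_chi (Fintype.card (XN N)) P).map
      (Polynomial.aeval (ModularCurve.jqModC ℂ) : ℂ[X] →ₐ[ℂ] LaurentSeries ℂ).toRingHom).eval
      (ModularCurve.coeffMap (Int.castRingHom ℂ) (tr_g0 N)) = 0 := by
    rw [chiHd_eval_map]
    exact s28c_relation (anB_tr N (tr_gN N)) (QuotientGroup.mk 1 : XN N) _
      (tr_g0_hasLaurent_tr N) P (hProot _)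
  have hlead' : ρ ⟨((chiHd_chi (Fintype.card (XN N)) P).coeff 1).leadingCoeff, hcoef 1 _⟩ ≠ 0 := by
    have := resF_map_ne_zero ρ hlR hlR' hlne
    convert this using 2
    exact Subtype.ext hlead
  have hind := dry_indep_of_keyR ℓ (tr_R N) ρ (chiHd_chi (Fintype.card (XN N)) P)
    (chiHd_monic _ P hP0) hcoef hcR (resF_map_ne_zero ρ hcR hcR' hcne) h0 hdeg hlead'
    (tr_g0 N) hroot
  rw [chiHd_natDegree _ P hP0, ← Nat.card_eq_fintype_card] at hind
  exact hind

open ModularCurve Fermat.Agent.S18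

/-- The explicit key element: `tr_g0 N` for `N ≥ 2`, `1` for `N = 1`. -/
def s37u_g (N : ℕ) : LaurentSeries ℤ := if 2 ≤ N then tr_g0 N else 1

theorem s37u_g_rat_mem (N : ℕ) [NeZero N] :
    coeffMap (Int.castRingHom ℚ) (s37u_g N) ∈ modularFunctionFieldFull N := by
  unfold s37u_g
  split_ifs
  · exact tr_g0_mem N
  · rw [map_one]
    exact one_mem _

/-- The reduction of the key element lies in `F_k(N)`. -/
theorem s37u_g_red_mem (k : Type) [Field k] (ℓ : ℕ) [Fact ℓ.Prime] [CharP k ℓ] (N : ℕ)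
    [NeZero N] (hℓN : ¬ ℓ ∣ N) :
    coeffMap (Int.castRingHom k) (s37u_g N) ∈ modularFunctionFieldFullC k N := by
  unfold s37u_g
  split_ifs
  · exact s37u_g_mem k ℓ N hℓN
  · rw [map_one]
    exact one_mem _

/-- **KEY for the explicit element.** -/
theorem s37u_g_indep (N ℓ : ℕ) [NeZero N] [Fact ℓ.Prime] (hℓN : ¬ ℓ ∣ N) :
    DryIndep ℓ (Nat.card (SL(2, ℤ) ⧸ CongruenceSubgroup.Gamma0 N)) (s37u_g N) := by
  unfold s37u_g
  split_ifs with h
  · exact s37u_indep_two_le N ℓ h hℓN
  · have hN1 : N = 1 := by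
      have := NeZero.ne N
      omega
    subst hN1
    rw [dry_card_gamma0_one]
    exact dry_indep_one ℓ 1

/-- **KEY, refined**: the statement `s28_KeyAt` with the additional clause that the reduction
of the witness lies in `F_k(N)` for every field `k` of characteristic `ℓ`. -/
theorem s37u_key (N ℓ : ℕ) [NeZero N] [Fact ℓ.Prime] (hℓN : ¬ ℓ ∣ N) :
    ∃ g : LaurentSeries ℤ,
      coeffMap (Int.castRingHom ℚ) g ∈ modularFunctionFieldFull N ∧
      (∀ (k : Type) [Field k] [CharP k ℓ],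
        coeffMap (Int.castRingHom k) g ∈ modularFunctionFieldFullC k N) ∧
      ∀ Q : (ZMod ℓ)[X][X], Q ≠ 0 →
        Q.natDegree < Nat.card (SL(2, ℤ) ⧸ CongruenceSubgroup.Gamma0 N) →
        (Q.map (Polynomial.aeval (jqModC (ZMod ℓ))).toRingHom).eval
          (coeffMap (Int.castRingHom (ZMod ℓ)) g) ≠ 0 :=
  ⟨s37u_g N, s37u_g_rat_mem N, fun k _ _ => s37u_g_red_mem k ℓ N hℓN, s37u_g_indep N ℓ hℓN⟩

/-- **Hypothesis 5 of [GAUSS-ABS] for `(F_K(M), j)`, refined**: `n = [SL₂(ℤ) : Γ₀(M)]` integral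
series in `F_K(M)` whose reductions LIE IN `F_κ(M)` and are linearly independent over `κ[j̄]`. -/
theorem s37u_hyp5 (O K : Type) [CommRing O] [IsLocalRing O] [Field K] [CharZero K] [Algebra O K]
    (M : ℕ) [NeZero M] (ℓ : ℕ) [Fact ℓ.Prime] (hℓM : ¬ ℓ ∣ M)
    (hℓ : (ℓ : O) ∈ IsLocalRing.maximalIdeal O) :
    ∃ g : Fin (Nat.card (SL(2, ℤ) ⧸ CongruenceSubgroup.Gamma0 M)) → LaurentSeries O,
      (∀ i, coeffMap (algebraMap O K) (g i) ∈ s18_F K M) ∧
      (∀ i, coeffMap (IsLocalRing.residue O) (g i) ∈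
        modularFunctionFieldFullC (IsLocalRing.ResidueField O) M) ∧
      ∀ c : Fin (Nat.card (SL(2, ℤ) ⧸ CongruenceSubgroup.Gamma0 M)) →
          Polynomial (IsLocalRing.ResidueField O),
        (∑ i, Polynomial.aeval (coeffMap (IsLocalRing.residue O) (jqModC O)) (c i) *
          coeffMap (IsLocalRing.residue O) (g i)) = 0 → ∀ i, c i = 0 := by
  haveI := s18gq_charP O ℓ hℓ
  letI : Algebra (ZMod ℓ) (IsLocalRing.ResidueField O) := ZMod.algebra _ ℓ
  refine ⟨fun i => coeffMap (Int.castRingHom O) (s37u_g M ^ (i : ℕ)),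
    fun i => s18gq_g_mem O K M _ (s37u_g_rat_mem M) i, fun i => ?_, ?_⟩
  · have h1 := s37u_g_red_mem (IsLocalRing.ResidueField O) ℓ M hℓM
    have e : coeffMap (IsLocalRing.residue O) (coeffMap (Int.castRingHom O) (s37u_g M ^ (i : ℕ)))
        = coeffMap (Int.castRingHom (IsLocalRing.ResidueField O)) (s37u_g M) ^ (i : ℕ) := by
      rw [coeffMap_coeffMap, ← map_pow]
      exact coeffMap_congr (RingHom.ext_int _ _) _
    rw [e]
    exact pow_mem h1 _
  · intro c h0
    refine s18gq_indep_ext (jqModC (ZMod ℓ)) (coeffMap (Int.castRingHom (ZMod ℓ)) (s37u_g M)) _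
      (s37u_g_indep M ℓ hℓM) c ?_
    rw [← h0]
    refine Finset.sum_congr rfl fun i _ => ?_
    rw [coeffMap_jqModC, coeffMap_jqModC, ← map_pow, coeffMap_coeffMap, coeffMap_coeffMap]
    congr 1
    exact coeffMap_congr (RingHom.ext_int _ _) _

end Fermat.Agent.S37
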