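/-
S37, package [RI], leaves [RI-QEP] and [RI-PGI] (owner: helper18).  Prefix `s37pgi_`.

PART 3: THE `q`-EXPANSION PRINCIPLE OVER `A`, HYPOTHESIS-FREE.

    theorem s37pgi_key      : s37pgi_KeyStatement        (from helper27's [RI-UNIT], `s37u_key`)
    theorem s37pgi_qep_main : s37ri_QepStatement         (VERBATIM `S37/RIDefs.lean`)
-/
import Mathlib
import Fermat.Agent.S37.PgiDescent
import Fermat.Agent.S37.UnitRedKey
import Fermat.Agent.S37.RIDefs

set_option autoImplicit false

open ModularCurve AlgebraicCurve IntermediateField Polynomial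
open scoped MatrixGroups

noncomputable section

namespace Fermat.Agent.S37

/-- **KEY with membership** (helper27's [RI-UNIT]). -/
theorem s37pgi_key : s37pgi_KeyStatement := by
  intro M ℓ _ _ hℓM
  obtain ⟨g, h1, h2, h3⟩ := s37u_key M ℓ hℓM
  exact ⟨g, h1, h2 (ZMod ℓ), h3⟩

/-- **[RI-QEP]** the `q`-expansion principle over `A`. -/
theorem s37pgi_qep_main : s37ri_QepStatement :=
  fun M _ _ _ hℓM A hA y hy => s37pgi_qep s37pgi_key hℓM hA y hy

end Fermat.Agent.S37
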