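/-
S37, package [RI], leaf [RI-PGI] (owner: helper18).  Prefix `s37pgi_`.

PART 5: THE PRINCIPAL DIVISORS OF `F̄_M` ARE GENERATED BY THE DIVISORS OF VALID SERIES.

    theorem s37pgi_main : s37ri_PgiStatement          (VERBATIM `S37/RIDefs.lean`)

i.e. `PrincipalGeneratedByIntegral A (IsLocalRing.residue A) M` for every valuation ring `A` of
`Q̄` over a prime `ℓ ∤ M` (the hypothesis `4 ∣ M ∨ 9 ∣ M` is not used).

PROOF.  `D = div f`; `f · ι y₂ = c · ι y₁` with `c ∈ Q̄ˣ` and `y₁, y₂` valid (`s37pgi_frac`);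
`div c = 0`, so `D = div (ι y₁) - div (ι y₂)`; the two divisors exist by S24
(`HasPrincipalDivisors`).
-/
import Mathlib
import Fermat.Agent.S37.PgiFrac
import Fermat.Agent.S37.PgiQep
import Fermat.Agent.S24.Final

set_option autoImplicit false
set_option linter.unusedSectionVars false
set_option linter.unusedVariables false
set_option linter.style.haveILetI false
set_option maxHeartbeats 1000000
set_option synthInstance.maxHeartbeats 400000

open ModularCurve AlgebraicCurve IntermediateField Polynomial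
open scoped MatrixGroups

noncomputable section

namespace Fermat.Agent.S37

/-- **[RI-PGI]** from the existence of principal divisors on `F̄_M` and the KEY. -/
theorem s37pgi_main_of (M : ℕ) [NeZero M] {ℓ : ℕ} [Fact ℓ.Prime]
    (hPD : HasPrincipalDivisors (AlgebraicClosure ℚ) ↥(modularFunctionFieldBar M))
    (hkey : s37pgi_KeyStatement) (hℓM : ¬ ℓ ∣ M)
    (A : ValuationSubring (AlgebraicClosure ℚ)) (hA : A.LiesOverPrime ℓ) :
    PrincipalGeneratedByIntegral A (IsLocalRing.residue ↥A) M := by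
  intro D hD
  obtain ⟨f, hf0, hDf⟩ := hD
  have hf0' : (f : LaurentSeries (AlgebraicClosure ℚ)) ≠ 0 := fun h => hf0 (Subtype.ext h)
  obtain ⟨c, y₁, y₂, hc, h₁, h₂, h⟩ := s37pgi_frac hkey hℓM hA f.2 hf0'
  have hF₁ : (⟨coeffMap A.subtype y₁, h₁.1⟩ : ↥(modularFunctionFieldBar M)) ≠ 0 := fun h0 =>
    h₁.ne_zero (congrArg Subtype.val h0)
  have hF₂ : (⟨coeffMap A.subtype y₂, h₂.1⟩ : ↥(modularFunctionFieldBar M)) ≠ 0 := fun h0 =>
    h₂.ne_zero (congrArg Subtype.val h0)
  obtain ⟨D₁, hD₁, -⟩ := hPD.exists_divisor _ hF₁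
  obtain ⟨D₂, hD₂, -⟩ := hPD.exists_divisor _ hF₂
  have hD₁m : D₁ ∈ integralPrincipalDivisors A (IsLocalRing.residue ↥A) M :=
    ⟨y₁, h₁.1, h₁.2.1, h₁.2.2, hD₁⟩
  have hD₂m : D₂ ∈ integralPrincipalDivisors A (IsLocalRing.residue ↥A) M :=
    ⟨y₂, h₂.1, h₂.2.1, h₂.2.2, hD₂⟩
  have hcF : algebraMap (AlgebraicClosure ℚ) ↥(modularFunctionFieldBar M) c ≠ 0 := by
    rw [Ne, map_eq_zero]
    exact hc
  have e : f * (⟨coeffMap A.subtype y₂, h₂.1⟩ : ↥(modularFunctionFieldBar M)) =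
      algebraMap (AlgebraicClosure ℚ) ↥(modularFunctionFieldBar M) c *
        (⟨coeffMap A.subtype y₁, h₁.1⟩ : ↥(modularFunctionFieldBar M)) := by
    apply Subtype.ext
    rw [MulMemClass.coe_mul, MulMemClass.coe_mul]
    exact h
  have hDeq : D = D₁ - D₂ := by
    ext v
    rw [Finsupp.sub_apply, hDf, hD₁, hD₂]
    have h1 := congrArg v.ord e
    rw [v.ord_mul hf0 hF₂, v.ord_mul hcF hF₁, Fermat.Agent.S24.place_ord_algebraMap,
      zero_add] at h1
    linarith
  rw [hDeq]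
  exact sub_mem (AddSubgroup.subset_closure hD₁m) (AddSubgroup.subset_closure hD₂m)

/-- **[RI-PGI]** at every level `M` prime to `ℓ`. -/
theorem s37pgi_pgi (M : ℕ) [NeZero M] {ℓ : ℕ} [Fact ℓ.Prime] (hℓM : ¬ ℓ ∣ M)
    (A : ValuationSubring (AlgebraicClosure ℚ)) (hA : A.LiesOverPrime ℓ) :
    PrincipalGeneratedByIntegral A (IsLocalRing.residue ↥A) M :=
  s37pgi_main_of M
    (Fermat.Agent.S24.coord_principalDivisor Fermat.Agent.S24.ff_fundamentalIdentity
      (AlgebraicClosure ℚ) ↥(modularFunctionFieldBar M) (Fermat.Agent.S24.jF M)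
      (Fermat.Agent.S24.final_jCoordinate M))
    s37pgi_key hℓM A hA

/-- **[RI-PGI]**, VERBATIM `S37/RIDefs.lean`. -/
theorem s37pgi_main : s37ri_PgiStatement :=
  fun M _ _ _ hℓM _ A hA => s37pgi_pgi M hℓM A hA

example : s37ri_PgiStatement := s37pgi_main
example : s37ri_QepStatement := s37pgi_qep_main

end Fermat.Agent.S37
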