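/-
S37 [RI-BOUND] (leaf (3) of helper26's cut of [RI]), part 1: the core.
Owner: helper23.  Prefix `s37rib_`.

More than `[F̄_M : Q̄(j)]` integral elements `y_i ∈ A((q)) ∩ F̄_M` have reductions satisfying a
non-trivial relation `Σ c̄_i(j̄) ȳ_i = 0` with `c̄_i ∈ k[X]` (`A` any valuation ring of `Q̄`,
`π : A → k` any ring homomorphism to a field): take a relation over `Q̄[j]`, divide by a
coefficient of least valuation, reduce.
-/
import Mathlib
import Fermat.Prelude.Def_ModularCurve_ReductionModL
import Fermat.Agent.S24.Final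
import Fermat.Agent.S18.ConstFin

set_option autoImplicit false

open Polynomial IntermediateField ModularCurve AlgebraicCurve

noncomputable section

namespace Fermat.Agent.S37

section Generic

variable {R S : Type*} [CommRing R] [CommRing S]

theorem s37rib_algebraMap_eq_single (r : R) :
    algebraMap R (LaurentSeries R) r = HahnSeries.single 0 r := by
  have h1 : algebraMap R (PowerSeries R) r = PowerSeries.C r := by
    simp
  rw [HahnSeries.algebraMap_apply', h1, HahnSeries.ofPowerSeries_C]
  rfl

theorem s37rib_coeffMap_algebraMap (f : R →+* S) (r : R) :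
    coeffMap f (algebraMap R (LaurentSeries R) r) = algebraMap S (LaurentSeries S) (f r) := by
  rw [s37rib_algebraMap_eq_single, s37rib_algebraMap_eq_single, coeffMap_single]

theorem s37rib_coeffMap_aeval (f : R →+* S) (x : LaurentSeries R) (p : R[X]) :
    coeffMap f (aeval x p) = aeval (coeffMap f x) (p.map f) := by
  rw [aeval_def, aeval_def, hom_eval₂, eval₂_map]
  congr 1
  ext r : 1
  exact s37rib_coeffMap_algebraMap f r

end Generic

section Scale

variable {L : Type*} [Field L] (A : ValuationSubring L)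

/-- In a valuation ring, a finite family which is not identically zero can be divided by one of
its members so that it becomes integral. -/
theorem s37rib_scale {ι : Type*} (s : Finset ι) (c : ι → L) (h : ∃ i ∈ s, c i ≠ 0) :
    ∃ i₀ ∈ s, c i₀ ≠ 0 ∧ ∀ i ∈ s, c i / c i₀ ∈ A := by
  obtain ⟨i₁, hi₁, hc₁⟩ := h
  obtain ⟨i₀, hi₀, hmax⟩ := Finset.exists_max_image s (fun i => A.valuation (c i)) ⟨i₁, hi₁⟩
  have h0 : c i₀ ≠ 0 := by
    intro h0
    have h1 := hmax i₁ hi₁
    simp only [h0, map_zero] at h1
    exact hc₁ ((_root_.map_eq_zero _).1 (le_antisymm h1 zero_le))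
  refine ⟨i₀, hi₀, h0, fun i hi => ?_⟩
  rw [← ValuationSubring.valuation_le_one_iff, map_div₀]
  have hv0 : A.valuation (c i₀) ≠ 0 := (_root_.map_ne_zero _).2 h0
  exact (div_le_one₀ (zero_lt_iff.2 hv0)).2 (hmax i hi)

end Scale


section Core

open Fermat.Agent.S24

variable (A : ValuationSubring (AlgebraicClosure ℚ)) {k : Type} [Field k] (π : ↥A →+* k)
  (M : ℕ) [NeZero M]

theorem s37rib_jLaurent_one : jLaurent 1 = jqModC QBar := by
  rw [anG_jLaurent_one]
  show coeffMap (algebraMap ℚ QBar) jq = _
  rw [← jqModC_rat, coeffMap_jqModC]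

omit [NeZero M] in
theorem s37rib_coe_jF : ((jF M : FunField M) : LaurentSeries QBar) = jqModC QBar :=
  s37rib_jLaurent_one

open scoped IntermediateField.algebraAdjoinAdjoin in
/-- More than `[F̄_M : Q̄(j)]` elements of `F̄_M` satisfy a non-trivial linear relation with
coefficients in `Q̄[j]`. -/
theorem s37rib_rel_bar {n : ℕ}
    (hn : Module.finrank ↥(QBar⟮jF M⟯) (FunField M) < n)
    (Y : Fin n → FunField M) :
    ∃ p : Fin n → QBar[X], (∃ i, p i ≠ 0) ∧ ∑ i, aeval (jF M) (p i) * Y i = 0 := by
  haveI : FiniteDimensional ↥(QBar⟮jF M⟯) (FunField M) := (final_jCoordinate M).finite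
  have hdep : ¬ LinearIndependent ↥(QBar⟮jF M⟯) Y := by
    intro h
    have h1 := h.fintype_card_le_finrank
    rw [Fintype.card_fin] at h1
    omega
  have hdep' : ¬ LinearIndependent ↥(Algebra.adjoin QBar {jF M}) Y := by
    intro h
    exact hdep (h.localization ↥(QBar⟮jF M⟯) (nonZeroDivisors _))
  rw [Fintype.not_linearIndependent_iff] at hdep'
  obtain ⟨g, hg, i₀, hi₀⟩ := hdep'
  have hp : ∀ i, ∃ p : QBar[X], aeval (jF M) p = (g i : FunField M) := by
    intro i
    have h1 : ((g i : ↥(Algebra.adjoin QBar {jF M})) : FunField M) ∈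
        (aeval (R := QBar) (jF M)).range := by
      rw [← Algebra.adjoin_singleton_eq_range_aeval]
      exact (g i).2
    exact h1
  choose p hp using hp
  refine ⟨p, ⟨i₀, ?_⟩, ?_⟩
  · intro h
    apply hi₀
    apply Subtype.ext
    rw [← hp, h, map_zero]
    rfl
  · rw [← hg]
    refine Finset.sum_congr rfl fun i _ => ?_
    rw [hp]
    rfl


/-- **The core**: more than `[F̄_M : Q̄(j)]` integral elements of `F̄_M` have reductions which
satisfy a non-trivial linear relation with coefficients in `k[j̄]`. -/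
theorem s37rib_core {n : ℕ}
    (hn : Module.finrank ↥(QBar⟮jF M⟯) (FunField M) < n)
    (y : Fin n → LaurentSeries A)
    (hy : ∀ i, coeffMap A.subtype (y i) ∈ modularFunctionFieldBar M) :
    ∃ a : Fin n → k[X], (∃ i, a i ≠ 0) ∧
      ∑ i, aeval (jqModC k) (a i) *
        coeffMap π (y i) = 0 := by
  classical
  obtain ⟨p, ⟨i₁, hi₁⟩, hrel⟩ := s37rib_rel_bar M hn (fun i => ⟨coeffMap A.subtype (y i), hy i⟩)
  -- the relation in `Q̄((q))`
  have hrel' : ∑ i, aeval (jqModC QBar) (p i) * coeffMap A.subtype (y i) = 0 := by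
    have h1 := congrArg (fun x : FunField M => (x : LaurentSeries QBar)) hrel
    simp only [AddSubmonoidClass.coe_finsetSum, ZeroMemClass.coe_zero, MulMemClass.coe_mul] at h1
    rw [← h1]
    refine Finset.sum_congr rfl fun i _ => ?_
    congr 1
    rw [← s37rib_coe_jF M]
    exact (Polynomial.aeval_algHom_apply (modularFunctionFieldBar M).val (jF M) (p i))
  -- scaling
  set D : ℕ := Finset.univ.sup (fun i => (p i).natDegree) with hD
  obtain ⟨⟨i₀, m₀⟩, -, hc₀, hscale⟩ := s37rib_scale A
    ((Finset.univ : Finset (Fin n)) ×ˢ Finset.range (D + 1))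
    (fun im => (p im.1).coeff im.2)
    ⟨(i₁, (p i₁).natDegree), by
      rw [Finset.mem_product]
      refine ⟨Finset.mem_univ _, Finset.mem_range.2 (Nat.lt_succ_of_le ?_)⟩
      exact Finset.le_sup (f := fun i => (p i).natDegree) (Finset.mem_univ i₁),
      by simpa using hi₁⟩
  simp only at hc₀ hscale
  set c₀ : QBar := (p i₀).coeff m₀ with hc₀def
  have hall : ∀ i m, (p i).coeff m / c₀ ∈ A := by
    intro i m
    by_cases hm : m ≤ D
    · exact hscale (i, m) (Finset.mem_product.2
        ⟨Finset.mem_univ _, Finset.mem_range.2 (Nat.lt_succ_of_le hm)⟩)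
    · have h1 : (p i).coeff m = 0 := by
        apply Polynomial.coeff_eq_zero_of_natDegree_lt
        have h2 : (p i).natDegree ≤ D :=
          Finset.le_sup (f := fun i => (p i).natDegree) (Finset.mem_univ i)
        omega
      rw [h1, zero_div]
      exact A.zero_mem
  have hlift : ∀ i, ∃ P : (↥A)[X], P.map A.subtype = C c₀⁻¹ * p i := by
    intro i
    have h1 : C c₀⁻¹ * p i ∈ Polynomial.lifts A.subtype := by
      rw [Polynomial.lifts_iff_coeff_lifts]
      intro m
      rw [Polynomial.coeff_C_mul]
      refine ⟨⟨(p i).coeff m / c₀, hall i m⟩, ?_⟩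
      show (p i).coeff m / c₀ = _
      rw [div_eq_inv_mul]
    exact (Polynomial.mem_lifts _).1 h1
  choose P hP using hlift
  -- the relation over `A`
  have hrelA : ∑ i, aeval (jqModC ↥A) (P i) * y i = 0 := by
    apply S18.s18c_coeffMap_injective A.subtype Subtype.val_injective
    rw [map_sum, map_zero]
    have h1 : ∀ i, coeffMap A.subtype (aeval (jqModC ↥A) (P i) * y i) =
        algebraMap QBar (LaurentSeries QBar) c₀⁻¹ *
          (aeval (jqModC QBar) (p i) * coeffMap A.subtype (y i)) := by
      intro i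
      rw [map_mul, s37rib_coeffMap_aeval, coeffMap_jqModC, hP, map_mul, aeval_C, mul_assoc]
    simp only [h1]
    rw [← Finset.mul_sum, hrel', mul_zero]
  refine ⟨fun i => (P i).map π, ⟨i₀, ?_⟩, ?_⟩
  · intro h
    have h1 := congrArg (fun q => Polynomial.coeff q m₀) h
    simp only [Polynomial.coeff_map, Polynomial.coeff_zero] at h1
    have h2 : (P i₀).coeff m₀ = 1 := by
      apply Subtype.val_injective
      have h3 := congrArg (fun q => Polynomial.coeff q m₀) (hP i₀)
      simp only [Polynomial.coeff_map, Polynomial.coeff_C_mul] at h3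
      rw [← hc₀def, inv_mul_cancel₀ hc₀] at h3
      exact h3
    rw [h2, map_one] at h1
    exact one_ne_zero h1
  · have h1 := congrArg (coeffMap π) hrelA
    rw [map_sum, map_zero] at h1
    rw [← h1]
    refine Finset.sum_congr rfl fun i _ => ?_
    rw [map_mul, s37rib_coeffMap_aeval, coeffMap_jqModC]

end Core

end Fermat.Agent.S37
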