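/-
S37 [RI-BOUND] (leaf (3) of helper26's cut of [RI], board #1284), part 2: the bound.
Owner: helper23.  Prefix `s37rib_`.

  `s37rib_main A M : [F_k(M) : k(j̄)] ≤ [F̄_M : Q̄(j)]`      (`k` = residue field of `A`)
  `s37rib_main_psi A M : [F_k(M) : k(j̄)] ≤ ψ(M)`
  `s37rib_main_gen A π M hπ` : the same for any surjective ring homomorphism `π : A → k`
  `s37rib_frac` : every element of `F_k(M)` is `s / c(j̄)`, `s` the reduction of an integral
                  element of `F̄_M`, `c ∈ k[X]`, `c ≠ 0`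
  `s37rib_isAlgebraic` : reductions of integral elements are algebraic over `k(j̄)`

`A` is ANY valuation ring of `Q̄`; no hypothesis on the level; no model.
-/
import Mathlib
import Fermat.Agent.S37.RIBoundCore
import Fermat.Agent.S18.GaussQOfBasic
import Fermat.Agent.S18.DownDeg

set_option autoImplicit false

open Polynomial IntermediateField ModularCurve AlgebraicCurve

noncomputable section

namespace Fermat.Agent.S37

section Alg

variable {k E : Type*} [Field k] [Field E] [Algebra k E]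

/-- A non-trivial relation `Σ_{i<n} c_i(x) sⁱ = 0` with `c_i ∈ k[X]`, `x` transcendental,
shows that `s` is algebraic over `k(x)`. -/
theorem s37rib_alg_of_rel (x s : E) (hx : Transcendental k x) {n : ℕ} (a : Fin n → k[X])
    (i₀ : Fin n) (hi₀ : a i₀ ≠ 0) (hrel : ∑ i, aeval x (a i) * s ^ (i : ℕ) = 0) :
    IsAlgebraic ↥(k⟮x⟯) s := by
  classical
  have hcoe : ∀ c : k[X],
      algebraMap ↥(k⟮x⟯) E (aeval (AdjoinSimple.gen k x) c) = aeval x c := by
    intro c
    rw [← Polynomial.aeval_algebraMap_apply]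
    rfl
  refine ⟨∑ i : Fin n, monomial (i : ℕ) (aeval (AdjoinSimple.gen k x) (a i)), ?_, ?_⟩
  · intro hQ
    have h1 := congrArg (fun q => Polynomial.coeff q (i₀ : ℕ)) hQ
    simp only [finsetSum_coeff, coeff_monomial, coeff_zero] at h1
    rw [Finset.sum_eq_single i₀] at h1
    · rw [if_pos rfl] at h1
      have h3 := congrArg (algebraMap ↥(k⟮x⟯) E) h1
      rw [hcoe, map_zero] at h3
      exact hi₀ ((transcendental_iff.1 hx) _ h3)
    · intro i _ hi
      rw [if_neg]
      intro h
      exact hi (Fin.ext h)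
    · intro h
      exact absurd (Finset.mem_univ _) h
  · rw [← hrel, map_sum]
    refine Finset.sum_congr rfl fun i _ => ?_
    rw [aeval_monomial, hcoe]

/-- If a subring `S ∋ x` containing the constants consists of elements algebraic over `k(x)`,
then every element of the field generated by `S` is a quotient `s / c(x)`. -/
theorem s37rib_frac_gen (x : E) (S : Subring E) (hk : ∀ a : k, algebraMap k E a ∈ S)
    (hxS : x ∈ S) (halg : ∀ s ∈ S, IsAlgebraic ↥(k⟮x⟯) s)
    (F : IntermediateField k E)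
    (hF : F ≤ IntermediateField.adjoin k (S : Set E)) {z : E} (hz : z ∈ F) :
    ∃ s ∈ S, ∃ c : k[X], c ≠ 0 ∧ aeval x c * z = s := by
  classical
  have haev : ∀ c : k[X], aeval x c ∈ S := by
    intro c
    rw [Polynomial.aeval_eq_sum_range]
    refine Subring.sum_mem _ fun i _ => ?_
    rw [Algebra.smul_def]
    exact Subring.mul_mem _ (hk _) (Subring.pow_mem _ hxS _)
  have h1 : z ∈ Subfield.closure (Set.range (algebraMap ↥(k⟮x⟯) E) ∪ (S : Set E)) := by
    have h0 : z ∈ Subfield.closure (Set.range (algebraMap k E) ∪ (S : Set E)) := hF hz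
    refine Subfield.closure_mono ?_ h0
    rintro w (⟨a, rfl⟩ | hw)
    · exact Or.inl ⟨algebraMap k ↥(k⟮x⟯) a, rfl⟩
    · exact Or.inr hw
  have h2 : z ∈ Submodule.span ↥(k⟮x⟯) (S : Set E) := by
    have h3 : z ∈ (IntermediateField.adjoin ↥(k⟮x⟯) (S : Set E)).toSubalgebra := h1
    rw [IntermediateField.adjoin_toSubalgebra_of_isAlgebraic halg] at h3
    have h4 : z ∈ Subalgebra.toSubmodule (Algebra.adjoin ↥(k⟮x⟯) (S : Set E)) := h3
    rw [Algebra.adjoin_eq_span] at h4
    have h5 : (Submonoid.closure (S : Set E) : Set E) = (S : Set E) :=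
      congrArg (fun T : Submonoid E => (T : Set E)) (Submonoid.closure_eq S.toSubmonoid)
    rwa [h5] at h4
  clear h1 hz
  induction h2 using Submodule.span_induction with
  | mem z hz => exact ⟨z, hz, 1, one_ne_zero, by rw [map_one, one_mul]⟩
  | zero => exact ⟨0, Subring.zero_mem _, 1, one_ne_zero, by rw [mul_zero]⟩
  | add z w _ _ hz hw =>
      obtain ⟨s₁, hs₁, c₁, hc₁, h₁⟩ := hz
      obtain ⟨s₂, hs₂, c₂, hc₂, h₂⟩ := hw
      refine ⟨aeval x c₂ * s₁ + aeval x c₁ * s₂,
        Subring.add_mem _ (Subring.mul_mem _ (haev c₂) hs₁)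
          (Subring.mul_mem _ (haev c₁) hs₂),
        c₁ * c₂, mul_ne_zero hc₁ hc₂, ?_⟩
      rw [map_mul, ← h₁, ← h₂]
      ring
  | smul g z _ hz =>
      obtain ⟨s₁, hs₁, c₁, hc₁, h₁⟩ := hz
      obtain ⟨r, t, hrt⟩ := (IntermediateField.mem_adjoin_simple_iff k (g : E)).1 g.2
      have hsmul : g • z = (g : E) * z := rfl
      by_cases ht : aeval x t = 0
      · refine ⟨0, Subring.zero_mem _, 1, one_ne_zero, ?_⟩
        rw [hsmul, hrt, ht, div_zero, zero_mul, mul_zero]
      · have ht0 : t ≠ 0 := by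
          rintro rfl
          exact ht (map_zero _)
        refine ⟨aeval x r * s₁, Subring.mul_mem _ (haev r) hs₁,
          t * c₁, mul_ne_zero ht0 hc₁, ?_⟩
        rw [hsmul, hrt, map_mul, ← h₁]
        field_simp

/-- The dimension bound from relations. -/
theorem s37rib_finrank_lt (F : IntermediateField k E) (x : F) (hx : Transcendental k x) (n : ℕ)
    (h : ∀ f : Fin n → F, ∃ a : Fin n → k[X], (∃ i, a i ≠ 0) ∧
      ∑ i, aeval (x : E) (a i) * (f i : E) = 0) :
    Module.finrank ↥(k⟮x⟯) ↥F < n := by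
  classical
  by_contra hlt
  rw [not_lt] at hlt
  obtain ⟨f, hf⟩ := exists_linearIndependent_of_le_finrank hlt
  obtain ⟨a, ⟨i₀, hi₀⟩, hrel⟩ := h f
  have hcoe : ∀ b : k[X], ((aeval x b : F) : E) = aeval (x : E) b := fun b =>
    (Polynomial.aeval_algHom_apply F.val x b).symm
  have hgen : ∀ b : k[X], ((aeval (AdjoinSimple.gen k x) b : ↥(k⟮x⟯)) : F) = aeval x b := by
    intro b
    rw [← AdjoinSimple.algebraMap_gen k x, Polynomial.aeval_algebraMap_apply]
    rfl
  have hsum : ∑ i, aeval (AdjoinSimple.gen k x) (a i) • f i = 0 := by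
    apply Subtype.val_injective
    rw [AddSubmonoidClass.coe_finsetSum]
    show _ = (0 : E)
    rw [← hrel]
    refine Finset.sum_congr rfl fun i _ => ?_
    have h1 : ((aeval (AdjoinSimple.gen k x) (a i) • f i : F) : E) =
        ((aeval x (a i) : F) : E) * (f i : E) := by
      rw [← hgen]
      rfl
    rw [h1, hcoe]
  have h0 := (Fintype.linearIndependent_iff.1 hf) _ hsum i₀
  have h1 : aeval x (a i₀) = 0 := by
    rw [← hgen, h0]
    rfl
  exact hi₀ ((transcendental_iff.1 hx) _ h1)

end Alg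

section Main

open Fermat.Agent.S24

variable (A : ValuationSubring (AlgebraicClosure ℚ)) {k : Type} [Field k] (π : ↥A →+* k)
  (M : ℕ) [NeZero M]

/-- The ring of the reductions of the integral elements of `F̄_M`. -/
def s37rib_S : Subring (LaurentSeries k) :=
  ((modularFunctionFieldBar M).toSubring.comap (coeffMap A.subtype)).map (coeffMap π)

omit [NeZero M] in
theorem s37rib_mem_S {x : LaurentSeries k} :
    x ∈ s37rib_S A π M ↔ ∃ y : LaurentSeries A,
      coeffMap A.subtype y ∈ modularFunctionFieldBar M ∧ coeffMap π y = x :=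
  Iff.rfl

omit [NeZero M] in
theorem s37rib_algebraMap_mem (hπ : Function.Surjective π) (a : k) :
    algebraMap k (LaurentSeries k) a ∈ s37rib_S A π M := by
  obtain ⟨a', rfl⟩ := hπ a
  refine (s37rib_mem_S A π M).2 ⟨algebraMap A (LaurentSeries A) a', ?_,
    s37rib_coeffMap_algebraMap _ _⟩
  rw [s37rib_coeffMap_algebraMap]
  exact (modularFunctionFieldBar M).algebraMap_mem _

theorem s37rib_jLaurent (d : ℕ) [NeZero d] : jLaurent d = qExpand QBar d (jqModC QBar) := by
  show coeffMap (algebraMap ℚ QBar) (qExpand ℚ d jq) = _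
  rw [coeffMap_qExpand, ← jqModC_rat, coeffMap_jqModC]

omit [NeZero M] in
theorem s37rib_gen_mem {d : ℕ} [NeZero d] (hd : d ∣ M) :
    qExpand k d (jqModC k) ∈ s37rib_S A π M := by
  refine (s37rib_mem_S A π M).2 ⟨qExpand A d (jqModC A), ?_, ?_⟩
  · rw [coeffMap_qExpand, coeffMap_jqModC, ← s37rib_jLaurent]
    exact jLaurent_mem M hd
  · rw [coeffMap_qExpand, coeffMap_jqModC]

omit [NeZero M] in
theorem s37rib_j_mem : jqModC k ∈ s37rib_S A π M := by
  have h := s37rib_gen_mem A π M (one_dvd M)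
  rwa [qExpand_one_apply] at h

/-- Every reduction of an integral element of `F̄_M` is algebraic over `k(j̄)`. -/
theorem s37rib_isAlgebraic {s : LaurentSeries k} (hs : s ∈ s37rib_S A π M) :
    IsAlgebraic ↥(k⟮jqModC k⟯) s := by
  obtain ⟨y, hy, rfl⟩ := (s37rib_mem_S A π M).1 hs
  obtain ⟨a, ⟨i₀, hi₀⟩, hrel⟩ := s37rib_core A π M
    (n := Module.finrank ↥(QBar⟮jF M⟯) (FunField M) + 1) (Nat.lt_succ_self _)
    (fun i => y ^ (i : ℕ)) (fun i => by
      rw [map_pow]
      exact pow_mem hy _)
  refine s37rib_alg_of_rel (jqModC k) _ (S18.s18gq_transc_jq k) a i₀ hi₀ ?_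
  rw [← hrel]
  refine Finset.sum_congr rfl fun i _ => ?_
  rw [map_pow]

/-- Every element of `F_k(M)` is a quotient `s / c(j̄)` with `s` the reduction of an integral
element of `F̄_M` and `c ∈ k[X]`, `c ≠ 0`. -/
theorem s37rib_frac (hπ : Function.Surjective π) {x : LaurentSeries k}
    (hx : x ∈ modularFunctionFieldFullC k M) :
    ∃ s ∈ s37rib_S A π M, ∃ c : k[X], c ≠ 0 ∧ aeval (jqModC k) c * x = s := by
  refine s37rib_frac_gen (jqModC k) (s37rib_S A π M) (s37rib_algebraMap_mem A π M hπ)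
    (s37rib_j_mem A π M) (fun s hs => s37rib_isAlgebraic A π M hs)
    (modularFunctionFieldFullC k M) ?_ hx
  rw [modularFunctionFieldFullC]
  refine IntermediateField.adjoin.mono k _ _ ?_
  rintro z ⟨d, hd, hdM, rfl⟩
  haveI := hd
  exact s37rib_gen_mem A π M hdM

/-- **[RI-BOUND]**, general form: `[F_k(M) : k(j̄)] ≤ [F̄_M : Q̄(j)]` for every valuation ring
`A` of `Q̄` and every surjective ring homomorphism `π : A → k` onto a field. -/
theorem s37rib_main_gen (hπ : Function.Surjective π) :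
    Module.finrank ↥(k⟮S18.s18c_jF k M⟯) ↥(modularFunctionFieldFullC k M) ≤
      Module.finrank ↥(QBar⟮jF M⟯) (FunField M) := by
  refine Nat.lt_succ_iff.1 (s37rib_finrank_lt (modularFunctionFieldFullC k M)
    (S18.s18c_jF k M) (S18.s18c_jF_transcendental k M) _ ?_)
  intro f
  have hfrac := fun i => s37rib_frac A π M hπ (f i).2
  choose s hs c hc hsc using hfrac
  have hy := fun i => (s37rib_mem_S A π M).1 (hs i)
  choose y hy hys using hy
  obtain ⟨a, ⟨i₀, hi₀⟩, hrel⟩ := s37rib_core A π M (Nat.lt_succ_self _) y hy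
  refine ⟨fun i => a i * c i, ⟨i₀, mul_ne_zero hi₀ (hc i₀)⟩, ?_⟩
  rw [← hrel]
  refine Finset.sum_congr rfl fun i _ => ?_
  show aeval (jqModC k) (a i * c i) * (f i : LaurentSeries k) = _
  rw [map_mul, mul_assoc, hsc i, hys i]

end Main

section Final

open Fermat.Agent.S24
open scoped MatrixGroups

set_option synthInstance.maxHeartbeats 400000

/-- **[RI-BOUND]** for the residue field of a valuation ring `A` of `Q̄`. -/
theorem s37rib_main (A : ValuationSubring (AlgebraicClosure ℚ)) (M : ℕ) [NeZero M] :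
    Module.finrank
        ↥((IsLocalRing.ResidueField ↥A)⟮S18.s18c_jF (IsLocalRing.ResidueField ↥A) M⟯)
        ↥(modularFunctionFieldFullC (IsLocalRing.ResidueField ↥A) M) ≤
      Module.finrank ↥(QBar⟮jF M⟯) (FunField M) :=
  s37rib_main_gen A (IsLocalRing.residue ↥A) M IsLocalRing.residue_surjective

/-- **[RI-BOUND]** in the `ψ`-form. -/
theorem s37rib_main_psi (A : ValuationSubring (AlgebraicClosure ℚ)) (M : ℕ) [NeZero M] :
    Module.finrank
        ↥((IsLocalRing.ResidueField ↥A)⟮S18.s18c_jF (IsLocalRing.ResidueField ↥A) M⟯)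
        ↥(modularFunctionFieldFullC (IsLocalRing.ResidueField ↥A) M) ≤
      ModularCurve.dedekindPsi M :=
  (s37rib_main A M).trans_eq (S18.s18d_finrank M)

end Final

end Fermat.Agent.S37
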