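/-
S37, package [RI], leaf [RI-BOUND-ASM] (helper12).  Prefix `s37riba_`.

`theorem s37riba_main : s37ri_BoundStatement` - the pole form of [RI-BOUND]: with
`n := [F_k(M) : k(j̄)]`, every finite set of poles of `j̄` has `∑ -ord ≤ n` (helper20's
`s37ff_mod_poles`), and the set of all poles of `j` on `F̄_M` has `∑ -ord = [F̄_M : Q̄(j)] ≥ n`
(S24's fundamental identity for `j⁻¹` and helper23's `s37rib_main`).
-/
import Mathlib
import Fermat.Agent.S37.RIDefs
import Fermat.Agent.S37.RIBound
import Fermat.Agent.S37.FFlMod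
import Fermat.Agent.S18.RamJ
import Fermat.Agent.S18.WireOfRes
import Fermat.Agent.S24.FFIdentity
import Fermat.Agent.S24.GlueCoord
import Fermat.Agent.S24.Final

set_option autoImplicit false
set_option maxHeartbeats 1000000
set_option synthInstance.maxHeartbeats 400000

open ModularCurve AlgebraicCurve IntermediateField

noncomputable section

namespace Fermat.Agent.S37

/-- Sum of the pole orders over a finite set of poles, bounded by the sum over all poles. -/
theorem s37riba_sum_le {K F : Type*} [Field K] [Field F] [Algebra K F] (u : F) (hu : u ≠ 0)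
    (hfin : (S24.placesOver K u⁻¹).Finite) (T : Finset (Place K F))
    (hT : ∀ Q ∈ T, Q.ord u < 0) :
    ∑ Q ∈ T, (- Q.ord u) ≤ ∑ v ∈ hfin.toFinset, v.ord u⁻¹ := by
  classical
  have hui0 : u⁻¹ ≠ 0 := inv_ne_zero hu
  have hsub : T ⊆ hfin.toFinset := by
    intro Q hQ
    rw [Set.Finite.mem_toFinset]
    show u⁻¹ ∈ Q.toValuationSubring.nonunits
    rw [S24.place_mem_nonunits_iff Q hui0, Q.ord_inv]
    have := hT Q hQ
    omega
  calc ∑ Q ∈ T, (- Q.ord u) = ∑ Q ∈ T, Q.ord u⁻¹ :=
        Finset.sum_congr rfl fun Q _ => (Q.ord_inv u).symm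
    _ ≤ ∑ v ∈ hfin.toFinset, v.ord u⁻¹ := by
        refine Finset.sum_le_sum_of_subset_of_nonneg hsub fun v hv _ => ?_
        rw [Set.Finite.mem_toFinset] at hv
        have : u⁻¹ ∈ v.toValuationSubring.nonunits := hv
        rw [S24.place_mem_nonunits_iff v hui0] at this
        exact this.le

/-- **[RI-BOUND]**, the pole form. -/
theorem s37riba_main : s37ri_BoundStatement := by
  classical
  intro M _ ℓ _ _ _ A hA
  haveI := S18.s18w_charP A hA
  haveI := S18.s18w_isAlgClosed A
  obtain ⟨hfin, hsum⟩ := s37ff_mod_poles (IsLocalRing.ResidueField A) M ℓ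
  refine ⟨(Module.finrank
      ↥((IsLocalRing.ResidueField A)⟮S18.s18c_jF (IsLocalRing.ResidueField A) M⟯)
      ↥(modularFunctionFieldFullC (IsLocalRing.ResidueField A) M) : ℤ), ?_, ?_⟩
  · intro T hT
    have hj0 : S18.s18c_jF (IsLocalRing.ResidueField A) M ≠ 0 := by
      intro h0
      have := S18.s18c_jF_transcendental (IsLocalRing.ResidueField A) M
      rw [h0] at this
      exact this isAlgebraic_zero
    rw [← hsum]
    exact s37riba_sum_le (S18.s18c_jF (IsLocalRing.ResidueField A) M) hj0 hfin T hT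
  · have hco := S24.final_jCoordinate M
    obtain ⟨hP, hsumP⟩ := S24.ff_fundamentalIdentity S24.QBar (S24.FunField M) (S24.jF M)⁻¹
      (S24.glue_isCoordinate_inv hco)
    have hj0 : S24.jF M ≠ 0 := by
      intro h0
      have := hco.transcendental
      rw [h0] at this
      exact this isAlgebraic_zero
    have hji0 : (S24.jF M)⁻¹ ≠ 0 := inv_ne_zero hj0
    refine ⟨hP.toFinset, fun P hPm => ?_, ?_⟩
    · rw [Set.Finite.mem_toFinset] at hPm
      have h1 : (S24.jF M)⁻¹ ∈ P.toValuationSubring.nonunits := hPm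
      rw [S24.place_mem_nonunits_iff P hji0, P.ord_inv] at h1
      show P.ord (S18.s18_j (AlgebraicClosure ℚ) M) < 0
      rw [S18.s18rj_j_eq]
      omega
    · have h2 : ∑ P ∈ hP.toFinset, (- P.ord (s37ri_j M)) =
          ∑ P ∈ hP.toFinset, P.ord (S24.jF M)⁻¹ := by
        refine Finset.sum_congr rfl fun P _ => ?_
        show - P.ord (S18.s18_j (AlgebraicClosure ℚ) M) = _
        rw [S18.s18rj_j_eq, P.ord_inv]
      rw [h2, hsumP, S24.glue_finrank_inv]
      exact_mod_cast s37rib_main A M

end Fermat.Agent.S37
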