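/-
S37, shared tool [FF-l], part 1: the fundamental identity `∑_{v ∣ u} ord_v(u) = [F : K(u)]` for a
SEPARABLE coordinate `u` of a function field `F/K`, in ANY characteristic.
This is S24's (FF2) (`Fermat/Agent/S24/FFCoord.lean`, `FFIdentity.lean`, stated there with
`[CharZero K]`, which is used only through the separability of `F / K(u)`) with the hypothesis
`[CharZero K]` replaced by `Algebra.IsSeparable K⟮u⟯ F`.  The characteristic-free parts of S24
are reused as they are, the others are repeated under the prefix `s37ff_`.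
Owner: helper20.  Prefix `s37ff_`.
-/
import Mathlib
import Fermat.Agent.S24.Defs
import Fermat.Agent.S24.FFIdentity
import Fermat.Agent.S24.FFApprox
import Fermat.Agent.S24.GlueCoord

set_option autoImplicit false
set_option linter.unusedSectionVars false
set_option linter.style.haveILetI false
set_option linter.deprecated false

namespace Fermat.Agent.S37

open Fermat.Agent.S24 AlgebraicCurve IsDedekindDomain WithZero IntermediateField
open scoped IntermediateField.algebraAdjoinAdjoin

noncomputable section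

variable {K F : Type*} [Field K] [Field F] [Algebra K F]

/-- `u` is a separable coordinate: a coordinate with `F / K(u)` separable. -/
structure s37ff_IsSepCoord (K : Type*) {F : Type*} [Field K] [Field F] [Algebra K F] (u : F) :
    Prop where
  coord : IsCoordinate K u
  sep : Algebra.IsSeparable K⟮u⟯ F

variable {u : F}

theorem s37ff_isDedekindDomain_B (hu : s37ff_IsSepCoord K u) : IsDedekindDomain (ffB K u) := by
  have := hu.coord.finite
  have := hu.sep
  have := ff_isDedekindDomain_adjoin hu.coord.transcendental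
  exact integralClosure.isDedekindDomain (Algebra.adjoin K {u}) K⟮u⟯ F

theorem s37ff_isFractionRing_B (hu : s37ff_IsSepCoord K u) : IsFractionRing (ffB K u) F := by
  have := hu.coord.finite
  exact integralClosure.isFractionRing_of_finite_extension K⟮u⟯ F

theorem s37ff_finite_B (hu : s37ff_IsSepCoord K u) : Module.Finite (Algebra.adjoin K {u}) (ffB K u) := by
  have := hu.coord.finite
  have := hu.sep
  have := ff_isDedekindDomain_adjoin hu.coord.transcendental
  exact IsIntegralClosure.finite (Algebra.adjoin K {u}) K⟮u⟯ F (ffB K u)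

/-- The place of `F / K` attached to a nonzero prime of the integral closure of `K[u]`. -/
def s37ff_place (hu : s37ff_IsSepCoord K u) (P : HeightOneSpectrum (ffB K u)) : Place K F :=
  haveI := s37ff_isDedekindDomain_B hu
  haveI := s37ff_isFractionRing_B hu
  ff_placeOfPrime P

/-- Elements integral over `K[u]` are regular at the places `s37ff_place hu P`. -/
theorem s37ff_place_regular (hu : s37ff_IsSepCoord K u) (P : HeightOneSpectrum (ffB K u))
    (b : ffB K u) : (b : F) ∈ (s37ff_place hu P).toValuationSubring := by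
  haveI := s37ff_isDedekindDomain_B hu
  haveI := s37ff_isFractionRing_B hu
  show (b : F) ∈ (ff_placeOfPrime (K := K) P).toValuationSubring
  rw [ff_mem_placeOfPrime]
  exact P.valuation_le_one b

/-- `b ∈ P` iff `b` vanishes at `s37ff_place hu P`. -/
theorem s37ff_place_mem_nonunits (hu : s37ff_IsSepCoord K u) (P : HeightOneSpectrum (ffB K u))
    (b : ffB K u) : (b : F) ∈ (s37ff_place hu P).toValuationSubring.nonunits ↔ b ∈ P.asIdeal := by
  haveI := s37ff_isDedekindDomain_B hu
  haveI := s37ff_isFractionRing_B hu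
  exact ff_mem_nonunits_placeOfPrime (K := K) (F := F) P b

theorem s37ff_place_injective (hu : s37ff_IsSepCoord K u) :
    Function.Injective (s37ff_place hu) := by
  haveI := s37ff_isDedekindDomain_B hu
  haveI := s37ff_isFractionRing_B hu
  exact ff_placeOfPrime_injective (K := K) (F := F) (B := ffB K u)

/-- Every place at which `u` is regular is of the form `s37ff_place hu P`. -/
theorem s37ff_place_surjective (hu : s37ff_IsSepCoord K u) (v : Place K F)
    (hv : u ∈ v.toValuationSubring) : ∃ P : HeightOneSpectrum (ffB K u), s37ff_place hu P = v := by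
  haveI := s37ff_isDedekindDomain_B hu
  haveI := s37ff_isFractionRing_B hu
  exact ff_exists_prime_of_le (K := K) v (ff_B_le v hv)

/-- The order at `s37ff_place hu P` is the `P`-adic valuation. -/
theorem s37ff_place_ord (hu : s37ff_IsSepCoord K u) (P : HeightOneSpectrum (ffB K u)) (f : F) :
    (s37ff_place hu P).ord f =
      -(log (@HeightOneSpectrum.valuation (ffB K u) _ (s37ff_isDedekindDomain_B hu) F _ _
        (s37ff_isFractionRing_B hu) P f)) := by
  haveI := s37ff_isDedekindDomain_B hu
  haveI := s37ff_isFractionRing_B hu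
  exact ff_placeOfPrime_ord (K := K) P f

/-- `ord_v(u)` is the ramification index, for the place `v` attached to a prime over `(u)`. -/
theorem s37ff_ord_eq_ramificationIdx (hu : s37ff_IsSepCoord K u)
    (P : HeightOneSpectrum (ffB K u)) [hP : P.asIdeal.LiesOver (ffIdeal K u)] :
    (s37ff_place hu P).ord u = (Ideal.ramificationIdx' (ffIdeal K u) P.asIdeal : ℤ) := by
  haveI := ff_isDedekindDomain_adjoin hu.coord.transcendental
  haveI := s37ff_isDedekindDomain_B hu
  haveI := s37ff_isFractionRing_B hu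
  haveI : P.asIdeal.LiesOver (ffPrime hu.coord.transcendental).asIdeal := hP
  rw [s37ff_place_ord]
  have h := HeightOneSpectrum.valuation_liesOver (K := K⟮u⟯) F (ffPrime hu.coord.transcendental) P
    (algebraMap (Algebra.adjoin K {u}) K⟮u⟯ (ffGen K u))
  rw [HeightOneSpectrum.valuation_of_algebraMap,
    HeightOneSpectrum.intValuation_singleton _ (ffGen_ne_zero hu.coord.transcendental) rfl] at h
  have h2 : algebraMap K⟮u⟯ F (algebraMap (Algebra.adjoin K {u}) K⟮u⟯ (ffGen K u)) = u := rfl
  rw [h2] at h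
  rw [← h, ← exp_nsmul, log_exp]
  show -((Ideal.ramificationIdx' (ffIdeal K u) P.asIdeal) • (-1 : ℤ)) = _
  simp

theorem s37ff_finiteType_B (hu : s37ff_IsSepCoord K u) : Algebra.FiniteType K (ffB K u) := by
  haveI := s37ff_finite_B hu
  haveI := ff_finiteType_adjoin (K := K) u
  exact Algebra.FiniteType.trans (R := K) (S := Algebra.adjoin K {u}) (A := ffB K u)
    inferInstance inferInstance

/-- The residue field of a nonzero prime of the integral closure of `K[u]` is `K`. -/
theorem s37ff_residue_bijective [IsAlgClosed K] (hu : s37ff_IsSepCoord K u)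
    (P : HeightOneSpectrum (ffB K u)) :
    Function.Bijective (algebraMap K (ffB K u ⧸ P.asIdeal)) := by
  haveI := s37ff_isDedekindDomain_B hu
  haveI := s37ff_finiteType_B hu
  haveI : P.asIdeal.IsMaximal := P.isMaximal
  letI : Field (ffB K u ⧸ P.asIdeal) := Ideal.Quotient.field P.asIdeal
  haveI : Algebra.FiniteType K (ffB K u ⧸ P.asIdeal) :=
    Algebra.FiniteType.of_surjective (Ideal.Quotient.mkₐ K P.asIdeal)
      (Ideal.Quotient.mkₐ_surjective K P.asIdeal)
  haveI : Module.Finite K (ffB K u ⧸ P.asIdeal) :=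
    finite_of_finite_type_of_isJacobsonRing K (ffB K u ⧸ P.asIdeal)
  haveI : Algebra.IsIntegral K (ffB K u ⧸ P.asIdeal) := Algebra.IsIntegral.of_finite K _
  exact IsAlgClosed.algebraMap_bijective_of_isIntegral

set_option synthInstance.maxHeartbeats 400000 in
/-- The inertia degree of a prime over `(u)` is `1`. -/
theorem s37ff_inertiaDeg_eq_one [IsAlgClosed K] (hu : s37ff_IsSepCoord K u)
    (P : HeightOneSpectrum (ffB K u)) [hP : P.asIdeal.LiesOver (ffIdeal K u)] :
    Ideal.inertiaDeg' (ffIdeal K u) P.asIdeal = 1 := by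
  haveI := s37ff_isDedekindDomain_B hu
  haveI : P.asIdeal.IsMaximal := P.isMaximal
  haveI : (ffIdeal K u).IsMaximal := ffIdeal_isMaximal hu.coord.transcendental
  rw [Ideal.inertiaDeg'_algebraMap]
  letI : Field (Algebra.adjoin K {u} ⧸ ffIdeal K u) := Ideal.Quotient.field _
  letI : Field (ffB K u ⧸ P.asIdeal) := Ideal.Quotient.field _
  letI := Ideal.Quotient.algebraOfLiesOver P.asIdeal (ffIdeal K u)
  haveI := Ideal.Quotient.isScalarTower_of_liesOver K P.asIdeal (ffIdeal K u)
  have hbij : Function.Bijective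
      (algebraMap (Algebra.adjoin K {u} ⧸ ffIdeal K u) (ffB K u ⧸ P.asIdeal)) := by
    refine ⟨RingHom.injective _, fun x => ?_⟩
    obtain ⟨c, hc⟩ := (s37ff_residue_bijective hu P).2 x
    refine ⟨algebraMap K _ c, ?_⟩
    rw [← hc, ← IsScalarTower.algebraMap_apply]
  rw [← Module.finrank_self (Algebra.adjoin K {u} ⧸ ffIdeal K u)]
  exact ((LinearEquiv.ofBijective
    (Algebra.linearMap (Algebra.adjoin K {u} ⧸ ffIdeal K u) (ffB K u ⧸ P.asIdeal))
    hbij).finrank_eq).symm

/-- **The fundamental identity**: `∑_{v ∣ u} ord_v(u) = [F : K(u)]`. -/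
theorem s37ff_fundamental [IsAlgClosed K] (hu : s37ff_IsSepCoord K u) :
    ∃ hfin : (placesOver K u).Finite,
      ∑ v ∈ hfin.toFinset, v.ord u = (Module.finrank K⟮u⟯ F : ℤ) := by
  classical
  haveI : FaithfulSMul (Algebra.adjoin K {u}) (ffB K u) := by
    rw [faithfulSMul_iff_algebraMap_injective]
    intro a b hab
    have h := congrArg (fun x : ffB K u => (x : F)) hab
    exact Subtype.ext h
  haveI := ff_isDedekindDomain_adjoin hu.coord.transcendental
  haveI := s37ff_isDedekindDomain_B hu
  haveI := s37ff_isFractionRing_B hu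
  haveI := s37ff_finite_B hu
  haveI := hu.coord.finite
  haveI : (ffIdeal K u).IsMaximal := ffIdeal_isMaximal hu.coord.transcendental
  have hp0 := ffIdeal_ne_bot hu.coord.transcendental
  have hsum := Ideal.sum_ramification_inertia (R := Algebra.adjoin K {u}) (ffB K u) K⟮u⟯ F
    (p := ffIdeal K u) hp0
  have hmem : ∀ P ∈ IsDedekindDomain.primesOverFinset (ffIdeal K u) (ffB K u),
      P.IsPrime ∧ P.LiesOver (ffIdeal K u) :=
    fun P hP => (IsDedekindDomain.mem_primesOverFinset_iff hp0 _).mp hP
  let ψ : {P // P ∈ IsDedekindDomain.primesOverFinset (ffIdeal K u) (ffB K u)} → HeightOneSpectrum (ffB K u) :=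
    fun P => ⟨P.1, (hmem P.1 P.2).1,
      @Ideal.ne_bot_of_liesOver_of_ne_bot _ _ _ _ _ _ _ hp0 P.1 (hmem P.1 P.2).2⟩
  let φ : {P // P ∈ IsDedekindDomain.primesOverFinset (ffIdeal K u) (ffB K u)} → Place K F :=
    fun P => s37ff_place hu (ψ P)
  have hφinj : Function.Injective φ := by
    intro P Q h
    have h1 := s37ff_place_injective hu h
    exact Subtype.ext (congrArg HeightOneSpectrum.asIdeal h1)
  have hrange : placesOver K u = Set.range φ := by
    ext v
    constructor
    · intro hv
      have hv' : u ∈ v.toValuationSubring := ValuationSubring.nonunits_subset hv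
      obtain ⟨𝔓, h𝔓⟩ := s37ff_place_surjective hu v hv'
      have hu𝔓 : ffGenB K u ∈ 𝔓.asIdeal := by
        rw [← s37ff_place_mem_nonunits hu 𝔓, h𝔓]
        exact hv
      haveI := 𝔓.isPrime
      have hlo : 𝔓.asIdeal.LiesOver (ffIdeal K u) :=
        ff_liesOver_of_mem hu.coord.transcendental 𝔓.asIdeal hu𝔓
      have hT : 𝔓.asIdeal ∈ IsDedekindDomain.primesOverFinset (ffIdeal K u) (ffB K u) :=
        (IsDedekindDomain.mem_primesOverFinset_iff hp0 _).mpr ⟨𝔓.isPrime, hlo⟩
      exact ⟨⟨𝔓.asIdeal, hT⟩, h𝔓⟩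
    · rintro ⟨P, rfl⟩
      show u ∈ (s37ff_place hu (ψ P)).toValuationSubring.nonunits
      have := (s37ff_place_mem_nonunits hu (ψ P) (ffGenB K u)).mpr
        (@ffGenB_mem_of_liesOver _ _ _ _ _ _ P.1 (hmem P.1 P.2).2)
      exact this
  have hfin : (placesOver K u).Finite := by rw [hrange]; exact Set.finite_range φ
  refine ⟨hfin, ?_⟩
  have hfs : hfin.toFinset = Finset.univ.image φ := by
    ext v
    rw [Set.Finite.mem_toFinset, hrange]
    simp
  rw [hfs, Finset.sum_image (fun x _ y _ h => hφinj h), ← hsum]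
  rw [Nat.cast_sum, ← Finset.sum_attach (IsDedekindDomain.primesOverFinset (ffIdeal K u) (ffB K u))]
  rw [Finset.univ_eq_attach]
  refine Finset.sum_congr rfl (fun P _ => ?_)
  haveI : (ψ P).asIdeal.LiesOver (ffIdeal K u) := (hmem P.1 P.2).2
  have h1 := s37ff_ord_eq_ramificationIdx hu (ψ P)
  have h2 := s37ff_inertiaDeg_eq_one hu (ψ P)
  show (s37ff_place hu (ψ P)).ord u = _
  rw [h1]
  show _ = ((Ideal.ramificationIdx' (ffIdeal K u) (ψ P).asIdeal
    * Ideal.inertiaDeg' (ffIdeal K u) (ψ P).asIdeal : ℕ) : ℤ)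
  rw [h2, mul_one]


/-- **Weak approximation** over the `u`-line for a separable coordinate (S24's (FF3) in any
characteristic). -/
theorem s37ff_approx (hu : s37ff_IsSepCoord K u) (S : Finset (Place K F)) (v : Place K F)
    (hS : ∀ w ∈ S, u ∈ w.toValuationSubring) (hv : u ∈ v.toValuationSubring) (hvS : v ∉ S) :
    ∃ g : F, IsIntegral (Algebra.adjoin K {u}) g ∧
      (∀ w ∈ S, g ∈ w.toValuationSubring.nonunits) ∧ g ∉ v.toValuationSubring.nonunits := by
  have := s37ff_isDedekindDomain_B hu
  have := s37ff_isFractionRing_B hu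
  obtain ⟨g, hgS, hgv⟩ := ff3_exists_separating S v hS hv hvS
  exact ⟨(g : F), g.2, hgS, hgv⟩


/-! ## Changes of coordinate `u ↦ u - c`, `u ↦ u⁻¹`; zeros and poles -/

theorem s37ff_sep_of_eq {E E' : IntermediateField K F} (h : E = E')
    (hsep : Algebra.IsSeparable E F) : Algebra.IsSeparable E' F := by
  subst h
  exact hsep

theorem s37ff_isSepCoord_sub (hu : s37ff_IsSepCoord K u) (c : K) :
    s37ff_IsSepCoord K (u - algebraMap K F c) :=
  ⟨glue_isCoordinate_sub hu.coord c, s37ff_sep_of_eq (glue_adjoin_sub u c).symm hu.sep⟩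

theorem s37ff_isSepCoord_inv (hu : s37ff_IsSepCoord K u) : s37ff_IsSepCoord K u⁻¹ :=
  ⟨glue_isCoordinate_inv hu.coord, s37ff_sep_of_eq (glue_adjoin_inv u).symm hu.sep⟩

/-- The degree `[F : K(u)]` is positive. -/
theorem s37ff_finrank_pos (hu : s37ff_IsSepCoord K u) : 0 < Module.finrank K⟮u⟯ F := by
  have := hu.coord.finite
  exact Module.finrank_pos

/-- The order of `u` at a place over `u = 0` is positive. -/
theorem s37ff_ord_pos (hu : Transcendental K u) (v : Place K F) (hv : v ∈ placesOver K u) :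
    0 < v.ord u := by
  have hu0 : u ≠ 0 := by
    rintro rfl
    exact hu (isAlgebraic_zero)
  exact (place_mem_nonunits_iff v hu0).mp hv

/-- **Zeros of `u - c`**: `∑_{v ∣ (u = c)} ord_v(u - c) = [F : K(u)]`. -/
theorem s37ff_zeros [IsAlgClosed K] (hu : s37ff_IsSepCoord K u) (c : K) :
    ∃ hfin : (placesOver K (u - algebraMap K F c)).Finite,
      ∑ v ∈ hfin.toFinset, v.ord (u - algebraMap K F c) = (Module.finrank K⟮u⟯ F : ℤ) := by
  obtain ⟨hfin, h⟩ := s37ff_fundamental (s37ff_isSepCoord_sub hu c)
  exact ⟨hfin, by rw [h, glue_finrank_sub]⟩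

/-- **Poles of `u`**: `∑_{v ∣ (u = ∞)} ord_v(u⁻¹) = [F : K(u)]`. -/
theorem s37ff_poles [IsAlgClosed K] (hu : s37ff_IsSepCoord K u) :
    ∃ hfin : (placesOver K u⁻¹).Finite,
      ∑ v ∈ hfin.toFinset, v.ord u⁻¹ = (Module.finrank K⟮u⟯ F : ℤ) := by
  obtain ⟨hfin, h⟩ := s37ff_fundamental (s37ff_isSepCoord_inv hu)
  exact ⟨hfin, by rw [h, glue_finrank_inv]⟩

/-- There is a place over `u = 0`. -/
theorem s37ff_exists_place [IsAlgClosed K] (hu : s37ff_IsSepCoord K u) :
    ∃ v : Place K F, u ∈ v.toValuationSubring.nonunits := by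
  classical
  obtain ⟨hfin, h⟩ := s37ff_fundamental hu
  by_contra hne
  have hempty : hfin.toFinset = ∅ := by
    rw [Finset.eq_empty_iff_forall_notMem]
    intro v hv
    exact hne ⟨v, (Set.Finite.mem_toFinset hfin).mp hv⟩
  rw [hempty, Finset.sum_empty] at h
  have := s37ff_finrank_pos hu
  omega

/-- There is a place over `u = c`, for every `c : K`. -/
theorem s37ff_exists_zero [IsAlgClosed K] (hu : s37ff_IsSepCoord K u) (c : K) :
    ∃ v : Place K F, u - algebraMap K F c ∈ v.toValuationSubring.nonunits :=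
  s37ff_exists_place (s37ff_isSepCoord_sub hu c)

/-- There is a place over `u = ∞`. -/
theorem s37ff_exists_pole [IsAlgClosed K] (hu : s37ff_IsSepCoord K u) :
    ∃ v : Place K F, u⁻¹ ∈ v.toValuationSubring.nonunits :=
  s37ff_exists_place (s37ff_isSepCoord_inv hu)

/-- The number of places over `u = 0` is at most `[F : K(u)]`. -/
theorem s37ff_card_le [IsAlgClosed K] (hu : s37ff_IsSepCoord K u) :
    ∃ hfin : (placesOver K u).Finite, hfin.toFinset.card ≤ Module.finrank K⟮u⟯ F := by
  classical
  obtain ⟨hfin, h⟩ := s37ff_fundamental hu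
  refine ⟨hfin, ?_⟩
  have h1 : ∑ _v ∈ hfin.toFinset, (1 : ℤ) ≤ ∑ v ∈ hfin.toFinset, v.ord u := by
    refine Finset.sum_le_sum (fun v hv => ?_)
    have := s37ff_ord_pos hu.coord.transcendental v ((Set.Finite.mem_toFinset hfin).mp hv)
    omega
  rw [h, Finset.sum_const, nsmul_eq_mul, mul_one] at h1
  exact_mod_cast h1

end

end Fermat.Agent.S37
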