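/-
S37, shared tool [FF-l], part 2: the function field `F_k(M) = k(j(q^d) : d ∣ M) ⊆ k((q))` over a
field `k` of characteristic `ℓ`:  `j` is a SEPARABLE coordinate (`k` perfect), every place has
degree one and a centre on the `j`-line (`k` algebraically closed), the fundamental identity for
the zeros of `j - c` and the poles of `j`.
Owner: helper20.  Prefix `s37ff_`.
-/
import Mathlib
import Fermat.Prelude.Def_ModularCurve_X0ModL
import Fermat.Agent.S18.ConstFin
import Fermat.Agent.S18.Sep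
import Fermat.Agent.S24.Differentials
import Fermat.Agent.S37.FFl

set_option autoImplicit false
set_option linter.unusedSectionVars false
set_option linter.style.haveILetI false
set_option linter.deprecated false

namespace Fermat.Agent.S37

open Fermat.Agent.S24 Fermat.Agent.S18 AlgebraicCurve IntermediateField ModularCurve Polynomial

noncomputable section

/-! ## Separability can be checked in an overfield -/

section Generic

variable {K L : Type*} [Field K] [Field L] [Algebra K L]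

/-- `K(x) ⊆ F` and `K(x) ⊆ L` are the same field, for `x ∈ F ⊆ L`. -/
def s37ff_adjEquiv (F : IntermediateField K L) (x : F) : ↥K⟮x⟯ ≃ₐ[K] ↥K⟮(x : L)⟯ :=
  (IntermediateField.equivMap K⟮x⟯ F.val).trans
    (IntermediateField.equivOfEq (by rw [adjoin_map, Set.image_singleton]; rfl))

theorem s37ff_adjEquiv_coe (F : IntermediateField K L) (x : F) (a : ↥K⟮x⟯) :
    ((s37ff_adjEquiv F x a : ↥K⟮(x : L)⟯) : L) = ((a : F) : L) := rfl

/-- If `y ∈ F ⊆ L` is separable over `K(x) ⊆ L`, it is separable over `K(x) ⊆ F`. -/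
theorem s37ff_isSeparable_of_val (F : IntermediateField K L) (x y : F)
    (h : IsSeparable ↥K⟮(x : L)⟯ (y : L)) : IsSeparable ↥K⟮x⟯ y := by
  have he : RingHom.comp (algebraMap ↥K⟮x⟯ L)
      ((s37ff_adjEquiv F x).symm.toRingEquiv : ↥K⟮(x : L)⟯ →+* ↥K⟮x⟯) =
      RingHom.comp ((RingEquiv.refl L : L ≃+* L) : L →+* L) (algebraMap ↥K⟮(x : L)⟯ L) := by
    ext a
    obtain ⟨b, rfl⟩ := (s37ff_adjEquiv F x).surjective a
    simp only [RingHom.coe_comp, Function.comp_apply]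
    show algebraMap ↥K⟮x⟯ L ((s37ff_adjEquiv F x).symm (s37ff_adjEquiv F x b)) = _
    rw [AlgEquiv.symm_apply_apply]
    rfl
  have h1 : IsSeparable ↥K⟮x⟯ (y : L) :=
    IsSeparable.of_equiv_equiv (s37ff_adjEquiv F x).symm.toRingEquiv (RingEquiv.refl L) he h
  exact IsSeparable.of_algHom (IsScalarTower.toAlgHom ↥K⟮x⟯ ↥F L) h1

end Generic

/-! ## `F_k(M)` -/

section Mod

variable (k : Type) [Field k] (M : ℕ) [NeZero M]

/-- (1) `j` is a coordinate of `F_k(M)/k`. -/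
theorem s37ff_coord (ℓ : ℕ) [Fact ℓ.Prime] [CharP k ℓ] : IsCoordinate k (s18c_jF k M) :=
  ⟨s18c_jF_transcendental k M, s18c_finite k M ℓ _ (s18c_jF_transcendental k M)⟩

/-- `F_k(M)` is algebraic over `k(j)`. -/
theorem s37ff_isAlgebraic (ℓ : ℕ) [Fact ℓ.Prime] [CharP k ℓ] :
    Algebra.IsAlgebraic ↥k⟮s18c_jF k M⟯ ↥(modularFunctionFieldFullC k M) :=
  s18c_isAlgebraic_of_transcendental k M ℓ _ (s18c_jF_transcendental k M)

/-- (3) `F_k(M)` is separable over `k(j)` (`k` perfect of characteristic `ℓ`). -/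
theorem s37ff_sep (ℓ : ℕ) [Fact ℓ.Prime] [CharP k ℓ] [PerfectField k] :
    Algebra.IsSeparable ↥k⟮s18c_jF k M⟯ ↥(modularFunctionFieldFullC k M) := by
  refine ⟨fun y => ?_⟩
  refine s37ff_isSeparable_of_val (modularFunctionFieldFullC k M) (s18c_jF k M) y ?_
  refine s18sep_main k ℓ (jqModC k) (y : LaurentSeries k) ?_ (s18c_alg_mem k M ℓ _ y.2)
  rw [Fermat.Agent.S28.keyR_order_jqModC]
  intro hdvd
  have h2 : (ℓ : ℤ) ∣ 1 := by simpa using hdvd
  have h3 : ℓ ∣ 1 := by exact_mod_cast h2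
  exact (Fact.out : ℓ.Prime).one_lt.ne' (Nat.dvd_one.mp h3)

/-- `j` is a separable coordinate of `F_k(M)/k`. -/
theorem s37ff_sepCoord (ℓ : ℕ) [Fact ℓ.Prime] [CharP k ℓ] [PerfectField k] :
    s37ff_IsSepCoord k (s18c_jF k M) :=
  ⟨s37ff_coord k M ℓ, s37ff_sep k M ℓ⟩

/-- (2) Every place of `F_k(M)/k` has degree one. -/
theorem s37ff_deg_one (ℓ : ℕ) [Fact ℓ.Prime] [CharP k ℓ] [IsAlgClosed k]
    (Q : Place k ↥(modularFunctionFieldFullC k M)) : Q.deg = 1 :=
  diff_deg_eq_one (s37ff_isAlgebraic k M ℓ) Q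

/-- (2) The residue field of every place of `F_k(M)/k` is `k`. -/
theorem s37ff_residue (ℓ : ℕ) [Fact ℓ.Prime] [CharP k ℓ] [IsAlgClosed k]
    (Q : Place k ↥(modularFunctionFieldFullC k M)) :
    Function.Bijective (algebraMap k Q.ResidueField) :=
  diff_residue_bijective (s37ff_isAlgebraic k M ℓ) Q

/-- (2) Every place of `F_k(M)/k` is centred at `j = c` or at `j = ∞`. -/
theorem s37ff_centre (ℓ : ℕ) [Fact ℓ.Prime] [CharP k ℓ] [IsAlgClosed k]
    (Q : Place k ↥(modularFunctionFieldFullC k M)) :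
    (∃ c : k, s18c_jF k M - algebraMap k ↥(modularFunctionFieldFullC k M) c ∈
        Q.toValuationSubring.nonunits) ∨
      (s18c_jF k M)⁻¹ ∈ Q.toValuationSubring.nonunits :=
  diff_centre (s37ff_isAlgebraic k M ℓ) Q

/-- (5) **Zeros of `j - c`**: `∑_{Q ∣ (j = c)} ord_Q(j - c) = [F_k(M) : k(j)]`. -/
theorem s37ff_mod_zeros (ℓ : ℕ) [Fact ℓ.Prime] [CharP k ℓ] [IsAlgClosed k] (c : k) :
    ∃ hfin : (placesOver k
        (s18c_jF k M - algebraMap k ↥(modularFunctionFieldFullC k M) c)).Finite,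
      ∑ v ∈ hfin.toFinset,
        v.ord (s18c_jF k M - algebraMap k ↥(modularFunctionFieldFullC k M) c) =
        (Module.finrank ↥k⟮s18c_jF k M⟯ ↥(modularFunctionFieldFullC k M) : ℤ) :=
  s37ff_zeros (s37ff_sepCoord k M ℓ) c

/-- (5) **Poles of `j`**: `∑_{Q ∣ (j = ∞)} ord_Q(j⁻¹) = [F_k(M) : k(j)]`. -/
theorem s37ff_mod_poles (ℓ : ℕ) [Fact ℓ.Prime] [CharP k ℓ] [IsAlgClosed k] :
    ∃ hfin : (placesOver k (s18c_jF k M)⁻¹).Finite,
      ∑ v ∈ hfin.toFinset, v.ord (s18c_jF k M)⁻¹ =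
        (Module.finrank ↥k⟮s18c_jF k M⟯ ↥(modularFunctionFieldFullC k M) : ℤ) :=
  s37ff_poles (s37ff_sepCoord k M ℓ)

/-- (5) There is a place of `F_k(M)` over every `j = c`. -/
theorem s37ff_mod_exists_zero (ℓ : ℕ) [Fact ℓ.Prime] [CharP k ℓ] [IsAlgClosed k] (c : k) :
    ∃ Q : Place k ↥(modularFunctionFieldFullC k M),
      s18c_jF k M - algebraMap k ↥(modularFunctionFieldFullC k M) c ∈
        Q.toValuationSubring.nonunits :=
  s37ff_exists_zero (s37ff_sepCoord k M ℓ) c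

/-- (5) There is a place of `F_k(M)` over `j = ∞`. -/
theorem s37ff_mod_exists_pole (ℓ : ℕ) [Fact ℓ.Prime] [CharP k ℓ] [IsAlgClosed k] :
    ∃ Q : Place k ↥(modularFunctionFieldFullC k M),
      (s18c_jF k M)⁻¹ ∈ Q.toValuationSubring.nonunits :=
  s37ff_exists_pole (s37ff_sepCoord k M ℓ)

/-- Weak approximation on `F_k(M)` over the `j`-line. -/
theorem s37ff_mod_approx (ℓ : ℕ) [Fact ℓ.Prime] [CharP k ℓ] [PerfectField k]
    (S : Finset (Place k ↥(modularFunctionFieldFullC k M)))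
    (v : Place k ↥(modularFunctionFieldFullC k M))
    (hS : ∀ w ∈ S, s18c_jF k M ∈ w.toValuationSubring)
    (hv : s18c_jF k M ∈ v.toValuationSubring) (hvS : v ∉ S) :
    ∃ g : ↥(modularFunctionFieldFullC k M),
      IsIntegral (Algebra.adjoin k {s18c_jF k M}) g ∧
      (∀ w ∈ S, g ∈ w.toValuationSubring.nonunits) ∧ g ∉ v.toValuationSubring.nonunits :=
  s37ff_approx (s37ff_sepCoord k M ℓ) S v hS hv hvS

end Mod

end

end Fermat.Agent.S37
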