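/-
S37, shared tool [FF-l], part 3: PRINCIPAL DIVISORS in characteristic `ℓ`.
* generic: the divisor of a separable coordinate exists and has degree `0`;
* `F_k(M) ⊆ k((q))`, `k` algebraically closed of characteristic `ℓ`: an element whose `q`-order is
  prime to `ℓ` is a separable coordinate (helper1's [SEP]); every `f ≠ 0` is `(f j) j⁻¹` with
  `ord_q (f j)`, `ord_q j` prime to `ℓ` as soon as `ℓ ∣ ord_q f`; hence
  `HasPrincipalDivisors k F_k(M)`: every `f ≠ 0` has a divisor, of degree `0`.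
Owner: helper20.  Prefix `s37ff_`.
-/
import Mathlib
import Fermat.Prelude.Def_ModularCurve_X0ModL
import Fermat.Prelude.Def_AlgebraicCurve_DivisorClassGroup
import Fermat.Agent.S18.ConstFin
import Fermat.Agent.S18.Sep
import Fermat.Agent.S24.Differentials
import Fermat.Agent.S24.PlaceBasic
import Fermat.Agent.S37.FFlMod

set_option autoImplicit false
set_option linter.unusedSectionVars false
set_option linter.style.haveILetI false
set_option linter.deprecated false

namespace Fermat.Agent.S37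

open Fermat.Agent.S24 Fermat.Agent.S18 AlgebraicCurve IntermediateField ModularCurve Polynomial

noncomputable section

/-! ## Generic -/

section Generic

variable {K F : Type*} [Field K] [Field F] [Algebra K F]

/-- `f` has a divisor, and it has degree `0`. -/
def s37ff_HasDiv (K : Type*) {F : Type*} [Field K] [Field F] [Algebra K F] (f : F) : Prop :=
  ∃ D : Divisor K F, (∀ v : Place K F, D v = v.ord f) ∧ Divisor.degree D = 0

theorem s37ff_hasDiv_mul {f g : F} (hf0 : f ≠ 0) (hg0 : g ≠ 0) (hf : s37ff_HasDiv K f)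
    (hg : s37ff_HasDiv K g) : s37ff_HasDiv K (f * g) := by
  obtain ⟨D, hD, hD0⟩ := hf
  obtain ⟨E, hE, hE0⟩ := hg
  refine ⟨D + E, fun v => ?_, ?_⟩
  · rw [Finsupp.add_apply, hD, hE, v.ord_mul hf0 hg0]
  · rw [map_add, hD0, hE0, add_zero]

theorem s37ff_hasDiv_inv {f : F} (hf : s37ff_HasDiv K f) : s37ff_HasDiv K f⁻¹ := by
  obtain ⟨D, hD, hD0⟩ := hf
  refine ⟨-D, fun v => ?_, ?_⟩
  · rw [Finsupp.neg_apply, hD, v.ord_inv]
  · rw [map_neg, hD0, neg_zero]

/-- The divisor of a separable coordinate exists and has degree `0`. -/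
theorem s37ff_hasDiv_sepCoord [IsAlgClosed K] {f : F} (hfc : s37ff_IsSepCoord K f) :
    s37ff_HasDiv K f := by
  classical
  have hf0 : f ≠ 0 := by
    rintro rfl
    exact hfc.coord.transcendental isAlgebraic_zero
  have hfc' : s37ff_IsSepCoord K f⁻¹ := s37ff_isSepCoord_inv hfc
  obtain ⟨hZ, hsumZ⟩ := s37ff_fundamental hfc
  obtain ⟨hP, hsumP⟩ := s37ff_fundamental hfc'
  have hfi0 : f⁻¹ ≠ 0 := inv_ne_zero hf0
  have hmemZ : ∀ v : Place K F, v ∈ hZ.toFinset ↔ 0 < v.ord f := by
    intro v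
    rw [Set.Finite.mem_toFinset]
    exact place_mem_nonunits_iff v hf0
  have hmemP : ∀ v : Place K F, v ∈ hP.toFinset ↔ v.ord f < 0 := by
    intro v
    rw [Set.Finite.mem_toFinset]
    have := place_mem_nonunits_iff v hfi0
    rw [v.ord_inv] at this
    exact this.trans (by omega)
  let D : Divisor K F := Finsupp.onFinset (hZ.toFinset ∪ hP.toFinset) (fun v => v.ord f) (by
    intro v hv
    rw [Finset.mem_union, hmemZ, hmemP]
    omega)
  refine ⟨D, fun v => rfl, ?_⟩
  have hdisj : Disjoint hZ.toFinset hP.toFinset := by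
    rw [Finset.disjoint_left]
    intro v hv hv'
    rw [hmemZ] at hv
    rw [hmemP] at hv'
    omega
  have hdeg : Divisor.degree D = ∑ v ∈ hZ.toFinset ∪ hP.toFinset, v.ord f * (v.deg : ℤ) := by
    rw [Divisor.degree, Finsupp.liftAddHom_apply]
    exact Finsupp.onFinset_sum _ (fun v => by simp)
  rw [hdeg, Finset.sum_union hdisj]
  have halg : Algebra.IsAlgebraic K⟮f⟯ F := by
    have := hfc.coord.finite
    exact Algebra.IsAlgebraic.of_finite K⟮f⟯ F
  have h1 : ∀ v : Place K F, v.ord f * (v.deg : ℤ) = v.ord f := by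
    intro v
    rw [diff_deg_eq_one halg v]
    simp
  simp only [h1]
  rw [hsumZ]
  have h2 : ∑ v ∈ hP.toFinset, v.ord f = - ∑ v ∈ hP.toFinset, v.ord f⁻¹ := by
    rw [← Finset.sum_neg_distrib]
    refine Finset.sum_congr rfl fun v _ => ?_
    rw [v.ord_inv, neg_neg]
  rw [h2, hsumP, glue_finrank_inv]
  ring

end Generic

section Transport

variable {K L : Type*} [Field K] [Field L] [Algebra K L]

/-- If `y ∈ F ⊆ L` is algebraic over `K(x) ⊆ F`, it is algebraic over `K(x) ⊆ L`. -/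
theorem s37ff_isAlgebraic_val (F : IntermediateField K L) (x y : F)
    (h : IsAlgebraic ↥K⟮x⟯ y) : IsAlgebraic ↥K⟮(x : L)⟯ (y : L) := by
  have he : RingHom.comp (algebraMap ↥K⟮(x : L)⟯ L)
      ((s37ff_adjEquiv F x : ↥K⟮x⟯ ≃ₐ[K] ↥K⟮(x : L)⟯) : ↥K⟮x⟯ →+* ↥K⟮(x : L)⟯) =
      RingHom.comp (F.val : ↥F →+* L) (algebraMap ↥K⟮x⟯ ↥F) := by
    ext a
    rfl
  exact IsAlgebraic.ringHom_of_comp_eq
    ((s37ff_adjEquiv F x : ↥K⟮x⟯ ≃ₐ[K] ↥K⟮(x : L)⟯) : ↥K⟮x⟯ →+* ↥K⟮(x : L)⟯)
    (F.val : ↥F →+* L) h (s37ff_adjEquiv F x).injective he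

end Transport

/-! ## `F_k(M)` -/

section Mod

variable (k : Type) [Field k] (M : ℕ) [NeZero M]

/-- An element of `F_k(M)` whose `q`-order is prime to `ℓ` is a separable coordinate. -/
theorem s37ff_sepCoord_of_order (ℓ : ℕ) [Fact ℓ.Prime] [CharP k ℓ] [PerfectField k]
    (f : ↥(modularFunctionFieldFullC k M))
    (hf : ¬ (ℓ : ℤ) ∣ (f : LaurentSeries k).order) : s37ff_IsSepCoord k f := by
  have hne : (f : LaurentSeries k).order ≠ 0 := by
    intro h0
    exact hf (h0 ▸ dvd_zero _)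
  have htrL : Transcendental k (f : LaurentSeries k) :=
    Fermat.Agent.S28.locO_transcendental _ hne
  have htr : Transcendental k f := fun h =>
    htrL (h.algHom (modularFunctionFieldFullC k M).val)
  have halg := s18c_isAlgebraic_of_transcendental k M ℓ f htr
  refine ⟨⟨htr, s18c_finite k M ℓ f htr⟩, ⟨fun y => ?_⟩⟩
  refine s37ff_isSeparable_of_val (modularFunctionFieldFullC k M) f y ?_
  exact s18sep_main k ℓ (f : LaurentSeries k) (y : LaurentSeries k) hf
    (s37ff_isAlgebraic_val (modularFunctionFieldFullC k M) f y (halg.isAlgebraic y))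

/-- **Every nonzero element of `F_k(M)` has a divisor, of degree `0`.** -/
theorem s37ff_hasDiv (ℓ : ℕ) [Fact ℓ.Prime] [CharP k ℓ] [IsAlgClosed k]
    (f : ↥(modularFunctionFieldFullC k M)) (hf0 : f ≠ 0) : s37ff_HasDiv k f := by
  have hj0 : s18c_jF k M ≠ 0 := by
    intro h
    exact s18c_jF_transcendental k M (h ▸ isAlgebraic_zero)
  have hordj : ((s18c_jF k M : ↥(modularFunctionFieldFullC k M)) : LaurentSeries k).order = -1 :=
    Fermat.Agent.S28.keyR_order_jqModC
  have hℓ : ¬ (ℓ : ℤ) ∣ 1 := by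
    intro h
    have h3 : ℓ ∣ 1 := by exact_mod_cast h
    exact (Fact.out : ℓ.Prime).one_lt.ne' (Nat.dvd_one.mp h3)
  by_cases h : (ℓ : ℤ) ∣ (f : LaurentSeries k).order
  · -- `f = (f j) j⁻¹`
    have hfL : (f : LaurentSeries k) ≠ 0 := fun h0 => hf0 (Subtype.ext h0)
    have hjL : ((s18c_jF k M : ↥(modularFunctionFieldFullC k M)) : LaurentSeries k) ≠ 0 :=
      fun h0 => hj0 (Subtype.ext h0)
    have hord : ((f * s18c_jF k M : ↥(modularFunctionFieldFullC k M)) :
        LaurentSeries k).order = (f : LaurentSeries k).order - 1 := by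
      show ((f : LaurentSeries k) *
        ((s18c_jF k M : ↥(modularFunctionFieldFullC k M)) : LaurentSeries k)).order = _
      rw [HahnSeries.order_mul hfL hjL, hordj]
      ring
    have h1 : ¬ (ℓ : ℤ) ∣ ((f * s18c_jF k M : ↥(modularFunctionFieldFullC k M)) :
        LaurentSeries k).order := by
      rw [hord]
      intro h2
      exact hℓ ((dvd_sub_right h).mp h2)
    have h2 : ¬ (ℓ : ℤ) ∣ ((s18c_jF k M : ↥(modularFunctionFieldFullC k M)) :
        LaurentSeries k).order := by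
      rw [hordj]
      intro h3
      exact hℓ ((dvd_neg).mp h3)
    have hA := s37ff_hasDiv_sepCoord (s37ff_sepCoord_of_order k M ℓ _ h1)
    have hB := s37ff_hasDiv_inv (s37ff_hasDiv_sepCoord (s37ff_sepCoord_of_order k M ℓ _ h2))
    have hmul := s37ff_hasDiv_mul (mul_ne_zero hf0 hj0) (inv_ne_zero hj0) hA hB
    rwa [mul_assoc, mul_inv_cancel₀ hj0, mul_one] at hmul
  · exact s37ff_hasDiv_sepCoord (s37ff_sepCoord_of_order k M ℓ f h)

/-- **`HasPrincipalDivisors k F_k(M)`** for `k` algebraically closed of characteristic `ℓ`. -/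
theorem s37ff_hasPrincipalDivisors (ℓ : ℕ) [Fact ℓ.Prime] [CharP k ℓ] [IsAlgClosed k] :
    HasPrincipalDivisors k ↥(modularFunctionFieldFullC k M) :=
  ⟨fun f hf0 => s37ff_hasDiv k M ℓ f hf0⟩

end Mod

end

end Fermat.Agent.S37
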