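/-
S37, [RI], the leaves [RI-FF0], [RI-FFL], [RI-RES] and [RI-DEG] of the cut `S37/RIDefs.lean`
(helper5).  Prefix `s37rid_`.  Wrappers around

* `S24.diff_degOneStatement`, `S24.coord_principalDivisor`, `S24.final_jCoordinate` (char 0),
* helper20's `s37ff_hasPrincipalDivisors`, `s37ff_deg_one` (char `ℓ`),
* `S18.s18w_charP`, `S18.s18w_isAlgClosed` (the residue field of `A`).
-/
import Mathlib
import Fermat.Agent.S37.RIDefs
import Fermat.Agent.S37.FFlPD
import Fermat.Agent.S24.Final
import Fermat.Agent.S18.WireOfRes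

set_option autoImplicit false

open ModularCurve AlgebraicCurve

noncomputable section

namespace Fermat.Agent.S37

/-- **[RI-FF0]** -/
theorem s37rid_ff0 : s37ri_FF0Statement := by
  intro M _
  exact ⟨Fermat.Agent.S24.coord_principalDivisor Fermat.Agent.S24.ff_fundamentalIdentity
      (AlgebraicClosure ℚ) ↥(modularFunctionFieldBar M) (Fermat.Agent.S24.jF M)
      (Fermat.Agent.S24.final_jCoordinate M),
    fun P => Fermat.Agent.S24.diff_degOneStatement (AlgebraicClosure ℚ)
      ↥(modularFunctionFieldBar M) (Fermat.Agent.S24.jF M)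
      (Fermat.Agent.S24.final_jCoordinate M) P⟩

/-- **[RI-FFL]** -/
theorem s37rid_ffl : s37ri_FFlStatement := by
  intro M _ ℓ _ _ k _ _ _
  exact ⟨s37ff_hasPrincipalDivisors k M ℓ, fun Q => s37ff_deg_one k M ℓ Q⟩

/-- **[RI-RES]** -/
theorem s37rid_res : s37ri_ResStatement := by
  intro ℓ _ A hA
  exact ⟨Fermat.Agent.S18.s18w_charP A hA, Fermat.Agent.S18.s18w_isAlgClosed A⟩

/-- **[RI-DEG]** -/
theorem s37rid_deg : s37ri_DegStatement :=
  s37ri_deg_of s37rid_ff0 s37rid_ffl s37rid_res

example : s37ri_FF0Statement := s37rid_ff0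
example : s37ri_FFlStatement := s37rid_ffl
example : s37ri_ResStatement := s37rid_res
example : s37ri_DegStatement := s37rid_deg

end Fermat.Agent.S37
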