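/-
S37, [RI-EXIST] (owner: helper11), part 1: THE ABSTRACT CORE.  Prefix `s37rie_`.

`s37rie_core`: let `F/k` be a field extension, `ρ : B → F` a ring homomorphism from a commutative
ring `B` whose image contains `k`, and `𝔫` an ideal of `B` such that no element of `𝔫` is mapped
to `1`.  If `𝔫` contains an element `x` with `ρ x` transcendental over `k` and `F` finite over
`k(ρ x)`, then there is a place `Q` of `F/k` with `ρ(B) ⊆ O_Q` and `ρ(𝔫) ⊆ 𝔪_Q`.

`s37rie_ev`, `s37rie_int`: the evaluation `O_P → K` at a place of degree one, and "elements integral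
over a subring with values in a valuation ring `A ⊆ K` have values in `A`".

ROUTE.  `ρ(𝔫)` is a proper ideal of the subring `ρ(B)`; a valuation ring `V ⊇ ρ(B)` with
`ρ(𝔫) ⊆ 𝔪_V` exists (`Ideal.image_subset_nonunits_valuationSubring`); `V ∩ k(ρ x)` is discrete
(`s18c_dvr_base`), hence `V` is discrete (`s18disc_main`).
-/
import Mathlib
import Fermat.Prelude.Def_AlgebraicCurve_DivisorClassGroup
import Fermat.Prelude.Def_AlgebraicCurve_Repartitions
import Fermat.Agent.S24.PlaceBasic
import Fermat.Agent.S18.Discrete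
import Fermat.Agent.S18.Const

set_option autoImplicit false
set_option linter.unusedSectionVars false
set_option linter.style.haveILetI false

open Polynomial IntermediateField AlgebraicCurve

noncomputable section

namespace Fermat.Agent.S37

section Core

variable {k F : Type} [Field k] [Field F] [Algebra k F]

/-- A valuation subring containing `k` in which a non-zero element has value `< 1` and over
whose trace on `k(f)` the field `F` is finite is (the ring of) a place. -/
theorem s37rie_place_of_val (V : ValuationSubring F) (hkV : ∀ c : k, algebraMap k F c ∈ V)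
    (f : F) (hf0 : f ≠ 0) (hfV : V.valuation f < 1) (hfin : FiniteDimensional ↥k⟮f⟯ F) :
    ∃ Q : Place k F, Q.toValuationSubring = V := by
  have hW : IsDiscreteValuationRing ↥(V.comap (algebraMap ↥k⟮f⟯ F)) :=
    S18.s18c_dvr_base V hkV f hf0 hfV
  have hV : IsDiscreteValuationRing ↥V := S18.s18disc_main ↥k⟮f⟯ F V hW
  have hfi : f⁻¹ ∉ V := by
    intro h
    have h1 : V.valuation f⁻¹ ≤ 1 := (V.valuation_le_one_iff _).2 h
    rw [map_inv₀] at h1
    have h2 : V.valuation f * (V.valuation f)⁻¹ = 1 :=
      mul_inv_cancel₀ ((Valuation.ne_zero_iff _).2 hf0)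
    have h3 : V.valuation f * (V.valuation f)⁻¹ < 1 := by
      calc V.valuation f * (V.valuation f)⁻¹ ≤ V.valuation f * 1 := by gcongr
        _ = V.valuation f := mul_one _
        _ < 1 := hfV
    exact h3.ne h2
  have hne : V ≠ ⊤ := fun h => hfi (h ▸ ValuationSubring.mem_top _)
  exact ⟨{ toValuationSubring := V
           algebraMap_mem' := hkV
           ne_top' := hne
           isPrincipalIdealRing' := inferInstance }, rfl⟩

/-- **The abstract core of [RI-EXIST].** -/
theorem s37rie_core {B : Type*} [CommRing B] (ρ : B →+* F) (𝔫 : Ideal B)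
    (hk : ∀ c : k, ∃ b : B, ρ b = algebraMap k F c)
    (hker : ∀ b ∈ 𝔫, ρ b ≠ 1)
    (x : B) (hx : x ∈ 𝔫) (htr : Transcendental k (ρ x))
    (hfin : FiniteDimensional ↥k⟮ρ x⟯ F) :
    ∃ Q : Place k F, (∀ b : B, ρ b ∈ Q.toValuationSubring) ∧
      ∀ b ∈ 𝔫, ρ b ∈ Q.toValuationSubring.nonunits := by
  have hsurj : Function.Surjective ρ.rangeRestrict := ρ.rangeRestrict_surjective
  have hI : Ideal.map ρ.rangeRestrict 𝔫 ≠ ⊤ := by
    intro htop
    rw [Ideal.eq_top_iff_one, Ideal.mem_map_iff_of_surjective _ hsurj] at htop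
    obtain ⟨b, hb, hb1⟩ := htop
    exact hker b hb (congrArg Subtype.val hb1)
  obtain ⟨V, hRV, hIV⟩ := Ideal.image_subset_nonunits_valuationSubring _ hI
  have hBV : ∀ b : B, ρ b ∈ V := fun b => hRV ⟨b, rfl⟩
  have hnV : ∀ b ∈ 𝔫, ρ b ∈ V.nonunits := fun b hb =>
    hIV ⟨ρ.rangeRestrict b, Ideal.mem_map_of_mem _ hb, rfl⟩
  have hkV : ∀ c : k, algebraMap k F c ∈ V := by
    intro c
    obtain ⟨b, hb⟩ := hk c
    rw [← hb]
    exact hBV b
  have hf0 : ρ x ≠ 0 := fun h => htr (h ▸ isAlgebraic_zero)
  have hfV : V.valuation (ρ x) < 1 := hnV x hx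
  obtain ⟨Q, hQ⟩ := s37rie_place_of_val V hkV (ρ x) hf0 hfV hfin
  refine ⟨Q, fun b => ?_, fun b hb => ?_⟩
  · rw [hQ]; exact hBV b
  · rw [hQ]; exact hnV b hb

end Core

/-! ### Evaluation at a place of degree one -/

section Eval

variable {K F : Type*} [Field K] [Field F] [Algebra K F] (P : Place K F)

/-- "Vanishing at `P`" in the two spellings. -/
theorem s37rie_adic_lt_one_iff {f : F} :
    P.adicValuation f < 1 ↔ f ∈ P.toValuationSubring.nonunits := by
  rcases eq_or_ne f 0 with rfl | hf
  · simp
  · rw [S24.place_mem_nonunits_iff P hf, P.adicValuation_eq_exp_neg_ord hf,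
      ← WithZero.exp_zero, WithZero.exp_lt_exp]
    omega

theorem s37rie_adic_le_one_iff {f : F} :
    P.adicValuation f ≤ 1 ↔ f ∈ P.toValuationSubring := by
  rw [P.adicValuation_le_one_iff, S24.place_mem_iff]
  constructor
  · rintro (rfl | h)
    · simp
    · exact h
  · exact fun h => Or.inr h

variable (hdeg : P.deg = 1)

include hdeg in
theorem s37rie_bijective : Function.Bijective (algebraMap K P.ResidueField) := by
  refine ⟨(algebraMap K P.ResidueField).injective, fun y => ?_⟩
  have h1 : (⊥ : Subalgebra K P.ResidueField) = ⊤ :=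
    Subalgebra.bot_eq_top_of_finrank_eq_one hdeg
  have h2 : y ∈ (⊥ : Subalgebra K P.ResidueField) := by
    rw [h1]
    exact Algebra.mem_top
  obtain ⟨c, hc⟩ := Algebra.mem_bot.1 h2
  exact ⟨c, hc⟩

/-- The evaluation at a place of degree one. -/
def s37rie_ev : ↥P.toValuationSubring →+* K :=
  ((RingEquiv.ofBijective (algebraMap K P.ResidueField) (s37rie_bijective P hdeg)).symm :
    P.ResidueField →+* K).comp (IsLocalRing.residue ↥P.toValuationSubring)

theorem s37rie_ev_algebraMap (a : K) :
    s37rie_ev P hdeg (algebraMap K ↥P.toValuationSubring a) = a := by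
  unfold s37rie_ev
  rw [RingHom.comp_apply]
  have h : IsLocalRing.residue ↥P.toValuationSubring (algebraMap K ↥P.toValuationSubring a) =
      RingEquiv.ofBijective (algebraMap K P.ResidueField) (s37rie_bijective P hdeg) a := rfl
  rw [h]
  exact RingEquiv.symm_apply_apply _ a

theorem s37rie_ev_eq_zero_iff (o : ↥P.toValuationSubring) :
    s37rie_ev P hdeg o = 0 ↔ (o : F) ∈ P.toValuationSubring.nonunits := by
  unfold s37rie_ev
  rw [RingHom.comp_apply, ValuationSubring.coe_mem_nonunits_iff]
  rw [← IsLocalRing.residue_eq_zero_iff]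
  exact map_eq_zero_iff _ (RingEquiv.injective _)

/-- An element of `O_P` and its value differ by an element of the maximal ideal. -/
theorem s37rie_sub_ev_mem (o : ↥P.toValuationSubring) :
    (o : F) - algebraMap K F (s37rie_ev P hdeg o) ∈ P.toValuationSubring.nonunits := by
  have h := (s37rie_ev_eq_zero_iff P hdeg
    (o - algebraMap K ↥P.toValuationSubring (s37rie_ev P hdeg o))).1 (by
      rw [map_sub, s37rie_ev_algebraMap, sub_self])
  exact h

/-- The value of `f` at `P` is `c` when `f - c` vanishes at `P`. -/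
theorem s37rie_ev_eq_of_sub_mem {f : F} (c : K)
    (h : f - algebraMap K F c ∈ P.toValuationSubring.nonunits) :
    ∃ hf : f ∈ P.toValuationSubring, s37rie_ev P hdeg ⟨f, hf⟩ = c := by
  have h1 : f - algebraMap K F c ∈ P.toValuationSubring := S24.place_nonunits_subset P h
  have hf : f ∈ P.toValuationSubring := by
    have := add_mem h1 (P.algebraMap_mem' c)
    rwa [sub_add_cancel] at this
  refine ⟨hf, ?_⟩
  have h2 := (s37rie_ev_eq_zero_iff P hdeg
    (⟨f, hf⟩ - algebraMap K ↥P.toValuationSubring c)).2 h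
  rw [map_sub, s37rie_ev_algebraMap, sub_eq_zero] at h2
  exact h2

variable (A : ValuationSubring K)

/-- **Integral elements have integral values**: if every element of the subring `R ⊆ F` lies in
`O_P` with value in `A`, the same holds for every element of `F` integral over `R`. -/
theorem s37rie_int (R : Subring F)
    (hR : ∀ r ∈ R, ∃ h : r ∈ P.toValuationSubring, s37rie_ev P hdeg ⟨r, h⟩ ∈ A)
    (f : F) (hf : IsIntegral ↥R f) :
    ∃ h : f ∈ P.toValuationSubring, s37rie_ev P hdeg ⟨f, h⟩ ∈ A := by
  obtain ⟨p, hp, hp0⟩ := hf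
  -- the inclusion `R → O_P`
  let inc : ↥R →+* ↥P.toValuationSubring :=
    { toFun := fun r => ⟨(r : F), (hR r r.2).1⟩
      map_one' := rfl
      map_mul' := fun _ _ => rfl
      map_zero' := rfl
      map_add' := fun _ _ => rfl }
  have hinc : (P.toValuationSubring.subtype : ↥P.toValuationSubring →+* F).comp inc =
      algebraMap ↥R F := RingHom.ext fun r => rfl
  -- `f ∈ O_P`
  have hfO : f ∈ P.toValuationSubring := by
    have hint : IsIntegral ↥P.toValuationSubring f := by
      refine ⟨p.map inc, hp.map _, ?_⟩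
      rw [Polynomial.eval₂_map]
      have : (algebraMap ↥P.toValuationSubring F).comp inc = algebraMap ↥R F :=
        RingHom.ext fun r => rfl
      rw [this]
      exact hp0
    obtain ⟨y, hy⟩ := (IsIntegrallyClosed.isIntegral_iff (R := ↥P.toValuationSubring)
      (K := F)).1 hint
    rw [← hy]
    exact y.2
  refine ⟨hfO, ?_⟩
  -- the map `R → A`
  let ψ : ↥R →+* ↥A :=
    { toFun := fun r => ⟨s37rie_ev P hdeg (inc r), (hR r r.2).2⟩
      map_one' := Subtype.ext (map_one _)
      map_mul' := fun a b => Subtype.ext (by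
        show s37rie_ev P hdeg (inc (a * b)) = _
        rw [map_mul, map_mul]; rfl)
      map_zero' := Subtype.ext (map_zero _)
      map_add' := fun a b => Subtype.ext (by
        show s37rie_ev P hdeg (inc (a + b)) = _
        rw [map_add, map_add]; rfl) }
  have hψ : (algebraMap ↥A K).comp ψ = (s37rie_ev P hdeg).comp inc := RingHom.ext fun r => rfl
  have h0 : Polynomial.eval₂ inc (⟨f, hfO⟩ : ↥P.toValuationSubring) p = 0 := by
    apply Subtype.ext
    have := Polynomial.hom_eval₂ p inc
      (P.toValuationSubring.subtype : ↥P.toValuationSubring →+* F) (⟨f, hfO⟩ : ↥P.toValuationSubring)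
    rw [hinc] at this
    exact this.trans hp0
  have hint : IsIntegral ↥A (s37rie_ev P hdeg ⟨f, hfO⟩) := by
    refine ⟨p.map ψ, hp.map _, ?_⟩
    rw [Polynomial.eval₂_map, hψ, ← Polynomial.hom_eval₂, h0, map_zero]
  obtain ⟨y, hy⟩ := (IsIntegrallyClosed.isIntegral_iff (R := ↥A) (K := K)).1 hint
  rw [← hy]
  exact y.2

end Eval

end Fermat.Agent.S37
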