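/-
S37, [RI-EXIST] of the cut `S37/RIDefs.lean` (owner: helper11).  Prefix `s37rie_`.

    theorem s37rie_main_of : s37rie_KerStatement → s37ri_ExistStatement

`s37rie_KerStatement` is the KERNEL CLAUSE (RHO-2) of the shared leaf [RI-RHO]: an element of
`F̄_M` integral over `A[x]`, `x ∈ {j, 1/j}`, which reduces to `0` is `c · f'` with `c ∈ 𝔪_A` and
`f'` integral over `A[x]`.

ROUTE.  `x = j` if `P` is finite for `j`, `x = 1/j` otherwise; in both cases `x - c` vanishes at
`P` for some `c ∈ A`.  `B := {(f, g) : f integral over A[x], f reduces to g}` is a subring of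
`F̄_M × F_k(M)`, `ρ := pr₂`, `𝔫 := {(f, g) ∈ B : f vanishes at P}`.  Elements integral over `A[x]`
lie in `O_P` with values in `A` (`s37rie_int`); so no element `(f, 1)` lies in `𝔫`
(`f - 1 = c f'`, value of `f` at `P` is `1 + c f'(P) ≠ 0`).  `s37rie_core` gives the place `Q`.
-/
import Mathlib
import Fermat.Agent.S37.RIDefs
import Fermat.Agent.S37.RIExistCore
import Fermat.Agent.S24.Final
import Fermat.Agent.S18.WireOfRes
import Fermat.Agent.S18.ConstFin
import Fermat.Agent.S18.GaussQOfBasic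

set_option autoImplicit false
set_option linter.unusedSectionVars false
set_option linter.style.haveILetI false
set_option synthInstance.maxHeartbeats 400000
set_option maxHeartbeats 1000000

open ModularCurve AlgebraicCurve IntermediateField

noncomputable section

namespace Fermat.Agent.S37

/-- **The kernel clause** (RHO-2) of [RI-RHO]. -/
def s37rie_KerStatement : Prop :=
  ∀ (M : ℕ) [NeZero M] {ℓ : ℕ} [Fact ℓ.Prime], ¬ ℓ ∣ M →
    ∀ A : ValuationSubring (AlgebraicClosure ℚ), A.LiesOverPrime ℓ →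
      ∀ x : ↥(modularFunctionFieldBar M), (x = s37ri_j M ∨ x = (s37ri_j M)⁻¹) →
        ∀ f : ↥(modularFunctionFieldBar M), IsIntegral ↥(s37ri_ring A M x) f →
          s37ri_Red A M f 0 →
          ∃ (c : ↥A) (f' : ↥(modularFunctionFieldBar M)),
            c ∈ IsLocalRing.maximalIdeal ↥A ∧ IsIntegral ↥(s37ri_ring A M x) f' ∧
              f = algebraMap (AlgebraicClosure ℚ) ↥(modularFunctionFieldBar M)
                (c : AlgebraicClosure ℚ) * f'

/-! ### The calculus of `s37ri_Red` -/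

section Red

variable (A : ValuationSubring (AlgebraicClosure ℚ)) (M : ℕ) [NeZero M]

theorem s37rie_red_zero : s37ri_Red A M 0 0 :=
  ⟨0, 1, by rw [map_one]; exact one_ne_zero, by simp, by simp⟩

theorem s37rie_red_one : s37ri_Red A M 1 1 :=
  ⟨1, 1, by rw [map_one]; exact one_ne_zero, by simp, by simp⟩

variable {A M}

theorem s37rie_red_add {f₁ f₂ : ↥(modularFunctionFieldBar M)}
    {g₁ g₂ : ↥(modularFunctionFieldFullC (IsLocalRing.ResidueField A) M)}
    (h₁ : s37ri_Red A M f₁ g₁) (h₂ : s37ri_Red A M f₂ g₂) :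
    s37ri_Red A M (f₁ + f₂) (g₁ + g₂) := by
  obtain ⟨a₁, s₁, hs₁, hf₁, hg₁⟩ := h₁
  obtain ⟨a₂, s₂, hs₂, hf₂, hg₂⟩ := h₂
  refine ⟨a₁ * s₂ + a₂ * s₁, s₁ * s₂, ?_, ?_, ?_⟩
  · rw [map_mul]
    exact mul_ne_zero hs₁ hs₂
  · rw [map_add, map_mul, map_mul, map_mul, ← hf₁, ← hf₂]
    show ((f₁ : LaurentSeries (AlgebraicClosure ℚ)) + (f₂ : LaurentSeries (AlgebraicClosure ℚ))) *
      _ = _
    ring
  · rw [map_add, map_mul, map_mul, map_mul, ← hg₁, ← hg₂]
    show ((g₁ : LaurentSeries (IsLocalRing.ResidueField A)) +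
      (g₂ : LaurentSeries (IsLocalRing.ResidueField A))) * _ = _
    ring

theorem s37rie_red_mul {f₁ f₂ : ↥(modularFunctionFieldBar M)}
    {g₁ g₂ : ↥(modularFunctionFieldFullC (IsLocalRing.ResidueField A) M)}
    (h₁ : s37ri_Red A M f₁ g₁) (h₂ : s37ri_Red A M f₂ g₂) :
    s37ri_Red A M (f₁ * f₂) (g₁ * g₂) := by
  obtain ⟨a₁, s₁, hs₁, hf₁, hg₁⟩ := h₁
  obtain ⟨a₂, s₂, hs₂, hf₂, hg₂⟩ := h₂
  refine ⟨a₁ * a₂, s₁ * s₂, ?_, ?_, ?_⟩
  · rw [map_mul]
    exact mul_ne_zero hs₁ hs₂
  · rw [map_mul, map_mul, ← hf₁, ← hf₂]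
    show ((f₁ : LaurentSeries (AlgebraicClosure ℚ)) * (f₂ : LaurentSeries (AlgebraicClosure ℚ))) *
      _ = _
    ring
  · rw [map_mul, map_mul, ← hg₁, ← hg₂]
    show ((g₁ : LaurentSeries (IsLocalRing.ResidueField A)) *
      (g₂ : LaurentSeries (IsLocalRing.ResidueField A))) * _ = _
    ring

theorem s37rie_red_neg {f : ↥(modularFunctionFieldBar M)}
    {g : ↥(modularFunctionFieldFullC (IsLocalRing.ResidueField A) M)}
    (h : s37ri_Red A M f g) : s37ri_Red A M (-f) (-g) := by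
  obtain ⟨a, s, hs, hf, hg⟩ := h
  refine ⟨-a, s, hs, ?_, ?_⟩
  · rw [map_neg, ← hf]
    show (-(f : LaurentSeries (AlgebraicClosure ℚ))) * _ = _
    ring
  · rw [map_neg, ← hg]
    show (-(g : LaurentSeries (IsLocalRing.ResidueField A))) * _ = _
    ring

theorem s37rie_red_sub {f₁ f₂ : ↥(modularFunctionFieldBar M)}
    {g₁ g₂ : ↥(modularFunctionFieldFullC (IsLocalRing.ResidueField A) M)}
    (h₁ : s37ri_Red A M f₁ g₁) (h₂ : s37ri_Red A M f₂ g₂) :
    s37ri_Red A M (f₁ - f₂) (g₁ - g₂) := by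
  rw [sub_eq_add_neg, sub_eq_add_neg]
  exact s37rie_red_add h₁ (s37rie_red_neg h₂)

variable (A M)

theorem s37rie_red_const (a : ↥A) :
    s37ri_Red A M (algebraMap (AlgebraicClosure ℚ) ↥(modularFunctionFieldBar M)
        (a : AlgebraicClosure ℚ))
      (algebraMap (IsLocalRing.ResidueField A)
        ↥(modularFunctionFieldFullC (IsLocalRing.ResidueField A) M)
        (IsLocalRing.residue ↥A a)) := by
  refine ⟨HahnSeries.single 0 a, 1, by rw [map_one]; exact one_ne_zero, ?_, ?_⟩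
  · rw [map_one, mul_one, coeffMap_single]
    show algebraMap (AlgebraicClosure ℚ) (LaurentSeries (AlgebraicClosure ℚ))
      (a : AlgebraicClosure ℚ) = _
    rw [algebraMap_laurentSeries_eq_single]
    rfl
  · rw [map_one, mul_one, coeffMap_single]
    show algebraMap (IsLocalRing.ResidueField A) (LaurentSeries (IsLocalRing.ResidueField A))
      (IsLocalRing.residue ↥A a) = _
    rw [algebraMap_laurentSeries_eq_single]

theorem s37rie_red_j :
    s37ri_Red A M (s37ri_j M) (s37ri_jk M (IsLocalRing.ResidueField A)) := by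
  refine ⟨jqModC ↥A, 1, by rw [map_one]; exact one_ne_zero, ?_, ?_⟩
  · rw [map_one, mul_one, coeffMap_jqModC]
    exact S18.s18gq_j_coe (AlgebraicClosure ℚ) M
  · rw [map_one, mul_one, coeffMap_jqModC]
    rfl

theorem s37rie_red_jinv :
    s37ri_Red A M (s37ri_j M)⁻¹ (s37ri_jk M (IsLocalRing.ResidueField A))⁻¹ := by
  have hj : ((s37ri_j M : ↥(modularFunctionFieldBar M)) : LaurentSeries (AlgebraicClosure ℚ)) =
      jqModC (AlgebraicClosure ℚ) := S18.s18gq_j_coe (AlgebraicClosure ℚ) M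
  refine ⟨1, jqModC ↥A, ?_, ?_, ?_⟩
  · rw [coeffMap_jqModC]
    exact jqModC_ne_zero_of_nontrivial _
  · rw [map_one, coeffMap_jqModC]
    show ((s37ri_j M : ↥(modularFunctionFieldBar M)) : LaurentSeries (AlgebraicClosure ℚ))⁻¹ *
      _ = 1
    rw [hj]
    exact inv_mul_cancel₀ (jqModC_ne_zero_of_nontrivial _)
  · rw [map_one, coeffMap_jqModC]
    show (jqModC (IsLocalRing.ResidueField A))⁻¹ * _ = 1
    exact inv_mul_cancel₀ (jqModC_ne_zero_of_nontrivial _)

end Red

/-! ### The subring `B ⊆ F̄_M × F_k(M)` -/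

section Main

variable (A : ValuationSubring (AlgebraicClosure ℚ)) (M : ℕ) [NeZero M]

/-- `B := {(f, g) : f` integral over `A[x]`, `f` reduces to `g}`. -/
def s37rie_B (x : ↥(modularFunctionFieldBar M)) :
    Subring (↥(modularFunctionFieldBar M) ×
      ↥(modularFunctionFieldFullC (IsLocalRing.ResidueField A) M)) where
  carrier := {p | IsIntegral ↥(s37ri_ring A M x) p.1 ∧ s37ri_Red A M p.1 p.2}
  mul_mem' := fun {_ _} ha hb => ⟨ha.1.mul hb.1, s37rie_red_mul ha.2 hb.2⟩
  one_mem' := ⟨isIntegral_one, s37rie_red_one A M⟩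
  add_mem' := fun {_ _} ha hb => ⟨ha.1.add hb.1, s37rie_red_add ha.2 hb.2⟩
  zero_mem' := ⟨isIntegral_zero, s37rie_red_zero A M⟩
  neg_mem' := fun {_} ha => ⟨ha.1.neg, s37rie_red_neg ha.2⟩

theorem s37rie_mem_B {x : ↥(modularFunctionFieldBar M)}
    {p : ↥(modularFunctionFieldBar M) ×
      ↥(modularFunctionFieldFullC (IsLocalRing.ResidueField A) M)} :
    p ∈ s37rie_B A M x ↔ IsIntegral ↥(s37ri_ring A M x) p.1 ∧ s37ri_Red A M p.1 p.2 :=
  Iff.rfl

/-- The elements of `A[x]` are integral over `A[x]`. -/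
theorem s37rie_isIntegral_of_mem {x f : ↥(modularFunctionFieldBar M)}
    (hf : f ∈ s37ri_ring A M x) : IsIntegral ↥(s37ri_ring A M x) f :=
  isIntegral_algebraMap (R := ↥(s37ri_ring A M x)) (x := ⟨f, hf⟩)

theorem s37rie_const_mem (x : ↥(modularFunctionFieldBar M)) (a : ↥A) :
    algebraMap (AlgebraicClosure ℚ) ↥(modularFunctionFieldBar M) (a : AlgebraicClosure ℚ) ∈
      s37ri_ring A M x :=
  Subring.subset_closure (Or.inl ⟨a, rfl⟩)

theorem s37rie_x_mem (x : ↥(modularFunctionFieldBar M)) : x ∈ s37ri_ring A M x :=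
  Subring.subset_closure (Or.inr rfl)

/-- The value of a non-zero constant is `1`. -/
theorem s37rie_adic_const {K F : Type*} [Field K] [Field F] [Algebra K F] (P : Place K F)
    {c : K} (hc : c ≠ 0) : P.adicValuation (algebraMap K F c) = 1 := by
  have h1 := P.adicValuation_algebraMap_le_one c
  have h2 := P.adicValuation_algebraMap_le_one c⁻¹
  have h3 : P.adicValuation (algebraMap K F c) * P.adicValuation (algebraMap K F c⁻¹) = 1 := by
    rw [← map_mul, ← map_mul, mul_inv_cancel₀ hc, map_one, map_one]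
  refine le_antisymm h1 ?_
  calc (1 : WithZero (Multiplicative ℤ))
      = P.adicValuation (algebraMap K F c) * P.adicValuation (algebraMap K F c⁻¹) := h3.symm
    _ ≤ P.adicValuation (algebraMap K F c) * 1 := by gcongr
    _ = P.adicValuation (algebraMap K F c) := mul_one _

theorem s37rie_deg_one (P : Place (AlgebraicClosure ℚ) ↥(modularFunctionFieldBar M)) :
    P.deg = 1 :=
  Fermat.Agent.S24.diff_degOneStatement (AlgebraicClosure ℚ)
    ↥(modularFunctionFieldBar M) (Fermat.Agent.S24.jF M)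
    (Fermat.Agent.S24.final_jCoordinate M) P

/-- A place which is not finite for `j` is finite for `1/j`. -/
theorem s37rie_fin_inv (P : Place (AlgebraicClosure ℚ) ↥(modularFunctionFieldBar M))
    (h : ¬ s37ri_Fin A M (s37ri_j M) P) : s37ri_Fin A M (s37ri_j M)⁻¹ P := by
  have hdeg := s37rie_deg_one M P
  have hjne : s37ri_j M ≠ 0 := S18.s18gq_j_ne_zero (AlgebraicClosure ℚ) M
  by_cases hj : P.adicValuation (s37ri_j M) ≤ 1
  · have hjO : s37ri_j M ∈ P.toValuationSubring := (s37rie_adic_le_one_iff P).1 hj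
    set c : AlgebraicClosure ℚ := s37rie_ev P hdeg ⟨s37ri_j M, hjO⟩ with hc
    have hlt : P.adicValuation (s37ri_j M -
        algebraMap (AlgebraicClosure ℚ) ↥(modularFunctionFieldBar M) c) < 1 :=
      (s37rie_adic_lt_one_iff P).2 (s37rie_sub_ev_mem P hdeg ⟨s37ri_j M, hjO⟩)
    have hcA : c ∉ A := fun hcA => h ⟨⟨c, hcA⟩, hlt⟩
    have hc0 : c ≠ 0 := fun h0 => hcA (h0 ▸ A.zero_mem)
    have hcinv : c⁻¹ ∈ A := (A.mem_or_inv_mem c).resolve_left hcA
    have hvc := s37rie_adic_const (F := ↥(modularFunctionFieldBar M)) P hc0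
    have hvj : P.adicValuation (s37ri_j M) = 1 := by
      have h1 : s37ri_j M = algebraMap (AlgebraicClosure ℚ) ↥(modularFunctionFieldBar M) c +
          (s37ri_j M - algebraMap (AlgebraicClosure ℚ) ↥(modularFunctionFieldBar M) c) := by ring
      rw [h1, Valuation.map_add_eq_of_lt_left _ (by rw [hvc]; exact hlt), hvc]
    have hcne : algebraMap (AlgebraicClosure ℚ) ↥(modularFunctionFieldBar M) c ≠ 0 := by
      rw [Ne, map_eq_zero]
      exact hc0
    refine ⟨⟨c⁻¹, hcinv⟩, ?_⟩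
    show P.adicValuation ((s37ri_j M)⁻¹ -
      algebraMap (AlgebraicClosure ℚ) ↥(modularFunctionFieldBar M) c⁻¹) < 1
    have hid : (s37ri_j M)⁻¹ - algebraMap (AlgebraicClosure ℚ) ↥(modularFunctionFieldBar M) c⁻¹ =
        -(s37ri_j M - algebraMap (AlgebraicClosure ℚ) ↥(modularFunctionFieldBar M) c) *
          ((s37ri_j M)⁻¹ * (algebraMap (AlgebraicClosure ℚ) ↥(modularFunctionFieldBar M) c)⁻¹) := by
      rw [map_inv₀]
      field_simp
      ring
    rw [hid, map_mul, map_mul, map_inv₀, map_inv₀, hvj, hvc, inv_one, mul_one, mul_one,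
      Valuation.map_neg]
    exact hlt
  · refine ⟨⟨0, A.zero_mem⟩, ?_⟩
    show P.adicValuation ((s37ri_j M)⁻¹ -
      algebraMap (AlgebraicClosure ℚ) ↥(modularFunctionFieldBar M) 0) < 1
    rw [map_zero, sub_zero, map_inv₀]
    rw [not_le] at hj
    exact inv_lt_one_of_one_lt₀ hj

/-- **The chart step**: a place `P` which is finite for `x ∈ {j, 1/j}` specialises, in the chart
of `x`, to some place `Q`. -/
theorem s37rie_specAt (hKer : s37rie_KerStatement) {ℓ : ℕ} [Fact ℓ.Prime] (hℓM : ¬ ℓ ∣ M)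
    (hA : A.LiesOverPrime ℓ) (x : ↥(modularFunctionFieldBar M))
    (hx : x = s37ri_j M ∨ x = (s37ri_j M)⁻¹)
    (P : Place (AlgebraicClosure ℚ) ↥(modularFunctionFieldBar M))
    (hfin : s37ri_Fin A M x P) :
    ∃ Q : Place (IsLocalRing.ResidueField A)
      ↥(modularFunctionFieldFullC (IsLocalRing.ResidueField A) M), s37ri_SpecAt A M x P Q := by
  classical
  obtain ⟨c, hc⟩ := hfin
  have hdeg := s37rie_deg_one M P
  haveI : CharP (IsLocalRing.ResidueField A) ℓ := S18.s18w_charP A hA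
  -- `x ∈ O_P` with value `c`
  obtain ⟨hxO, hxev⟩ := s37rie_ev_eq_of_sub_mem P hdeg (c : AlgebraicClosure ℚ)
    ((s37rie_adic_lt_one_iff P).1 hc)
  -- the elements of `A[x]` lie in `O_P` with values in `A`
  have hR : ∀ r ∈ s37ri_ring A M x,
      ∃ h : r ∈ P.toValuationSubring, s37rie_ev P hdeg ⟨r, h⟩ ∈ A := by
    intro r hr
    induction hr using Subring.closure_induction with
    | mem y hy =>
        rcases hy with ⟨a, rfl⟩ | hy
        · refine ⟨P.algebraMap_mem' _, ?_⟩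
          have := s37rie_ev_algebraMap P hdeg (a : AlgebraicClosure ℚ)
          rw [show (⟨algebraMap (AlgebraicClosure ℚ) ↥(modularFunctionFieldBar M)
            (a : AlgebraicClosure ℚ), P.algebraMap_mem' _⟩ : ↥P.toValuationSubring) =
            algebraMap (AlgebraicClosure ℚ) ↥P.toValuationSubring (a : AlgebraicClosure ℚ)
            from rfl, this]
          exact a.2
        · rw [Set.mem_singleton_iff] at hy
          subst hy
          exact ⟨hxO, by rw [hxev]; exact c.2⟩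
    | zero => exact ⟨zero_mem _, by
        rw [show (⟨0, zero_mem _⟩ : ↥P.toValuationSubring) = 0 from rfl, map_zero]
        exact A.zero_mem⟩
    | one => exact ⟨one_mem _, by
        rw [show (⟨1, one_mem _⟩ : ↥P.toValuationSubring) = 1 from rfl, map_one]
        exact A.one_mem⟩
    | add a b _ _ ha hb =>
        obtain ⟨ha1, ha2⟩ := ha
        obtain ⟨hb1, hb2⟩ := hb
        refine ⟨add_mem ha1 hb1, ?_⟩
        rw [show (⟨a + b, add_mem ha1 hb1⟩ : ↥P.toValuationSubring) = ⟨a, ha1⟩ + ⟨b, hb1⟩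
          from rfl, map_add]
        exact A.add_mem _ _ ha2 hb2
    | neg a _ ha =>
        obtain ⟨ha1, ha2⟩ := ha
        refine ⟨neg_mem ha1, ?_⟩
        rw [show (⟨-a, neg_mem ha1⟩ : ↥P.toValuationSubring) = -⟨a, ha1⟩ from rfl, map_neg]
        exact A.neg_mem _ ha2
    | mul a b _ _ ha hb =>
        obtain ⟨ha1, ha2⟩ := ha
        obtain ⟨hb1, hb2⟩ := hb
        refine ⟨mul_mem ha1 hb1, ?_⟩
        rw [show (⟨a * b, mul_mem ha1 hb1⟩ : ↥P.toValuationSubring) = ⟨a, ha1⟩ * ⟨b, hb1⟩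
          from rfl, map_mul]
        exact A.mul_mem _ _ ha2 hb2
  have hint := s37rie_int P hdeg A (s37ri_ring A M x) hR
  -- the reduction of `x`
  obtain ⟨xk, hxk, hxtr⟩ : ∃ xk : ↥(modularFunctionFieldFullC (IsLocalRing.ResidueField A) M),
      s37ri_Red A M x xk ∧ Transcendental (IsLocalRing.ResidueField A) xk := by
    have htr : Transcendental (IsLocalRing.ResidueField A)
        (s37ri_jk M (IsLocalRing.ResidueField A)) :=
      S18.s18c_jF_transcendental (IsLocalRing.ResidueField A) M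
    rcases hx with rfl | rfl
    · exact ⟨_, s37rie_red_j A M, htr⟩
    · refine ⟨_, s37rie_red_jinv A M, fun h => htr ?_⟩
      have := h.inv
      rwa [inv_inv] at this
  -- the ring `B`, the map `ρ`, the ideal `𝔫`
  let ρ : ↥(s37rie_B A M x) →+*
      ↥(modularFunctionFieldFullC (IsLocalRing.ResidueField A) M) :=
    (RingHom.snd _ _).comp (s37rie_B A M x).subtype
  let θ : ↥(s37rie_B A M x) →+* ↥P.toValuationSubring :=
    { toFun := fun b => ⟨b.1.1, (hint _ b.2.1).1⟩
      map_one' := rfl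
      map_mul' := fun _ _ => rfl
      map_zero' := rfl
      map_add' := fun _ _ => rfl }
  let 𝔫 : Ideal ↥(s37rie_B A M x) :=
    Ideal.comap θ (IsLocalRing.maximalIdeal ↥P.toValuationSubring)
  have hmem : ∀ b : ↥(s37rie_B A M x), b ∈ 𝔫 ↔ P.adicValuation b.1.1 < 1 := by
    intro b
    rw [s37rie_adic_lt_one_iff]
    show θ b ∈ IsLocalRing.maximalIdeal ↥P.toValuationSubring ↔ _
    exact (ValuationSubring.coe_mem_nonunits_iff (A := P.toValuationSubring) (a := θ b)).symm
  -- constants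
  have hk : ∀ a : IsLocalRing.ResidueField A, ∃ b : ↥(s37rie_B A M x),
      ρ b = algebraMap (IsLocalRing.ResidueField A)
        ↥(modularFunctionFieldFullC (IsLocalRing.ResidueField A) M) a := by
    intro a
    obtain ⟨a', rfl⟩ := IsLocalRing.residue_surjective a
    exact ⟨⟨(_, _), s37rie_isIntegral_of_mem A M (s37rie_const_mem A M x a'),
      s37rie_red_const A M a'⟩, rfl⟩
  -- the kernel
  have hker : ∀ b ∈ 𝔫, ρ b ≠ 1 := by
    intro b hb h1
    have hb' : P.adicValuation b.1.1 < 1 := (hmem b).1 hb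
    have hred : s37ri_Red A M b.1.1 1 := by
      have := b.2.2
      rwa [show b.1.2 = 1 from h1] at this
    have hred0 : s37ri_Red A M (b.1.1 - 1) 0 := by
      have := s37rie_red_sub hred (s37rie_red_one A M)
      rwa [sub_self] at this
    obtain ⟨c', f', hc', hf', hff'⟩ := hKer M hℓM A hA x hx (b.1.1 - 1)
      (b.2.1.sub isIntegral_one) hred0
    obtain ⟨hf'O, hf'A⟩ := hint f' hf'
    have hev0 : s37rie_ev P hdeg (θ b) = 0 :=
      (s37rie_ev_eq_zero_iff P hdeg _).2 ((s37rie_adic_lt_one_iff P).1 hb')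
    have heq : θ b - 1 = algebraMap (AlgebraicClosure ℚ) ↥P.toValuationSubring
        (c' : AlgebraicClosure ℚ) * ⟨f', hf'O⟩ := Subtype.ext hff'
    have h2 := congrArg (s37rie_ev P hdeg) heq
    rw [map_sub, map_one, hev0, zero_sub, map_mul, s37rie_ev_algebraMap] at h2
    have h3 : c' * (⟨s37rie_ev P hdeg ⟨f', hf'O⟩, hf'A⟩ : ↥A) ∈ IsLocalRing.maximalIdeal ↥A :=
      Ideal.mul_mem_right _ _ hc'
    have h4 : (-1 : ↥A) = c' * (⟨s37rie_ev P hdeg ⟨f', hf'O⟩, hf'A⟩ : ↥A) := Subtype.ext h2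
    rw [← h4, Ideal.neg_mem_iff] at h3
    exact (Ideal.ne_top_iff_one _).1 (IsLocalRing.maximalIdeal.isMaximal ↥A).ne_top h3
  -- the element `x - c`
  let xB : ↥(s37rie_B A M x) :=
    ⟨(x - algebraMap (AlgebraicClosure ℚ) ↥(modularFunctionFieldBar M) (c : AlgebraicClosure ℚ),
      xk - algebraMap (IsLocalRing.ResidueField A)
        ↥(modularFunctionFieldFullC (IsLocalRing.ResidueField A) M) (IsLocalRing.residue ↥A c)),
      (s37rie_isIntegral_of_mem A M (s37rie_x_mem A M x)).sub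
        (s37rie_isIntegral_of_mem A M (s37rie_const_mem A M x c)),
      s37rie_red_sub hxk (s37rie_red_const A M c)⟩
  have hxB : xB ∈ 𝔫 := (hmem xB).2 hc
  have htr : Transcendental (IsLocalRing.ResidueField A) (ρ xB) := by
    intro h
    apply hxtr
    have h1 : IsAlgebraic (IsLocalRing.ResidueField A)
        (algebraMap (IsLocalRing.ResidueField A)
          ↥(modularFunctionFieldFullC (IsLocalRing.ResidueField A) M)
          (IsLocalRing.residue ↥A c)) := isAlgebraic_algebraMap _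
    have h2 := h.add h1
    have h3 : ρ xB + algebraMap (IsLocalRing.ResidueField A)
        ↥(modularFunctionFieldFullC (IsLocalRing.ResidueField A) M)
        (IsLocalRing.residue ↥A c) = xk := sub_add_cancel _ _
    rwa [h3] at h2
  have hfinite : FiniteDimensional ↥(IsLocalRing.ResidueField A)⟮ρ xB⟯
      ↥(modularFunctionFieldFullC (IsLocalRing.ResidueField A) M) :=
    S18.s18c_finite (IsLocalRing.ResidueField A) M ℓ (ρ xB) htr
  obtain ⟨Q, -, hQ⟩ := s37rie_core ρ 𝔫 hk hker xB hxB htr hfinite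
  refine ⟨Q, fun f g hf hred hP => ?_⟩
  have h1 : (⟨(f, g), hf, hred⟩ : ↥(s37rie_B A M x)) ∈ 𝔫 := (hmem _).2 hP
  exact (s37rie_adic_lt_one_iff Q).2 (hQ _ h1)

end Main

/-- **[RI-EXIST]** from the kernel clause of [RI-RHO]. -/
theorem s37rie_main_of (hKer : s37rie_KerStatement) : s37ri_ExistStatement := by
  intro M _ ℓ _ hℓM _ A hA P
  by_cases hfin : s37ri_Fin A M (s37ri_j M) P
  · obtain ⟨Q, hQ⟩ := s37rie_specAt A M hKer hℓM hA (s37ri_j M) (Or.inl rfl) P hfin
    exact ⟨Q, Or.inl ⟨hfin, hQ⟩⟩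
  · obtain ⟨Q, hQ⟩ := s37rie_specAt A M hKer hℓM hA (s37ri_j M)⁻¹ (Or.inr rfl) P
      (s37rie_fin_inv A M P hfin)
    exact ⟨Q, Or.inr ⟨hfin, hQ⟩⟩

example (hKer : s37rie_KerStatement) : s37ri_ExistStatement := s37rie_main_of hKer

end Fermat.Agent.S37
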