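/-
S37, package [RI], leaf [RI-DESC] (owner: helper16).  Prefix `s37rd_`.

DESCENT TO NUMBER FIELDS.  `A ⊆ Q̄` a valuation ring, `K1 ⊆ Q̄` an intermediate field,
`O1 := A ∩ K1 = A.comap (K1 → Q̄)`, `ι_{K1} : F_{K1}(M) → F̄_M` the coefficientwise embedding
(`S18.s18cfe_iota`).

* `s37rd_ring`: an element of `A[x] ⊆ F̄_M` is, for every `K1 ⊇ K0`, the image of an element
  of `O1[x1] ⊆ F_{K1}(M)`.
* `s37rd_int`: finitely many elements of `F̄_M` integral over `A[x]` are, for every `K1 ⊇ K0`,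
  images of elements of the chart `S18.s18_chart O1 {x1}`.
* `s37rd_chart_int`: conversely the image of a chart element is integral over `A[x]`.
* `s37rd_ser`: finitely many `A`-series in `F̄_M` descend to `O1`-series in `F_{K1}(M)`.
-/
import Mathlib
import Fermat.Agent.S37.RIDefs
import Fermat.Agent.S18.RatQDescent
import Fermat.Agent.S18.RatQRing
import Fermat.Agent.S18.Cfe
import Fermat.Agent.S18.Discrete

set_option autoImplicit false
set_option synthInstance.maxHeartbeats 400000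

open ModularCurve AlgebraicCurve IntermediateField

noncomputable section

namespace Fermat.Agent.S37

open Fermat.Agent.S18

/-! ### The combinator -/

/-- Finitely many properties of the form "for all `K1 ⊇ K0`" hold simultaneously. -/
theorem s37rd_finset {I : Type*} (s : Finset I)
    (p : I → IntermediateField ℚ (AlgebraicClosure ℚ) → Prop)
    (h : ∀ i ∈ s, ∃ K0 : IntermediateField ℚ (AlgebraicClosure ℚ), FiniteDimensional ℚ ↥K0 ∧
      ∀ K1 : IntermediateField ℚ (AlgebraicClosure ℚ), K0 ≤ K1 → p i K1) :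
    ∃ K0 : IntermediateField ℚ (AlgebraicClosure ℚ), FiniteDimensional ℚ ↥K0 ∧
      ∀ K1 : IntermediateField ℚ (AlgebraicClosure ℚ), K0 ≤ K1 → ∀ i ∈ s, p i K1 := by
  classical
  induction s using Finset.induction_on with
  | empty => exact ⟨⊥, inferInstance, fun _ _ i hi => absurd hi (Finset.notMem_empty i)⟩
  | insert a s _ ih =>
    obtain ⟨K0, hK0, h0⟩ := ih (fun i hi => h i (Finset.mem_insert_of_mem hi))
    obtain ⟨Ka, hKa, ha⟩ := h a (Finset.mem_insert_self a s)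
    refine ⟨K0 ⊔ Ka, IntermediateField.finiteDimensional_sup K0 Ka, fun K1 hK1 i hi => ?_⟩
    rcases Finset.mem_insert.mp hi with rfl | hi
    · exact ha K1 (le_trans le_sup_right hK1)
    · exact h0 K1 (le_trans le_sup_left hK1) i hi

/-- Two properties of the form "for all `K1 ⊇ K0`" hold simultaneously. -/
theorem s37rd_and {p q : IntermediateField ℚ (AlgebraicClosure ℚ) → Prop}
    (hp : ∃ K0 : IntermediateField ℚ (AlgebraicClosure ℚ), FiniteDimensional ℚ ↥K0 ∧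
      ∀ K1 : IntermediateField ℚ (AlgebraicClosure ℚ), K0 ≤ K1 → p K1)
    (hq : ∃ K0 : IntermediateField ℚ (AlgebraicClosure ℚ), FiniteDimensional ℚ ↥K0 ∧
      ∀ K1 : IntermediateField ℚ (AlgebraicClosure ℚ), K0 ≤ K1 → q K1) :
    ∃ K0 : IntermediateField ℚ (AlgebraicClosure ℚ), FiniteDimensional ℚ ↥K0 ∧
      ∀ K1 : IntermediateField ℚ (AlgebraicClosure ℚ), K0 ≤ K1 → p K1 ∧ q K1 := by
  obtain ⟨K0, hK0, h0⟩ := hp
  obtain ⟨Ka, hKa, ha⟩ := hq
  exact ⟨K0 ⊔ Ka, IntermediateField.finiteDimensional_sup K0 Ka, fun K1 hK1 =>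
    ⟨h0 K1 (le_trans le_sup_left hK1), ha K1 (le_trans le_sup_right hK1)⟩⟩

section Desc

variable (A : ValuationSubring (AlgebraicClosure ℚ)) (M : ℕ)

/-- `O1 = A ∩ K1`. -/
abbrev s37rd_O (K1 : IntermediateField ℚ (AlgebraicClosure ℚ)) : ValuationSubring ↥K1 :=
  A.comap (algebraMap ↥K1 (AlgebraicClosure ℚ))

/-- `ι_{K1} : F_{K1}(M) → F̄_M`, the coefficientwise embedding (helper8's `s18cfe_iota`). -/
abbrev s37rd_iota (K1 : IntermediateField ℚ (AlgebraicClosure ℚ)) :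
    ↥(s18_F ↥K1 M) →+* ↥(modularFunctionFieldBar M) :=
  s18cfe_iota ↥K1 (AlgebraicClosure ℚ) (modularFunctionFieldFull M)

theorem s37rd_iota_injective (K1 : IntermediateField ℚ (AlgebraicClosure ℚ)) :
    Function.Injective (s37rd_iota M K1) :=
  (s37rd_iota M K1).injective

/-- The subring `O1[x1]` of `F_{K1}(M)`, without any `Algebra` instance. -/
def s37rd_sub (K1 : IntermediateField ℚ (AlgebraicClosure ℚ)) (x1 : ↥(s18_F ↥K1 M)) :
    Subring ↥(s18_F ↥K1 M) :=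
  Subring.closure (Set.range (fun a : ↥(s37rd_O A K1) =>
    algebraMap ↥K1 ↥(s18_F ↥K1 M) (a : ↥K1)) ∪ {x1})

/-- `O1[x1]` is the ring underlying `Algebra.adjoin O1 {x1}`. -/
theorem s37rd_sub_eq (K1 : IntermediateField ℚ (AlgebraicClosure ℚ)) (x1 : ↥(s18_F ↥K1 M)) :
    letI := s18_algOF ↥(s37rd_O A K1) ↥K1 M
    (Algebra.adjoin ↥(s37rd_O A K1) ({x1} : Set ↥(s18_F ↥K1 M))).toSubring =
      s37rd_sub A M K1 x1 := by
  let _ := s18_algOF ↥(s37rd_O A K1) ↥K1 M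
  rw [Algebra.adjoin_eq_ring_closure]
  rfl

theorem s37rd_mem_sub_iff (K1 : IntermediateField ℚ (AlgebraicClosure ℚ))
    (x1 c : ↥(s18_F ↥K1 M)) :
    letI := s18_algOF ↥(s37rd_O A K1) ↥K1 M
    c ∈ Algebra.adjoin ↥(s37rd_O A K1) ({x1} : Set ↥(s18_F ↥K1 M)) ↔
      c ∈ s37rd_sub A M K1 x1 := by
  let _ := s18_algOF ↥(s37rd_O A K1) ↥K1 M
  rw [← s37rd_sub_eq]
  exact Iff.rfl

/-- **Descent of `A[x]`**: every element of `A[x] ⊆ F̄_M` is, for every `K1 ⊇ K0`, the image of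
an element of `O1[x1]`. -/
theorem s37rd_ring (x : ↥(modularFunctionFieldBar M))
    (x1 : ∀ K1 : IntermediateField ℚ (AlgebraicClosure ℚ), ↥(s18_F ↥K1 M))
    (hx : ∀ K1, s37rd_iota M K1 (x1 K1) = x)
    (c : ↥(modularFunctionFieldBar M)) (hc : c ∈ s37ri_ring A M x) :
    ∃ K0 : IntermediateField ℚ (AlgebraicClosure ℚ), FiniteDimensional ℚ ↥K0 ∧
      ∀ K1 : IntermediateField ℚ (AlgebraicClosure ℚ), K0 ≤ K1 →
        ∃ c1 : ↥(s18_F ↥K1 M), c1 ∈ s37rd_sub A M K1 (x1 K1) ∧ s37rd_iota M K1 c1 = c := by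
  induction hc using Subring.closure_induction with
  | mem y hy =>
      rcases hy with ⟨a, rfl⟩ | hy
      · have ha : IsIntegral ℚ (a : AlgebraicClosure ℚ) :=
          ((AlgebraicClosure.isAlgebraic ℚ).isAlgebraic (a : AlgebraicClosure ℚ)).isIntegral
        refine ⟨ℚ⟮(a : AlgebraicClosure ℚ)⟯, IntermediateField.adjoin.finiteDimensional ha,
          fun K1 hK1 => ?_⟩
        have haK : (a : AlgebraicClosure ℚ) ∈ K1 :=
          hK1 (mem_adjoin_simple_self ℚ (a : AlgebraicClosure ℚ))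
        have haO : (⟨(a : AlgebraicClosure ℚ), haK⟩ : ↥K1) ∈ s37rd_O A K1 := by
          rw [ValuationSubring.mem_comap]
          exact a.2
        refine ⟨algebraMap ↥K1 ↥(s18_F ↥K1 M) ⟨(a : AlgebraicClosure ℚ), haK⟩,
          Subring.subset_closure (Or.inl ⟨⟨_, haO⟩, rfl⟩), ?_⟩
        rw [s18cfe_iota_algebraMap]
        rfl
      · rw [Set.mem_singleton_iff] at hy
        subst hy
        exact ⟨⊥, inferInstance, fun K1 _ =>
          ⟨x1 K1, Subring.subset_closure (Or.inr rfl), hx K1⟩⟩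
  | zero =>
      exact ⟨⊥, inferInstance, fun K1 _ => ⟨0, Subring.zero_mem _, map_zero _⟩⟩
  | one =>
      exact ⟨⊥, inferInstance, fun K1 _ => ⟨1, Subring.one_mem _, map_one _⟩⟩
  | add y z _ _ hy hz =>
      obtain ⟨K0, hK0, h0⟩ := s37rd_and hy hz
      refine ⟨K0, hK0, fun K1 hK1 => ?_⟩
      obtain ⟨⟨y1, hy1, rfl⟩, ⟨z1, hz1, rfl⟩⟩ := h0 K1 hK1
      exact ⟨y1 + z1, Subring.add_mem _ hy1 hz1, map_add _ _ _⟩
  | neg y _ hy =>
      obtain ⟨K0, hK0, h0⟩ := hy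
      refine ⟨K0, hK0, fun K1 hK1 => ?_⟩
      obtain ⟨y1, hy1, rfl⟩ := h0 K1 hK1
      exact ⟨-y1, Subring.neg_mem _ hy1, map_neg _ _⟩
  | mul y z _ _ hy hz =>
      obtain ⟨K0, hK0, h0⟩ := s37rd_and hy hz
      refine ⟨K0, hK0, fun K1 hK1 => ?_⟩
      obtain ⟨⟨y1, hy1, rfl⟩, ⟨z1, hz1, rfl⟩⟩ := h0 K1 hK1
      exact ⟨y1 * z1, Subring.mul_mem _ hy1 hz1, map_mul _ _ _⟩

/-- **Descent of one integral element**: `f ∈ F̄_M` integral over `A[x]` is, for every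
`K1 ⊇ K0`, the image of an element of the chart `s18_chart O1 {x1}`. -/
theorem s37rd_int_one (x : ↥(modularFunctionFieldBar M))
    (x1 : ∀ K1 : IntermediateField ℚ (AlgebraicClosure ℚ), ↥(s18_F ↥K1 M))
    (hx : ∀ K1, s37rd_iota M K1 (x1 K1) = x)
    (f : ↥(modularFunctionFieldBar M)) (hf : IsIntegral ↥(s37ri_ring A M x) f) :
    ∃ K0 : IntermediateField ℚ (AlgebraicClosure ℚ), FiniteDimensional ℚ ↥K0 ∧
      ∀ K1 : IntermediateField ℚ (AlgebraicClosure ℚ), K0 ≤ K1 →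
        ∃ b : ↥(s18_F ↥K1 M),
          (letI := s18_algOF ↥(s37rd_O A K1) ↥K1 M
           b ∈ s18_chart ↥(s37rd_O A K1) ({x1 K1} : Set ↥(s18_F ↥K1 M))) ∧
          s37rd_iota M K1 b = f := by
  classical
  obtain ⟨p, hpm, hp⟩ := hf
  set P : Polynomial ↥(modularFunctionFieldBar M) := p.map (s37ri_ring A M x).subtype with hP
  have hPm : P.Monic := hpm.map _
  have hP0 : P.eval f = 0 := by
    rw [hP, Polynomial.eval_map]
    exact hp
  have hcoef : ∀ n, P.coeff n ∈ s37ri_ring A M x := by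
    intro n
    rw [hP, Polynomial.coeff_map]
    exact (p.coeff n).2
  -- descent of the coefficients and of `f`
  obtain ⟨K0, hK0, h0⟩ := s37rd_and
    (s37rd_finset (Finset.range (P.natDegree + 1))
      (fun n K1 => ∃ c1 : ↥(s18_F ↥K1 M), c1 ∈ s37rd_sub A M K1 (x1 K1) ∧
        s37rd_iota M K1 c1 = P.coeff n)
      (fun n _ => s37rd_ring A M x x1 hx (P.coeff n) (hcoef n)))
    (show ∃ K0 : IntermediateField ℚ (AlgebraicClosure ℚ), FiniteDimensional ℚ ↥K0 ∧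
        ∀ K1 : IntermediateField ℚ (AlgebraicClosure ℚ), K0 ≤ K1 →
          ∃ b : ↥(s18_F ↥K1 M), s37rd_iota M K1 b = f by
      obtain ⟨K0, hK0, f0, hf0, hff⟩ := s18rq_descent M f.2
      refine ⟨K0, hK0, fun K1 hK1 => ?_⟩
      obtain ⟨y, hy, hyy⟩ := s18rq_enlarge M hK1 hf0
      exact ⟨⟨y, hy⟩, Subtype.ext (hyy.trans hff)⟩)
  refine ⟨K0, hK0, fun K1 hK1 => ?_⟩
  obtain ⟨hc, b, hb⟩ := h0 K1 hK1
  refine ⟨b, ?_, hb⟩
  let _ := s18_algOF ↥(s37rd_O A K1) ↥K1 M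
  show IsIntegral ↥(Algebra.adjoin ↥(s37rd_O A K1) ({x1 K1} : Set ↥(s18_F ↥K1 M))) b
  set g : ↥(Algebra.adjoin ↥(s37rd_O A K1) ({x1 K1} : Set ↥(s18_F ↥K1 M))) →+*
      ↥(modularFunctionFieldBar M) :=
    (s37rd_iota M K1).comp (algebraMap
      ↥(Algebra.adjoin ↥(s37rd_O A K1) ({x1 K1} : Set ↥(s18_F ↥K1 M))) ↥(s18_F ↥K1 M)) with hg
  have hlift : P ∈ Polynomial.lifts g := by
    rw [Polynomial.lifts_iff_coeff_lifts]
    intro n
    by_cases hn : n ≤ P.natDegree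
    · obtain ⟨c1, hc1, hc1'⟩ := hc n (Finset.mem_range.mpr (Nat.lt_succ_of_le hn))
      exact ⟨⟨c1, (s37rd_mem_sub_iff A M K1 (x1 K1) c1).2 hc1⟩, hc1'⟩
    · refine ⟨0, ?_⟩
      rw [map_zero, Polynomial.coeff_eq_zero_of_natDegree_lt (not_le.mp hn)]
  obtain ⟨q, hq, -, hqm⟩ := Polynomial.lifts_and_natDegree_eq_and_monic hlift hPm
  refine ⟨q, hqm, ?_⟩
  apply (s37rd_iota M K1).injective
  rw [map_zero, Polynomial.hom_eval₂, ← hg, ← Polynomial.eval_map, hq, hb]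
  exact hP0

/-- **[RI-DESC], integral elements**: finitely many elements of `F̄_M` integral over `A[x]`
are, for every `K1 ⊇ K0`, images of elements of the chart `s18_chart O1 {x1}`. -/
theorem s37rd_int (x : ↥(modularFunctionFieldBar M))
    (x1 : ∀ K1 : IntermediateField ℚ (AlgebraicClosure ℚ), ↥(s18_F ↥K1 M))
    (hx : ∀ K1, s37rd_iota M K1 (x1 K1) = x)
    (T : Finset ↥(modularFunctionFieldBar M))
    (hT : ∀ f ∈ T, IsIntegral ↥(s37ri_ring A M x) f) :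
    ∃ K0 : IntermediateField ℚ (AlgebraicClosure ℚ), FiniteDimensional ℚ ↥K0 ∧
      ∀ K1 : IntermediateField ℚ (AlgebraicClosure ℚ), K0 ≤ K1 → ∀ f ∈ T,
        ∃ b : ↥(s18_F ↥K1 M),
          (letI := s18_algOF ↥(s37rd_O A K1) ↥K1 M
           b ∈ s18_chart ↥(s37rd_O A K1) ({x1 K1} : Set ↥(s18_F ↥K1 M))) ∧
          s37rd_iota M K1 b = f :=
  s37rd_finset T _ (fun f hf => s37rd_int_one A M x x1 hx f (hT f hf))

/-- The image of `O1[x1]` lies in `A[x]`. -/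
theorem s37rd_iota_mem_ring (x : ↥(modularFunctionFieldBar M))
    (K1 : IntermediateField ℚ (AlgebraicClosure ℚ)) (x1 : ↥(s18_F ↥K1 M))
    (hx : s37rd_iota M K1 x1 = x) (c : ↥(s18_F ↥K1 M)) (hc : c ∈ s37rd_sub A M K1 x1) :
    s37rd_iota M K1 c ∈ s37ri_ring A M x := by
  induction hc using Subring.closure_induction with
  | mem y hy =>
      rcases hy with ⟨a, rfl⟩ | hy
      · refine Subring.subset_closure (Or.inl ⟨⟨algebraMap ↥K1 (AlgebraicClosure ℚ) (a : ↥K1),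
          a.2⟩, ?_⟩)
        exact (s18cfe_iota_algebraMap ↥K1 (AlgebraicClosure ℚ) (modularFunctionFieldFull M)
          (a : ↥K1)).symm
      · rw [Set.mem_singleton_iff] at hy
        subst hy
        rw [hx]
        exact Subring.subset_closure (Or.inr rfl)
  | zero => rw [map_zero]; exact Subring.zero_mem _
  | one => rw [map_one]; exact Subring.one_mem _
  | add y z _ _ hy hz => rw [map_add]; exact Subring.add_mem _ hy hz
  | neg y _ hy => rw [map_neg]; exact Subring.neg_mem _ hy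
  | mul y z _ _ hy hz => rw [map_mul]; exact Subring.mul_mem _ hy hz

/-- **The converse**: the image of a chart element is integral over `A[x]`. -/
theorem s37rd_chart_int (x : ↥(modularFunctionFieldBar M))
    (K1 : IntermediateField ℚ (AlgebraicClosure ℚ)) (x1 : ↥(s18_F ↥K1 M))
    (hx : s37rd_iota M K1 x1 = x) (b : ↥(s18_F ↥K1 M))
    (hb : letI := s18_algOF ↥(s37rd_O A K1) ↥K1 M
      b ∈ s18_chart ↥(s37rd_O A K1) ({x1} : Set ↥(s18_F ↥K1 M))) :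
    IsIntegral ↥(s37ri_ring A M x) (s37rd_iota M K1 b) := by
  let _ := s18_algOF ↥(s37rd_O A K1) ↥K1 M
  have hb' : IsIntegral ↥(Algebra.adjoin ↥(s37rd_O A K1) ({x1} : Set ↥(s18_F ↥K1 M))) b := hb
  let φ : ↥(Algebra.adjoin ↥(s37rd_O A K1) ({x1} : Set ↥(s18_F ↥K1 M))) →+*
      ↥(s37ri_ring A M x) :=
    ((s37rd_iota M K1).comp (algebraMap
      ↥(Algebra.adjoin ↥(s37rd_O A K1) ({x1} : Set ↥(s18_F ↥K1 M)))
        ↥(s18_F ↥K1 M))).codRestrict (s37ri_ring A M x)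
      (fun c => s37rd_iota_mem_ring A M x K1 x1 hx _
        ((s37rd_mem_sub_iff A M K1 x1 _).1 c.2))
  exact IsIntegral.map_of_comp_eq φ (s37rd_iota M K1) (RingHom.ext fun c => rfl) hb'

/-- **[RI-DESC], series**: an `A`-series in `F̄_M` descends, for every `K1 ⊇ K0`, to an
`O1`-series in `F_{K1}(M)`. -/
theorem s37rd_ser_one (y : LaurentSeries ↥A)
    (hy : coeffMap A.subtype y ∈ modularFunctionFieldBar M) :
    ∃ K0 : IntermediateField ℚ (AlgebraicClosure ℚ), FiniteDimensional ℚ ↥K0 ∧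
      ∀ K1 : IntermediateField ℚ (AlgebraicClosure ℚ), K0 ≤ K1 →
        ∃ y1 : LaurentSeries ↥(s37rd_O A K1),
          coeffMap (algebraMap ↥(s37rd_O A K1) ↥K1) y1 ∈ s18_F ↥K1 M ∧
          coeffMap (s18rq_incl (algebraMap ↥K1 (AlgebraicClosure ℚ)) A) y1 = y := by
  obtain ⟨K0, hK0, y0, hy0, hyy⟩ := s18rq_descent M hy
  refine ⟨K0, hK0, fun K1 hK1 => ?_⟩
  obtain ⟨y', hy', hyy'⟩ := s18rq_enlarge M hK1 hy0
  have hk : ∀ k, algebraMap ↥K1 (AlgebraicClosure ℚ) (y'.coeff k) =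
      ((y.coeff k : ↥A) : AlgebraicClosure ℚ) := by
    intro k
    have := congrArg (fun z => z.coeff k) (hyy'.trans hyy)
    simpa using this
  obtain ⟨y1, hy1⟩ := s18rq_lift (algebraMap ↥(s37rd_O A K1) ↥K1) y'
    (fun k => ⟨⟨y'.coeff k, by
      rw [ValuationSubring.mem_comap, hk k]
      exact (y.coeff k).2⟩, rfl⟩)
  refine ⟨y1, by rw [hy1]; exact hy', ?_⟩
  ext k
  rw [coeffMap_coeff, s18rq_incl_coe, ← hk k, ← hy1]
  rfl

/-- **[RI-DESC], finitely many series.** -/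
theorem s37rd_ser (U : Finset (LaurentSeries ↥A))
    (hU : ∀ y ∈ U, coeffMap A.subtype y ∈ modularFunctionFieldBar M) :
    ∃ K0 : IntermediateField ℚ (AlgebraicClosure ℚ), FiniteDimensional ℚ ↥K0 ∧
      ∀ K1 : IntermediateField ℚ (AlgebraicClosure ℚ), K0 ≤ K1 → ∀ y ∈ U,
        ∃ y1 : LaurentSeries ↥(s37rd_O A K1),
          coeffMap (algebraMap ↥(s37rd_O A K1) ↥K1) y1 ∈ s18_F ↥K1 M ∧
          coeffMap (s18rq_incl (algebraMap ↥K1 (AlgebraicClosure ℚ)) A) y1 = y :=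
  s37rd_finset U _ (fun y hy => s37rd_ser_one A M y (hU y hy))

end Desc

/-! ### The two charts -/

section Charts

variable (A : ValuationSubring (AlgebraicClosure ℚ)) (M : ℕ) [NeZero M]

theorem s37rd_iota_j (K1 : IntermediateField ℚ (AlgebraicClosure ℚ)) :
    s37rd_iota M K1 (s18_j ↥K1 M) = s37ri_j M :=
  Subtype.ext (s18rq_coeffMap_coeffEmb (algebraMap ↥K1 (AlgebraicClosure ℚ)) jq)

theorem s37rd_iota_jinv (K1 : IntermediateField ℚ (AlgebraicClosure ℚ)) :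
    s37rd_iota M K1 (s18_j ↥K1 M)⁻¹ = (s37ri_j M)⁻¹ := by
  rw [map_inv₀, s37rd_iota_j]

/-- **[RI-DESC]** for the chart of `j`. -/
theorem s37rd_int_j (T : Finset ↥(modularFunctionFieldBar M))
    (hT : ∀ f ∈ T, IsIntegral ↥(s37ri_ring A M (s37ri_j M)) f) :
    ∃ K0 : IntermediateField ℚ (AlgebraicClosure ℚ), FiniteDimensional ℚ ↥K0 ∧
      ∀ K1 : IntermediateField ℚ (AlgebraicClosure ℚ), K0 ≤ K1 → ∀ f ∈ T,
        ∃ b : ↥(s18_F ↥K1 M),
          (letI := s18_algOF ↥(s37rd_O A K1) ↥K1 M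
           b ∈ s18_chart ↥(s37rd_O A K1) ({s18_j ↥K1 M} : Set ↥(s18_F ↥K1 M))) ∧
          s37rd_iota M K1 b = f :=
  s37rd_int A M (s37ri_j M) (fun K1 => s18_j ↥K1 M) (s37rd_iota_j M) T hT

/-- **[RI-DESC]** for the chart of `1/j`. -/
theorem s37rd_int_jinv (T : Finset ↥(modularFunctionFieldBar M))
    (hT : ∀ f ∈ T, IsIntegral ↥(s37ri_ring A M (s37ri_j M)⁻¹) f) :
    ∃ K0 : IntermediateField ℚ (AlgebraicClosure ℚ), FiniteDimensional ℚ ↥K0 ∧
      ∀ K1 : IntermediateField ℚ (AlgebraicClosure ℚ), K0 ≤ K1 → ∀ f ∈ T,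
        ∃ b : ↥(s18_F ↥K1 M),
          (letI := s18_algOF ↥(s37rd_O A K1) ↥K1 M
           b ∈ s18_chart ↥(s37rd_O A K1) ({(s18_j ↥K1 M)⁻¹} : Set ↥(s18_F ↥K1 M))) ∧
          s37rd_iota M K1 b = f :=
  s37rd_int A M (s37ri_j M)⁻¹ (fun K1 => (s18_j ↥K1 M)⁻¹) (s37rd_iota_jinv M) T hT

/-- The image of an element of the chart of `j` over `O1` is integral over `A[j]`. -/
theorem s37rd_chart_int_j (K1 : IntermediateField ℚ (AlgebraicClosure ℚ))
    (b : ↥(s18_F ↥K1 M))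
    (hb : letI := s18_algOF ↥(s37rd_O A K1) ↥K1 M
      b ∈ s18_chart ↥(s37rd_O A K1) ({s18_j ↥K1 M} : Set ↥(s18_F ↥K1 M))) :
    IsIntegral ↥(s37ri_ring A M (s37ri_j M)) (s37rd_iota M K1 b) :=
  s37rd_chart_int A M (s37ri_j M) K1 (s18_j ↥K1 M) (s37rd_iota_j M K1) b hb

/-- The image of an element of the chart of `1/j` over `O1` is integral over `A[1/j]`. -/
theorem s37rd_chart_int_jinv (K1 : IntermediateField ℚ (AlgebraicClosure ℚ))
    (b : ↥(s18_F ↥K1 M))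
    (hb : letI := s18_algOF ↥(s37rd_O A K1) ↥K1 M
      b ∈ s18_chart ↥(s37rd_O A K1) ({(s18_j ↥K1 M)⁻¹} : Set ↥(s18_F ↥K1 M))) :
    IsIntegral ↥(s37ri_ring A M (s37ri_j M)⁻¹) (s37rd_iota M K1 b) :=
  s37rd_chart_int A M (s37ri_j M)⁻¹ K1 (s18_j ↥K1 M)⁻¹ (s37rd_iota_jinv M K1) b hb

end Charts

/-! ### The ring `O1` and the model -/

section Model

variable (A : ValuationSubring (AlgebraicClosure ℚ)) (M : ℕ) [NeZero M]

/-- `O1 = A ∩ K1` is a discrete valuation ring with `ℓ ∈ 𝔪` and perfect residue field, for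
every number field `K1`. -/
theorem s37rd_dvr {ℓ : ℕ} [Fact ℓ.Prime] (hA : A.LiesOverPrime ℓ)
    (K1 : IntermediateField ℚ (AlgebraicClosure ℚ)) [FiniteDimensional ℚ ↥K1] :
    IsDiscreteValuationRing ↥(s37rd_O A K1) ∧
      (ℓ : ↥(s37rd_O A K1)) ∈ IsLocalRing.maximalIdeal ↥(s37rd_O A K1) ∧
      PerfectField (IsLocalRing.ResidueField ↥(s37rd_O A K1)) := by
  have hℓO : (ℓ : ↥K1) ∈ (s37rd_O A K1).nonunits := by
    apply s18rq_nonunits_comap
    rw [map_natCast]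
    exact hA
  have hℓmax := s18rq_natCast_mem_maximalIdeal _ ℓ hℓO
  have hdvr : IsDiscreteValuationRing ↥(s37rd_O A K1) := by
    apply s18disc_main ℚ ↥K1
    apply s18rq_dvrQ _ ℓ
    apply s18rq_nonunits_comap
    rw [map_natCast]
    exact hℓO
  have halg : Algebra.IsAlgebraic ℚ ↥K1 := Algebra.IsAlgebraic.of_finite ℚ ↥K1
  exact ⟨hdvr, hℓmax, s18rq_perfect (s37rd_O A K1) ℓ hℓmax⟩

/-- The good model over `(K1, O1)`, from [MODEL-Q]. -/
theorem s37rd_model (hModel : s18_ModelQStatement) {ℓ : ℕ} [Fact ℓ.Prime] (hℓM : ¬ ℓ ∣ M)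
    (h49 : 4 ∣ M ∨ 9 ∣ M) (hA : A.LiesOverPrime ℓ)
    (K1 : IntermediateField ℚ (AlgebraicClosure ℚ)) [hK1 : FiniteDimensional ℚ ↥K1] :
    ∃ _ : IsDiscreteValuationRing ↥(s37rd_O A K1),
      letI := s18_algOF ↥(s37rd_O A K1) ↥K1 M
      haveI := s18_towerOF ↥(s37rd_O A K1) ↥K1 M
      s18_IsGoodModel ↥(s37rd_O A K1) ↥K1 ↥(s18_F ↥K1 M) (s18_j ↥K1 M) ∧
        s18_GaussOK ↥(s37rd_O A K1) ↥K1 M := by
  obtain ⟨hdvr, hℓ, hperf⟩ := s37rd_dvr A hA K1
  exact ⟨hdvr, hModel M hℓM h49 K1 hK1 (s37rd_O A K1) hℓ hperf⟩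

/-- The `q`-expansion principle over `(K1, O1)`, from [GAUSS-Q]. -/
theorem s37rd_gaussQ (hG : s18_GaussQStatement) {ℓ : ℕ} [Fact ℓ.Prime] (hℓM : ¬ ℓ ∣ M)
    (hA : A.LiesOverPrime ℓ)
    (K1 : IntermediateField ℚ (AlgebraicClosure ℚ)) [hK1 : FiniteDimensional ℚ ↥K1] :
    ∃ _ : IsDiscreteValuationRing ↥(s37rd_O A K1), s18_GaussQAt ↥(s37rd_O A K1) ↥K1 M := by
  obtain ⟨hdvr, hℓ, -⟩ := s37rd_dvr A hA K1
  exact ⟨hdvr, hG M hℓM K1 hK1 (s37rd_O A K1) hℓ⟩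

end Model

end Fermat.Agent.S37
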