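/-
S37, package [RI], leaves [RI-VALID] and [RI-COVER] of the cut `S37/RIDefs.lean` (helper26).
Owner: helper27.  Prefix `s37riv_`.

EXPORTS (VERBATIM `RIDefs.lean`):
  theorem s37riv_valid_main : s37ri_ValidStatement
  theorem s37riv_cover_main : s37ri_CoverStatement

and the dictionary between the chart elements `s37ri_IsChart A M x y` of the cut and the
elementwise integrality `s37riv_IsInt ax y` of Laurent series over `A` (`x = ι ax`).
-/
import Mathlib
import Fermat.Agent.S37.RIDefs
import Fermat.Agent.S37.RIValid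

set_option autoImplicit false
set_option linter.unusedSectionVars false
set_option linter.unusedVariables false
set_option linter.style.haveILetI false
set_option warn.classDefReducibility false
set_option maxHeartbeats 1000000
set_option synthInstance.maxHeartbeats 400000

open AlgebraicCurve ModularCurve IntermediateField

noncomputable section

namespace Fermat.Agent.S37

open Polynomial Fermat.Agent.S18

section Dict

variable (A : ValuationSubring (AlgebraicClosure ℚ)) (M : ℕ) [NeZero M]

/-- `A → F̄_M`. -/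
def s37riv_algA : ↥A →+* ↥(modularFunctionFieldBar M) :=
  (algebraMap (AlgebraicClosure ℚ) ↥(modularFunctionFieldBar M)).comp A.subtype

/-- `A[X] → F̄_M`, `X ↦ x`. -/
def s37riv_psi (x : ↥(modularFunctionFieldBar M)) :
    Polynomial ↥A →+* ↥(modularFunctionFieldBar M) :=
  Polynomial.eval₂RingHom (s37riv_algA A M) x

theorem s37riv_psi_C (x : ↥(modularFunctionFieldBar M)) (a : ↥A) :
    s37riv_psi A M x (C a) =
      algebraMap (AlgebraicClosure ℚ) ↥(modularFunctionFieldBar M) (a : AlgebraicClosure ℚ) := by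
  show Polynomial.eval₂ (s37riv_algA A M) x (C a) = _
  rw [Polynomial.eval₂_C]
  rfl

theorem s37riv_psi_X (x : ↥(modularFunctionFieldBar M)) : s37riv_psi A M x X = x := by
  show Polynomial.eval₂ (s37riv_algA A M) x X = _
  rw [Polynomial.eval₂_X]

theorem s37riv_psi_mem (x : ↥(modularFunctionFieldBar M)) (P : Polynomial ↥A) :
    s37riv_psi A M x P ∈ s37ri_ring A M x := by
  induction P using Polynomial.induction_on with
  | C a =>
      rw [s37riv_psi_C]
      exact Subring.subset_closure (Or.inl ⟨a, rfl⟩)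
  | add p q hp hq =>
      rw [map_add]
      exact Subring.add_mem _ hp hq
  | monomial n a h =>
      rw [pow_succ, ← mul_assoc, map_mul, s37riv_psi_X]
      exact Subring.mul_mem _ h (Subring.subset_closure (Or.inr rfl))

/-- `A[X] → A[x]`. -/
def s37riv_phi (x : ↥(modularFunctionFieldBar M)) :
    Polynomial ↥A →+* ↥(s37ri_ring A M x) :=
  (s37riv_psi A M x).codRestrict (s37ri_ring A M x) (s37riv_psi_mem A M x)

theorem s37riv_phi_surjective (x : ↥(modularFunctionFieldBar M)) :
    Function.Surjective (s37riv_phi A M x) := by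
  rintro ⟨z, hz⟩
  have : ∃ P : Polynomial ↥A, s37riv_psi A M x P = z := by
    unfold s37ri_ring at hz
    induction hz using Subring.closure_induction with
    | mem y hy =>
        rcases hy with ⟨a, rfl⟩ | hy
        · exact ⟨C a, s37riv_psi_C A M x a⟩
        · rw [Set.mem_singleton_iff] at hy
          subst hy
          exact ⟨X, s37riv_psi_X A M y⟩
    | zero => exact ⟨0, map_zero _⟩
    | one => exact ⟨1, map_one _⟩
    | add y z _ _ hy hz =>
        obtain ⟨P, rfl⟩ := hy
        obtain ⟨Q, rfl⟩ := hz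
        exact ⟨P + Q, map_add _ _ _⟩
    | neg y _ hy =>
        obtain ⟨P, rfl⟩ := hy
        exact ⟨-P, map_neg _ _⟩
    | mul y z _ _ hy hz =>
        obtain ⟨P, rfl⟩ := hy
        obtain ⟨Q, rfl⟩ := hz
        exact ⟨P * Q, map_mul _ _ _⟩
  obtain ⟨P, hP⟩ := this
  exact ⟨P, Subtype.ext hP⟩

theorem s37riv_algebraMap_comp_phi (x : ↥(modularFunctionFieldBar M)) :
    (algebraMap ↥(s37ri_ring A M x) ↥(modularFunctionFieldBar M)).comp (s37riv_phi A M x) =
      s37riv_psi A M x := rfl

/-- The coercion of `ψ`: `coe ∘ ψ_x = ι ∘ aeval ax` when `x = ι ax`. -/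
theorem s37riv_val_comp_psi (x : ↥(modularFunctionFieldBar M)) (ax : LaurentSeries ↥A)
    (hx : ((x : ↥(modularFunctionFieldBar M)) : LaurentSeries (AlgebraicClosure ℚ)) =
      coeffMap A.subtype ax) :
    ((modularFunctionFieldBar M).val :
        ↥(modularFunctionFieldBar M) →+* LaurentSeries (AlgebraicClosure ℚ)).comp
      (s37riv_psi A M x) =
    (coeffMap A.subtype).comp
      ((Polynomial.aeval ax : Polynomial ↥A →ₐ[↥A] LaurentSeries ↥A) :
        Polynomial ↥A →+* LaurentSeries ↥A) := by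
  refine Polynomial.ringHom_ext (fun a => ?_) ?_
  · show ((s37riv_psi A M x (C a) : ↥(modularFunctionFieldBar M)) :
        LaurentSeries (AlgebraicClosure ℚ)) = coeffMap A.subtype (aeval ax (C a))
    rw [s37riv_psi_C, Polynomial.aeval_C, s18gq_algebraMap_eq_C, s18gq_coeffMap_C]
    show algebraMap (AlgebraicClosure ℚ) (LaurentSeries (AlgebraicClosure ℚ))
      (a : AlgebraicClosure ℚ) = _
    rw [s18gq_algebraMap_eq_C]
    rfl
  · show ((s37riv_psi A M x X : ↥(modularFunctionFieldBar M)) :
        LaurentSeries (AlgebraicClosure ℚ)) = coeffMap A.subtype (aeval ax X)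
    rw [s37riv_psi_X, Polynomial.aeval_X, hx]

theorem s37riv_coe_psi (x : ↥(modularFunctionFieldBar M)) (ax : LaurentSeries ↥A)
    (hx : ((x : ↥(modularFunctionFieldBar M)) : LaurentSeries (AlgebraicClosure ℚ)) =
      coeffMap A.subtype ax) (P : Polynomial ↥A) :
    ((s37riv_psi A M x P : ↥(modularFunctionFieldBar M)) :
        LaurentSeries (AlgebraicClosure ℚ)) = coeffMap A.subtype (aeval ax P) :=
  congrArg (fun f : Polynomial ↥A →+* LaurentSeries (AlgebraicClosure ℚ) => f P)
    (s37riv_val_comp_psi A M x ax hx)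

/-- `ι (P(ax)) ∈ F̄_M`. -/
theorem s37riv_aeval_mem (x : ↥(modularFunctionFieldBar M)) (ax : LaurentSeries ↥A)
    (hx : ((x : ↥(modularFunctionFieldBar M)) : LaurentSeries (AlgebraicClosure ℚ)) =
      coeffMap A.subtype ax) (P : Polynomial ↥A) :
    coeffMap A.subtype (aeval ax P) ∈ modularFunctionFieldBar M := by
  rw [← s37riv_coe_psi A M x ax hx P]
  exact (s37riv_psi A M x P).2

/-- **Dictionary, (⟸)**: a series which is integral over `A[ax]` and lies in `F̄_M` is a chart
element for `x = ι ax`. -/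
theorem s37riv_isChart_of_isInt (x : ↥(modularFunctionFieldBar M)) (ax : LaurentSeries ↥A)
    (hx : ((x : ↥(modularFunctionFieldBar M)) : LaurentSeries (AlgebraicClosure ℚ)) =
      coeffMap A.subtype ax) (y : LaurentSeries ↥A)
    (hy : coeffMap A.subtype y ∈ modularFunctionFieldBar M) (h : s37riv_IsInt ax y) :
    s37ri_IsChart A M x y := by
  refine ⟨hy, ?_⟩
  have h1 := RingHom.IsIntegralElem.map h (coeffMap A.subtype)
  rw [← s37riv_val_comp_psi A M x ax hx] at h1
  have h2 : coeffMap A.subtype y =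
      ((modularFunctionFieldBar M).val :
        ↥(modularFunctionFieldBar M) →+* LaurentSeries (AlgebraicClosure ℚ))
        (⟨coeffMap A.subtype y, hy⟩ : ↥(modularFunctionFieldBar M)) := rfl
  rw [h2] at h1
  have h3 := RingHom.IsIntegralElem.of_map (f := s37riv_psi A M x)
    (g := ((modularFunctionFieldBar M).val :
        ↥(modularFunctionFieldBar M) →+* LaurentSeries (AlgebraicClosure ℚ)))
    Subtype.val_injective h1
  rw [← s37riv_algebraMap_comp_phi] at h3
  exact RingHom.IsIntegralElem.of_comp h3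

/-- **Dictionary, (⟹)**: a chart element for `x = ι ax` is integral over `A[ax]` in `A((q))`. -/
theorem s37riv_isInt_of_isChart (x : ↥(modularFunctionFieldBar M)) (ax : LaurentSeries ↥A)
    (hx : ((x : ↥(modularFunctionFieldBar M)) : LaurentSeries (AlgebraicClosure ℚ)) =
      coeffMap A.subtype ax) (y : LaurentSeries ↥A) (h : s37ri_IsChart A M x y) :
    s37riv_IsInt ax y := by
  obtain ⟨hy, hint⟩ := h
  have h1 : ((algebraMap ↥(s37ri_ring A M x) ↥(modularFunctionFieldBar M)).comp
      (s37riv_phi A M x)).IsIntegralElem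
      (⟨coeffMap A.subtype y, hy⟩ : ↥(modularFunctionFieldBar M)) :=
    s37riv_isIntegralElem_comp_surj (s37riv_phi A M x) (s37riv_phi_surjective A M x) _ hint
  rw [s37riv_algebraMap_comp_phi] at h1
  have h2 := RingHom.IsIntegralElem.map h1
    ((modularFunctionFieldBar M).val :
        ↥(modularFunctionFieldBar M) →+* LaurentSeries (AlgebraicClosure ℚ))
  rw [s37riv_val_comp_psi A M x ax hx] at h2
  exact RingHom.IsIntegralElem.of_map
    (s18gq_coeffMap_injective _ Subtype.val_injective) h2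

theorem s37riv_isChart_iff (x : ↥(modularFunctionFieldBar M)) (ax : LaurentSeries ↥A)
    (hx : ((x : ↥(modularFunctionFieldBar M)) : LaurentSeries (AlgebraicClosure ℚ)) =
      coeffMap A.subtype ax) (y : LaurentSeries ↥A) :
    s37ri_IsChart A M x y ↔
      coeffMap A.subtype y ∈ modularFunctionFieldBar M ∧ s37riv_IsInt ax y :=
  ⟨fun h => ⟨h.1, s37riv_isInt_of_isChart A M x ax hx y h⟩,
    fun h => s37riv_isChart_of_isInt A M x ax hx y h.1 h.2⟩

/-- `j = ι (jqModC A)`. -/
theorem s37riv_j_coe :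
    ((s37ri_j M : ↥(modularFunctionFieldBar M)) : LaurentSeries (AlgebraicClosure ℚ)) =
      coeffMap A.subtype (jqModC ↥A) := by
  rw [coeffMap_jqModC]
  exact s18gq_j_coe (AlgebraicClosure ℚ) M

/-- `1/j = ι (the integral expansion of 1/j)`. -/
theorem s37riv_jinv_coe :
    (((s37ri_j M)⁻¹ : ↥(modularFunctionFieldBar M)) : LaurentSeries (AlgebraicClosure ℚ)) =
      coeffMap A.subtype (s18gq_jinv ↥A) := by
  rw [s18gq_coeffMap_jinv, s18gq_jinv_eq_inv, ← s18gq_j_coe (AlgebraicClosure ℚ) M]
  rfl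

end Dict

/-! ### The two leaves -/

/-- **[RI-VALID]** -/
theorem s37riv_valid_main : s37ri_ValidStatement := by
  intro M _ ℓ _ hℓM _ A hA y hy _ _
  obtain ⟨d, hd, hint⟩ := s37riv_valid M A hℓM hA y hy
  have hdmem := s37riv_aeval_mem A M (s37ri_j M) (jqModC ↥A) (s37riv_j_coe A M) d
  refine ⟨aeval (jqModC ↥A) d, ?_, s37riv_red_aeval_j_ne_zero ↥A d hd, ?_⟩
  · exact s37riv_isChart_of_isInt A M (s37ri_j M) (jqModC ↥A) (s37riv_j_coe A M) _ hdmem
      (s37riv_isInt_aeval _ d)
  · refine s37riv_isChart_of_isInt A M (s37ri_j M) (jqModC ↥A) (s37riv_j_coe A M) _ ?_ hint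
    rw [map_mul]
    exact mul_mem hdmem hy

/-- **[RI-COVER]** -/
theorem s37riv_cover_main : s37ri_CoverStatement := by
  intro M _ ℓ _ _ _ A _ b hb
  have hint := s37riv_isInt_of_isChart A M (s37ri_j M) (jqModC ↥A) (s37riv_j_coe A M) b hb
  obtain ⟨n₀, hn₀⟩ := s37riv_cover_j hint
  refine ⟨n₀, s18gq_jinv ↥A ^ n₀ * b, ?_, ?_⟩
  · refine s37riv_isChart_of_isInt A M (s37ri_j M)⁻¹ (s18gq_jinv ↥A) (s37riv_jinv_coe A M) _ ?_
      (hn₀ n₀ le_rfl)
    rw [map_mul, map_pow, ← s37riv_jinv_coe A M]
    exact mul_mem (pow_mem ((s37ri_j M)⁻¹).2 _) hb.1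
  · rw [mul_comm (s18gq_jinv ↥A ^ n₀) b, mul_assoc, ← mul_pow, s37riv_jinv_mul_jq, one_pow,
      mul_one]

end Fermat.Agent.S37
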