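/-
S37, package [RI], the kernel clause (RHO-2) of [RI-RHO] in the shape consumed by [RI-EXIST]
(helper11's `s37rie_KerStatement`), and (RHO-0).  Owner: helper27.  Prefix `s37rk_`.

  `s37rk_series`   every `f ∈ F̄_M` which is integral over `A[x]`, `x ∈ {j, 1/j}`, has an
                   `A`-integral `q`-expansion;
  `s37rk_main`     if moreover `f` reduces to `0`, then `f = c · f'` with `c ∈ m_A` and `f'`
                   integral over `A[x]`.

ROUTE: descent to a discrete valuation ring `O = A ∩ K0` (helper16's `s37rd_int_one`);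
`O((q))` is integrally closed and `F_{K0}(M) ⊆ Frac O((q))`, so the elements of the chart over
`O` are integral series; the kernel clause of the reduction datum of the chart (`s18gq_at`).
-/
import Mathlib
import Fermat.Agent.S37.RIDefs
import Fermat.Agent.S37.RIDesc
import Fermat.Agent.S37.RIValidMain
import Fermat.Agent.S22.BD

set_option autoImplicit false
set_option linter.unusedSectionVars false
set_option linter.unusedVariables false
set_option linter.style.haveILetI false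
set_option warn.classDefReducibility false
set_option maxHeartbeats 1000000
set_option synthInstance.maxHeartbeats 400000

open AlgebraicCurve ModularCurve IntermediateField

noncomputable section

namespace Fermat.Agent.S37

open Polynomial Fermat.Agent.S18

/-! ### Over a discrete valuation ring -/

section DVR

variable {O K : Type} [CommRing O] [IsDomain O] [IsDiscreteValuationRing O] [Field K]
  [Algebra O K] [IsFractionRing O K] {F : IntermediateField K (LaurentSeries K)}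

attribute [local instance 10] s18_algOFF

/-- `O((q))` is integrally closed. -/
theorem s37rk_icLaurent (O : Type) [CommRing O] [IsDomain O] [IsDiscreteValuationRing O] :
    IsIntegrallyClosed (LaurentSeries O) :=
  isIntegrallyClosed_of_isLocalization (R := PowerSeries O) (S := LaurentSeries O)
    (Submonoid.powers (PowerSeries.X : PowerSeries O))
    (by
      intro x hx
      obtain ⟨n, rfl⟩ := hx
      exact mem_nonZeroDivisors_of_ne_zero (pow_ne_zero n PowerSeries.X_ne_zero))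

/-- **The elements of a chart are integral series.** -/
theorem s37rk_chart_series (x : ↥F) (ax : LaurentSeries O)
    (hx : ((x : ↥F) : LaurentSeries K) = coeffMap (algebraMap O K) ax)
    (b : ↥F) (hfrac : s18gq_IsFrac O K (b : LaurentSeries K))
    (hb : b ∈ s18_chart O ({x} : Set ↥F)) :
    ∃ y : LaurentSeries O, coeffMap (algebraMap O K) y = (b : LaurentSeries K) := by
  haveI := s37rk_icLaurent O
  letI : Algebra (LaurentSeries O) (LaurentSeries K) := (coeffMap (algebraMap O K)).toAlgebra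
  have hinj : Function.Injective (algebraMap (LaurentSeries O) (LaurentSeries K)) :=
    s18gq_coeffMap_injective _ (IsFractionRing.injective O K)
  -- integrality over `O((q))`
  have h1 : ((Polynomial.aeval x : O[X] →ₐ[O] ↥F) : O[X] →+* ↥F).IsIntegralElem b :=
    (s37riv_isIntegral_adjoin_iff x b).2 hb
  have h2 := RingHom.IsIntegralElem.map h1 (F.val : ↥F →+* LaurentSeries K)
  rw [s37riv_val_comp_aeval x ax hx] at h2
  have hint : IsIntegral (LaurentSeries O) (b : LaurentSeries K) :=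
    RingHom.IsIntegralElem.of_comp h2
  obtain ⟨a, s, hs, has⟩ := hfrac
  exact Fermat.Agent.S22.BD.exists_algebraMap_eq_of_isIntegral_of_mul_eq hinj hint hs has

/-- **The kernel clause**: an element of the chart whose integral expansion reduces to `0` is
divisible by a uniformizer in the chart. -/
theorem s37rk_chart_ker (x : ↥F)
    (ρ : ↥(s18_chart O ({x} : Set ↥F)) →+* LaurentSeries (IsLocalRing.ResidueField O))
    (hker : ∀ b, ρ b = 0 → b ∈ s18_fibreIdeal O ({x} : Set ↥F))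
    (hmul : ∀ (b b' : ↥(s18_chart O ({x} : Set ↥F))) (a : LaurentSeries O),
      ((b' : ↥F) : LaurentSeries K) =
          coeffMap (algebraMap O K) a * ((b : ↥F) : LaurentSeries K) →
        ρ b' = coeffMap (IsLocalRing.residue O) a * ρ b)
    {ϖ : O} (hϖ : Irreducible ϖ)
    (b : ↥F) (hb : b ∈ s18_chart O ({x} : Set ↥F)) (y : LaurentSeries O)
    (hy : coeffMap (algebraMap O K) y = (b : LaurentSeries K))
    (hy0 : coeffMap (IsLocalRing.residue O) y = 0) :
    ∃ b₁ : ↥F, b₁ ∈ s18_chart O ({x} : Set ↥F) ∧ b = algebraMap O ↥F ϖ * b₁ := by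
  have hw : ρ ⟨b, hb⟩ = 0 := by
    rw [s18gq_rho_eq ρ hmul ⟨b, hb⟩ y hy.symm, hy0]
  obtain ⟨b₁, hb₁⟩ := s18gq_div_unif ρ hker hϖ ⟨b, hb⟩ hw
  exact ⟨(b₁ : ↥F), b₁.2, congrArg (fun z : ↥(s18_chart O ({x} : Set ↥F)) => (z : ↥F)) hb₁⟩

end DVR

/-! ### Over a valuation ring of `Q̄` -/

section A

variable (A : ValuationSubring (AlgebraicClosure ℚ)) (M : ℕ) [NeZero M] {ℓ : ℕ} [Fact ℓ.Prime]

/-- `ι ∘ incl = ι_{K1} ∘ ι_{O1}` on series. -/
theorem s37rk_coeffMap_incl (K1 : IntermediateField ℚ (AlgebraicClosure ℚ))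
    (y1 : LaurentSeries ↥(s37rd_O A K1)) :
    coeffMap A.subtype (coeffMap (s18rq_incl (algebraMap ↥K1 (AlgebraicClosure ℚ)) A) y1) =
      coeffMap (algebraMap ↥K1 (AlgebraicClosure ℚ))
        (coeffMap (algebraMap ↥(s37rd_O A K1) ↥K1) y1) := by
  rw [coeffMap_coeffMap, coeffMap_coeffMap]
  exact coeffMap_congr (RingHom.ext fun c => rfl) y1

/-- The reduction of `incl y1` vanishes iff the reduction of `y1` does. -/
theorem s37rk_red_incl (K1 : IntermediateField ℚ (AlgebraicClosure ℚ))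
    (y1 : LaurentSeries ↥(s37rd_O A K1))
    (h : coeffMap (IsLocalRing.residue ↥A)
      (coeffMap (s18rq_incl (algebraMap ↥K1 (AlgebraicClosure ℚ)) A) y1) = 0) :
    coeffMap (IsLocalRing.residue ↥(s37rd_O A K1)) y1 = 0 := by
  refine HahnSeries.ext (funext fun k => ?_)
  have := congrArg (fun z => z.coeff k) h
  simp only [coeffMap_coeff, HahnSeries.coeff_zero] at this ⊢
  exact (s18rq_residue_incl (algebraMap ↥K1 (AlgebraicClosure ℚ)) A _).1 this

/-- The two clauses at a fixed number field `K1`, for an element `b` of the chart over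
`O1 = A ∩ K1`. -/
theorem s37rk_at (hA : A.LiesOverPrime ℓ)
    (K1 : IntermediateField ℚ (AlgebraicClosure ℚ)) [FiniteDimensional ℚ ↥K1]
    (x1 : ↥(s18_F ↥K1 M)) (ax1 : LaurentSeries ↥(s37rd_O A K1))
    (hx1 : ((x1 : ↥(s18_F ↥K1 M)) : LaurentSeries ↥K1) =
      coeffMap (algebraMap ↥(s37rd_O A K1) ↥K1) ax1)
    (hred : s18_HasRedF ↥(s37rd_O A K1) ↥K1 (s18_F ↥K1 M) ({x1} : Set ↥(s18_F ↥K1 M)))
    (x : ↥(modularFunctionFieldBar M)) (hx : s37rd_iota M K1 x1 = x)
    (b : ↥(s18_F ↥K1 M))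
    (hb : letI := s18_algOF ↥(s37rd_O A K1) ↥K1 M
      b ∈ s18_chart ↥(s37rd_O A K1) ({x1} : Set ↥(s18_F ↥K1 M))) :
    (∃ y : LaurentSeries ↥A, coeffMap A.subtype y =
        ((s37rd_iota M K1 b : ↥(modularFunctionFieldBar M)) :
          LaurentSeries (AlgebraicClosure ℚ))) ∧
      (s37ri_Red A M (s37rd_iota M K1 b) 0 →
        ∃ (c : ↥A) (f' : ↥(modularFunctionFieldBar M)),
          c ∈ IsLocalRing.maximalIdeal ↥A ∧ IsIntegral ↥(s37ri_ring A M x) f' ∧
          s37rd_iota M K1 b =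
            algebraMap (AlgebraicClosure ℚ) ↥(modularFunctionFieldBar M)
              (c : AlgebraicClosure ℚ) * f') := by
  obtain ⟨hdvr, hℓ, -⟩ := s37rd_dvr A hA K1
  haveI := hdvr
  letI := s18_algOFF ↥(s37rd_O A K1) ↥K1 (s18_F ↥K1 M)
  obtain ⟨ρ, hker, hmul⟩ := hred
  obtain ⟨y1, hy1⟩ := s37rk_chart_series x1 ax1 hx1 b
    (s18gq_isFrac_of_mem ↥(s37rd_O A K1) ↥K1 M (b : LaurentSeries ↥K1) b.2) hb
  have hyb : coeffMap A.subtype
      (coeffMap (s18rq_incl (algebraMap ↥K1 (AlgebraicClosure ℚ)) A) y1) =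
      ((s37rd_iota M K1 b : ↥(modularFunctionFieldBar M)) :
        LaurentSeries (AlgebraicClosure ℚ)) := by
    rw [s37rk_coeffMap_incl, hy1]
    rfl
  refine ⟨⟨_, hyb⟩, ?_⟩
  rintro ⟨a, s, hs, h1, h2⟩
  -- the reduction of `y` vanishes
  have ha0 : coeffMap (IsLocalRing.residue ↥A) a = 0 := by
    rw [← h2]
    show (0 : LaurentSeries (IsLocalRing.ResidueField ↥A)) * _ = 0
    exact zero_mul _
  have hys : coeffMap (s18rq_incl (algebraMap ↥K1 (AlgebraicClosure ℚ)) A) y1 * s = a := by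
    apply s18gq_coeffMap_injective A.subtype Subtype.val_injective
    rw [map_mul, hyb]
    exact h1
  have hy0 : coeffMap (IsLocalRing.residue ↥A)
      (coeffMap (s18rq_incl (algebraMap ↥K1 (AlgebraicClosure ℚ)) A) y1) = 0 := by
    have := congrArg (coeffMap (IsLocalRing.residue ↥A)) hys
    rw [map_mul, ha0] at this
    rcases mul_eq_zero.1 this with h | h
    · exact h
    · exact absurd h hs
  have hy10 := s37rk_red_incl A K1 y1 hy0
  obtain ⟨ϖ, hϖ⟩ := IsDiscreteValuationRing.exists_irreducible ↥(s37rd_O A K1)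
  obtain ⟨b₁, hb₁, hbb⟩ := s37rk_chart_ker x1 ρ hker hmul hϖ b hb y1 hy1 hy10
  refine ⟨s18rq_incl (algebraMap ↥K1 (AlgebraicClosure ℚ)) A ϖ, s37rd_iota M K1 b₁, ?_, ?_, ?_⟩
  · rw [IsLocalRing.mem_maximalIdeal, mem_nonunits_iff, s18rq_isUnit_incl]
    exact hϖ.not_isUnit
  · exact s37rd_chart_int A M x K1 x1 hx b₁ hb₁
  · rw [hbb, map_mul]
    congr 1
    exact s18cfe_iota_algebraMap ↥K1 (AlgebraicClosure ℚ) (modularFunctionFieldFull M)
      ((ϖ : ↥(s37rd_O A K1)) : ↥K1)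

/-- The same for an element of `F̄_M` integral over `A[x]`, generic in the coordinate. -/
theorem s37rk_gen (hA : A.LiesOverPrime ℓ) (x : ↥(modularFunctionFieldBar M))
    (x1 : ∀ K1 : IntermediateField ℚ (AlgebraicClosure ℚ), ↥(s18_F ↥K1 M))
    (hx : ∀ K1, s37rd_iota M K1 (x1 K1) = x)
    (ax1 : ∀ K1 : IntermediateField ℚ (AlgebraicClosure ℚ), LaurentSeries ↥(s37rd_O A K1))
    (hx1 : ∀ K1 : IntermediateField ℚ (AlgebraicClosure ℚ),
      ((x1 K1 : ↥(s18_F ↥K1 M)) : LaurentSeries ↥K1) =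
        coeffMap (algebraMap ↥(s37rd_O A K1) ↥K1) (ax1 K1))
    (hred : ∀ K1 : IntermediateField ℚ (AlgebraicClosure ℚ), FiniteDimensional ℚ ↥K1 →
      s18_HasRedF ↥(s37rd_O A K1) ↥K1 (s18_F ↥K1 M) ({x1 K1} : Set ↥(s18_F ↥K1 M)))
    (f : ↥(modularFunctionFieldBar M)) (hf : IsIntegral ↥(s37ri_ring A M x) f) :
    (∃ y : LaurentSeries ↥A, coeffMap A.subtype y =
        ((f : ↥(modularFunctionFieldBar M)) : LaurentSeries (AlgebraicClosure ℚ))) ∧
      (s37ri_Red A M f 0 →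
        ∃ (c : ↥A) (f' : ↥(modularFunctionFieldBar M)),
          c ∈ IsLocalRing.maximalIdeal ↥A ∧ IsIntegral ↥(s37ri_ring A M x) f' ∧
          f = algebraMap (AlgebraicClosure ℚ) ↥(modularFunctionFieldBar M)
              (c : AlgebraicClosure ℚ) * f') := by
  obtain ⟨K0, hK0, h⟩ := s37rd_int_one A M x x1 hx f hf
  obtain ⟨b, hb, rfl⟩ := h K0 le_rfl
  haveI := hK0
  exact s37rk_at A M hA K0 (x1 K0) (ax1 K0) (hx1 K0) (hred K0 hK0) x (hx K0) b hb

end A

/-! ### The two charts -/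

section Charts

variable (A : ValuationSubring (AlgebraicClosure ℚ)) (M : ℕ) [NeZero M] {ℓ : ℕ} [Fact ℓ.Prime]

theorem s37rk_hasRed_j (hℓM : ¬ ℓ ∣ M) (hA : A.LiesOverPrime ℓ)
    (K1 : IntermediateField ℚ (AlgebraicClosure ℚ)) (hK1 : FiniteDimensional ℚ ↥K1) :
    s18_HasRedF ↥(s37rd_O A K1) ↥K1 (s18_F ↥K1 M) ({s18_j ↥K1 M} : Set ↥(s18_F ↥K1 M)) := by
  obtain ⟨hdvr, hℓ, -⟩ := s37rd_dvr A hA K1
  haveI := hdvr
  obtain ⟨-, -, -, -, hred, -, -⟩ := s18gq_at s18ga_main ↥(s37rd_O A K1) ↥K1 M ℓ hℓM hℓ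
  exact hred

theorem s37rk_hasRed_jinv (hℓM : ¬ ℓ ∣ M) (hA : A.LiesOverPrime ℓ)
    (K1 : IntermediateField ℚ (AlgebraicClosure ℚ)) (hK1 : FiniteDimensional ℚ ↥K1) :
    s18_HasRedF ↥(s37rd_O A K1) ↥K1 (s18_F ↥K1 M) ({(s18_j ↥K1 M)⁻¹} : Set ↥(s18_F ↥K1 M)) := by
  obtain ⟨hdvr, hℓ, -⟩ := s37rd_dvr A hA K1
  haveI := hdvr
  obtain ⟨-, -, -, -, -, hred, -⟩ := s18gq_at s18ga_main ↥(s37rd_O A K1) ↥K1 M ℓ hℓM hℓ
  exact hred

/-- Both clauses for the chart of `j`. -/
theorem s37rk_j (hℓM : ¬ ℓ ∣ M) (hA : A.LiesOverPrime ℓ)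
    (f : ↥(modularFunctionFieldBar M)) (hf : IsIntegral ↥(s37ri_ring A M (s37ri_j M)) f) :
    (∃ y : LaurentSeries ↥A, coeffMap A.subtype y =
        ((f : ↥(modularFunctionFieldBar M)) : LaurentSeries (AlgebraicClosure ℚ))) ∧
      (s37ri_Red A M f 0 →
        ∃ (c : ↥A) (f' : ↥(modularFunctionFieldBar M)),
          c ∈ IsLocalRing.maximalIdeal ↥A ∧ IsIntegral ↥(s37ri_ring A M (s37ri_j M)) f' ∧
          f = algebraMap (AlgebraicClosure ℚ) ↥(modularFunctionFieldBar M)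
              (c : AlgebraicClosure ℚ) * f') :=
  s37rk_gen A M hA (s37ri_j M) (fun K1 => s18_j ↥K1 M) (s37rd_iota_j M)
    (fun K1 => jqModC ↥(s37rd_O A K1)) (fun K1 => s18gq_j_coe' ↥(s37rd_O A K1) ↥K1 M)
    (s37rk_hasRed_j A M hℓM hA) f hf

/-- Both clauses for the chart of `1/j`. -/
theorem s37rk_jinv (hℓM : ¬ ℓ ∣ M) (hA : A.LiesOverPrime ℓ)
    (f : ↥(modularFunctionFieldBar M)) (hf : IsIntegral ↥(s37ri_ring A M (s37ri_j M)⁻¹) f) :
    (∃ y : LaurentSeries ↥A, coeffMap A.subtype y =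
        ((f : ↥(modularFunctionFieldBar M)) : LaurentSeries (AlgebraicClosure ℚ))) ∧
      (s37ri_Red A M f 0 →
        ∃ (c : ↥A) (f' : ↥(modularFunctionFieldBar M)),
          c ∈ IsLocalRing.maximalIdeal ↥A ∧ IsIntegral ↥(s37ri_ring A M (s37ri_j M)⁻¹) f' ∧
          f = algebraMap (AlgebraicClosure ℚ) ↥(modularFunctionFieldBar M)
              (c : AlgebraicClosure ℚ) * f') :=
  s37rk_gen A M hA (s37ri_j M)⁻¹ (fun K1 => (s18_j ↥K1 M)⁻¹) (s37rd_iota_jinv M)
    (fun K1 => s18gq_jinv ↥(s37rd_O A K1)) (fun K1 => s18gq_jinv_coe ↥(s37rd_O A K1) ↥K1 M)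
    (s37rk_hasRed_jinv A M hℓM hA) f hf

end Charts

/-! ### The exports -/

/-- **(RHO-2)** in the shape consumed by [RI-EXIST] (helper11's `s37rie_KerStatement`,
verbatim). -/
def s37rk_KerStatement : Prop :=
  ∀ (M : ℕ) [NeZero M] {ℓ : ℕ} [Fact ℓ.Prime], ¬ ℓ ∣ M →
    ∀ A : ValuationSubring (AlgebraicClosure ℚ), A.LiesOverPrime ℓ →
      ∀ x : ↥(modularFunctionFieldBar M), (x = s37ri_j M ∨ x = (s37ri_j M)⁻¹) →
        ∀ f : ↥(modularFunctionFieldBar M), IsIntegral ↥(s37ri_ring A M x) f →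
          s37ri_Red A M f 0 →
          ∃ (c : ↥A) (f' : ↥(modularFunctionFieldBar M)),
            c ∈ IsLocalRing.maximalIdeal ↥A ∧ IsIntegral ↥(s37ri_ring A M x) f' ∧
            f = algebraMap (AlgebraicClosure ℚ) ↥(modularFunctionFieldBar M)
              (c : AlgebraicClosure ℚ) * f'

/-- **(RHO-2)** -/
theorem s37rk_main : s37rk_KerStatement := by
  intro M _ ℓ _ hℓM A hA x hx f hf hred
  rcases hx with rfl | rfl
  · exact (s37rk_j A M hℓM hA f hf).2 hred
  · exact (s37rk_jinv A M hℓM hA f hf).2 hred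

/-- **(RHO-0)** every element of `F̄_M` which is integral over `A[x]`, `x ∈ {j, 1/j}`, has an
`A`-integral `q`-expansion. -/
theorem s37rk_series (M : ℕ) [NeZero M] {ℓ : ℕ} [Fact ℓ.Prime] (hℓM : ¬ ℓ ∣ M)
    (A : ValuationSubring (AlgebraicClosure ℚ)) (hA : A.LiesOverPrime ℓ)
    (x : ↥(modularFunctionFieldBar M)) (hx : x = s37ri_j M ∨ x = (s37ri_j M)⁻¹)
    (f : ↥(modularFunctionFieldBar M)) (hf : IsIntegral ↥(s37ri_ring A M x) f) :
    ∃ y : LaurentSeries ↥A, coeffMap A.subtype y =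
      ((f : ↥(modularFunctionFieldBar M)) : LaurentSeries (AlgebraicClosure ℚ)) := by
  rcases hx with rfl | rfl
  · exact (s37rk_j A M hℓM hA f hf).1
  · exact (s37rk_jinv A M hℓM hA f hf).1

/-- (RHO-0) in terms of chart elements: the elements of `F̄_M` integral over `A[x]` are exactly
the `ι y`, `y` a chart element. -/
theorem s37rk_isIntegral_iff (M : ℕ) [NeZero M] {ℓ : ℕ} [Fact ℓ.Prime] (hℓM : ¬ ℓ ∣ M)
    (A : ValuationSubring (AlgebraicClosure ℚ)) (hA : A.LiesOverPrime ℓ)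
    (x : ↥(modularFunctionFieldBar M)) (hx : x = s37ri_j M ∨ x = (s37ri_j M)⁻¹)
    (f : ↥(modularFunctionFieldBar M)) :
    IsIntegral ↥(s37ri_ring A M x) f ↔
      ∃ y : LaurentSeries ↥A, s37ri_IsChart A M x y ∧ coeffMap A.subtype y =
        ((f : ↥(modularFunctionFieldBar M)) : LaurentSeries (AlgebraicClosure ℚ)) := by
  constructor
  · intro hf
    obtain ⟨y, hy⟩ := s37rk_series M hℓM A hA x hx f hf
    refine ⟨y, ⟨hy ▸ f.2, ?_⟩, hy⟩
    have : (⟨coeffMap A.subtype y, hy ▸ f.2⟩ : ↥(modularFunctionFieldBar M)) = f :=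
      Subtype.ext hy
    rw [this]
    exact hf
  · rintro ⟨y, ⟨hy, hint⟩, hyf⟩
    have : (⟨coeffMap A.subtype y, hy⟩ : ↥(modularFunctionFieldBar M)) = f :=
      Subtype.ext hyf
    rw [← this]
    exact hint

end Fermat.Agent.S37
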