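/-
S37, [RI-EXIST] of the cut `S37/RIDefs.lean`, HYPOTHESIS-FREE (owner: helper11).
Prefix `s37rie_`.

    theorem s37rie_main : s37ri_ExistStatement

`= s37rie_main_of s37rk_main`: the chart step of `S37/RIExist.lean` with the kernel clause of
`S37/RIKer.lean` (helper27) plugged.
-/
import Fermat.Agent.S37.RIExist
import Fermat.Agent.S37.RIKer

set_option autoImplicit false

namespace Fermat.Agent.S37

/-- **[RI-EXIST]** every place of `F̄_M` specialises to some place of `F_k(M)`. -/
theorem s37rie_main : s37ri_ExistStatement :=
  s37rie_main_of s37rk_main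

example : s37ri_ExistStatement := s37rie_main

end Fermat.Agent.S37
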