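/-
S37, [RI] leaf [RI-GLOB-ABS] (owner: helper21): the GLOBAL DEGREE ARGUMENT of the cut of [RI]
(helper26, step (5) (b), (c), (d)), as one abstract lemma without modular vocabulary.

`K`, `F`, `k`, `F'`: two function fields with principal divisors and all places of degree one,
`r : Place K F → Place k F'` a map on places, `j : F`, `jb : F'` the two coordinates,
`C0`, `C1` the "chart elements with their reductions" for the charts `j` and `1/j`,
`Val` the "valid pairs".  The defect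

  `δ_Q (y, y') := ord_Q y' - (r_* div y) (Q)`

is additive, `≥ 0` on chart elements (POS), sums to `0` (degrees), hence vanishes.
-/
import Mathlib
import Fermat.Prelude.Def_AlgebraicCurve_DivisorClassGroup
import Fermat.Prelude.Def_ModularCurve_ReductionModL
import Fermat.Agent.S37.RiemannLower

set_option autoImplicit false

open AlgebraicCurve

noncomputable section

namespace Fermat.Agent.S37

section basic

variable {K F : Type} [Field K] [Field F] [Algebra K F]

/-- With all places of degree one, the degree is the sum of the coefficients. -/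
theorem s37rg_degree_eq_sum (hdeg : ∀ v : Place K F, v.deg = 1) (D : Divisor K F)
    (T : Finset (Place K F)) (hT : D.support ⊆ T) :
    Divisor.degree D = ∑ v ∈ T, D v := by
  unfold Divisor.degree
  rw [Finsupp.liftAddHom_apply, Finsupp.sum]
  rw [Finset.sum_subset hT (fun v _ hv => by
    rw [Finsupp.notMem_support_iff] at hv
    rw [hv]
    simp)]
  refine Finset.sum_congr rfl fun v _ => ?_
  rw [AddMonoidHom.coe_mulRight, hdeg v]
  simp

variable [HasPrincipalDivisors K F]

theorem s37rg_div_eq {f : F} (hf : f ≠ 0) (D : Divisor K F) (hD : ∀ v, D v = v.ord f) :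
    D = s37t_rr_div (K := K) f := by
  ext v
  rw [hD v, s37t_rr_div_apply hf]

theorem s37rg_div_mul {f g : F} (hf : f ≠ 0) (hg : g ≠ 0) :
    s37t_rr_div (K := K) (f * g) = s37t_rr_div (K := K) f + s37t_rr_div (K := K) g := by
  ext v
  rw [Finsupp.add_apply, s37t_rr_div_apply (mul_ne_zero hf hg), s37t_rr_div_apply hf,
    s37t_rr_div_apply hg, v.ord_mul hf hg]

theorem s37rg_div_one : s37t_rr_div (K := K) (1 : F) = 0 := by
  ext v
  rw [s37t_rr_div_apply one_ne_zero, Finsupp.zero_apply]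
  simp

theorem s37rg_div_pow {f : F} (hf : f ≠ 0) (m : ℕ) :
    s37t_rr_div (K := K) (f ^ m) = m • s37t_rr_div (K := K) f := by
  induction m with
  | zero => rw [pow_zero, zero_smul, s37rg_div_one]
  | succ m ih =>
    rw [pow_succ, s37rg_div_mul (pow_ne_zero m hf) hf, ih, succ_nsmul]

theorem s37rg_mem_support {f : F} (hf : f ≠ 0) (v : Place K F) :
    v ∈ (s37t_rr_div (K := K) f).support ↔ v.ord f ≠ 0 := by
  rw [Finsupp.mem_support_iff, s37t_rr_div_apply hf]

end basic

section push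

variable {K F k F' : Type} [Field K] [Field F] [Algebra K F] [Field k] [Field F'] [Algebra k F']

open Classical in
/-- `mapDomain` as a sum over the fibre. -/
theorem s37rg_mapDomain_apply (r : Place K F → Place k F') (D : Divisor K F) (Q : Place k F') :
    Finsupp.mapDomain r D Q = ∑ P ∈ D.support with r P = Q, D P := by
  rw [Finsupp.mapDomain, Finsupp.sum, Finsupp.finsetSum_apply, Finset.sum_filter]
  refine Finset.sum_congr rfl fun P _ => ?_
  rw [Finsupp.single_apply]

/-- Degrees are preserved by the push-forward when all degrees are one. -/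
theorem s37rg_degree_mapDomain (hdegK : ∀ P : Place K F, P.deg = 1)
    (hdegk : ∀ Q : Place k F', Q.deg = 1) (r : Place K F → Place k F') (D : Divisor K F) :
    Divisor.degree (Finsupp.mapDomain r D) = Divisor.degree D := by
  induction D using Finsupp.induction with
  | zero => simp
  | single_add P n D _ _ ih =>
    rw [Finsupp.mapDomain_add, map_add, map_add, ih, Finsupp.mapDomain_single,
      Divisor.degree_single, Divisor.degree_single, hdegK, hdegk]

end push

/-! ### The defect -/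

section defect

variable {K F k F' : Type} [Field K] [Field F] [Algebra K F] [Field k] [Field F'] [Algebra k F']
variable [HasPrincipalDivisors K F]

/-- The defect `δ_Q (y, y') = ord_Q y' - (r_* div y) (Q)`. -/
def s37rg_delta (r : Place K F → Place k F') (y : F) (y' : F') (Q : Place k F') : ℤ :=
  Q.ord y' - Finsupp.mapDomain r (s37t_rr_div (K := K) y) Q

theorem s37rg_delta_mul (r : Place K F → Place k F') {y z : F} {y' z' : F'}
    (hy : y ≠ 0) (hz : z ≠ 0) (hy' : y' ≠ 0) (hz' : z' ≠ 0) (Q : Place k F') :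
    s37rg_delta r (y * z) (y' * z') Q = s37rg_delta r y y' Q + s37rg_delta r z z' Q := by
  unfold s37rg_delta
  rw [Q.ord_mul hy' hz', s37rg_div_mul hy hz, Finsupp.mapDomain_add, Finsupp.add_apply]
  ring

theorem s37rg_delta_one (r : Place K F → Place k F') (Q : Place k F') :
    s37rg_delta r (1 : F) (1 : F') Q = 0 := by
  unfold s37rg_delta
  rw [s37rg_div_one, Finsupp.mapDomain_zero, Finsupp.zero_apply, sub_zero]
  simp

theorem s37rg_delta_pow (r : Place K F → Place k F') {y : F} {y' : F'}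
    (hy : y ≠ 0) (hy' : y' ≠ 0) (m : ℕ) (Q : Place k F') :
    s37rg_delta r (y ^ m) (y' ^ m) Q = m * s37rg_delta r y y' Q := by
  induction m with
  | zero => rw [pow_zero, pow_zero, s37rg_delta_one]; simp
  | succ m ih =>
    rw [pow_succ, pow_succ, s37rg_delta_mul r (pow_ne_zero m hy) hy (pow_ne_zero m hy') hy', ih]
    push_cast
    ring

/-- (POS) in the finite-set form gives `0 ≤ δ`. -/
theorem s37rg_delta_nonneg (r : Place K F → Place k F') {b : F} {b' : F'} (hb : b ≠ 0)
    (Q : Place k F')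
    (hpos : ∀ S : Finset (Place K F), (∀ P ∈ S, r P = Q) → ∑ P ∈ S, P.ord b ≤ Q.ord b') :
    0 ≤ s37rg_delta r b b' Q := by
  classical
  unfold s37rg_delta
  rw [s37rg_mapDomain_apply, sub_nonneg]
  have h := hpos ((s37t_rr_div (K := K) b).support.filter fun P => r P = Q)
    (fun P hP => (Finset.mem_filter.mp hP).2)
  refine le_trans (le_of_eq ?_) h
  refine Finset.sum_congr rfl fun P _ => ?_
  rw [s37t_rr_div_apply hb]

variable [HasPrincipalDivisors k F']

/-- The defects sum to zero; so if they are all `≥ 0`, they all vanish. -/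
theorem s37rg_delta_eq_zero (hdegK : ∀ P : Place K F, P.deg = 1)
    (hdegk : ∀ Q : Place k F', Q.deg = 1) (r : Place K F → Place k F') {y : F} {y' : F'}
    (hy : y ≠ 0) (hy' : y' ≠ 0) (h : ∀ Q, 0 ≤ s37rg_delta r y y' Q) (Q : Place k F') :
    s37rg_delta r y y' Q = 0 := by
  classical
  set T : Finset (Place k F') := (s37t_rr_div (K := k) y').support ∪
    (Finsupp.mapDomain r (s37t_rr_div (K := K) y)).support with hT
  have h1 : Divisor.degree (s37t_rr_div (K := k) y') = ∑ Q ∈ T, s37t_rr_div (K := k) y' Q :=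
    s37rg_degree_eq_sum hdegk _ T Finset.subset_union_left
  have h2 : Divisor.degree (Finsupp.mapDomain r (s37t_rr_div (K := K) y)) =
      ∑ Q ∈ T, Finsupp.mapDomain r (s37t_rr_div (K := K) y) Q :=
    s37rg_degree_eq_sum hdegk _ T Finset.subset_union_right
  rw [s37t_rr_div_degree hy'] at h1
  rw [s37rg_degree_mapDomain hdegK hdegk, s37t_rr_div_degree hy] at h2
  have hsum : ∑ Q ∈ T, s37rg_delta r y y' Q = 0 := by
    unfold s37rg_delta
    rw [Finset.sum_sub_distrib, ← h2, sub_zero, h1]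
    refine Finset.sum_congr rfl fun Q _ => ?_
    rw [s37t_rr_div_apply hy']
  by_cases hQ : Q ∈ T
  · exact (Finset.sum_eq_zero_iff_of_nonneg fun Q _ => h Q).mp hsum Q hQ
  · rw [hT, Finset.mem_union, not_or, Finsupp.notMem_support_iff,
      Finsupp.notMem_support_iff, s37t_rr_div_apply hy'] at hQ
    unfold s37rg_delta
    rw [hQ.1, hQ.2, sub_zero]

/-- **CUSPS**: the defect of `1/j` vanishes at the poles of `j̄`. -/
theorem s37rg_cusps (r : Place K F → Place k F') {j : F} {jb : F'} (hj : j ≠ 0) (hjb : jb ≠ 0)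
    (hfin1 : ∀ P, 0 ≤ (r P).ord jb → 0 ≤ P.ord j)
    (hfin2 : ∀ P, (r P).ord jb < 0 → P.ord j ≤ 0)
    (hpos : ∀ Q : Place k F', Q.ord jb < 0 → 0 ≤ s37rg_delta r j⁻¹ jb⁻¹ Q)
    (hbound : ∑ Q ∈ (s37t_rr_div (K := k) jb).support, max (-(Q.ord jb)) 0 ≤
      ∑ P ∈ (s37t_rr_div (K := K) j).support, max (-(P.ord j)) 0)
    (Q : Place k F') (hQ : Q.ord jb < 0) : s37rg_delta r j⁻¹ jb⁻¹ Q = 0 := by
  classical
  have hji : j⁻¹ ≠ 0 := inv_ne_zero hj
  set Z : Finset (Place k F') := (s37t_rr_div (K := k) jb).support.filter fun Q => Q.ord jb < 0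
    with hZ
  have hmemZ : ∀ Q : Place k F', Q ∈ Z ↔ Q.ord jb < 0 := by
    intro Q
    rw [hZ, Finset.mem_filter, s37rg_mem_support hjb]
    exact ⟨fun h => h.2, fun h => ⟨h.ne, h⟩⟩
  -- the first sum
  have hA : ∑ Q ∈ Z, Q.ord jb⁻¹ =
      ∑ Q ∈ (s37t_rr_div (K := k) jb).support, max (-(Q.ord jb)) 0 := by
    rw [hZ, Finset.sum_filter]
    refine Finset.sum_congr rfl fun Q _ => ?_
    split_ifs with h
    · rw [Q.ord_inv, max_eq_left (by omega)]
    · rw [max_eq_right (by omega)]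
  -- the second sum
  set s : Finset (Place K F) :=
    (s37t_rr_div (K := K) j⁻¹).support.filter fun P => (r P).ord jb < 0 with hs
  have hsupp : (s37t_rr_div (K := K) j⁻¹).support = (s37t_rr_div (K := K) j).support := by
    ext P
    rw [s37rg_mem_support hji, s37rg_mem_support hj, P.ord_inv]
    omega
  have hB : ∑ Q ∈ Z, Finsupp.mapDomain r (s37t_rr_div (K := K) j⁻¹) Q =
      ∑ P ∈ (s37t_rr_div (K := K) j).support, max (-(P.ord j)) 0 := by
    have h1 : ∀ Q ∈ Z, Finsupp.mapDomain r (s37t_rr_div (K := K) j⁻¹) Q =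
        ∑ P ∈ s with r P = Q, s37t_rr_div (K := K) j⁻¹ P := by
      intro Q hQ
      rw [s37rg_mapDomain_apply, hs, Finset.filter_filter]
      refine Finset.sum_congr (Finset.filter_congr fun P _ => ?_) fun _ _ => rfl
      constructor
      · intro h
        refine ⟨?_, h⟩
        rw [h]
        exact (hmemZ Q).mp hQ
      · exact fun h => h.2
    rw [Finset.sum_congr rfl h1,
      Finset.sum_fiberwise_of_maps_to (g := r) (s := s) (t := Z)
        (fun P hP => (hmemZ _).mpr (Finset.mem_filter.mp hP).2)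
        (fun P => s37t_rr_div (K := K) j⁻¹ P),
      hs, Finset.sum_filter, hsupp]
    refine Finset.sum_congr rfl fun P _ => ?_
    rw [s37t_rr_div_apply hji, P.ord_inv]
    split_ifs with h
    · rw [max_eq_left (by have := hfin2 P h; omega)]
    · rw [max_eq_right (by have := hfin1 P (not_lt.mp h); omega)]
  have hsum : ∑ Q ∈ Z, s37rg_delta r j⁻¹ jb⁻¹ Q = 0 := by
    refine le_antisymm ?_ (Finset.sum_nonneg fun Q hQ => hpos Q ((hmemZ Q).mp hQ))
    unfold s37rg_delta
    rw [Finset.sum_sub_distrib, hA, hB]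
    omega
  exact (Finset.sum_eq_zero_iff_of_nonneg fun Q hQ => hpos Q ((hmemZ Q).mp hQ)).mp hsum Q
    ((hmemZ Q).mpr hQ)

/-- **Chart elements have no defect** (step (c)). -/
theorem s37rg_chart (hdegK : ∀ P : Place K F, P.deg = 1) (hdegk : ∀ Q : Place k F', Q.deg = 1)
    (r : Place K F → Place k F') {j : F} {jb : F'} (hj : j ≠ 0) (hjb : jb ≠ 0)
    (C0 C1 : F → F' → Prop)
    (hnz0 : ∀ b b', C0 b b' → b ≠ 0 ∧ b' ≠ 0)
    (hinv : C1 j⁻¹ jb⁻¹)
    (hfin1 : ∀ P, 0 ≤ (r P).ord jb → 0 ≤ P.ord j)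
    (hfin2 : ∀ P, (r P).ord jb < 0 → P.ord j ≤ 0)
    (hpos0 : ∀ b b', C0 b b' → ∀ Q : Place k F', 0 ≤ Q.ord jb →
      ∀ S : Finset (Place K F), (∀ P ∈ S, r P = Q) → ∑ P ∈ S, P.ord b ≤ Q.ord b')
    (hpos1 : ∀ b b', C1 b b' → ∀ Q : Place k F', Q.ord jb < 0 →
      ∀ S : Finset (Place K F), (∀ P ∈ S, r P = Q) → ∑ P ∈ S, P.ord b ≤ Q.ord b')
    (hbound : ∑ Q ∈ (s37t_rr_div (K := k) jb).support, max (-(Q.ord jb)) 0 ≤
      ∑ P ∈ (s37t_rr_div (K := K) j).support, max (-(P.ord j)) 0)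
    (hcover : ∀ b b', C0 b b' → ∃ m : ℕ, C1 (j⁻¹ ^ m * b) (jb⁻¹ ^ m * b'))
    (b : F) (b' : F') (hC : C0 b b') (Q : Place k F') : s37rg_delta r b b' Q = 0 := by
  have hji : j⁻¹ ≠ 0 := inv_ne_zero hj
  have hjbi : jb⁻¹ ≠ 0 := inv_ne_zero hjb
  have hcusp := s37rg_cusps r hj hjb hfin1 hfin2
    (fun Q hQ => s37rg_delta_nonneg r hji Q (hpos1 _ _ hinv Q hQ)) hbound
  obtain ⟨hb, hb'⟩ := hnz0 b b' hC
  refine s37rg_delta_eq_zero hdegK hdegk r hb hb' (fun Q => ?_) Q
  by_cases hQ : 0 ≤ Q.ord jb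
  · exact s37rg_delta_nonneg r hb Q (hpos0 _ _ hC Q hQ)
  · rw [not_le] at hQ
    obtain ⟨m, hm⟩ := hcover b b' hC
    have h1 := s37rg_delta_nonneg r (mul_ne_zero (pow_ne_zero m hji) hb) Q (hpos1 _ _ hm Q hQ)
    rw [s37rg_delta_mul r (pow_ne_zero m hji) hb (pow_ne_zero m hjbi) hb',
      s37rg_delta_pow r hji hjbi, hcusp Q hQ, mul_zero, zero_add] at h1
    exact h1

/-- **[RI-GLOB-ABS]** the global degree argument: the push-forward along `r` of the divisor of
a valid `y` is the divisor of its reduction `y'`. -/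
theorem s37rg_main (hdegK : ∀ P : Place K F, P.deg = 1) (hdegk : ∀ Q : Place k F', Q.deg = 1)
    (r : Place K F → Place k F') {j : F} {jb : F'} (hj : j ≠ 0) (hjb : jb ≠ 0)
    (Val C0 C1 : F → F' → Prop)
    (hnz0 : ∀ b b', C0 b b' → b ≠ 0 ∧ b' ≠ 0)
    (hinv : C1 j⁻¹ jb⁻¹)
    (hfin1 : ∀ P, 0 ≤ (r P).ord jb → 0 ≤ P.ord j)
    (hfin2 : ∀ P, (r P).ord jb < 0 → P.ord j ≤ 0)
    (hpos0 : ∀ b b', C0 b b' → ∀ Q : Place k F', 0 ≤ Q.ord jb →
      ∀ S : Finset (Place K F), (∀ P ∈ S, r P = Q) → ∑ P ∈ S, P.ord b ≤ Q.ord b')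
    (hpos1 : ∀ b b', C1 b b' → ∀ Q : Place k F', Q.ord jb < 0 →
      ∀ S : Finset (Place K F), (∀ P ∈ S, r P = Q) → ∑ P ∈ S, P.ord b ≤ Q.ord b')
    (hbound : ∑ Q ∈ (s37t_rr_div (K := k) jb).support, max (-(Q.ord jb)) 0 ≤
      ∑ P ∈ (s37t_rr_div (K := K) j).support, max (-(P.ord j)) 0)
    (hcover : ∀ b b', C0 b b' → ∃ m : ℕ, C1 (j⁻¹ ^ m * b) (jb⁻¹ ^ m * b'))
    (hvalid : ∀ y y', Val y y' → ∃ b b' d d', C0 b b' ∧ C0 d d' ∧ y * d = b ∧ y' * d' = b')
    (y : F) (y' : F') (hV : Val y y') (D : Divisor K F) (hD : ∀ P, D P = P.ord y)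
    (Q : Place k F') : Finsupp.mapDomain r D Q = Q.ord y' := by
  obtain ⟨b, b', d, d', hb, hd, e1, e2⟩ := hvalid y y' hV
  obtain ⟨hb0, hb0'⟩ := hnz0 b b' hb
  obtain ⟨hd0, hd0'⟩ := hnz0 d d' hd
  have hy : y ≠ 0 := by
    rintro rfl
    rw [zero_mul] at e1
    exact hb0 e1.symm
  have hy' : y' ≠ 0 := by
    rintro rfl
    rw [zero_mul] at e2
    exact hb0' e2.symm
  have hchart := s37rg_chart hdegK hdegk r hj hjb C0 C1 hnz0 hinv hfin1 hfin2 hpos0 hpos1
    hbound hcover
  have h := s37rg_delta_mul r hy hd0 hy' hd0' Q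
  rw [e1, e2, hchart b b' hb Q, hchart d d' hd Q, add_zero] at h
  rw [s37rg_div_eq hy D hD]
  unfold s37rg_delta at h
  omega

/-- By-product of CUSPS: equality in (BOUND). -/
theorem s37rg_bound_eq (r : Place K F → Place k F') {j : F} {jb : F'} (hj : j ≠ 0)
    (hjb : jb ≠ 0)
    (hfin1 : ∀ P, 0 ≤ (r P).ord jb → 0 ≤ P.ord j)
    (hfin2 : ∀ P, (r P).ord jb < 0 → P.ord j ≤ 0)
    (hpos : ∀ Q : Place k F', Q.ord jb < 0 →
      ∀ S : Finset (Place K F), (∀ P ∈ S, r P = Q) → ∑ P ∈ S, P.ord j⁻¹ ≤ Q.ord jb⁻¹)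
    (hbound : ∑ Q ∈ (s37t_rr_div (K := k) jb).support, max (-(Q.ord jb)) 0 ≤
      ∑ P ∈ (s37t_rr_div (K := K) j).support, max (-(P.ord j)) 0) :
    ∑ Q ∈ (s37t_rr_div (K := k) jb).support, max (-(Q.ord jb)) 0 =
      ∑ P ∈ (s37t_rr_div (K := K) j).support, max (-(P.ord j)) 0 := by
  classical
  refine le_antisymm hbound ?_
  have hji : j⁻¹ ≠ 0 := inv_ne_zero hj
  -- every pole `P` of `j` lies over a pole of `j̄`
  have h1 : ∑ P ∈ (s37t_rr_div (K := K) j).support, max (-(P.ord j)) 0 =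
      ∑ Q ∈ (s37t_rr_div (K := k) jb).support,
        ∑ P ∈ (s37t_rr_div (K := K) j).support with r P = Q, max (-(P.ord j)) 0 := by
    have h2 : ∑ P ∈ (s37t_rr_div (K := K) j).support, max (-(P.ord j)) 0 =
        ∑ P ∈ (s37t_rr_div (K := K) j).support with (r P).ord jb < 0, max (-(P.ord j)) 0 := by
      rw [Finset.sum_filter]
      refine Finset.sum_congr rfl fun P _ => ?_
      split_ifs with h
      · rfl
      · rw [max_eq_right (by have := hfin1 P (not_lt.mp h); omega)]
    rw [h2, ← Finset.sum_fiberwise_of_maps_to (g := r)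
      (s := (s37t_rr_div (K := K) j).support.filter fun P => (r P).ord jb < 0)
      (t := (s37t_rr_div (K := k) jb).support)
      (fun P hP => (s37rg_mem_support hjb _).mpr (Finset.mem_filter.mp hP).2.ne)]
    refine Finset.sum_congr rfl fun Q hQ => ?_
    rw [Finset.filter_filter, Finset.sum_filter, Finset.sum_filter]
    refine Finset.sum_congr rfl fun P _ => ?_
    by_cases h : r P = Q
    · by_cases h' : (r P).ord jb < 0
      · rw [if_pos ⟨h', h⟩, if_pos h]
      · rw [if_neg (fun hh => h' hh.1), if_pos h,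
          max_eq_right (by have := hfin1 P (not_lt.mp h'); omega)]
    · rw [if_neg (fun hh => h hh.2), if_neg h]
  rw [h1]
  refine Finset.sum_le_sum fun Q _ => ?_
  by_cases hQ : Q.ord jb < 0
  · have h3 := hpos Q hQ ((s37t_rr_div (K := K) j).support.filter fun P => r P = Q)
      (fun P hP => (Finset.mem_filter.mp hP).2)
    rw [max_eq_left (by omega)]
    rw [Q.ord_inv] at h3
    refine le_trans (le_of_eq ?_) h3
    refine Finset.sum_congr rfl fun P hP => ?_
    rw [P.ord_inv]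
    have h4 := hfin2 P (by rw [(Finset.mem_filter.mp hP).2]; exact hQ)
    rw [max_eq_left (by omega)]
  · rw [Finset.sum_eq_zero]
    · exact le_max_right _ _
    · intro P hP
      have h4 := hfin1 P (by rw [(Finset.mem_filter.mp hP).2]; exact not_lt.mp hQ)
      rw [max_eq_right (by omega)]

end defect

/-! ### (BOUND) from the two pole identities -/

section bound

variable {K F : Type} [Field K] [Field F] [Algebra K F] [HasPrincipalDivisors K F]

/-- The degree of the pole divisor, in the spelling of the fundamental identity for `u⁻¹`. -/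
theorem s37rg_poles_eq {u : F} (hu : u ≠ 0) (n : ℤ)
    (h : ∃ hfin : (S24.placesOver K u⁻¹).Finite, ∑ v ∈ hfin.toFinset, v.ord u⁻¹ = n) :
    ∑ P ∈ (s37t_rr_div (K := K) u).support, max (-(P.ord u)) 0 = n := by
  classical
  obtain ⟨hfin, hsum⟩ := h
  have hui : u⁻¹ ≠ 0 := inv_ne_zero hu
  have hmem : ∀ v : Place K F, v ∈ hfin.toFinset ↔ v.ord u < 0 := by
    intro v
    rw [Set.Finite.mem_toFinset, S24.placesOver, Set.mem_ofPred_eq,
      S24.place_mem_nonunits_iff v hui, v.ord_inv]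
    omega
  rw [← hsum]
  have hsub : hfin.toFinset ⊆ (s37t_rr_div (K := K) u).support := by
    intro v hv
    rw [s37rg_mem_support hu]
    exact ((hmem v).mp hv).ne
  rw [← Finset.sum_subset hsub (f := fun P : Place K F => max (-(P.ord u)) 0)]
  · refine Finset.sum_congr rfl fun v hv => ?_
    have := (hmem v).mp hv
    rw [v.ord_inv, max_eq_left (by omega)]
  · intro v _ hv
    rw [hmem, not_lt] at hv
    rw [max_eq_right (by omega)]

end bound

section bound'

variable {K F k F' : Type} [Field K] [Field F] [Algebra K F] [Field k] [Field F'] [Algebra k F']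
variable [HasPrincipalDivisors K F] [HasPrincipalDivisors k F']

/-- (BOUND) from the fundamental identities for `j⁻¹`, `j̄⁻¹` and the inequality of degrees. -/
theorem s37rg_bound_of {j : F} {jb : F'} (hj : j ≠ 0) (hjb : jb ≠ 0) (n n' : ℤ)
    (hK : ∃ hfin : (S24.placesOver K j⁻¹).Finite, ∑ v ∈ hfin.toFinset, v.ord j⁻¹ = n)
    (hk : ∃ hfin : (S24.placesOver k jb⁻¹).Finite, ∑ v ∈ hfin.toFinset, v.ord jb⁻¹ = n')
    (h : n' ≤ n) :
    ∑ Q ∈ (s37t_rr_div (K := k) jb).support, max (-(Q.ord jb)) 0 ≤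
      ∑ P ∈ (s37t_rr_div (K := K) j).support, max (-(P.ord j)) 0 := by
  rw [s37rg_poles_eq hj n hK, s37rg_poles_eq hjb n' hk]
  exact h

end bound'

/-! ### The packaging: `IsPlaceReductionAlong` -/

section pack

open ModularCurve

variable {L : Type} [Field L] [Algebra ℚ L] (A : ValuationSubring L)
variable {k : Type} [Field k] (π : A →+* k) (N : ℕ)

/-- **[RI-GLOB]** in the Prelude's spelling: the two clauses of `IsPlaceReductionAlong` from the
hypotheses of `s37rg_main`, with `Val` := the Prelude's validity. -/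
theorem s37rg_isPlaceReduction
    [HasPrincipalDivisors L (laurentBaseChange L (modularFunctionFieldFull N))]
    [HasPrincipalDivisors k (modularFunctionFieldFullC k N)]
    (hdegK : ∀ P : Place L (laurentBaseChange L (modularFunctionFieldFull N)), P.deg = 1)
    (hdegk : ∀ Q : Place k (modularFunctionFieldFullC k N), Q.deg = 1)
    (r : Place L (laurentBaseChange L (modularFunctionFieldFull N)) →
      Place k (modularFunctionFieldFullC k N))
    {j : laurentBaseChange L (modularFunctionFieldFull N)} {jb : modularFunctionFieldFullC k N}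
    (hj : j ≠ 0) (hjb : jb ≠ 0)
    (C0 C1 : laurentBaseChange L (modularFunctionFieldFull N) →
      modularFunctionFieldFullC k N → Prop)
    (hnz0 : ∀ b b', C0 b b' → b ≠ 0 ∧ b' ≠ 0)
    (hinv : C1 j⁻¹ jb⁻¹)
    (hfin1 : ∀ P, 0 ≤ (r P).ord jb → 0 ≤ P.ord j)
    (hfin2 : ∀ P, (r P).ord jb < 0 → P.ord j ≤ 0)
    (hpos0 : ∀ b b', C0 b b' → ∀ Q : Place k (modularFunctionFieldFullC k N), 0 ≤ Q.ord jb →
      ∀ S : Finset (Place L (laurentBaseChange L (modularFunctionFieldFull N))),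
        (∀ P ∈ S, r P = Q) → ∑ P ∈ S, P.ord b ≤ Q.ord b')
    (hpos1 : ∀ b b', C1 b b' → ∀ Q : Place k (modularFunctionFieldFullC k N), Q.ord jb < 0 →
      ∀ S : Finset (Place L (laurentBaseChange L (modularFunctionFieldFull N))),
        (∀ P ∈ S, r P = Q) → ∑ P ∈ S, P.ord b ≤ Q.ord b')
    (hbound : ∑ Q ∈ (s37t_rr_div (K := k) jb).support, max (-(Q.ord jb)) 0 ≤
      ∑ P ∈ (s37t_rr_div (K := L) j).support, max (-(P.ord j)) 0)
    (hcover : ∀ b b', C0 b b' → ∃ m : ℕ, C1 (j⁻¹ ^ m * b) (jb⁻¹ ^ m * b'))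
    (hvalid : ∀ (Y : LaurentSeries A)
      (hy : coeffMap A.subtype Y ∈ laurentBaseChange L (modularFunctionFieldFull N))
      (hyk : coeffMap π Y ∈ modularFunctionFieldFullC k N), coeffMap π Y ≠ 0 →
      ∃ b b' d d', C0 b b' ∧ C0 d d' ∧
        (⟨coeffMap A.subtype Y, hy⟩ : laurentBaseChange L (modularFunctionFieldFull N)) * d = b ∧
        (⟨coeffMap π Y, hyk⟩ : modularFunctionFieldFullC k N) * d' = b') :
    IsPlaceReductionAlong A π N r := by
  refine ⟨fun P => by rw [hdegK, hdegk], fun Y hy hyk hne D hD Q => ?_⟩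
  refine s37rg_main hdegK hdegk r hj hjb
    (fun y y' => ∃ (Y : LaurentSeries A)
      (hy : coeffMap A.subtype Y ∈ laurentBaseChange L (modularFunctionFieldFull N))
      (hyk : coeffMap π Y ∈ modularFunctionFieldFullC k N), coeffMap π Y ≠ 0 ∧
        y = ⟨coeffMap A.subtype Y, hy⟩ ∧ y' = ⟨coeffMap π Y, hyk⟩)
    C0 C1 hnz0 hinv hfin1 hfin2 hpos0 hpos1 hbound hcover ?_ _ _ ⟨Y, hy, hyk, hne, rfl, rfl⟩
    D hD Q
  rintro y y' ⟨Y, hy, hyk, hne, rfl, rfl⟩
  exact hvalid Y hy hyk hne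

end pack

end Fermat.Agent.S37
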