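/-
S37, [RI] leaf [RI-GLOB] (owner: helper21): the instantiation of the abstract global degree
argument `s37rg_main` (file `RIGlobAbs.lean`) at `(Q̄, F̄_M, k, F_k(M))`:

  `s37rg_glob : s37ri_GlobStatement`

i.e. [RI-DIV] from [RI-POS], [RI-BOUND], [RI-VALID], [RI-COVER], [RI-QEP], [RI-FF0], [RI-FFL],
[RI-RES] (the `Prop`s of `RIDefs.lean`, verbatim).
-/
import Mathlib
import Fermat.Agent.S37.RIDefs
import Fermat.Agent.S37.RIGlobAbs
import Fermat.Agent.S18.GaussQOfBasic
import Fermat.Agent.S24.PlaceBasic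

set_option autoImplicit false

open ModularCurve AlgebraicCurve IntermediateField

noncomputable section

namespace Fermat.Agent.S37

/-! ### Valuations and orders -/

section val

variable {K F : Type*} [Field K] [Field F] [Algebra K F]

/-- "Vanishes at `v`" (`adicValuation < 1`) in terms of `ord`. -/
theorem s37rg_val_lt_one_iff (v : Place K F) {f : F} (hf : f ≠ 0) :
    v.adicValuation f < 1 ↔ 0 < v.ord f := by
  have h0 := v.adicValuation_ne_zero hf
  unfold Place.ord
  rw [← WithZero.log_lt_log h0 one_ne_zero, WithZero.log_one]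
  omega

theorem s37rg_val_lt_one_iff' (v : Place K F) {f : F} :
    v.adicValuation f < 1 ↔ f = 0 ∨ 0 < v.ord f := by
  rcases eq_or_ne f 0 with rfl | hf
  · simp
  · rw [s37rg_val_lt_one_iff v hf]
    simp [hf]

theorem s37rg_ord_nonneg_of_val (v : Place K F) {f : F} (h : v.adicValuation f < 1) :
    0 ≤ v.ord f := by
  rcases (s37rg_val_lt_one_iff' v).mp h with rfl | h
  · simp
  · exact h.le

/-- A place of degree one: every regular function has a value in `K`. -/
theorem s37rg_centre (v : Place K F) (hdeg : v.deg = 1) {x : F} (hx : 0 ≤ v.ord x) :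
    ∃ c : K, v.adicValuation (x - algebraMap K F c) < 1 := by
  have hmem : x ∈ v.toValuationSubring := (S24.place_mem_iff v).mpr hx
  have hfin : Module.Finite K v.ResidueField :=
    Module.finite_of_finrank_pos (by rw [show Module.finrank K v.ResidueField = 1 from hdeg]
                                     exact Nat.one_pos)
  have hsurj : Function.Surjective (Algebra.linearMap K v.ResidueField) := by
    refine (LinearMap.injective_iff_surjective_of_finrank_eq_finrank ?_).mp
      (algebraMap K v.ResidueField).injective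
    rw [Module.finrank_self]
    exact hdeg.symm
  obtain ⟨c, hc⟩ := hsurj (IsLocalRing.residue v.toValuationSubring ⟨x, hmem⟩)
  refine ⟨c, ?_⟩
  rw [s37rg_val_lt_one_iff', ← S24.place_mem_nonunits_iff',
    ValuationSubring.mem_nonunits_iff_exists_mem_maximalIdeal]
  refine ⟨sub_mem hmem (v.algebraMap_mem' c), ?_⟩
  rw [← IsLocalRing.residue_eq_zero_iff]
  have h1 : (⟨x - algebraMap K F c, sub_mem hmem (v.algebraMap_mem' c)⟩ : v.toValuationSubring)
      = ⟨x, hmem⟩ - algebraMap K v.toValuationSubring c := rfl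
  rw [h1, map_sub, sub_eq_zero]
  exact hc.symm

/-- A place of degree one which is not centred at a point of `A` (for the coordinate `x`) is
centred at a point of the maximal ideal of `A` for the coordinate `1/x`. -/
theorem s37rg_centre_inv (A : ValuationSubring K) (v : Place K F) (hdeg : v.deg = 1) {x : F}
    (hnf : ¬ ∃ c : A, v.adicValuation (x - algebraMap K F (c : K)) < 1) :
    ∃ c : A, c ∈ IsLocalRing.maximalIdeal A ∧
      v.adicValuation (x⁻¹ - algebraMap K F (c : K)) < 1 := by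
  by_cases h : 0 ≤ v.ord x
  · obtain ⟨a, ha⟩ := s37rg_centre v hdeg h
    have haA : a ∉ A := fun hmem => hnf ⟨⟨a, hmem⟩, ha⟩
    have ha0 : a ≠ 0 := fun h0 => haA (h0 ▸ A.zero_mem)
    have hinv : a⁻¹ ∈ A.nonunits := (A.inv_mem_nonunits_iff).mpr (Or.inr haA)
    obtain ⟨hmem, hmax⟩ := (ValuationSubring.mem_nonunits_iff_exists_mem_maximalIdeal).mp hinv
    refine ⟨⟨a⁻¹, hmem⟩, hmax, ?_⟩
    show v.adicValuation (x⁻¹ - algebraMap K F a⁻¹) < 1
    have ha1 : algebraMap K F a ≠ 0 := by simpa using ha0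
    rcases (s37rg_val_lt_one_iff' v).mp ha with h0 | hpos
    · rw [sub_eq_zero] at h0
      rw [h0, map_inv₀, sub_self, map_zero]
      exact zero_lt_one
    · have hxa : x - algebraMap K F a ≠ 0 := by
        rintro h0
        rw [h0, Place.ord_zero] at hpos
        exact lt_irrefl _ hpos
      have hx0 : x ≠ 0 := by
        rintro rfl
        rw [zero_sub, S24.place_ord_neg, S24.place_ord_algebraMap] at hpos
        exact lt_irrefl _ hpos
      have hordx : v.ord x = 0 := by
        have h1 := S24.place_ord_add_eq_of_lt v ha1 hxa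
          (by rw [S24.place_ord_algebraMap]; exact hpos)
        rw [add_sub_cancel, S24.place_ord_algebraMap] at h1
        exact h1
      have e : x⁻¹ - algebraMap K F a⁻¹ =
          -(x - algebraMap K F a) * (x⁻¹ * (algebraMap K F a)⁻¹) := by
        rw [map_inv₀]
        field_simp
        ring
      have hne : x⁻¹ - algebraMap K F a⁻¹ ≠ 0 := by
        rw [e]
        exact mul_ne_zero (neg_ne_zero.mpr hxa)
          (mul_ne_zero (inv_ne_zero hx0) (inv_ne_zero ha1))
      rw [s37rg_val_lt_one_iff v hne, e,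
        v.ord_mul (neg_ne_zero.mpr hxa) (mul_ne_zero (inv_ne_zero hx0) (inv_ne_zero ha1)),
        v.ord_mul (inv_ne_zero hx0) (inv_ne_zero ha1), S24.place_ord_neg, v.ord_inv, v.ord_inv,
        hordx, S24.place_ord_algebraMap]
      omega
  · rw [not_le] at h
    have hx0 : x ≠ 0 := by
      rintro rfl
      rw [Place.ord_zero] at h
      exact lt_irrefl _ h
    refine ⟨0, zero_mem _, ?_⟩
    rw [ZeroMemClass.coe_zero, map_zero, sub_zero, s37rg_val_lt_one_iff v (inv_ne_zero hx0),
      v.ord_inv]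
    omega

end val

/-! ### The modular vocabulary -/

section vocab

variable (A : ValuationSubring (AlgebraicClosure ℚ)) (M : ℕ)

theorem s37rg_j_coe [NeZero M] :
    ((s37ri_j M : ↥(modularFunctionFieldBar M)) : LaurentSeries (AlgebraicClosure ℚ)) =
      jqModC (AlgebraicClosure ℚ) :=
  S18.s18gq_j_coe (AlgebraicClosure ℚ) M

theorem s37rg_j_ne_zero [NeZero M] : s37ri_j M ≠ 0 :=
  S18.s18gq_j_ne_zero (AlgebraicClosure ℚ) M

theorem s37rg_jq_ne_zero (k : Type) [Field k] : jqModC k ≠ 0 := by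
  intro h
  have := S18.s18gq_jq_mul_jinv k
  rw [h, zero_mul] at this
  exact zero_ne_one this

theorem s37rg_jk_ne_zero [NeZero M] (k : Type) [Field k] : s37ri_jk M k ≠ 0 := by
  intro h
  exact s37rg_jq_ne_zero k (congrArg Subtype.val h)

theorem s37rg_jk_coe [NeZero M] (k : Type) [Field k] :
    ((s37ri_jk M k : ↥(modularFunctionFieldFullC k M)) : LaurentSeries k) = jqModC k := rfl

theorem s37rg_subtype_injective : Function.Injective (coeffMap A.subtype) :=
  S18.s18gq_coeffMap_injective _ Subtype.val_injective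

/-- the constant series -/
theorem s37rg_coeffMap_const {R S : Type*} [CommRing R] [CommRing S] (f : R →+* S) (c : R) :
    coeffMap f (HahnSeries.single 0 c) = HahnSeries.single 0 (f c) :=
  coeffMap_single f 0 c

/-- Elements of `A((q))` reduce to their coefficientwise reduction. -/
theorem s37rg_red_of_series (a : LaurentSeries A)
    (f : ↥(modularFunctionFieldBar M))
    (g : ↥(modularFunctionFieldFullC (IsLocalRing.ResidueField A) M))
    (hf : (f : LaurentSeries (AlgebraicClosure ℚ)) = coeffMap A.subtype a)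
    (hg : (g : LaurentSeries (IsLocalRing.ResidueField A)) = coeffMap (IsLocalRing.residue A) a) :
    s37ri_Red A M f g := by
  refine ⟨a, 1, ?_, ?_, ?_⟩
  · rw [map_one]
    exact one_ne_zero
  · rw [map_one, mul_one, hf]
  · rw [map_one, mul_one, hg]

set_option synthInstance.maxHeartbeats 400000 in
/-- Elements of the ring `A[x]` are integral over it. -/
theorem s37rg_isIntegral_of_mem (x f : ↥(modularFunctionFieldBar M))
    (hf : f ∈ s37ri_ring A M x) : IsIntegral ↥(s37ri_ring A M x) f :=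
  isIntegral_algebraMap (R := ↥(s37ri_ring A M x)) (x := ⟨f, hf⟩)

theorem s37rg_gen_mem (x : ↥(modularFunctionFieldBar M)) : x ∈ s37ri_ring A M x :=
  Subring.subset_closure (Or.inr rfl)

theorem s37rg_const_mem (x : ↥(modularFunctionFieldBar M)) (c : A) :
    algebraMap (AlgebraicClosure ℚ) ↥(modularFunctionFieldBar M) (c : AlgebraicClosure ℚ) ∈
      s37ri_ring A M x :=
  Subring.subset_closure (Or.inl ⟨c, rfl⟩)

end vocab

/-! ### Specialisation and the poles of `j̄` -/

section spec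

variable (A : ValuationSubring (AlgebraicClosure ℚ)) (M : ℕ) [NeZero M]

set_option synthInstance.maxHeartbeats 400000

/-- (a1) a finite place specialises to a place which is not a pole of `j̄`. -/
theorem s37rg_fin_nonneg
    (P : Place (AlgebraicClosure ℚ) ↥(modularFunctionFieldBar M))
    (Q : Place (IsLocalRing.ResidueField A)
      ↥(modularFunctionFieldFullC (IsLocalRing.ResidueField A) M))
    (hfin : s37ri_Fin A M (s37ri_j M) P) (hspec : s37ri_SpecAt A M (s37ri_j M) P Q) :
    0 ≤ Q.ord (s37ri_jk M (IsLocalRing.ResidueField A)) := by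
  obtain ⟨c, hc⟩ := hfin
  have hint : IsIntegral ↥(s37ri_ring A M (s37ri_j M))
      (s37ri_j M - algebraMap (AlgebraicClosure ℚ) ↥(modularFunctionFieldBar M)
        (c : AlgebraicClosure ℚ)) :=
    s37rg_isIntegral_of_mem A M _ _
      (sub_mem (s37rg_gen_mem A M _) (s37rg_const_mem A M _ c))
  have hred : s37ri_Red A M
      (s37ri_j M - algebraMap (AlgebraicClosure ℚ) ↥(modularFunctionFieldBar M)
        (c : AlgebraicClosure ℚ))
      (s37ri_jk M (IsLocalRing.ResidueField A) -
        algebraMap (IsLocalRing.ResidueField A)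
          ↥(modularFunctionFieldFullC (IsLocalRing.ResidueField A) M)
          (IsLocalRing.residue A c)) := by
    refine s37rg_red_of_series A M (jqModC A - HahnSeries.single 0 c) _ _ ?_ ?_
    · rw [map_sub, coeffMap_jqModC, s37rg_coeffMap_const]
      show ((s37ri_j M : ↥(modularFunctionFieldBar M)) : LaurentSeries (AlgebraicClosure ℚ)) -
        algebraMap (AlgebraicClosure ℚ) (LaurentSeries (AlgebraicClosure ℚ))
          (c : AlgebraicClosure ℚ) = _
      rw [s37rg_j_coe, algebraMap_laurentSeries_eq_single]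
      rfl
    · rw [map_sub, coeffMap_jqModC, s37rg_coeffMap_const]
      show jqModC (IsLocalRing.ResidueField A) -
        algebraMap (IsLocalRing.ResidueField A) (LaurentSeries (IsLocalRing.ResidueField A))
          (IsLocalRing.residue A c) = _
      rw [algebraMap_laurentSeries_eq_single]
  have h := hspec _ _ hint hred hc
  have h1 := s37rg_ord_nonneg_of_val Q h
  rw [← S24.place_mem_iff] at h1 ⊢
  have h2 := add_mem h1 (Q.algebraMap_mem' (IsLocalRing.residue A c))
  rwa [sub_add_cancel] at h2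

/-- (a2) a place which is not finite specialises to a pole of `j̄`. -/
theorem s37rg_notfin_neg
    (P : Place (AlgebraicClosure ℚ) ↥(modularFunctionFieldBar M)) (hdeg : P.deg = 1)
    (Q : Place (IsLocalRing.ResidueField A)
      ↥(modularFunctionFieldFullC (IsLocalRing.ResidueField A) M))
    (hnf : ¬ s37ri_Fin A M (s37ri_j M) P) (hspec : s37ri_SpecAt A M (s37ri_j M)⁻¹ P Q) :
    Q.ord (s37ri_jk M (IsLocalRing.ResidueField A)) < 0 ∧ s37ri_Fin A M (s37ri_j M)⁻¹ P := by
  obtain ⟨c, hcm, hc⟩ := s37rg_centre_inv A P hdeg hnf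
  refine ⟨?_, ⟨c, hc⟩⟩
  have hint : IsIntegral ↥(s37ri_ring A M (s37ri_j M)⁻¹)
      ((s37ri_j M)⁻¹ - algebraMap (AlgebraicClosure ℚ) ↥(modularFunctionFieldBar M)
        (c : AlgebraicClosure ℚ)) :=
    s37rg_isIntegral_of_mem A M _ _
      (sub_mem (s37rg_gen_mem A M _) (s37rg_const_mem A M _ c))
  have hres : IsLocalRing.residue A c = 0 := (IsLocalRing.residue_eq_zero_iff c).mpr hcm
  have hred : s37ri_Red A M
      ((s37ri_j M)⁻¹ - algebraMap (AlgebraicClosure ℚ) ↥(modularFunctionFieldBar M)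
        (c : AlgebraicClosure ℚ))
      (s37ri_jk M (IsLocalRing.ResidueField A))⁻¹ := by
    refine s37rg_red_of_series A M (S18.s18gq_jinv A - HahnSeries.single 0 c) _ _ ?_ ?_
    · rw [map_sub, S18.s18gq_coeffMap_jinv, S18.s18gq_jinv_eq_inv, s37rg_coeffMap_const]
      show ((s37ri_j M : ↥(modularFunctionFieldBar M)) : LaurentSeries (AlgebraicClosure ℚ))⁻¹ -
        algebraMap (AlgebraicClosure ℚ) (LaurentSeries (AlgebraicClosure ℚ))
          (c : AlgebraicClosure ℚ) = _
      rw [s37rg_j_coe, algebraMap_laurentSeries_eq_single]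
      rfl
    · rw [map_sub, S18.s18gq_coeffMap_jinv, S18.s18gq_jinv_eq_inv, s37rg_coeffMap_const, hres,
        HahnSeries.single_eq_zero, sub_zero]
      rfl
  have h := hspec _ _ hint hred hc
  rw [s37rg_val_lt_one_iff Q (inv_ne_zero (s37rg_jk_ne_zero M _)), Q.ord_inv] at h
  omega

/-- The two cases of `Spec`, in terms of the order of `j̄` at the specialisation. -/
theorem s37rg_spec_cases
    (P : Place (AlgebraicClosure ℚ) ↥(modularFunctionFieldBar M)) (hdeg : P.deg = 1)
    (Q : Place (IsLocalRing.ResidueField A)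
      ↥(modularFunctionFieldFullC (IsLocalRing.ResidueField A) M))
    (hS : s37ri_Spec A M P Q) :
    (0 ≤ Q.ord (s37ri_jk M (IsLocalRing.ResidueField A)) →
      s37ri_Fin A M (s37ri_j M) P ∧ s37ri_SpecAt A M (s37ri_j M) P Q) ∧
    (Q.ord (s37ri_jk M (IsLocalRing.ResidueField A)) < 0 →
      ¬ s37ri_Fin A M (s37ri_j M) P ∧ s37ri_Fin A M (s37ri_j M)⁻¹ P ∧
        s37ri_SpecAt A M (s37ri_j M)⁻¹ P Q) := by
  rcases hS with ⟨hf, hs⟩ | ⟨hnf, hs⟩
  · have h := s37rg_fin_nonneg A M P Q hf hs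
    exact ⟨fun _ => ⟨hf, hs⟩, fun h' => absurd h (not_le.mpr h')⟩
  · have h := s37rg_notfin_neg A M P hdeg Q hnf hs
    exact ⟨fun h' => absurd h.1 (not_lt.mpr h'), fun _ => ⟨hnf, h.2, hs⟩⟩

end spec

/-! ### The instantiation -/

section main

set_option synthInstance.maxHeartbeats 400000

/-- "`b = ι Y`, `b' = red Y` for a chart element `Y` for `x` with `red Y ≠ 0`". -/
def s37rg_C (A : ValuationSubring (AlgebraicClosure ℚ)) (M : ℕ) [NeZero M]
    (x : ↥(modularFunctionFieldBar M)) (b : ↥(modularFunctionFieldBar M))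
    (b' : ↥(modularFunctionFieldFullC (IsLocalRing.ResidueField A) M)) : Prop :=
  ∃ Y : LaurentSeries A, s37ri_IsChart A M x Y ∧
    (b : LaurentSeries (AlgebraicClosure ℚ)) = coeffMap A.subtype Y ∧
    (b' : LaurentSeries (IsLocalRing.ResidueField A)) = coeffMap (IsLocalRing.residue A) Y ∧
    coeffMap (IsLocalRing.residue A) Y ≠ 0

variable (A : ValuationSubring (AlgebraicClosure ℚ)) (M : ℕ) [NeZero M]

theorem s37rg_C_ne_zero (x b : ↥(modularFunctionFieldBar M))
    (b' : ↥(modularFunctionFieldFullC (IsLocalRing.ResidueField A) M))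
    (h : s37rg_C A M x b b') : b ≠ 0 ∧ b' ≠ 0 := by
  obtain ⟨Y, _, hb, hb', hne⟩ := h
  constructor
  · rintro rfl
    apply hne
    have h1 : coeffMap A.subtype Y = 0 := by rw [← hb]; rfl
    rw [(S18.s18gq_coeffMap_eq_zero _ Subtype.val_injective).mp h1, map_zero]
  · rintro rfl
    apply hne
    rw [← hb']
    rfl

theorem s37rg_C_inv : s37rg_C A M (s37ri_j M)⁻¹ (s37ri_j M)⁻¹
    (s37ri_jk M (IsLocalRing.ResidueField A))⁻¹ := by
  have e1 : (((s37ri_j M)⁻¹ : ↥(modularFunctionFieldBar M)) :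
      LaurentSeries (AlgebraicClosure ℚ)) = coeffMap A.subtype (S18.s18gq_jinv A) := by
    rw [S18.s18gq_coeffMap_jinv, S18.s18gq_jinv_eq_inv, ← s37rg_j_coe M]
    rfl
  have hy : coeffMap A.subtype (S18.s18gq_jinv A) ∈ modularFunctionFieldBar M := by
    rw [← e1]
    exact Subtype.property _
  have e3 : (⟨coeffMap A.subtype (S18.s18gq_jinv A), hy⟩ : ↥(modularFunctionFieldBar M)) =
      (s37ri_j M)⁻¹ := Subtype.ext e1.symm
  refine ⟨S18.s18gq_jinv A, ⟨hy, ?_⟩, e1, ?_, ?_⟩
  · rw [e3]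
    exact s37rg_isIntegral_of_mem A M _ _ (s37rg_gen_mem A M _)
  · rw [S18.s18gq_coeffMap_jinv, S18.s18gq_jinv_eq_inv]
    rfl
  · rw [S18.s18gq_coeffMap_jinv, S18.s18gq_jinv_eq_inv]
    exact inv_ne_zero (s37rg_jq_ne_zero _)

/-- (BOUND) in the spelling of `s37rg_main` from the spelling of `s37ri_BoundStatement`. -/
theorem s37rg_bound_of_finsets {K F k F' : Type} [Field K] [Field F] [Algebra K F] [Field k]
    [Field F'] [Algebra k F'] [HasPrincipalDivisors K F] [HasPrincipalDivisors k F']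
    {j : F} {jb : F'} (hj : j ≠ 0) (n : ℤ)
    (h1 : ∀ T : Finset (Place k F'), (∀ Q ∈ T, Q.ord jb < 0) → ∑ Q ∈ T, (-Q.ord jb) ≤ n)
    (h2 : ∃ S : Finset (Place K F), (∀ P ∈ S, P.ord j < 0) ∧ n ≤ ∑ P ∈ S, (-P.ord j)) :
    ∑ Q ∈ (s37t_rr_div (K := k) jb).support, max (-(Q.ord jb)) 0 ≤
      ∑ P ∈ (s37t_rr_div (K := K) j).support, max (-(P.ord j)) 0 := by
  classical
  obtain ⟨S, hS, hn⟩ := h2
  have hL : ∑ Q ∈ (s37t_rr_div (K := k) jb).support, max (-(Q.ord jb)) 0 =
      ∑ Q ∈ (s37t_rr_div (K := k) jb).support with Q.ord jb < 0, (-Q.ord jb) := by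
    rw [Finset.sum_filter]
    refine Finset.sum_congr rfl fun Q _ => ?_
    split_ifs with h
    · rw [max_eq_left (by omega)]
    · rw [max_eq_right (by omega)]
  have hR : ∑ P ∈ S, (-P.ord j) ≤
      ∑ P ∈ (s37t_rr_div (K := K) j).support, max (-(P.ord j)) 0 := by
    have hsub : S ⊆ (s37t_rr_div (K := K) j).support := by
      intro P hP
      rw [s37rg_mem_support hj]
      exact (hS P hP).ne
    refine le_trans (Finset.sum_le_sum fun P _ => le_max_left _ _)
      (Finset.sum_le_sum_of_subset_of_nonneg hsub fun P _ _ => le_max_right _ _)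
  rw [hL]
  exact ((h1 _ fun Q hQ => (Finset.mem_filter.mp hQ).2).trans hn).trans hR

/-- (COVER) in the spelling of `s37rg_main`. -/
theorem s37rg_cover_of (n : ℕ) (Y Y' : LaurentSeries A)
    (hY' : s37ri_IsChart A M (s37ri_j M)⁻¹ Y') (hYY' : Y' * jqModC ↥A ^ n = Y)
    (b : ↥(modularFunctionFieldBar M))
    (b' : ↥(modularFunctionFieldFullC (IsLocalRing.ResidueField A) M))
    (hb : (b : LaurentSeries (AlgebraicClosure ℚ)) = coeffMap A.subtype Y)
    (hb' : (b' : LaurentSeries (IsLocalRing.ResidueField A)) =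
      coeffMap (IsLocalRing.residue A) Y)
    (hne : coeffMap (IsLocalRing.residue A) Y ≠ 0) :
    s37rg_C A M (s37ri_j M)⁻¹ ((s37ri_j M)⁻¹ ^ n * b)
      ((s37ri_jk M (IsLocalRing.ResidueField A))⁻¹ ^ n * b') := by
  refine ⟨Y', hY', ?_, ?_, ?_⟩
  · show ((s37ri_j M : ↥(modularFunctionFieldBar M)) : LaurentSeries (AlgebraicClosure ℚ))⁻¹ ^ n *
      (b : LaurentSeries (AlgebraicClosure ℚ)) = _
    rw [hb, ← hYY', map_mul, map_pow, coeffMap_jqModC, s37rg_j_coe M,
      mul_comm (coeffMap A.subtype Y') _, ← mul_assoc, ← mul_pow,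
      inv_mul_cancel₀ (s37rg_jq_ne_zero (AlgebraicClosure ℚ)), one_pow, one_mul]
  · show (jqModC (IsLocalRing.ResidueField A))⁻¹ ^ n *
      (b' : LaurentSeries (IsLocalRing.ResidueField A)) = _
    rw [hb', ← hYY', map_mul, map_pow, coeffMap_jqModC,
      mul_comm (coeffMap (IsLocalRing.residue A) Y') _, ← mul_assoc, ← mul_pow,
      inv_mul_cancel₀ (s37rg_jq_ne_zero (IsLocalRing.ResidueField A)), one_pow, one_mul]
  · intro h0
    apply hne
    rw [← hYY', map_mul, h0, zero_mul]

/-- **[RI-GLOB]** the global degree argument: [RI-DIV] from its packages. -/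
theorem s37rg_glob : s37ri_GlobStatement := by
  intro hPos hB hV hC hQ h0 hl hres M _ ℓ _ hℓM h49 A hA r hr Y hy hyk hne D hD Q
  obtain ⟨hchar, hac⟩ := hres A hA
  have := hchar
  have := hac
  have hPD0 := (h0 M).1
  have hPDl := (hl M hℓM (IsLocalRing.ResidueField A)).1
  have hdegK := (h0 M).2
  have hdegk := (hl M hℓM (IsLocalRing.ResidueField A)).2
  have hcases := fun P => s37rg_spec_cases A M P (hdegK P) (r P) (hr P)
  refine s37rg_main hdegK hdegk r (s37rg_j_ne_zero M) (s37rg_jk_ne_zero M _)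
    (fun y y' => ∃ (Y : LaurentSeries A)
      (hy : coeffMap A.subtype Y ∈ modularFunctionFieldBar M)
      (hyk : coeffMap (IsLocalRing.residue A) Y ∈
        modularFunctionFieldFullC (IsLocalRing.ResidueField A) M),
      coeffMap (IsLocalRing.residue A) Y ≠ 0 ∧
        y = ⟨coeffMap A.subtype Y, hy⟩ ∧ y' = ⟨coeffMap (IsLocalRing.residue A) Y, hyk⟩)
    (s37rg_C A M (s37ri_j M)) (s37rg_C A M (s37ri_j M)⁻¹)
    (s37rg_C_ne_zero A M _) (s37rg_C_inv A M) ?_ ?_ ?_ ?_ ?_ ?_ ?_ _ _
    ⟨Y, hy, hyk, hne, rfl, rfl⟩ D hD Q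
  · -- (fin1)
    intro P h
    obtain ⟨⟨c, hc⟩, _⟩ := (hcases P).1 h
    have h1 := s37rg_ord_nonneg_of_val P hc
    rw [← S24.place_mem_iff] at h1 ⊢
    have h2 := add_mem h1 (P.algebraMap_mem' (c : AlgebraicClosure ℚ))
    rwa [sub_add_cancel] at h2
  · -- (fin2)
    intro P h
    obtain ⟨hnf, _, _⟩ := (hcases P).2 h
    by_contra hpos
    rw [not_le] at hpos
    apply hnf
    refine ⟨0, ?_⟩
    rw [ZeroMemClass.coe_zero, map_zero, sub_zero,
      s37rg_val_lt_one_iff P (s37rg_j_ne_zero M)]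
    exact hpos
  · -- (POS0)
    rintro b b' ⟨Y, ⟨hy, hint⟩, hb, hb', hne⟩ Q hQ S hS
    have hyk : coeffMap (IsLocalRing.residue A) Y ∈
        modularFunctionFieldFullC (IsLocalRing.ResidueField A) M := hb' ▸ b'.2
    have hbe : b = ⟨coeffMap A.subtype Y, hy⟩ := Subtype.ext hb
    have hbe' : b' = ⟨coeffMap (IsLocalRing.residue A) Y, hyk⟩ := Subtype.ext hb'
    rw [hbe, hbe']
    refine hPos M hℓM h49 A hA (s37ri_j M) Q (Or.inl ⟨rfl, hQ⟩) Y hy hyk hint hne S
      (fun P hP => ?_)
    have h := (hcases P).1 (by rw [hS P hP]; exact hQ)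
    rw [hS P hP] at h
    exact h
  · -- (POS1)
    rintro b b' ⟨Y, ⟨hy, hint⟩, hb, hb', hne⟩ Q hQ S hS
    have hyk : coeffMap (IsLocalRing.residue A) Y ∈
        modularFunctionFieldFullC (IsLocalRing.ResidueField A) M := hb' ▸ b'.2
    have hbe : b = ⟨coeffMap A.subtype Y, hy⟩ := Subtype.ext hb
    have hbe' : b' = ⟨coeffMap (IsLocalRing.residue A) Y, hyk⟩ := Subtype.ext hb'
    rw [hbe, hbe']
    refine hPos M hℓM h49 A hA (s37ri_j M)⁻¹ Q (Or.inr ⟨rfl, hQ.le⟩) Y hy hyk hint hne S
      (fun P hP => ?_)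
    have h := (hcases P).2 (by rw [hS P hP]; exact hQ)
    rw [hS P hP] at h
    exact ⟨h.2.1, h.2.2⟩
  · -- (BOUND)
    obtain ⟨n, hn1, hn2⟩ := hB M hℓM h49 A hA
    exact s37rg_bound_of_finsets (s37rg_j_ne_zero M) n hn1 hn2
  · -- (COVER)
    rintro b b' ⟨Y, hYc, hb, hb', hne⟩
    obtain ⟨n, Y', hY', hYY'⟩ := hC M hℓM h49 A hA Y hYc
    exact ⟨n, s37rg_cover_of A M n Y Y' hY' hYY' b b' hb hb' hne⟩
  · -- (VALID)
    rintro y y' ⟨Y, hy, hyk, hne, rfl, rfl⟩
    obtain ⟨d, ⟨hdmem, hdint⟩, hdne, ⟨hdYmem, hdYint⟩⟩ := hV M hℓM h49 A hA Y hy hyk hne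
    refine ⟨⟨coeffMap A.subtype (d * Y), hdYmem⟩,
      ⟨coeffMap (IsLocalRing.residue A) (d * Y), hQ M hℓM A hA (d * Y) hdYmem⟩,
      ⟨coeffMap A.subtype d, hdmem⟩,
      ⟨coeffMap (IsLocalRing.residue A) d, hQ M hℓM A hA d hdmem⟩,
      ⟨d * Y, ⟨hdYmem, hdYint⟩, rfl, rfl, ?_⟩, ⟨d, ⟨hdmem, hdint⟩, rfl, rfl, hdne⟩,
      Subtype.ext ?_, Subtype.ext ?_⟩
    · rw [map_mul]
      exact mul_ne_zero hdne hne
    · show coeffMap A.subtype Y * coeffMap A.subtype d = coeffMap A.subtype (d * Y)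
      rw [map_mul, mul_comm]
    · show coeffMap (IsLocalRing.residue A) Y * coeffMap (IsLocalRing.residue A) d =
        coeffMap (IsLocalRing.residue A) (d * Y)
      rw [map_mul, mul_comm]

end main

end Fermat.Agent.S37
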