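/-
# S37 / [RI-POS], the abstract core.  Owner: helper29, prefix `s37rip_`.

PURE COMMUTATIVE ALGEBRA (Mathlib + the Prelude's places + S18/Loc* + S24/PlaceBasic).

`B` a noetherian domain with field of fractions `F ⊇ K`, `ϖ ∈ B` non-zero with `B / ϖ` an
integrally closed domain of dimension `≤ 1` (a chart of the model and its special fibre),
`ρ : B → F'` a ring homomorphism with kernel `ϖ B` (the reduction), `Q` a place of `F' / k` with
`ρ(B) ⊆ O_Q`.  If `S` is a finite set of places `P` of `F / K` with `B ⊆ O_P` which specialise to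
`Q` (`β ∈ 𝔪_P ⟹ ρ β ∈ 𝔪_Q` for `β ∈ B`), then for every `b ∈ B` with `ρ b ≠ 0`

    ∑ P ∈ S, ord_P b ≤ ord_Q (ρ b)          (`s37rip_abs`).

PROOF.  `𝔫 = ρ⁻¹(𝔪_Q)`, `R = B_𝔫 ⊆ O_P` for all `P ∈ S`; `𝔪_P ∩ R` is a prime ideal which does not
contain `ϖ`, hence principal `= (y_P)` (Nakayama, `s18loc_prime_principal`), and `O_P = R_(y_P)`
(there are no inclusions between places); so `ord_P (y_P) = 1`, `ord_P r = 0` for `y_P ∤ r`, and
`y_P ∤ y_P'` for `P ≠ P'`.  `ρ` extends to `R → O_Q` with `ρ(y_P) ∈ 𝔪_Q \ {0}`.  Induction on `S`: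
`b = y_P ^ e · b'`, `y_P ∤ b'`.
-/
import Mathlib
import Fermat.Prelude.Def_AlgebraicCurve_DivisorClassGroup
import Fermat.Agent.S18.LocAlg
import Fermat.Agent.S18.LocPlace
import Fermat.Agent.S18.LocRing
import Fermat.Agent.S24.PlaceBasic

set_option autoImplicit false

namespace Fermat.Agent.S37

open AlgebraicCurve Fermat.Agent.S18 Fermat.Agent.S24

noncomputable section

/-! ### Places: vanishing -/

section vanish

variable {K F : Type*} [Field K] [Field F] [Algebra K F] (P : Place K F)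

/-- `f` vanishes at `P` (`adicValuation f < 1`) iff `f` is a non-unit of the valuation ring. -/
theorem s37rip_lt_one_iff (f : F) :
    P.adicValuation f < 1 ↔ f ∈ P.toValuationSubring.nonunits := by
  rcases eq_or_ne f 0 with rfl | hf
  · simp
  · rw [place_mem_nonunits_iff P hf, Place.ord]
    have h3 : WithZero.log (P.adicValuation f) < WithZero.log (1 : WithZero (Multiplicative ℤ)) ↔
        P.adicValuation f < 1 :=
      WithZero.log_lt_log (P.adicValuation_ne_zero hf) one_ne_zero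
    rw [WithZero.log_one] at h3
    rw [← h3]
    omega

/-- An element of the valuation ring which does not vanish is invertible. -/
theorem s37rip_inv_mem {f : F} (hf : f ∉ P.toValuationSubring.nonunits) :
    f⁻¹ ∈ P.toValuationSubring := by
  rcases place_mem_or_inv_mem_nonunits P f⁻¹ with h | h
  · exact h
  · rw [inv_inv] at h
    exact absurd h hf

theorem s37rip_mul_mem_nonunits {f g : F} (hf : f ∈ P.toValuationSubring.nonunits)
    (hg : g ∈ P.toValuationSubring) : f * g ∈ P.toValuationSubring.nonunits := by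
  rcases eq_or_ne g 0 with rfl | hg0
  · rw [mul_zero]
    exact place_zero_mem_nonunits P
  rcases eq_or_ne f 0 with rfl | hf0
  · rw [zero_mul]
    exact place_zero_mem_nonunits P
  rw [place_mem_nonunits_iff P (mul_ne_zero hf0 hg0), Place.ord_mul P hf0 hg0]
  have h1 := (place_mem_nonunits_iff P hf0).1 hf
  have h2 := place_ord_nonneg_of_mem P hg
  omega

end vanish

/-! ### The induction -/

section induction

variable {K F : Type*} [Field K] [Field F] [Algebra K F]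
  {R : Type*} [CommRing R] [IsDomain R] [WfDvdMonoid R] [Algebra R F]
  {k F' : Type*} [Field k] [Field F'] [Algebra k F']

theorem s37rip_induction (hinj : Function.Injective (algebraMap R F))
    (ρR : R →+* F') (Q : Place k F') (hQ : ∀ r : R, ρR r ∈ Q.toValuationSubring)
    (y : Place K F → R) (S : Finset (Place K F))
    (hprime : ∀ P ∈ S, Prime (y P))
    (hunit : ∀ P ∈ S, ∀ r : R, ¬ y P ∣ r → P.ord (algebraMap R F r) = 0)
    (hone : ∀ P ∈ S, P.ord (algebraMap R F (y P)) = 1)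
    (hdist : ∀ P ∈ S, ∀ P' ∈ S, P ≠ P' → ¬ y P ∣ y P')
    (hρ0 : ∀ P ∈ S, ρR (y P) ≠ 0) (hρ1 : ∀ P ∈ S, 1 ≤ Q.ord (ρR (y P)))
    (b : R) (hb : ρR b ≠ 0) :
    ∑ P ∈ S, P.ord (algebraMap R F b) ≤ Q.ord (ρR b) := by
  classical
  induction S using Finset.induction_on generalizing b with
  | empty =>
    rw [Finset.sum_empty]
    exact place_ord_nonneg_of_mem Q (hQ b)
  | insert P0 S' hP0 ih =>
    have hmem0 : P0 ∈ insert P0 S' := Finset.mem_insert_self _ _
    have hsub : ∀ P ∈ S', P ∈ insert P0 S' := fun P hP => Finset.mem_insert_of_mem hP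
    have hb0 : b ≠ 0 := by
      rintro rfl
      exact hb (map_zero _)
    have hp0 := hprime P0 hmem0
    obtain ⟨e, b', hb', rfl⟩ := WfDvdMonoid.max_power_factor hb0 hp0.irreducible
    have hb'0 : b' ≠ 0 := fun h => hb' (h ▸ dvd_zero _)
    have hρb' : ρR b' ≠ 0 := by
      intro h
      apply hb
      rw [map_mul, h, mul_zero]
    have hy0F : algebraMap R F (y P0) ≠ 0 := fun h =>
      hp0.ne_zero (hinj (h.trans (map_zero _).symm))
    have hb'F : algebraMap R F b' ≠ 0 := fun h => hb'0 (hinj (h.trans (map_zero _).symm))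
    have key : ∀ P : Place K F, P.ord (algebraMap R F (y P0 ^ e * b')) =
        (e : ℤ) * P.ord (algebraMap R F (y P0)) + P.ord (algebraMap R F b') := by
      intro P
      rw [map_mul, map_pow, Place.ord_mul P (pow_ne_zero e hy0F) hb'F, place_ord_pow]
    have hQkey : Q.ord (ρR (y P0 ^ e * b')) =
        (e : ℤ) * Q.ord (ρR (y P0)) + Q.ord (ρR b') := by
      rw [map_mul, map_pow, Place.ord_mul Q (pow_ne_zero e (hρ0 P0 hmem0)) hρb', place_ord_pow]
    have hih := ih (fun P hP => hprime P (hsub P hP)) (fun P hP => hunit P (hsub P hP))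
      (fun P hP => hone P (hsub P hP))
      (fun P hP P' hP' => hdist P (hsub P hP) P' (hsub P' hP'))
      (fun P hP => hρ0 P (hsub P hP)) (fun P hP => hρ1 P (hsub P hP)) b' hρb'
    rw [Finset.sum_insert hP0, key P0, hone P0 hmem0, hunit P0 hmem0 b' hb', hQkey]
    have hsum : ∑ P ∈ S', P.ord (algebraMap R F (y P0 ^ e * b')) =
        ∑ P ∈ S', P.ord (algebraMap R F b') := by
      refine Finset.sum_congr rfl (fun P hP => ?_)
      have hne : P ≠ P0 := fun h => hP0 (h ▸ hP)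
      rw [key P, hunit P (hsub P hP) (y P0) (hdist P (hsub P hP) P0 hmem0 hne)]
      ring
    rw [hsum]
    have h1 := hρ1 P0 hmem0
    have he : (0 : ℤ) ≤ e := Int.natCast_nonneg e
    nlinarith

end induction

/-! ### The local ring at the centre -/

section core

variable {K F : Type*} [Field K] [Field F] [Algebra K F]
  {B : Type*} [CommRing B] [IsDomain B] [IsNoetherianRing B] [Algebra B F]
  (ϖ : B)
  [hdom : IsDomain (B ⧸ Ideal.span {ϖ})] [hic : IsIntegrallyClosed (B ⧸ Ideal.span {ϖ})]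
  [hdim : Ring.DimensionLEOne (B ⧸ Ideal.span {ϖ})]
  (𝔫 : Ideal B) [h𝔫 : 𝔫.IsPrime]
  (R : Type*) [CommRing R] [IsDomain R] [Algebra B R] [hloc : IsLocalization.AtPrime R 𝔫]
  [Algebra R F] [IsScalarTower B R F] [IsFractionRing R F]
  {k F' : Type*} [Field k] [Field F'] [Algebra k F'] (ρ : B →+* F') (Q : Place k F')

omit [IsDomain B] [IsNoetherianRing B] [IsDomain R] [IsFractionRing R F] in
include hloc in
/-- `R = B_𝔫 ⊆ O_P` if `B ⊆ O_P` and `𝔪_P ∩ B ⊆ 𝔫`. -/
theorem s37rip_R_mem (P : Place K F)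
    (hP1 : ∀ β : B, algebraMap B F β ∈ P.toValuationSubring)
    (hP2 : ∀ s : B, s ∉ 𝔫 → algebraMap B F s ∉ P.toValuationSubring.nonunits) (r : R) :
    algebraMap R F r ∈ P.toValuationSubring := by
  obtain ⟨⟨a, s⟩, has⟩ := IsLocalization.surj 𝔫.primeCompl r
  have h1 : algebraMap R F r * algebraMap B F (s : B) = algebraMap B F a := by
    rw [IsScalarTower.algebraMap_apply B R F, IsScalarTower.algebraMap_apply B R F, ← map_mul]
    exact congrArg (algebraMap R F) has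
  have hs : algebraMap B F (s : B) ∉ P.toValuationSubring.nonunits := hP2 s s.2
  have hs0 : algebraMap B F (s : B) ≠ 0 := fun h => hs (h ▸ place_zero_mem_nonunits P)
  have h2 : algebraMap R F r = algebraMap B F a * (algebraMap B F (s : B))⁻¹ := by
    rw [← h1, mul_assoc, mul_inv_cancel₀ hs0, mul_one]
  rw [h2]
  exact mul_mem (hP1 a) (s37rip_inv_mem P hs)

/-- The extension of the reduction `ρ` to `R = B_𝔫`. -/
def s37rip_rho (hρ𝔫 : ∀ b : B, ρ b = 0 → b ∈ 𝔫) : R →+* F' :=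
  IsLocalization.lift (M := 𝔫.primeCompl) (S := R) (g := ρ)
    (fun s => IsUnit.mk0 _ (fun h => s.2 (hρ𝔫 _ h)))

omit [IsDomain B] [IsNoetherianRing B] [IsDomain R] in
theorem s37rip_rho_of (hρ𝔫 : ∀ b : B, ρ b = 0 → b ∈ 𝔫) (b : B) :
    s37rip_rho 𝔫 R ρ hρ𝔫 (algebraMap B R b) = ρ b :=
  IsLocalization.lift_eq _ b

omit [IsDomain B] [IsNoetherianRing B] [IsDomain R] in
/-- Every element of `R` is a fraction `a / s`, `s ∉ 𝔫`, also after reduction. -/
theorem s37rip_rho_frac (hρ𝔫 : ∀ b : B, ρ b = 0 → b ∈ 𝔫) (r : R) :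
    ∃ a s : B, s ∉ 𝔫 ∧ r * algebraMap B R s = algebraMap B R a ∧ ρ s ≠ 0 ∧
      s37rip_rho 𝔫 R ρ hρ𝔫 r = ρ a * (ρ s)⁻¹ := by
  obtain ⟨⟨a, s⟩, has⟩ := IsLocalization.surj 𝔫.primeCompl r
  have hs0 : ρ (s : B) ≠ 0 := fun h => s.2 (hρ𝔫 _ h)
  refine ⟨a, s, s.2, has, hs0, ?_⟩
  have h1 := congrArg (s37rip_rho 𝔫 R ρ hρ𝔫) has
  rw [map_mul, s37rip_rho_of, s37rip_rho_of] at h1
  rw [← h1, mul_assoc, mul_inv_cancel₀ hs0, mul_one]

omit [IsDomain B] [IsNoetherianRing B] [IsDomain R] in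
/-- The extended reduction takes values in `O_Q`. -/
theorem s37rip_rho_mem (hQ : ∀ b : B, ρ b ∈ Q.toValuationSubring)
    (h𝔫ρ : ∀ b : B, b ∈ 𝔫 ↔ ρ b ∈ Q.toValuationSubring.nonunits)
    (hρ𝔫 : ∀ b : B, ρ b = 0 → b ∈ 𝔫) (r : R) :
    s37rip_rho 𝔫 R ρ hρ𝔫 r ∈ Q.toValuationSubring := by
  obtain ⟨a, s, hs, -, -, h⟩ := s37rip_rho_frac 𝔫 R ρ hρ𝔫 r
  rw [h]
  exact mul_mem (hQ a) (s37rip_inv_mem Q (fun h' => hs ((h𝔫ρ s).2 h')))

omit [IsDomain B] [IsNoetherianRing B] [IsDomain R] in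
/-- Non-units of `R` reduce into `𝔪_Q`. -/
theorem s37rip_rho_nonunit
    (h𝔫ρ : ∀ b : B, b ∈ 𝔫 ↔ ρ b ∈ Q.toValuationSubring.nonunits)
    (hρ𝔫 : ∀ b : B, ρ b = 0 → b ∈ 𝔫) (r : R) (hr : ¬ IsUnit r) :
    s37rip_rho 𝔫 R ρ hρ𝔫 r ∈ Q.toValuationSubring.nonunits := by
  obtain ⟨a, s, hs, has, -, h⟩ := s37rip_rho_frac 𝔫 R ρ hρ𝔫 r
  rw [h]
  have ha : a ∈ 𝔫 := by
    by_contra ha
    have hu : IsUnit (algebraMap B R a) :=
      (IsLocalization.AtPrime.isUnit_to_map_iff R 𝔫 a).2 ha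
    rw [← has] at hu
    exact hr (isUnit_of_mul_isUnit_left hu)
  exact s37rip_mul_mem_nonunits Q ((h𝔫ρ a).1 ha)
    (s37rip_inv_mem Q (fun h' => hs ((h𝔫ρ s).2 h')))

omit [IsDomain B] [IsNoetherianRing B] [IsDomain R] hdom hic hdim in
/-- The kernel of the extended reduction is generated by `ϖ`. -/
theorem s37rip_rho_ker (hker : ∀ b : B, ρ b = 0 → b ∈ Ideal.span {ϖ})
    (hρ𝔫 : ∀ b : B, ρ b = 0 → b ∈ 𝔫) (r : R) (hr : s37rip_rho 𝔫 R ρ hρ𝔫 r = 0) :
    algebraMap B R ϖ ∣ r := by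
  obtain ⟨a, s, hs, has, hs0, h⟩ := s37rip_rho_frac 𝔫 R ρ hρ𝔫 r
  rw [hr] at h
  have ha0 : ρ a = 0 := by
    rcases mul_eq_zero.1 h.symm with h' | h'
    · exact h'
    · exact absurd (inv_eq_zero.1 h') hs0
  obtain ⟨a', rfl⟩ := Ideal.mem_span_singleton'.1 (hker a ha0)
  have hu : IsUnit (algebraMap B R s) := (IsLocalization.AtPrime.isUnit_to_map_iff R 𝔫 s).2 hs
  obtain ⟨u, hu'⟩ := hu
  refine ⟨algebraMap B R a' * ((u⁻¹ : Rˣ) : R), ?_⟩
  have h2 : r = r * algebraMap B R s * ((u⁻¹ : Rˣ) : R) := by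
    rw [← hu', mul_assoc, Units.mul_inv, mul_one]
  rw [h2, has, map_mul]
  ring

omit [IsDomain B] in
include hloc in
/-- **The generator of a horizontal prime divisor through the centre**: for a place `P` with
`B ⊆ O_P` and `𝔪_P ∩ B ⊆ 𝔫`, the prime ideal `𝔪_P ∩ R` of `R = B_𝔫` is generated by a prime
element `y`, and `O_P = R_(y)`. -/
theorem s37rip_gen (hϖ𝔫 : ϖ ∈ 𝔫) (P : Place K F)
    (hP1 : ∀ β : B, algebraMap B F β ∈ P.toValuationSubring)
    (hP2 : ∀ s : B, s ∉ 𝔫 → algebraMap B F s ∉ P.toValuationSubring.nonunits)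
    (hPϖ : algebraMap B F ϖ ∉ P.toValuationSubring.nonunits) :
    ∃ y : R, Prime y ∧ ¬ y ∣ algebraMap B R ϖ ∧
      (∀ r : R, y ∣ r ↔ algebraMap R F r ∈ P.toValuationSubring.nonunits) ∧
      (∀ f : F, f ∈ P.toValuationSubring ↔
        ∃ a b : R, ¬ y ∣ b ∧ f * algebraMap R F b = algebraMap R F a) ∧
      P.ord (algebraMap R F y) = 1 := by
  have hinj : Function.Injective (algebraMap R F) := IsFractionRing.injective R F
  have hlocal : IsLocalRing R := IsLocalization.AtPrime.isLocalRing R 𝔫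
  have hnoeth : IsNoetherianRing R := IsLocalization.isNoetherianRing 𝔫.primeCompl R inferInstance
  have hR := s37rip_R_mem 𝔫 R P hP1 hP2
  set φ : R →+* ↥P.toValuationSubring := (algebraMap R F).codRestrict P.toValuationSubring hR
    with hφ
  set 𝔮 : Ideal R := Ideal.comap φ (IsLocalRing.maximalIdeal ↥P.toValuationSubring) with h𝔮
  have h𝔮prime : 𝔮.IsPrime := Ideal.comap_isPrime φ _
  have hmem : ∀ r : R, r ∈ 𝔮 ↔ algebraMap R F r ∈ P.toValuationSubring.nonunits := by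
    intro r
    rw [ValuationSubring.mem_nonunits_iff_exists_mem_maximalIdeal]
    constructor
    · intro h
      exact ⟨hR r, h⟩
    · rintro ⟨_, h⟩
      exact h
  have hϖ𝔮 : algebraMap B R ϖ ∉ 𝔮 := by
    rw [hmem, ← IsScalarTower.algebraMap_apply]
    exact hPϖ
  have hπm : algebraMap B R ϖ ∈ IsLocalRing.maximalIdeal R :=
    (IsLocalization.AtPrime.to_map_mem_maximal_iff R 𝔫 ϖ).2 hϖ𝔫
  obtain ⟨y, hy⟩ := s18loc_prime_principal (algebraMap B R ϖ) hπm (s18loc_hpid ϖ 𝔫 R hϖ𝔫) 𝔮 hϖ𝔮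
  have hdvd : ∀ r : R, y ∣ r ↔ algebraMap R F r ∈ P.toValuationSubring.nonunits := by
    intro r
    rw [← hmem, hy, Ideal.mem_span_singleton]
  -- `𝔮 ≠ 0`
  have hy0 : y ≠ 0 := by
    rintro rfl
    apply P.ne_top'
    refine SetLike.ext fun f => ⟨fun _ => ValuationSubring.mem_top f, fun _ => ?_⟩
    obtain ⟨a, b, hb, rfl⟩ := IsFractionRing.div_surjective (A := R) f
    have hb0 : b ≠ 0 := nonZeroDivisors.ne_zero hb
    have hb1 : algebraMap R F b ∉ P.toValuationSubring.nonunits := by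
      rw [← hdvd]
      intro h
      exact hb0 (zero_dvd_iff.1 h)
    rw [div_eq_mul_inv]
    exact mul_mem (hR a) (s37rip_inv_mem P hb1)
  have hyp : Prime y := (Ideal.span_singleton_prime hy0).1 (hy ▸ h𝔮prime)
  have hyϖ : ¬ y ∣ algebraMap B R ϖ := by
    rw [hdvd, ← IsScalarTower.algebraMap_apply]
    exact hPϖ
  have hle : s18loc_V (F := F) y hyp ≤ P.toValuationSubring := by
    rintro f ⟨a, b, hb, hab⟩
    have hb1 : algebraMap R F b ∉ P.toValuationSubring.nonunits := by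
      rw [← hdvd]
      exact hb
    have hb0 : algebraMap R F b ≠ 0 := fun h => hb1 (h ▸ place_zero_mem_nonunits P)
    have h2 : f = algebraMap R F a * (algebraMap R F b)⁻¹ := by
      rw [← hab, mul_assoc, mul_inv_cancel₀ hb0, mul_one]
    rw [h2]
    exact mul_mem (hR a) (s37rip_inv_mem P hb1)
  have hyP : algebraMap R F y ∈ P.toValuationSubring.nonunits := (hdvd y).1 dvd_rfl
  have hK : ∀ c : K, algebraMap K F c ∈ s18loc_V (F := F) y hyp := by
    intro c
    rcases eq_or_ne c 0 with rfl | hc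
    · rw [map_zero]
      exact zero_mem _
    by_contra hcV
    have h := ((s18loc_V (F := F) y hyp).mem_or_inv_mem (algebraMap K F c)).resolve_left hcV
    have hc0 : algebraMap K F c ≠ 0 := by simpa using hc
    have hx0 : (⟨(algebraMap K F c)⁻¹, h⟩ : ↥(s18loc_V (F := F) y hyp)) ≠ 0 := by
      intro h0
      exact inv_ne_zero hc0 (congrArg Subtype.val h0)
    obtain ⟨n, e, he⟩ := s18loc_factor y hyp _ hx0
    have he' : (algebraMap K F c)⁻¹ =
        (algebraMap R F y) ^ n * ((e : ↥(s18loc_V (F := F) y hyp)) : F) :=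
      congrArg Subtype.val he
    rcases Nat.eq_zero_or_pos n with hn | hn
    · -- `c⁻¹` is a unit of `V`
      rw [hn, pow_zero, one_mul] at he'
      apply hcV
      have h4 : (((e⁻¹ : (↥(s18loc_V (F := F) y hyp))ˣ) :
          ↥(s18loc_V (F := F) y hyp)) : F) * ((e : ↥(s18loc_V (F := F) y hyp)) : F) = 1 := by
        rw [← MulMemClass.coe_mul, Units.inv_mul]
        rfl
      have h3 : algebraMap K F c = (((e⁻¹ : (↥(s18loc_V (F := F) y hyp))ˣ) :
          ↥(s18loc_V (F := F) y hyp)) : F) := by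
        rw [← he'] at h4
        field_simp at h4
        exact h4.symm
      rw [h3]
      exact (e⁻¹ : (↥(s18loc_V (F := F) y hyp))ˣ).1.2
    · have h5 : (algebraMap K F c)⁻¹ ∈ P.toValuationSubring.nonunits := by
        rw [he']
        obtain ⟨n', rfl⟩ : ∃ n', n = n' + 1 := ⟨n - 1, by omega⟩
        rw [pow_succ', mul_assoc]
        exact s37rip_mul_mem_nonunits P hyP (mul_mem (pow_mem (hR y) n') (hle e.1.2))
      rw [← map_inv₀] at h5
      exact place_algebraMap_not_mem_nonunits P (inv_ne_zero hc) h5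
  have hPeq : s18loc_place y hyp hK = P := place_eq_of_le hle
  have hV : s18loc_V (F := F) y hyp = P.toValuationSubring :=
    congrArg Place.toValuationSubring hPeq
  refine ⟨y, hyp, hyϖ, hdvd, ?_, ?_⟩
  · intro f
    rw [← hV]
    exact s18loc_mem_V y hyp
  · have h1 : ¬ y ∣ (1 : R) := fun h => hyp.not_isUnit (isUnit_of_dvd_one h)
    have h := s18loc_ord y hyp hK 1 h1 h1
    rw [hPeq] at h
    simpa using h

omit [IsDomain B] in
include hloc in
/-- **The abstract core of [RI-POS]**, for a given model `R ⊆ F` of the local ring `B_𝔫`. -/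
theorem s37rip_core (hϖ𝔫 : ϖ ∈ 𝔫)
    (hker : ∀ b : B, ρ b = 0 → b ∈ Ideal.span {ϖ})
    (hQ : ∀ b : B, ρ b ∈ Q.toValuationSubring)
    (h𝔫ρ : ∀ b : B, b ∈ 𝔫 ↔ ρ b ∈ Q.toValuationSubring.nonunits)
    (S : Finset (Place K F))
    (hS1 : ∀ P ∈ S, ∀ β : B, algebraMap B F β ∈ P.toValuationSubring)
    (hS2 : ∀ P ∈ S, ∀ β : B, algebraMap B F β ∈ P.toValuationSubring.nonunits →
      ρ β ∈ Q.toValuationSubring.nonunits)
    (hSϖ : ∀ P ∈ S, algebraMap B F ϖ ∉ P.toValuationSubring.nonunits)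
    (b : B) (hb : ρ b ≠ 0) :
    ∑ P ∈ S, P.ord (algebraMap B F b) ≤ Q.ord (ρ b) := by
  have hinj : Function.Injective (algebraMap R F) := IsFractionRing.injective R F
  have hlocal : IsLocalRing R := IsLocalization.AtPrime.isLocalRing R 𝔫
  have hnoeth : IsNoetherianRing R := IsLocalization.isNoetherianRing 𝔫.primeCompl R inferInstance
  have hρ𝔫 : ∀ b : B, ρ b = 0 → b ∈ 𝔫 := fun b h =>
    (h𝔫ρ b).2 (h ▸ place_zero_mem_nonunits Q)
  have hP2 : ∀ P ∈ S, ∀ s : B, s ∉ 𝔫 → algebraMap B F s ∉ P.toValuationSubring.nonunits :=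
    fun P hP s hs h => hs ((h𝔫ρ s).2 (hS2 P hP s h))
  have hgen : ∀ P ∈ S, ∃ y : R, Prime y ∧ ¬ y ∣ algebraMap B R ϖ ∧
      (∀ r : R, y ∣ r ↔ algebraMap R F r ∈ P.toValuationSubring.nonunits) ∧
      (∀ f : F, f ∈ P.toValuationSubring ↔
        ∃ a b : R, ¬ y ∣ b ∧ f * algebraMap R F b = algebraMap R F a) ∧
      P.ord (algebraMap R F y) = 1 :=
    fun P hP => s37rip_gen ϖ 𝔫 R hϖ𝔫 P (hS1 P hP) (hP2 P hP) (hSϖ P hP)
  choose! y hy1 hy2 hy3 hy4 hy5 using hgen
  have hπm : algebraMap B R ϖ ∈ IsLocalRing.maximalIdeal R :=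
    (IsLocalization.AtPrime.to_map_mem_maximal_iff R 𝔫 ϖ).2 hϖ𝔫
  have hmain := s37rip_induction (K := K) (F := F) hinj (s37rip_rho 𝔫 R ρ hρ𝔫) Q
    (s37rip_rho_mem 𝔫 R ρ Q hQ h𝔫ρ hρ𝔫) y S hy1 ?_ hy5 ?_ ?_ ?_ (algebraMap B R b) ?_
  · rw [s37rip_rho_of, ← IsScalarTower.algebraMap_apply] at hmain
    exact hmain
  · -- units
    intro P hP r hr
    have hr0 : r ≠ 0 := fun h => hr (h ▸ dvd_zero _)
    have hr0' : algebraMap R F r ≠ 0 := fun h => hr0 (hinj (h.trans (map_zero _).symm))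
    rw [place_ord_eq_zero_iff P hr0']
    refine ⟨s37rip_R_mem 𝔫 R P (hS1 P hP) (hP2 P hP) r, ?_⟩
    rw [← hy3 P hP]
    exact hr
  · -- distinct places have non-associated generators
    intro P hP P' hP' hne hdvd
    apply hne
    apply place_eq_of_le
    intro f hf
    obtain ⟨a, c, hc, hac⟩ := (hy4 P hP f).1 hf
    exact (hy4 P' hP' f).2 ⟨a, c, fun h => hc (hdvd.trans h), hac⟩
  · -- the reduction of a generator is not zero
    intro P hP h0
    have h1 := s37rip_rho_ker ϖ 𝔫 R ρ hker hρ𝔫 _ h0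
    obtain ⟨c, hc⟩ := h1
    rcases (hy1 P hP).irreducible.isUnit_or_isUnit hc with h | h
    · exact (IsLocalRing.mem_maximalIdeal _).1 hπm h
    · apply hy2 P hP
      obtain ⟨u, rfl⟩ := h
      exact ⟨((u⁻¹ : Rˣ) : R), by rw [hc, mul_assoc, Units.mul_inv, mul_one]⟩
  · -- the reduction of a generator vanishes at `Q`
    intro P hP
    have h0 : s37rip_rho 𝔫 R ρ hρ𝔫 (y P) ≠ 0 := by
      intro h0
      have h1 := s37rip_rho_ker ϖ 𝔫 R ρ hker hρ𝔫 _ h0
      obtain ⟨c, hc⟩ := h1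
      rcases (hy1 P hP).irreducible.isUnit_or_isUnit hc with h | h
      · exact (IsLocalRing.mem_maximalIdeal _).1 hπm h
      · apply hy2 P hP
        obtain ⟨u, rfl⟩ := h
        exact ⟨((u⁻¹ : Rˣ) : R), by rw [hc, mul_assoc, Units.mul_inv, mul_one]⟩
    have h1 := s37rip_rho_nonunit 𝔫 R ρ Q h𝔫ρ hρ𝔫 (y P) (hy1 P hP).not_isUnit
    have h2 := (place_mem_nonunits_iff Q h0).1 h1
    omega
  · rw [s37rip_rho_of]
    exact hb

end core

/-! ### The abstract theorem -/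

section abs

variable {K F : Type*} [Field K] [Field F] [Algebra K F]
  {B : Type*} [CommRing B] [IsDomain B] [IsNoetherianRing B] [Algebra B F] [IsFractionRing B F]
  (ϖ : B)
  [hdom : IsDomain (B ⧸ Ideal.span {ϖ})] [hic : IsIntegrallyClosed (B ⧸ Ideal.span {ϖ})]
  [hdim : Ring.DimensionLEOne (B ⧸ Ideal.span {ϖ})]
  {k F' : Type*} [Field k] [Field F'] [Algebra k F'] (ρ : B →+* F') (Q : Place k F')

/-- **[RI-POS], abstract form.**  `B` a noetherian domain with field of fractions `F ⊇ K`,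
`ϖ ∈ B` (the image of a non-zero constant) with `B / ϖ` an integrally closed domain of dimension
`≤ 1`, `ρ : B → F'` with kernel `ϖ B`, `Q` a place of `F' / k` with `ρ(B) ⊆ O_Q`, `S` a finite set
of places `P` of `F / K` with `B ⊆ O_P` and `β(P) = 0 ⟹ ρ(β)(Q) = 0` for `β ∈ B`.  Then
`∑ P ∈ S, ord_P b ≤ ord_Q (ρ b)` for all `b ∈ B` with `ρ b ≠ 0`. -/
theorem s37rip_abs (hρϖ : ρ ϖ = 0)
    (hker : ∀ b : B, ρ b = 0 → b ∈ Ideal.span {ϖ})
    (hQ : ∀ b : B, ρ b ∈ Q.toValuationSubring)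
    (hϖK : ∃ c : K, c ≠ 0 ∧ algebraMap K F c = algebraMap B F ϖ)
    (S : Finset (Place K F))
    (hS1 : ∀ P ∈ S, ∀ β : B, algebraMap B F β ∈ P.toValuationSubring)
    (hS2 : ∀ P ∈ S, ∀ β : B, P.adicValuation (algebraMap B F β) < 1 →
      Q.adicValuation (ρ β) < 1)
    (b : B) (hb : ρ b ≠ 0) :
    ∑ P ∈ S, P.ord (algebraMap B F b) ≤ Q.ord (ρ b) := by
  set φ : B →+* ↥Q.toValuationSubring := ρ.codRestrict Q.toValuationSubring hQ with hφ
  set 𝔫 : Ideal B := Ideal.comap φ (IsLocalRing.maximalIdeal ↥Q.toValuationSubring) with h𝔫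
  have h𝔫prime : 𝔫.IsPrime := Ideal.comap_isPrime φ _
  have h𝔫ρ : ∀ b : B, b ∈ 𝔫 ↔ ρ b ∈ Q.toValuationSubring.nonunits := by
    intro b
    rw [ValuationSubring.mem_nonunits_iff_exists_mem_maximalIdeal]
    constructor
    · intro h
      exact ⟨hQ b, h⟩
    · rintro ⟨_, h⟩
      exact h
  have hϖ𝔫 : ϖ ∈ 𝔫 := by
    rw [h𝔫ρ, hρϖ]
    exact place_zero_mem_nonunits Q
  have hS := Ideal.primeCompl_le_nonZeroDivisors 𝔫
  have : IsLocalization.AtPrime (Localization.subalgebra F 𝔫.primeCompl hS) 𝔫 :=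
    Localization.subalgebra.isLocalization_subalgebra F 𝔫.primeCompl hS
  refine s37rip_core ϖ 𝔫 (Localization.subalgebra F 𝔫.primeCompl hS) ρ Q hϖ𝔫 hker hQ h𝔫ρ S hS1
    ?_ ?_ b hb
  · intro P hP β hβ
    rw [← s37rip_lt_one_iff] at hβ ⊢
    exact hS2 P hP β hβ
  · intro P _
    obtain ⟨c, hc, hcϖ⟩ := hϖK
    rw [← hcϖ]
    exact place_algebraMap_not_mem_nonunits P hc

end abs

end

end Fermat.Agent.S37
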