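/-
# S37 / [RI-POS], the model adapter.  Owner: helper29, prefix `s37rip_`.

The abstract core `s37rip_abs` in the vocabulary of S18's good models: `O` a discrete valuation
ring, `K = Frac O`, `F / K`, `x ∈ F` with `s18_IsGoodModel O K F x` and `s18_IsBasic O K F x`,
`B = s18_chart O {x}`, `ρ : B → F'` a ring homomorphism with kernel the ideal of the special fibre
(`ρ b = 0 ⟹ b ∈ π B` and `ρ(𝔪_O) = 0`),
`Q` a place of `F' / k` with `ρ(O) ⊆ O_Q` and `ρ(x) ∈ O_Q`, `S` a finite set of places `P` of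
`F / K` with `x ∈ O_P` and `β(P) = 0 ⟹ ρ(β)(Q) = 0` for `β ∈ B`.  Then

    ∑ P ∈ S, ord_P b ≤ ord_Q (ρ b)      for all `b ∈ B` with `ρ b ≠ 0`      (`s37rip_chart`).
-/
import Mathlib
import Fermat.Agent.S18.LiftDefs
import Fermat.Agent.S18.LocDim
import Fermat.Agent.S37.RIPosAbs

set_option autoImplicit false

namespace Fermat.Agent.S37

open AlgebraicCurve Fermat.Agent.S18 Fermat.Agent.S24

noncomputable section

/-! ### Integrality -/

section integral

variable {O F : Type*} [CommRing O] [Field F] [Algebra O F]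

/-- A valuation ring of `F` which contains `O` and `x` contains the integral closure of
`O[x]`. -/
theorem s37rip_integral_mem (V : ValuationSubring F) (hO : ∀ c : O, algebraMap O F c ∈ V)
    {x : F} (hx : x ∈ V) {β : F} (hβ : IsIntegral (Algebra.adjoin O ({x} : Set F)) β) :
    β ∈ V := by
  have hle' : ∀ a : F, a ∈ Algebra.adjoin O ({x} : Set F) → a ∈ V := by
    intro a ha
    induction ha using Algebra.adjoin_induction with
    | mem y hy =>
      rw [Set.mem_singleton_iff] at hy
      rw [hy]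
      exact hx
    | algebraMap c => exact hO c
    | add y z _ _ hy hz => exact add_mem hy hz
    | mul y z _ _ hy hz => exact mul_mem hy hz
  have hle : ∀ a : ↥(Algebra.adjoin O ({x} : Set F)), (a : F) ∈ V := fun a => hle' a a.2
  set φ : ↥(Algebra.adjoin O ({x} : Set F)) →+* ↥V :=
    (algebraMap ↥(Algebra.adjoin O ({x} : Set F)) F).codRestrict V hle with hφ
  obtain ⟨p, hmonic, hp⟩ := hβ
  have hint : IsIntegral ↥V β := by
    refine ⟨p.map φ, hmonic.map φ, ?_⟩
    rw [Polynomial.eval₂_map]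
    exact hp
  obtain ⟨y, hy⟩ := IsIntegrallyClosed.isIntegral_iff.1 hint
  rw [← hy]
  exact y.2

end integral

/-! ### The chart -/

section chart

variable (O : Type*) [CommRing O] {F : Type*} [Field F] [Algebra O F]

/-- `O[x]` is contained in the chart. -/
theorem s37rip_adjoin_le (x : F) :
    Algebra.adjoin O ({x} : Set F) ≤ s18_chart O ({x} : Set F) := by
  intro a ha
  rw [s18_mem_chart_iff]
  exact isIntegral_algebraMap (R := ↥(Algebra.adjoin O ({x} : Set F))) (A := F) (x := ⟨a, ha⟩)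

theorem s37rip_x_mem (x : F) : x ∈ s18_chart O ({x} : Set F) :=
  s37rip_adjoin_le O x (Algebra.subset_adjoin (Set.mem_singleton x))

/-- A valuation ring of `F'` which contains `ρ(O)` and `ρ(x)` contains `ρ(B)`. -/
theorem s37rip_rho_mem_of_integral {F' : Type*} [Field F'] (x : F)
    (ρ : ↥(s18_chart O ({x} : Set F)) →+* F') (V : ValuationSubring F')
    (hO : ∀ c : O, ρ (algebraMap O ↥(s18_chart O ({x} : Set F)) c) ∈ V)
    (hx : ρ ⟨x, s37rip_x_mem O x⟩ ∈ V) (b : ↥(s18_chart O ({x} : Set F))) : ρ b ∈ V := by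
  set ι0 : ↥(Algebra.adjoin O ({x} : Set F)) →+* ↥(s18_chart O ({x} : Set F)) :=
    (Subalgebra.inclusion (s37rip_adjoin_le O x)).toRingHom with hι0
  have hle' : ∀ (a : F) (ha : a ∈ Algebra.adjoin O ({x} : Set F)),
      ρ ⟨a, s37rip_adjoin_le O x ha⟩ ∈ V := by
    intro a ha
    induction ha using Algebra.adjoin_induction with
    | mem y hy =>
      rw [Set.mem_singleton_iff] at hy
      subst hy
      exact hx
    | algebraMap c => exact hO c
    | add y z hy' hz' hy hz =>
      have h : (⟨y + z, s37rip_adjoin_le O x (add_mem hy' hz')⟩ :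
          ↥(s18_chart O ({x} : Set F))) =
          ⟨y, s37rip_adjoin_le O x hy'⟩ + ⟨z, s37rip_adjoin_le O x hz'⟩ := rfl
      rw [h, map_add]
      exact add_mem hy hz
    | mul y z hy' hz' hy hz =>
      have h : (⟨y * z, s37rip_adjoin_le O x (mul_mem hy' hz')⟩ :
          ↥(s18_chart O ({x} : Set F))) =
          ⟨y, s37rip_adjoin_le O x hy'⟩ * ⟨z, s37rip_adjoin_le O x hz'⟩ := rfl
      rw [h, map_mul]
      exact mul_mem hy hz
  have hle : ∀ a : ↥(Algebra.adjoin O ({x} : Set F)), (ρ.comp ι0) a ∈ V :=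
    fun a => hle' a a.2
  set φ : ↥(Algebra.adjoin O ({x} : Set F)) →+* ↥V := (ρ.comp ι0).codRestrict V hle with hφ
  have hb : IsIntegral ↥(Algebra.adjoin O ({x} : Set F)) (b : F) := b.2
  obtain ⟨p, hmonic, hp⟩ := hb
  -- the equation holds in the chart
  have hp' : Polynomial.eval₂ ι0 b p = 0 := by
    apply Subtype.ext
    have h1 := Polynomial.hom_eval₂ p ι0 (s18_chart O ({x} : Set F)).val.toRingHom b
    have h2 : ((s18_chart O ({x} : Set F)).val.toRingHom).comp ι0 =
        algebraMap ↥(Algebra.adjoin O ({x} : Set F)) F := rfl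
    rw [h2] at h1
    exact h1.trans hp
  have hint : IsIntegral ↥V (ρ b) := by
    refine ⟨p.map φ, hmonic.map φ, ?_⟩
    rw [Polynomial.eval₂_map]
    have h1 := Polynomial.hom_eval₂ p ι0 ρ b
    have h2 : (algebraMap ↥V F').comp φ = ρ.comp ι0 := rfl
    rw [h2, ← h1, hp', map_zero]
  obtain ⟨y, hy⟩ := IsIntegrallyClosed.isIntegral_iff.1 hint
  rw [← hy]
  exact y.2

end chart

/-! ### The theorem for a good model -/

/-- **[RI-POS] for a chart of a good model.** -/
theorem s37rip_chart (O K F : Type) [CommRing O] [IsDomain O] [IsDiscreteValuationRing O]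
    [Field K] [CharZero K] [Algebra O K] [IsFractionRing O K] [Field F] [Algebra K F]
    [Algebra O F] [IsScalarTower O K F] (x : F) (hgood : s18_IsGoodModel O K F x)
    (hbasic : s18_IsBasic O K F x)
    {k F' : Type*} [Field k] [Field F'] [Algebra k F']
    (ρ : ↥(s18_chart O ({x} : Set F)) →+* F') (Q : Place k F')
    (hker : ∀ b, ρ b = 0 → b ∈ s18_fibreIdeal O ({x} : Set F))
    (hρO : ∀ c : O, c ∈ IsLocalRing.maximalIdeal O →
      ρ (algebraMap O ↥(s18_chart O ({x} : Set F)) c) = 0)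
    (hQO : ∀ c : O, ρ (algebraMap O ↥(s18_chart O ({x} : Set F)) c) ∈ Q.toValuationSubring)
    (hQx : ρ ⟨x, s37rip_x_mem O x⟩ ∈ Q.toValuationSubring)
    (S : Finset (Place K F))
    (hS1 : ∀ P ∈ S, x ∈ P.toValuationSubring)
    (hS2 : ∀ P ∈ S, ∀ β : ↥(s18_chart O ({x} : Set F)),
      P.adicValuation (β : F) < 1 → Q.adicValuation (ρ β) < 1)
    (b : ↥(s18_chart O ({x} : Set F))) (hb : ρ b ≠ 0) :
    ∑ P ∈ S, P.ord (b : F) ≤ Q.ord (ρ b) := by
  have hnoeth : IsNoetherianRing ↥(s18_chart O ({x} : Set F)) := hbasic.noeth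
  obtain ⟨ϖ, hϖ⟩ := IsDiscreteValuationRing.exists_irreducible O
  have hinjOK : Function.Injective (algebraMap O K) := IsFractionRing.injective O K
  have hI : s18_fibreIdeal O ({x} : Set F) =
      Ideal.span {algebraMap O ↥(s18_chart O ({x} : Set F)) ϖ} := by
    rw [s18_fibreIdeal, hϖ.maximalIdeal_eq, Ideal.map_span, Set.image_singleton]
  have hdom : IsDomain (↥(s18_chart O ({x} : Set F)) ⧸
      Ideal.span {algebraMap O ↥(s18_chart O ({x} : Set F)) ϖ}) := by
    have h : IsDomain (↥(s18_chart O ({x} : Set F)) ⧸ s18_fibreIdeal O ({x} : Set F)) :=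
      hgood.isDomain_fin
    rwa [hI] at h
  have hic : IsIntegrallyClosed (↥(s18_chart O ({x} : Set F)) ⧸
      Ideal.span {algebraMap O ↥(s18_chart O ({x} : Set F)) ϖ}) := by
    have h : IsIntegrallyClosed
        (↥(s18_chart O ({x} : Set F)) ⧸ s18_fibreIdeal O ({x} : Set F)) :=
      hgood.isIntegrallyClosed_fin
    rwa [hI] at h
  have hdim : Ring.DimensionLEOne (↥(s18_chart O ({x} : Set F)) ⧸
      Ideal.span {algebraMap O ↥(s18_chart O ({x} : Set F)) ϖ}) := by
    have h : Ring.DimensionLEOne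
        (↥(s18_chart O ({x} : Set F)) ⧸ s18_fibreIdeal O ({x} : Set F)) :=
      haveI := hgood.isDomain_fin
      s18loc_dim O x
    rwa [hI] at h
  have hfrac : IsFractionRing ↥(s18_chart O ({x} : Set F)) F := by
    refine IsFractionRing.of_field _ F (fun z => ?_)
    obtain ⟨a, y, hy, hxy⟩ := hbasic.frac z
    refine ⟨a, y, ?_⟩
    have hy' : (y : F) ≠ 0 := fun h => hy (Subtype.ext h)
    exact (eq_div_iff hy').2 hxy
  have hOP : ∀ (P : Place K F) (c : O), algebraMap O F c ∈ P.toValuationSubring := by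
    intro P c
    rw [IsScalarTower.algebraMap_apply O K F]
    exact P.algebraMap_mem' _
  refine s37rip_abs (K := K) (F := F) (algebraMap O ↥(s18_chart O ({x} : Set F)) ϖ) ρ Q ?_ ?_ ?_
    ⟨algebraMap O K ϖ, ?_, ?_⟩ S ?_ hS2 b hb
  · apply hρO
    rw [hϖ.maximalIdeal_eq]
    exact Ideal.mem_span_singleton_self _
  · intro c hc
    rw [← hI]
    exact hker c hc
  · exact s37rip_rho_mem_of_integral O x ρ Q.toValuationSubring hQO hQx
  · intro h
    exact hϖ.ne_zero (hinjOK (h.trans (map_zero _).symm))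
  · rw [← IsScalarTower.algebraMap_apply O K F]
    rfl
  · intro P hP β
    exact s37rip_integral_mem P.toValuationSubring (hOP P) (hS1 P hP) β.2

end

end Fermat.Agent.S37
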