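/-
S37, package [RI], leaf [RI-POS], LAYER (B), part 2 (helper5; owner of the leaf: helper29).
Prefix `s37rpm_`.

THE ELEMENTS OF A CHART ARE INTEGRAL SERIES.  `O` a principal ideal domain with field of
fractions `K`.  The ring `O((q))` is integrally closed (it is a localisation of the factorial
ring `O[[q]]`), so an element of `K((q))` which is a quotient of two series of `O((q))` and is
integral over `O((q))` lies in `O((q))` (`s37rpm_series_of_integral`).  Consequently every
element of a chart `s18_chart O {x}` of a subfield `F ⊆ K((q))` whose elements are quotients of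
integral series, `x` an integral series, is an integral series (`s37rpm_chart_series`).
-/
import Mathlib
import Fermat.Prelude.Def_ModularCurve_LaurentCoeff
import Fermat.Agent.S18.ModelAbsDefs

set_option autoImplicit false
set_option linter.unusedSectionVars false
set_option linter.unusedVariables false
set_option warn.classDefReducibility false

open ModularCurve

noncomputable section

namespace Fermat.Agent.S37

section Series

variable {O K : Type} [CommRing O] [IsDomain O] [IsPrincipalIdealRing O] [Field K] [Algebra O K]

/-- `O((q))` is integrally closed. -/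
theorem s37rpm_laurent_ic : IsIntegrallyClosed (LaurentSeries O) := by
  have : IsIntegrallyClosed (PowerSeries O) := UniqueFactorizationMonoid.instIsIntegrallyClosed
  exact isIntegrallyClosed_of_isLocalization (LaurentSeries O)
    (Submonoid.powers (PowerSeries.X : PowerSeries O))
    (powers_le_nonZeroDivisors_of_noZeroDivisors PowerSeries.X_ne_zero)

theorem s37rpm_iota_injective (hinj : Function.Injective (algebraMap O K)) :
    Function.Injective (coeffMap (algebraMap O K)) := by
  intro a b h
  ext n
  have := congrArg (fun x : LaurentSeries K => x.coeff n) h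
  simp only [coeffMap_coeff] at this
  exact hinj this

/-- A quotient of two series of `O((q))` which is integral over `O((q))` lies in `O((q))`. -/
theorem s37rpm_series_of_integral (hinj : Function.Injective (algebraMap O K))
    (f : LaurentSeries K) (a s : LaurentSeries O) (hs : s ≠ 0)
    (hfs : f * coeffMap (algebraMap O K) s = coeffMap (algebraMap O K) a)
    (p : Polynomial (LaurentSeries O)) (hp : p.Monic)
    (hpf : p.eval₂ (coeffMap (algebraMap O K)) f = 0) :
    ∃ c : LaurentSeries O, f = coeffMap (algebraMap O K) c := by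
  have hιinj := s37rpm_iota_injective hinj
  let _ : Algebra (LaurentSeries O) (LaurentSeries K) := (coeffMap (algebraMap O K)).toAlgebra
  have halg : ∀ z : LaurentSeries O,
      algebraMap (LaurentSeries O) (LaurentSeries K) z = coeffMap (algebraMap O K) z :=
    fun _ => rfl
  have := s37rpm_laurent_ic (O := O)
  have hg : Function.Injective (Algebra.ofId (LaurentSeries O) (LaurentSeries K)) := hιinj
  let φ : FractionRing (LaurentSeries O) →ₐ[LaurentSeries O] LaurentSeries K :=
    IsFractionRing.liftAlgHom (K := FractionRing (LaurentSeries O)) hg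
  have hφ : ∀ z : LaurentSeries O,
      φ (algebraMap (LaurentSeries O) (FractionRing (LaurentSeries O)) z) =
        coeffMap (algebraMap O K) z := by
    intro z
    rw [AlgHom.commutes]
    rfl
  have hs0 : coeffMap (algebraMap O K) s ≠ 0 := fun h => hs (hιinj (h.trans (map_zero _).symm))
  set z : FractionRing (LaurentSeries O) :=
    algebraMap (LaurentSeries O) (FractionRing (LaurentSeries O)) a /
      algebraMap (LaurentSeries O) (FractionRing (LaurentSeries O)) s with hz
  have hφz : φ z = f := by
    rw [hz, map_div₀, hφ, hφ, ← hfs, mul_div_assoc, div_self hs0, mul_one]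
  have hf : IsIntegral (LaurentSeries O) f := ⟨p, hp, hpf⟩
  have hzint : IsIntegral (LaurentSeries O) z := by
    rw [← isIntegral_algHom_iff φ φ.injective, hφz]
    exact hf
  obtain ⟨c, hc⟩ := (IsIntegrallyClosed.isIntegral_iff (R := LaurentSeries O)
    (K := FractionRing (LaurentSeries O))).mp hzint
  refine ⟨c, ?_⟩
  rw [← hφz, ← hc, hφ]

end Series

section Chart

variable {O K : Type} [CommRing O] [IsDomain O] [IsPrincipalIdealRing O] [Field K] [Algebra O K]
  (F : IntermediateField K (LaurentSeries K))

attribute [local instance 10] S18.s18_algOFF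

/-- The elements of `O[x]` are integral series, for an integral series `x`. -/
theorem s37rpm_adjoin_series (x : ↥F) (ax : LaurentSeries O)
    (hx : ((x : ↥F) : LaurentSeries K) = coeffMap (algebraMap O K) ax)
    (z : ↥F) (hz : z ∈ Algebra.adjoin O ({x} : Set ↥F)) :
    ∃ c : LaurentSeries O, ((z : ↥F) : LaurentSeries K) = coeffMap (algebraMap O K) c := by
  induction hz using Algebra.adjoin_induction with
  | mem y hy =>
    rw [Set.mem_singleton_iff.mp hy]
    exact ⟨ax, hx⟩
  | algebraMap r =>
    refine ⟨HahnSeries.C r, ?_⟩
    show algebraMap K (LaurentSeries K) (algebraMap O K r) = _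
    rw [algebraMap_laurentSeries_eq_single]
    ext n
    rw [coeffMap_coeff]
    by_cases hn : n = 0
    · subst hn
      simp
    · rw [HahnSeries.coeff_single_of_ne hn, HahnSeries.C_apply, HahnSeries.coeff_single_of_ne hn,
        map_zero]
  | add y y' _ _ ihy ihy' =>
    obtain ⟨c, hc⟩ := ihy
    obtain ⟨c', hc'⟩ := ihy'
    refine ⟨c + c', ?_⟩
    rw [map_add, ← hc, ← hc']
    rfl
  | mul y y' _ _ ihy ihy' =>
    obtain ⟨c, hc⟩ := ihy
    obtain ⟨c', hc'⟩ := ihy'
    refine ⟨c * c', ?_⟩
    rw [map_mul, ← hc, ← hc']
    rfl

/-- **The elements of a chart are integral series.** -/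
theorem s37rpm_chart_series (hinj : Function.Injective (algebraMap O K))
    (hfrac : ∀ y ∈ F, ∃ a s : LaurentSeries O, s ≠ 0 ∧
      y * coeffMap (algebraMap O K) s = coeffMap (algebraMap O K) a)
    (x : ↥F) (ax : LaurentSeries O)
    (hx : ((x : ↥F) : LaurentSeries K) = coeffMap (algebraMap O K) ax)
    (β : ↥F) (hβ : β ∈ S18.s18_chart O ({x} : Set ↥F)) :
    ∃ c : LaurentSeries O, ((β : ↥F) : LaurentSeries K) = coeffMap (algebraMap O K) c := by
  obtain ⟨a, s, hs, hfs⟩ := hfrac (β : LaurentSeries K) β.2
  obtain ⟨p, hpm, hp⟩ := (S18.s18_mem_chart_iff O).1 hβ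
  -- the coefficients of `p` are integral series
  let g : ↥(Algebra.adjoin O ({x} : Set ↥F)) →+* LaurentSeries K :=
    (algebraMap ↥F (LaurentSeries K)).comp (algebraMap ↥(Algebra.adjoin O ({x} : Set ↥F)) ↥F)
  have hg : ∀ r : ↥(Algebra.adjoin O ({x} : Set ↥F)),
      g r ∈ (coeffMap (algebraMap O K)).range := by
    intro r
    obtain ⟨c, hc⟩ := s37rpm_adjoin_series F x ax hx (r : ↥F) r.2
    exact ⟨c, hc.symm⟩
  have hlift : p.map g ∈ Polynomial.lifts (coeffMap (algebraMap O K)) := by
    rw [Polynomial.lifts_iff_coeff_lifts]
    intro n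
    rw [Polynomial.coeff_map]
    exact hg _
  obtain ⟨p', hp', -, hpm'⟩ :=
    Polynomial.lifts_and_natDegree_eq_and_monic hlift (hpm.map g)
  refine s37rpm_series_of_integral hinj (β : LaurentSeries K) a s hs hfs p' hpm' ?_
  rw [← Polynomial.eval_map, hp', Polynomial.eval_map]
  have h1 := Polynomial.hom_eval₂ p (algebraMap ↥(Algebra.adjoin O ({x} : Set ↥F)) ↥F)
    (algebraMap ↥F (LaurentSeries K)) β
  rw [hp, map_zero] at h1
  exact h1.symm

end Chart

end Fermat.Agent.S37
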