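/-
S37, package [RI], leaf [RI-POS], LAYER (B), part 3 (helper5; owner of the leaf: helper29).
Prefix `s37rpm_`.

THE LOCAL STEP FOR THE MODULAR FUNCTION FIELD OVER A DISCRETE VALUATION RING, IN TERMS OF SERIES.
`O` a discrete valuation ring, `K = Frac O` of characteristic `0`, `F = F_K(M)`, `x ∈ F` an
integral series (`j` or `1/j`) with a good model and a reduction datum of its chart; `φ : κ → k`
a homomorphism of the residue field into a field `k`, `Q` a place of `F_k(M)` at which `x̄` is
regular, `S` a finite set of places of `F / K` at which `x` is regular and which specialise to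
`Q` on the chart.  Then `Σ_{P ∈ S} ord_P(c) ≤ ord_Q(c̄)` for every integral series `c` of the chart
with `c̄ ≠ 0` (`s37rpm_dvr_mod`).  All elements of the chart are integral series
(`s37rpm_chart_series`), so the reduction datum is the coefficientwise reduction.
-/
import Mathlib
import Fermat.Agent.S18.ModelDefs
import Fermat.Agent.S18.GaussQOfRed
import Fermat.Agent.S18.GaussQOfFrac
import Fermat.Agent.S37.RIPosChart
import Fermat.Agent.S37.RIPosModSer

set_option autoImplicit false
set_option linter.unusedSectionVars false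
set_option linter.unusedVariables false
set_option warn.classDefReducibility false
set_option maxHeartbeats 1000000
set_option synthInstance.maxHeartbeats 400000

open AlgebraicCurve ModularCurve IntermediateField

noncomputable section

namespace Fermat.Agent.S37

open Fermat.Agent.S18

section DvrMod

variable (O K : Type) [CommRing O] [IsDomain O] [IsDiscreteValuationRing O] [Field K]
  [CharZero K] [Algebra O K] [IsFractionRing O K] (M : ℕ) [NeZero M]

attribute [local instance 10] S18.s18_algOFF
attribute [local instance] S18.s18gq_towerOFF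

theorem s37rpm_coeffMap_injective {R S : Type*} [CommRing R] [CommRing S] (f : R →+* S)
    (hf : Function.Injective f) : Function.Injective (coeffMap f) := by
  intro a b h
  ext n
  have := congrArg (fun x : LaurentSeries S => x.coeff n) h
  simp only [coeffMap_coeff] at this
  exact hf this

/-- **The local step over a discrete valuation ring, for series.** -/
theorem s37rpm_dvr_mod (x : ↥(s18_F K M)) (ax : LaurentSeries O)
    (hx : ((x : ↥(s18_F K M)) : LaurentSeries K) = coeffMap (algebraMap O K) ax)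
    (hgood : s18_IsGoodModel O K ↥(s18_F K M) x)
    (hbasic : s18_IsBasic O K ↥(s18_F K M) x)
    (hred : s18_HasRedF O K (s18_F K M) ({x} : Set ↥(s18_F K M)))
    {k : Type} [Field k] (φ : IsLocalRing.ResidueField O →+* k)
    (hqep : ∀ c : LaurentSeries O, coeffMap (algebraMap O K) c ∈ s18_F K M →
      coeffMap φ (coeffMap (IsLocalRing.residue O) c) ∈ modularFunctionFieldFullC k M)
    (Q : Place k ↥(modularFunctionFieldFullC k M))
    (hQx : ∀ h, (⟨coeffMap φ (coeffMap (IsLocalRing.residue O) ax), h⟩ :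
      ↥(modularFunctionFieldFullC k M)) ∈ Q.toValuationSubring)
    (S : Finset (Place K ↥(s18_F K M)))
    (hS1 : ∀ P ∈ S, x ∈ P.toValuationSubring)
    (hS2 : ∀ P ∈ S, ∀ (c : LaurentSeries O) (hc : coeffMap (algebraMap O K) c ∈ s18_F K M),
      (⟨coeffMap (algebraMap O K) c, hc⟩ : ↥(s18_F K M)) ∈
        s18_chart O ({x} : Set ↥(s18_F K M)) →
      P.adicValuation (⟨coeffMap (algebraMap O K) c, hc⟩ : ↥(s18_F K M)) < 1 →
      ∀ h, Q.adicValuation (⟨coeffMap φ (coeffMap (IsLocalRing.residue O) c), h⟩ :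
        ↥(modularFunctionFieldFullC k M)) < 1)
    (c : LaurentSeries O) (hc : coeffMap (algebraMap O K) c ∈ s18_F K M)
    (hcc : (⟨coeffMap (algebraMap O K) c, hc⟩ : ↥(s18_F K M)) ∈
      s18_chart O ({x} : Set ↥(s18_F K M)))
    (hcne : coeffMap (IsLocalRing.residue O) c ≠ 0)
    (h : coeffMap φ (coeffMap (IsLocalRing.residue O) c) ∈ modularFunctionFieldFullC k M) :
    ∑ P ∈ S, P.ord (⟨coeffMap (algebraMap O K) c, hc⟩ : ↥(s18_F K M)) ≤
      Q.ord (⟨coeffMap φ (coeffMap (IsLocalRing.residue O) c), h⟩ :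
        ↥(modularFunctionFieldFullC k M)) := by
  classical
  obtain ⟨ρ, hker, hmul⟩ := hred
  have hinj : Function.Injective (algebraMap O K) := IsFractionRing.injective O K
  have hφinj : Function.Injective (coeffMap φ) := s37rpm_coeffMap_injective φ φ.injective
  -- all elements of the chart are integral series
  have hser : ∀ β : ↥(s18_chart O ({x} : Set ↥(s18_F K M))), ∃ c : LaurentSeries O,
      (((β : ↥(s18_F K M)) : LaurentSeries K)) = coeffMap (algebraMap O K) c :=
    fun β => s37rpm_chart_series (s18_F K M) hinj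
      (fun y hy => s18gq_isFrac_of_mem O K M y hy) x ax hx β β.2
  have hρser : ∀ (β : ↥(s18_chart O ({x} : Set ↥(s18_F K M)))) (c : LaurentSeries O),
      (((β : ↥(s18_F K M)) : LaurentSeries K)) = coeffMap (algebraMap O K) c →
      ρ β = coeffMap (IsLocalRing.residue O) c :=
    fun β c hβ => s18gq_rho_eq ρ hmul β c hβ
  have hmem : ∀ β : ↥(s18_chart O ({x} : Set ↥(s18_F K M))),
      (coeffMap φ).comp ρ β ∈ modularFunctionFieldFullC k M := by
    intro β
    obtain ⟨c, hc⟩ := hser β
    rw [RingHom.comp_apply, hρser β c hc]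
    exact hqep c (hc ▸ (β : ↥(s18_F K M)).2)
  let ρ' : ↥(s18_chart O ({x} : Set ↥(s18_F K M))) →+* ↥(modularFunctionFieldFullC k M) :=
    ((coeffMap φ).comp ρ).codRestrict (modularFunctionFieldFullC k M) hmem
  have hρ' : ∀ (β : ↥(s18_chart O ({x} : Set ↥(s18_F K M)))) (c : LaurentSeries O)
      (hβ : (((β : ↥(s18_F K M)) : LaurentSeries K)) = coeffMap (algebraMap O K) c) h,
      ρ' β = (⟨coeffMap φ (coeffMap (IsLocalRing.residue O) c), h⟩ :
        ↥(modularFunctionFieldFullC k M)) := by
    intro β c hβ h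
    apply Subtype.ext
    show coeffMap φ (ρ β) = _
    rw [hρser β c hβ]
  have hker' : ∀ b, ρ' b = 0 → b ∈ s18_fibreIdeal O ({x} : Set ↥(s18_F K M)) := by
    intro b hb
    apply hker
    have h1 : coeffMap φ (ρ b) = 0 := congrArg Subtype.val hb
    exact hφinj (h1.trans (map_zero _).symm)
  have hconst : ∀ a : O, ρ' (algebraMap O ↥(s18_chart O ({x} : Set ↥(s18_F K M))) a) =
      algebraMap k ↥(modularFunctionFieldFullC k M) (φ (IsLocalRing.residue O a)) := by
    intro a
    apply Subtype.ext
    show coeffMap φ (ρ (algebraMap O ↥(s18_chart O ({x} : Set ↥(s18_F K M))) a)) = _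
    rw [s18gq_rho_algebraMap ρ hmul a]
    show _ = algebraMap k (LaurentSeries k) (φ (IsLocalRing.residue O a))
    rw [algebraMap_laurentSeries_eq_single]
    ext n
    rw [coeffMap_coeff]
    by_cases hn : n = 0
    · subst hn
      simp
    · rw [HahnSeries.C_apply, HahnSeries.coeff_single_of_ne hn, map_zero,
        HahnSeries.coeff_single_of_ne hn]
  have hρO : ∀ a : O, a ∈ IsLocalRing.maximalIdeal O →
      ρ' (algebraMap O ↥(s18_chart O ({x} : Set ↥(s18_F K M))) a) = 0 := by
    intro a ha
    rw [hconst a, (IsLocalRing.residue_eq_zero_iff a).2 ha, map_zero, map_zero]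
  have hQO : ∀ a : O, ρ' (algebraMap O ↥(s18_chart O ({x} : Set ↥(s18_F K M))) a) ∈
      Q.toValuationSubring := by
    intro a
    rw [hconst a]
    exact Q.algebraMap_mem' _
  have hQx' : ρ' ⟨x, s37rip_x_mem O x⟩ ∈ Q.toValuationSubring := by
    rw [hρ' ⟨x, s37rip_x_mem O x⟩ ax hx (hqep ax (hx ▸ x.2))]
    exact hQx _
  have hS2' : ∀ P ∈ S, ∀ β : ↥(s18_chart O ({x} : Set ↥(s18_F K M))),
      P.adicValuation (β : ↥(s18_F K M)) < 1 → Q.adicValuation (ρ' β) < 1 := by
    intro P hP β hβ
    obtain ⟨c', hc'⟩ := hser β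
    have hc'F : coeffMap (algebraMap O K) c' ∈ s18_F K M := hc' ▸ (β : ↥(s18_F K M)).2
    have hβeq : (β : ↥(s18_F K M)) = ⟨coeffMap (algebraMap O K) c', hc'F⟩ := Subtype.ext hc'
    rw [hρ' β c' hc' (hqep c' hc'F)]
    refine hS2 P hP c' hc'F ?_ ?_ _
    · rw [← hβeq]
      exact β.2
    · rw [← hβeq]
      exact hβ
  have hb : ρ' ⟨⟨coeffMap (algebraMap O K) c, hc⟩, hcc⟩ ≠ 0 := by
    rw [hρ' ⟨⟨coeffMap (algebraMap O K) c, hc⟩, hcc⟩ c rfl h]
    intro h0
    have h1 : coeffMap φ (coeffMap (IsLocalRing.residue O) c) = 0 := congrArg Subtype.val h0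
    exact hcne (hφinj (h1.trans (map_zero _).symm))
  have key := s37rip_chart O K ↥(s18_F K M) x hgood hbasic ρ' Q hker' hρO hQO hQx' S hS1 hS2'
    ⟨⟨coeffMap (algebraMap O K) c, hc⟩, hcc⟩ hb
  rw [hρ' ⟨⟨coeffMap (algebraMap O K) c, hc⟩, hcc⟩ c rfl h] at key
  exact key

end DvrMod

end Fermat.Agent.S37
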