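/-
S37, package [RI], leaf [RI-POS], LAYER (B), part 4 (helper5; owner of the leaf: helper29).
Prefix `s37rpm_`.

THE LOCAL STEP AT A NUMBER FIELD `K1 ⊆ Q̄`.  `A ⊆ Q̄` a valuation ring over `ℓ ∤ M`,
`O1 = A ∩ K1`, `x ∈ {j, 1/j}` with the good model of its chart over `O1`; `y` an `A`-series which
is the image of an `O1`-series `y1` of the chart over `O1`; `S` a finite set of places of `F̄_M`,
finite for `x`, which specialise to `Q` in the chart of `x` and which restrict to pairwise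
distinct places of `F_{K1}(M)` with the same orders.  Then `Σ_{P ∈ S} ord_P(y) ≤ ord_Q(ȳ)`.
-/
import Mathlib
import Fermat.Agent.S37.RIDefs
import Fermat.Agent.S37.RIDesc
import Fermat.Agent.S37.RIGlobInst
import Fermat.Agent.S37.PgiQep
import Fermat.Agent.S37.RIPosModDvr

set_option autoImplicit false
set_option linter.unusedSectionVars false
set_option linter.unusedVariables false
set_option warn.classDefReducibility false
set_option maxHeartbeats 1000000
set_option synthInstance.maxHeartbeats 400000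

open AlgebraicCurve ModularCurve IntermediateField

noncomputable section

namespace Fermat.Agent.S37

open Fermat.Agent.S18

section At

variable (A : ValuationSubring (AlgebraicClosure ℚ)) (M : ℕ) [NeZero M]

/-- The residue field map `κ1 → k` induced by `O1 = A ∩ K1 → A`. -/
def s37rpm_phi (K1 : IntermediateField ℚ (AlgebraicClosure ℚ)) :
    IsLocalRing.ResidueField ↥(s37rd_O A K1) →+* IsLocalRing.ResidueField ↥A :=
  haveI := s37pgi_incl_isLocalHom A K1
  IsLocalRing.ResidueField.map (s18rq_incl (algebraMap ↥K1 (AlgebraicClosure ℚ)) A)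

theorem s37rpm_phi_residue (K1 : IntermediateField ℚ (AlgebraicClosure ℚ))
    (a : ↥(s37rd_O A K1)) :
    s37rpm_phi A K1 (IsLocalRing.residue ↥(s37rd_O A K1) a) =
      IsLocalRing.residue ↥A (s18rq_incl (algebraMap ↥K1 (AlgebraicClosure ℚ)) A a) := rfl

/-- The reduction of the image in `A((q))` of an `O1`-series. -/
theorem s37rpm_red_incl (K1 : IntermediateField ℚ (AlgebraicClosure ℚ))
    (c : LaurentSeries ↥(s37rd_O A K1)) :
    coeffMap (IsLocalRing.residue ↥A)
        (coeffMap (s18rq_incl (algebraMap ↥K1 (AlgebraicClosure ℚ)) A) c) =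
      coeffMap (s37rpm_phi A K1) (coeffMap (IsLocalRing.residue ↥(s37rd_O A K1)) c) := by
  ext n
  simp only [coeffMap_coeff]
  exact (s37rpm_phi_residue A K1 _).symm

/-- The image in `Q̄((q))` of an `O1`-series. -/
theorem s37rpm_iota_incl (K1 : IntermediateField ℚ (AlgebraicClosure ℚ))
    (c : LaurentSeries ↥(s37rd_O A K1)) :
    coeffMap A.subtype (coeffMap (s18rq_incl (algebraMap ↥K1 (AlgebraicClosure ℚ)) A) c) =
      s18_iota K1 (coeffMap (algebraMap ↥(s37rd_O A K1) ↥K1) c) := by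
  ext n
  rfl

/-- A place which is finite for `x` contains `x` in its valuation ring. -/
theorem s37rpm_fin_mem (x : ↥(modularFunctionFieldBar M))
    (P : Place (AlgebraicClosure ℚ) ↥(modularFunctionFieldBar M)) (h : s37ri_Fin A M x P) :
    x ∈ P.toValuationSubring := by
  obtain ⟨c, hc⟩ := h
  have h1 : x - algebraMap (AlgebraicClosure ℚ) ↥(modularFunctionFieldBar M)
      (c : AlgebraicClosure ℚ) ∈ P.toValuationSubring :=
    (S24.place_mem_iff P).2 (s37rg_ord_nonneg_of_val P hc)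
  have h2 := P.toValuationSubring.add_mem _ _ h1 (P.algebraMap_mem' (c : AlgebraicClosure ℚ))
  rwa [sub_add_cancel] at h2

/-- **The local step at a number field.** -/
theorem s37rpm_at {ℓ : ℕ} [Fact ℓ.Prime] (hℓM : ¬ ℓ ∣ M) (hA : A.LiesOverPrime ℓ)
    (K1 : IntermediateField ℚ (AlgebraicClosure ℚ))
    [IsDiscreteValuationRing ↥(s37rd_O A K1)]
    (x : ↥(modularFunctionFieldBar M)) (x1 : ↥(s18_F ↥K1 M)) (axZ : LaurentSeries ℤ)
    (hx1 : ((x1 : ↥(s18_F ↥K1 M)) : LaurentSeries ↥K1) = coeffMap (Int.castRingHom ↥K1) axZ)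
    (hxι : s37rd_iota M K1 x1 = x)
    (hgood : letI := s18_algOF ↥(s37rd_O A K1) ↥K1 M
      haveI := s18_towerOF ↥(s37rd_O A K1) ↥K1 M
      s18_IsGoodModel ↥(s37rd_O A K1) ↥K1 ↥(s18_F ↥K1 M) x1)
    (hbasic : letI := s18_algOF ↥(s37rd_O A K1) ↥K1 M
      haveI := s18_towerOF ↥(s37rd_O A K1) ↥K1 M
      s18_IsBasic ↥(s37rd_O A K1) ↥K1 ↥(s18_F ↥K1 M) x1)
    (hred : s18_HasRed ↥(s37rd_O A K1) ↥K1 M ({x1} : Set ↥(s18_F ↥K1 M)))
    (Q : Place (IsLocalRing.ResidueField ↥A)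
      ↥(modularFunctionFieldFullC (IsLocalRing.ResidueField ↥A) M))
    (hQx : ∀ h, (⟨coeffMap (Int.castRingHom (IsLocalRing.ResidueField ↥A)) axZ, h⟩ :
      ↥(modularFunctionFieldFullC (IsLocalRing.ResidueField ↥A) M)) ∈ Q.toValuationSubring)
    (y : LaurentSeries ↥A) (hy : coeffMap A.subtype y ∈ modularFunctionFieldBar M)
    (hyk : coeffMap (IsLocalRing.residue ↥A) y ∈
      modularFunctionFieldFullC (IsLocalRing.ResidueField ↥A) M)
    (hyne : coeffMap (IsLocalRing.residue ↥A) y ≠ 0)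
    (y1 : LaurentSeries ↥(s37rd_O A K1))
    (hy1 : coeffMap (algebraMap ↥(s37rd_O A K1) ↥K1) y1 ∈ s18_F ↥K1 M)
    (hy1y : coeffMap (s18rq_incl (algebraMap ↥K1 (AlgebraicClosure ℚ)) A) y1 = y)
    (hy1c : letI := s18_algOF ↥(s37rd_O A K1) ↥K1 M
      (⟨coeffMap (algebraMap ↥(s37rd_O A K1) ↥K1) y1, hy1⟩ : ↥(s18_F ↥K1 M)) ∈
        s18_chart ↥(s37rd_O A K1) ({x1} : Set ↥(s18_F ↥K1 M)))
    (S : Finset (Place (AlgebraicClosure ℚ) ↥(modularFunctionFieldBar M)))
    (hS : ∀ P ∈ S, s37ri_Fin A M x P ∧ s37ri_SpecAt A M x P Q)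
    (r : {P // P ∈ S} → Place ↥K1 ↥(s18_F ↥K1 M))
    (hr : ∀ (P : {P // P ∈ S}) (f : ↥(s18_F ↥K1 M)),
      (P : Place (AlgebraicClosure ℚ) ↥(modularFunctionFieldBar M)).ord (s37rd_iota M K1 f) =
        (r P).ord f)
    (hrinj : Function.Injective r) :
    ∑ P ∈ S, P.ord (⟨coeffMap A.subtype y, hy⟩ : ↥(modularFunctionFieldBar M)) ≤
      Q.ord (⟨coeffMap (IsLocalRing.residue ↥A) y, hyk⟩ :
        ↥(modularFunctionFieldFullC (IsLocalRing.ResidueField ↥A) M)) := by
  classical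
  -- the series of `x1` over `O1`
  have hax : ((x1 : ↥(s18_F ↥K1 M)) : LaurentSeries ↥K1) =
      coeffMap (algebraMap ↥(s37rd_O A K1) ↥K1)
        (coeffMap (Int.castRingHom ↥(s37rd_O A K1)) axZ) := by
    rw [hx1, coeffMap_coeffMap]
    exact coeffMap_congr (RingHom.ext_int _ _) axZ
  -- the image of an `O1`-series in `F̄_M`
  have hιc : ∀ (c : LaurentSeries ↥(s37rd_O A K1))
      (hc : coeffMap (algebraMap ↥(s37rd_O A K1) ↥K1) c ∈ s18_F ↥K1 M),
      ((s37rd_iota M K1 ⟨coeffMap (algebraMap ↥(s37rd_O A K1) ↥K1) c, hc⟩ :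
        ↥(modularFunctionFieldBar M)) : LaurentSeries (AlgebraicClosure ℚ)) =
        coeffMap A.subtype
          (coeffMap (s18rq_incl (algebraMap ↥K1 (AlgebraicClosure ℚ)) A) c) := by
    intro c hc
    rw [s37rpm_iota_incl]
    rfl
  -- the `q`-expansion principle
  have hqep : ∀ c : LaurentSeries ↥(s37rd_O A K1),
      coeffMap (algebraMap ↥(s37rd_O A K1) ↥K1) c ∈ s18_F ↥K1 M →
      coeffMap (s37rpm_phi A K1) (coeffMap (IsLocalRing.residue ↥(s37rd_O A K1)) c) ∈
        modularFunctionFieldFullC (IsLocalRing.ResidueField ↥A) M := by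
    intro c hc
    rw [← s37rpm_red_incl]
    refine s37pgi_qep_main M hℓM A hA _ ?_
    rw [← hιc c hc]
    exact (s37rd_iota M K1 ⟨_, hc⟩).2
  have hQx' : ∀ h, (⟨coeffMap (s37rpm_phi A K1)
      (coeffMap (IsLocalRing.residue ↥(s37rd_O A K1))
        (coeffMap (Int.castRingHom ↥(s37rd_O A K1)) axZ)), h⟩ :
      ↥(modularFunctionFieldFullC (IsLocalRing.ResidueField ↥A) M)) ∈ Q.toValuationSubring := by
    intro h
    have e : coeffMap (s37rpm_phi A K1)
        (coeffMap (IsLocalRing.residue ↥(s37rd_O A K1))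
          (coeffMap (Int.castRingHom ↥(s37rd_O A K1)) axZ)) =
        coeffMap (Int.castRingHom (IsLocalRing.ResidueField ↥A)) axZ := by
      rw [coeffMap_coeffMap, coeffMap_coeffMap]
      exact coeffMap_congr (RingHom.ext_int _ _) axZ
    have h' : coeffMap (Int.castRingHom (IsLocalRing.ResidueField ↥A)) axZ ∈
        modularFunctionFieldFullC (IsLocalRing.ResidueField ↥A) M := e ▸ h
    have e2 : (⟨_, h⟩ : ↥(modularFunctionFieldFullC (IsLocalRing.ResidueField ↥A) M)) =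
        ⟨coeffMap (Int.castRingHom (IsLocalRing.ResidueField ↥A)) axZ, h'⟩ := Subtype.ext e
    rw [e2]
    exact hQx h'
  -- the places
  have hS1 : ∀ P1 ∈ S.attach.image r, x1 ∈ P1.toValuationSubring := by
    intro P1 hP1
    obtain ⟨P, -, rfl⟩ := Finset.mem_image.1 hP1
    rw [S24.place_mem_iff, ← hr P x1, hxι, ← S24.place_mem_iff]
    exact s37rpm_fin_mem A M x P (hS P P.2).1
  have hS2 : ∀ P1 ∈ S.attach.image r, ∀ (c : LaurentSeries ↥(s37rd_O A K1))
      (hc : coeffMap (algebraMap ↥(s37rd_O A K1) ↥K1) c ∈ s18_F ↥K1 M),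
      (letI := s18_algOF ↥(s37rd_O A K1) ↥K1 M
       (⟨coeffMap (algebraMap ↥(s37rd_O A K1) ↥K1) c, hc⟩ : ↥(s18_F ↥K1 M)) ∈
        s18_chart ↥(s37rd_O A K1) ({x1} : Set ↥(s18_F ↥K1 M))) →
      P1.adicValuation (⟨coeffMap (algebraMap ↥(s37rd_O A K1) ↥K1) c, hc⟩ :
        ↥(s18_F ↥K1 M)) < 1 →
      ∀ h, Q.adicValuation (⟨coeffMap (s37rpm_phi A K1)
        (coeffMap (IsLocalRing.residue ↥(s37rd_O A K1)) c), h⟩ :
        ↥(modularFunctionFieldFullC (IsLocalRing.ResidueField ↥A) M)) < 1 := by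
    intro P1 hP1 c hc hcc hval h
    obtain ⟨P, -, rfl⟩ := Finset.mem_image.1 hP1
    refine (hS P P.2).2 (s37rd_iota M K1 ⟨_, hc⟩) _
      (s37rd_chart_int A M x K1 x1 hxι _ hcc) ?_ ?_
    · exact s37rg_red_of_series A M
        (coeffMap (s18rq_incl (algebraMap ↥K1 (AlgebraicClosure ℚ)) A) c) _ _ (hιc c hc)
        (s37rpm_red_incl A K1 c).symm
    · rw [s37rg_val_lt_one_iff'] at hval ⊢
      rcases hval with h0 | h0
      · left
        rw [h0, map_zero]
      · right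
        rw [hr P]
        exact h0
  have hcne : coeffMap (IsLocalRing.residue ↥(s37rd_O A K1)) y1 ≠ 0 := by
    intro h0
    apply hyne
    rw [← hy1y, s37rpm_red_incl, h0, map_zero]
  have hmem : coeffMap (s37rpm_phi A K1)
      (coeffMap (IsLocalRing.residue ↥(s37rd_O A K1)) y1) ∈
      modularFunctionFieldFullC (IsLocalRing.ResidueField ↥A) M := hqep y1 hy1
  have key := s37rpm_dvr_mod ↥(s37rd_O A K1) ↥K1 M x1
    (coeffMap (Int.castRingHom ↥(s37rd_O A K1)) axZ) hax hgood hbasic hred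
    (s37rpm_phi A K1) hqep Q hQx' (S.attach.image r) hS1 hS2 y1 hy1 hy1c hcne hmem
  -- the two sides
  have hL : ∑ P ∈ S, P.ord (⟨coeffMap A.subtype y, hy⟩ : ↥(modularFunctionFieldBar M)) =
      ∑ P1 ∈ S.attach.image r, P1.ord (⟨coeffMap (algebraMap ↥(s37rd_O A K1) ↥K1) y1, hy1⟩ :
        ↥(s18_F ↥K1 M)) := by
    rw [Finset.sum_image (fun P _ P' _ h => hrinj h),
      ← Finset.sum_attach S (fun P => P.ord (⟨coeffMap A.subtype y, hy⟩ :
        ↥(modularFunctionFieldBar M)))]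
    refine Finset.sum_congr rfl fun P hP => ?_
    rw [← hr P]
    congr 1
    apply Subtype.ext
    rw [hιc y1 hy1, hy1y]
  have hR : (⟨coeffMap (IsLocalRing.residue ↥A) y, hyk⟩ :
      ↥(modularFunctionFieldFullC (IsLocalRing.ResidueField ↥A) M)) =
      ⟨coeffMap (s37rpm_phi A K1) (coeffMap (IsLocalRing.residue ↥(s37rd_O A K1)) y1),
        hmem⟩ := by
    apply Subtype.ext
    show coeffMap (IsLocalRing.residue ↥A) y = _
    rw [← hy1y, s37rpm_red_incl]
  rw [hL, hR]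
  exact key

end At

end Fermat.Agent.S37
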