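/-
S37, [RI], TOOL FOR [RI-POS] (helper5): restriction of finitely many places of `F̄_M / Q̄` to
`F_{K1}(M) / K1`, `K1 ⊆ Q̄` containing a suitable number field `K0`, with ramification index
one and pairwise distinct restrictions.  Prefix `s37rr_`.

* `s37rr_restr_abs` (generic): if `ι : F → F'` is compatible with the constants and `P'` is a
  place of `F' / K'` with `ord_{P'} (ι t) = 1` for some `t ∈ F`, then `ord_{P'} ∘ ι` is the
  order function of a place of `F / K`.
* `s37rr_descent`: every element of `F̄_M` comes from `F_{K1}(M)` for all `K1 ⊇ K0`, `K0` a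
  number field.
* `s37rr_main`: for a finite set `S` of places of `F̄_M` there is a number field `K0` such that
  for all `K1 ⊇ K0` every `P ∈ S` restricts to a place `P1` of `F_{K1}(M)` with
  `ord_P ∘ ι = ord_{P1}`, and no other `P' ∈ S` restricts to `P1`.
-/
import Mathlib
import Fermat.Agent.S24.ValPlace
import Fermat.Agent.S18.Cfe
import Fermat.Agent.S18.RatQDescent

set_option autoImplicit false
set_option linter.unusedSectionVars false
set_option linter.unusedVariables false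

noncomputable section

namespace Fermat.Agent.S37

open AlgebraicCurve ModularCurve IntermediateField

/-! ### the generic restriction -/

section Abs

variable {K F K' F' : Type*} [Field K] [Field F] [Algebra K F] [Field K'] [Field F']
  [Algebra K' F'] (φ₀ : K →+* K') (ι : F →+* F')

/-- **Restriction of a place** along `ι : F → F'`, unramified as soon as a uniformizer comes
from `F`. -/
theorem s37rr_restr_abs (hι : ∀ c : K, ι (algebraMap K F c) = algebraMap K' F' (φ₀ c))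
    (P' : Place K' F') (t : F) (ht : P'.ord (ι t) = 1) :
    ∃ P : Place K F, ∀ f : F, P'.ord (ι f) = P.ord f := by
  have hmul : ∀ f g : F, f ≠ 0 → g ≠ 0 →
      P'.ord (ι (f * g)) = P'.ord (ι f) + P'.ord (ι g) := fun f g hf hg => by
    rw [map_mul, P'.ord_mul ((_root_.map_ne_zero ι).2 hf) ((_root_.map_ne_zero ι).2 hg)]
  have hadd : ∀ f g : F, f ≠ 0 → g ≠ 0 → f + g ≠ 0 →
      min (P'.ord (ι f)) (P'.ord (ι g)) ≤ P'.ord (ι (f + g)) := fun f g hf hg hfg => by
    rw [map_add]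
    exact Fermat.Agent.S24.place_ord_add_ge P' ((_root_.map_ne_zero ι).2 hf)
      ((_root_.map_ne_zero ι).2 hg) (by rw [← map_add]; exact (_root_.map_ne_zero ι).2 hfg)
  have hK : ∀ c : K, c ≠ 0 → P'.ord (ι (algebraMap K F c)) = 0 := fun c _ => by
    rw [hι]
    exact Fermat.Agent.S24.place_ord_algebraMap P' _
  have ht0 : t ≠ 0 := by
    rintro rfl
    rw [map_zero, Place.ord_zero] at ht
    exact zero_ne_one ht
  have hne : ∃ f : F, f ≠ 0 ∧ P'.ord (ι f) ≠ 0 := ⟨t, ht0, by rw [ht]; exact one_ne_zero⟩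
  obtain ⟨v, m, hm, hv⟩ :=
    Fermat.Agent.S24.val_exists_place (K := K) (fun f => P'.ord (ι f)) hmul hadd hK hne
  have hm1 : (m : ℤ) = 1 := by
    have h1 : P'.ord (ι t) = (m : ℤ) * v.ord t := hv t ht0
    rw [ht] at h1
    exact Int.eq_one_of_mul_eq_one_right (by exact_mod_cast hm.le) h1.symm
  refine ⟨v, fun f => ?_⟩
  rcases eq_or_ne f 0 with rfl | hf
  · rw [map_zero, Place.ord_zero, Place.ord_zero]
  · have h2 : P'.ord (ι f) = (m : ℤ) * v.ord f := hv f hf
    rw [hm1, one_mul] at h2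
    exact h2

omit [Algebra K F] [Field K] in
/-- **Separation**: distinct places are separated by a function regular at the first and with a
pole at the second. -/
theorem s37rr_sep [Field K] [Algebra K F] {P P' : Place K F} (h : P ≠ P') :
    ∃ g : F, 0 ≤ P.ord g ∧ P'.ord g < 0 := by
  by_contra hcon
  push Not at hcon
  apply h
  rw [Fermat.Agent.S24.place_eq_iff]
  intro f hf
  rw [Fermat.Agent.S24.place_mem_iff] at hf ⊢
  exact hcon f hf

end Abs

/-! ### number fields inside `Q̄` -/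

section Mod

variable (M : ℕ) [NeZero M]

/-- The coefficientwise embedding `F_{K1}(M) → F̄_M`. -/
abbrev s37rr_iota (K1 : IntermediateField ℚ (AlgebraicClosure ℚ)) :
    ↥(Fermat.Agent.S18.s18_F ↥K1 M) →+* ↥(modularFunctionFieldBar M) :=
  Fermat.Agent.S18.s18cfe_iota ↥K1 (AlgebraicClosure ℚ) (modularFunctionFieldFull M)

omit [NeZero M] in
theorem s37rr_coe_iota (K1 : IntermediateField ℚ (AlgebraicClosure ℚ))
    (f : ↥(Fermat.Agent.S18.s18_F ↥K1 M)) :
    ((s37rr_iota M K1 f : ↥(modularFunctionFieldBar M)) : LaurentSeries (AlgebraicClosure ℚ)) =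
      Fermat.Agent.S18.s18_iota K1 (f : LaurentSeries ↥K1) := rfl

omit [NeZero M] in
/-- **Descent**: every element of `F̄_M` comes from `F_{K1}(M)` for all `K1` containing a
suitable number field `K0`. -/
theorem s37rr_descent (x : ↥(modularFunctionFieldBar M)) :
    ∃ K0 : IntermediateField ℚ (AlgebraicClosure ℚ), FiniteDimensional ℚ ↥K0 ∧
      ∀ K1 : IntermediateField ℚ (AlgebraicClosure ℚ), K0 ≤ K1 →
        ∃ x1 : ↥(Fermat.Agent.S18.s18_F ↥K1 M), s37rr_iota M K1 x1 = x := by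
  obtain ⟨K0, hK0, x0, hx0, hx⟩ := Fermat.Agent.S18.s18rq_descent M x.2
  refine ⟨K0, hK0, fun K1 h => ?_⟩
  obtain ⟨y, hy, hyx⟩ := Fermat.Agent.S18.s18rq_enlarge M h hx0
  exact ⟨⟨y, hy⟩, Subtype.ext (hyx.trans hx)⟩

/-- Finitely many properties that hold over all fields containing a number field hold
simultaneously over all fields containing a (larger) number field. -/
theorem s37rr_finset {α : Type*} (I : Finset α)
    (p : α → IntermediateField ℚ (AlgebraicClosure ℚ) → Prop)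
    (h : ∀ i ∈ I, ∃ K0 : IntermediateField ℚ (AlgebraicClosure ℚ), FiniteDimensional ℚ ↥K0 ∧
      ∀ K1 : IntermediateField ℚ (AlgebraicClosure ℚ), K0 ≤ K1 → p i K1) :
    ∃ K0 : IntermediateField ℚ (AlgebraicClosure ℚ), FiniteDimensional ℚ ↥K0 ∧
      ∀ K1 : IntermediateField ℚ (AlgebraicClosure ℚ), K0 ≤ K1 → ∀ i ∈ I, p i K1 := by
  classical
  induction I using Finset.induction_on with
  | empty => exact ⟨⊥, inferInstance, fun K1 _ i hi => absurd hi (Finset.notMem_empty i)⟩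
  | insert a I ha ih =>
    obtain ⟨Ka, hKa, ha'⟩ := h a (Finset.mem_insert_self a I)
    obtain ⟨KI, hKI, hI'⟩ := ih (fun i hi => h i (Finset.mem_insert_of_mem hi))
    refine ⟨Ka ⊔ KI, IntermediateField.finiteDimensional_sup Ka KI, fun K1 hK1 i hi => ?_⟩
    rcases Finset.mem_insert.1 hi with rfl | hi
    · exact ha' K1 (le_sup_left.trans hK1)
    · exact hI' K1 (le_sup_right.trans hK1) i hi

omit [NeZero M] in
/-- Restriction of a single place to `F_{K1}(M)`, `K1` containing the coefficients of an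
element of order one. -/
theorem s37rr_restr (K1 : IntermediateField ℚ (AlgebraicClosure ℚ))
    (P : Place (AlgebraicClosure ℚ) ↥(modularFunctionFieldBar M))
    (t1 : ↥(Fermat.Agent.S18.s18_F ↥K1 M)) (ht : P.ord (s37rr_iota M K1 t1) = 1) :
    ∃ P1 : Place ↥K1 ↥(Fermat.Agent.S18.s18_F ↥K1 M),
      ∀ f : ↥(Fermat.Agent.S18.s18_F ↥K1 M), P.ord (s37rr_iota M K1 f) = P1.ord f :=
  s37rr_restr_abs (algebraMap ↥K1 (AlgebraicClosure ℚ)) (s37rr_iota M K1)
    (Fermat.Agent.S18.s18cfe_iota_algebraMap ↥K1 (AlgebraicClosure ℚ)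
      (modularFunctionFieldFull M)) P t1 ht

omit [NeZero M] in
/-- **[RI-RESTR]**: finitely many places of `F̄_M` restrict to pairwise distinct places of
`F_{K1}(M)` with ramification index one, for all `K1` containing a suitable number field. -/
theorem s37rr_main (S : Finset (Place (AlgebraicClosure ℚ) ↥(modularFunctionFieldBar M))) :
    ∃ K0 : IntermediateField ℚ (AlgebraicClosure ℚ), FiniteDimensional ℚ ↥K0 ∧
      ∀ K1 : IntermediateField ℚ (AlgebraicClosure ℚ), K0 ≤ K1 → ∀ P ∈ S,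
        ∃ P1 : Place ↥K1 ↥(Fermat.Agent.S18.s18_F ↥K1 M),
          (∀ f : ↥(Fermat.Agent.S18.s18_F ↥K1 M), P.ord (s37rr_iota M K1 f) = P1.ord f) ∧
          ∀ P' ∈ S, (∀ f : ↥(Fermat.Agent.S18.s18_F ↥K1 M),
            P'.ord (s37rr_iota M K1 f) = P1.ord f) → P' = P := by
  classical
  -- uniformizers
  have h1 : ∀ P ∈ S, ∃ K0 : IntermediateField ℚ (AlgebraicClosure ℚ),
      FiniteDimensional ℚ ↥K0 ∧ ∀ K1 : IntermediateField ℚ (AlgebraicClosure ℚ), K0 ≤ K1 →
        ∃ t1 : ↥(Fermat.Agent.S18.s18_F ↥K1 M), P.ord (s37rr_iota M K1 t1) = 1 := by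
    intro P _
    obtain ⟨π, hπ⟩ := Fermat.Agent.S24.place_exists_irreducible P
    obtain ⟨K0, hK0, h⟩ := s37rr_descent M (π : ↥(modularFunctionFieldBar M))
    refine ⟨K0, hK0, fun K1 hK1 => ?_⟩
    obtain ⟨t1, ht1⟩ := h K1 hK1
    exact ⟨t1, by rw [ht1]; exact P.ord_coe_irreducible hπ⟩
  obtain ⟨Ka, hKa, hA⟩ := s37rr_finset S _ h1
  -- separating functions
  have h2 : ∀ PP ∈ S ×ˢ S, ∃ K0 : IntermediateField ℚ (AlgebraicClosure ℚ),
      FiniteDimensional ℚ ↥K0 ∧ ∀ K1 : IntermediateField ℚ (AlgebraicClosure ℚ), K0 ≤ K1 →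
        (PP.1 ≠ PP.2 → ∃ g1 : ↥(Fermat.Agent.S18.s18_F ↥K1 M),
          0 ≤ PP.1.ord (s37rr_iota M K1 g1) ∧ PP.2.ord (s37rr_iota M K1 g1) < 0) := by
    rintro ⟨P, P'⟩ _
    by_cases hne : P = P'
    · exact ⟨⊥, inferInstance, fun K1 _ h => absurd hne h⟩
    · obtain ⟨g, hg1, hg2⟩ := s37rr_sep hne
      obtain ⟨K0, hK0, h⟩ := s37rr_descent M g
      refine ⟨K0, hK0, fun K1 hK1 _ => ?_⟩
      obtain ⟨g1, hg⟩ := h K1 hK1
      exact ⟨g1, by rw [hg]; exact hg1, by rw [hg]; exact hg2⟩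
  obtain ⟨Kb, hKb, hB⟩ := s37rr_finset (S ×ˢ S) _ h2
  refine ⟨Ka ⊔ Kb, IntermediateField.finiteDimensional_sup Ka Kb, fun K1 hK1 P hP => ?_⟩
  obtain ⟨t1, ht1⟩ := hA K1 (le_sup_left.trans hK1) P hP
  obtain ⟨P1, hP1⟩ := s37rr_restr M K1 P t1 ht1
  refine ⟨P1, hP1, fun P' hP' h' => ?_⟩
  by_contra hne
  obtain ⟨g1, hg1, hg2⟩ := hB K1 (le_sup_right.trans hK1) (P, P')
    (Finset.mk_mem_product hP hP') (fun h => hne h.symm)
  rw [hP1] at hg1
  rw [h'] at hg2
  omega

omit [NeZero M] in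
/-- **[RI-RESTR]** together with the descent of a finite set `T` of elements of `F̄_M`. -/
theorem s37rr_main' (S : Finset (Place (AlgebraicClosure ℚ) ↥(modularFunctionFieldBar M)))
    (T : Finset ↥(modularFunctionFieldBar M)) :
    ∃ K0 : IntermediateField ℚ (AlgebraicClosure ℚ), FiniteDimensional ℚ ↥K0 ∧
      ∀ K1 : IntermediateField ℚ (AlgebraicClosure ℚ), K0 ≤ K1 →
        (∀ x ∈ T, ∃ x1 : ↥(Fermat.Agent.S18.s18_F ↥K1 M), s37rr_iota M K1 x1 = x) ∧
        ∀ P ∈ S, ∃ P1 : Place ↥K1 ↥(Fermat.Agent.S18.s18_F ↥K1 M),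
          (∀ f : ↥(Fermat.Agent.S18.s18_F ↥K1 M), P.ord (s37rr_iota M K1 f) = P1.ord f) ∧
          ∀ P' ∈ S, (∀ f : ↥(Fermat.Agent.S18.s18_F ↥K1 M),
            P'.ord (s37rr_iota M K1 f) = P1.ord f) → P' = P := by
  obtain ⟨Ka, hKa, hA⟩ := s37rr_main M S
  obtain ⟨Kb, hKb, hB⟩ := s37rr_finset T
    (fun x K1 => ∃ x1 : ↥(Fermat.Agent.S18.s18_F ↥K1 M), s37rr_iota M K1 x1 = x)
    (fun x _ => s37rr_descent M x)
  exact ⟨Ka ⊔ Kb, IntermediateField.finiteDimensional_sup Ka Kb, fun K1 hK1 =>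
    ⟨hB K1 (le_sup_right.trans hK1), hA K1 (le_sup_left.trans hK1)⟩⟩

omit [NeZero M] in
/-- The restriction in the spelling of S18's [CFE]. -/
theorem s37rr_ord_eq {K1 : IntermediateField ℚ (AlgebraicClosure ℚ)}
    {P : Place (AlgebraicClosure ℚ) ↥(modularFunctionFieldBar M)}
    {P1 : Place ↥K1 ↥(Fermat.Agent.S18.s18_F ↥K1 M)}
    (h : ∀ f : ↥(Fermat.Agent.S18.s18_F ↥K1 M), P.ord (s37rr_iota M K1 f) = P1.ord f)
    (f : ↥(Fermat.Agent.S18.s18_F ↥K1 M)) (f' : ↥(modularFunctionFieldBar M))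
    (hff' : (f' : LaurentSeries (AlgebraicClosure ℚ)) =
      Fermat.Agent.S18.s18_iota K1 (f : LaurentSeries ↥K1)) : P.ord f' = P1.ord f := by
  have h1 : f' = s37rr_iota M K1 f := Subtype.ext hff'
  rw [h1]
  exact h f

end Mod

end Fermat.Agent.S37
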