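/-
S37, package [RI], leaf [RI-POS] (owner of the leaf: helper29; layer (B) and the export:
helper5).  Prefix `s37rpm_`.

    theorem s37rpm_main : S18.s18_ModelQStatement → s37ri_PosStatement

THE LOCAL STEP `Σ_{P ∈ S} ord_P(y) ≤ ord_Q(ȳ)`.  Given the finite set `S` of places of `F̄_M` and
the chart element `y`, choose ONE number field `K1 ⊆ Q̄` such that the places of `S` restrict to
pairwise distinct places of `F_{K1}(M)` with the same orders (`s37rr_main`), `y` comes from an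
`O1`-series `y1`, `O1 = A ∩ K1` (`s37rd_ser`), and `y1` lies in the chart over `O1`
(`s37rd_int`); then apply the local step at `K1` (`s37rpm_at`), which rests on the good model
over `O1` (`S18.s18_ModelQStatement`), helper29's abstract core (`s37rip_chart`) and the fact
that the elements of the chart over `O1` are integral series (`s37rpm_chart_series`).
-/
import Mathlib
import Fermat.Agent.S18.Basic
import Fermat.Agent.S18.GaussQOf
import Fermat.Agent.S18.GaussAbs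
import Fermat.Agent.S37.RIRestr
import Fermat.Agent.S37.RIPosModAt

set_option autoImplicit false
set_option linter.unusedSectionVars false
set_option linter.unusedVariables false
set_option warn.classDefReducibility false
set_option maxHeartbeats 1000000
set_option synthInstance.maxHeartbeats 400000

open AlgebraicCurve ModularCurve IntermediateField

noncomputable section

namespace Fermat.Agent.S37

open Fermat.Agent.S18

section Gen

variable (A : ValuationSubring (AlgebraicClosure ℚ)) (M : ℕ) [NeZero M]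

/-- **The local step for a coordinate `x`** with a good model of its chart over every
`O1 = A ∩ K1`. -/
theorem s37rpm_gen {ℓ : ℕ} [Fact ℓ.Prime] (hℓM : ¬ ℓ ∣ M) (hA : A.LiesOverPrime ℓ)
    (x : ↥(modularFunctionFieldBar M))
    (x1 : ∀ K1 : IntermediateField ℚ (AlgebraicClosure ℚ), ↥(s18_F ↥K1 M))
    (axZ : LaurentSeries ℤ)
    (hx1 : ∀ K1 : IntermediateField ℚ (AlgebraicClosure ℚ),
      ((x1 K1 : ↥(s18_F ↥K1 M)) : LaurentSeries ↥K1) = coeffMap (Int.castRingHom ↥K1) axZ)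
    (hxι : ∀ K1 : IntermediateField ℚ (AlgebraicClosure ℚ), s37rd_iota M K1 (x1 K1) = x)
    (hmodel : ∀ (K1 : IntermediateField ℚ (AlgebraicClosure ℚ)), FiniteDimensional ℚ ↥K1 →
      ∃ _ : IsDiscreteValuationRing ↥(s37rd_O A K1),
        letI := s18_algOF ↥(s37rd_O A K1) ↥K1 M
        haveI := s18_towerOF ↥(s37rd_O A K1) ↥K1 M
        s18_IsGoodModel ↥(s37rd_O A K1) ↥K1 ↥(s18_F ↥K1 M) (x1 K1) ∧
        s18_IsBasic ↥(s37rd_O A K1) ↥K1 ↥(s18_F ↥K1 M) (x1 K1) ∧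
        s18_HasRed ↥(s37rd_O A K1) ↥K1 M ({x1 K1} : Set ↥(s18_F ↥K1 M)))
    (Q : Place (IsLocalRing.ResidueField ↥A)
      ↥(modularFunctionFieldFullC (IsLocalRing.ResidueField ↥A) M))
    (hQx : ∀ h, (⟨coeffMap (Int.castRingHom (IsLocalRing.ResidueField ↥A)) axZ, h⟩ :
      ↥(modularFunctionFieldFullC (IsLocalRing.ResidueField ↥A) M)) ∈ Q.toValuationSubring)
    (y : LaurentSeries ↥A) (hy : coeffMap A.subtype y ∈ modularFunctionFieldBar M)
    (hyk : coeffMap (IsLocalRing.residue ↥A) y ∈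
      modularFunctionFieldFullC (IsLocalRing.ResidueField ↥A) M)
    (hint : IsIntegral ↥(s37ri_ring A M x)
      (⟨coeffMap A.subtype y, hy⟩ : ↥(modularFunctionFieldBar M)))
    (hyne : coeffMap (IsLocalRing.residue ↥A) y ≠ 0)
    (S : Finset (Place (AlgebraicClosure ℚ) ↥(modularFunctionFieldBar M)))
    (hS : ∀ P ∈ S, s37ri_Fin A M x P ∧ s37ri_SpecAt A M x P Q) :
    ∑ P ∈ S, P.ord (⟨coeffMap A.subtype y, hy⟩ : ↥(modularFunctionFieldBar M)) ≤
      Q.ord (⟨coeffMap (IsLocalRing.residue ↥A) y, hyk⟩ :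
        ↥(modularFunctionFieldFullC (IsLocalRing.ResidueField ↥A) M)) := by
  classical
  -- the number field
  obtain ⟨Ka, hKa, ha⟩ := s37rr_main M S
  obtain ⟨Kb, hKb, hb⟩ := s37rd_int A M x x1 hxι
    {(⟨coeffMap A.subtype y, hy⟩ : ↥(modularFunctionFieldBar M))}
    (fun f hf => by rw [Finset.mem_singleton.1 hf]; exact hint)
  obtain ⟨Kc, hKc, hc⟩ := s37rd_ser A M {y}
    (fun z hz => by rw [Finset.mem_singleton.1 hz]; exact hy)
  have hKab : FiniteDimensional ℚ ↥(Ka ⊔ Kb) := IntermediateField.finiteDimensional_sup Ka Kb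
  have hK1 : FiniteDimensional ℚ ↥(Ka ⊔ Kb ⊔ Kc) :=
    IntermediateField.finiteDimensional_sup (Ka ⊔ Kb) Kc
  have hle_a : Ka ≤ Ka ⊔ Kb ⊔ Kc := le_sup_left.trans le_sup_left
  have hle_b : Kb ≤ Ka ⊔ Kb ⊔ Kc := le_sup_right.trans le_sup_left
  have hle_c : Kc ≤ Ka ⊔ Kb ⊔ Kc := le_sup_right
  generalize Ka ⊔ Kb ⊔ Kc = K1 at hK1 hle_a hle_b hle_c
  obtain ⟨hdvr, hgood, hbasic, hred⟩ := hmodel K1 hK1
  obtain ⟨b, hbc, hbι⟩ := hb K1 hle_b _ (Finset.mem_singleton_self _)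
  obtain ⟨y1, hy1, hy1y⟩ := hc K1 hle_c y (Finset.mem_singleton_self _)
  have hbeq : b = ⟨coeffMap (algebraMap ↥(s37rd_O A K1) ↥K1) y1, hy1⟩ := by
    apply s37rd_iota_injective M K1
    rw [hbι]
    apply Subtype.ext
    show coeffMap A.subtype y = s18_iota K1 (coeffMap (algebraMap ↥(s37rd_O A K1) ↥K1) y1)
    rw [← s37rpm_iota_incl, hy1y]
  rw [hbeq] at hbc
  -- the restrictions of the places
  have hrestr := ha K1 hle_a
  let r : {P // P ∈ S} → Place ↥K1 ↥(s18_F ↥K1 M) := fun P => (hrestr P.1 P.2).choose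
  have hr : ∀ (P : {P // P ∈ S}) (f : ↥(s18_F ↥K1 M)),
      (P : Place (AlgebraicClosure ℚ) ↥(modularFunctionFieldBar M)).ord (s37rd_iota M K1 f) =
        (r P).ord f := fun P f => (hrestr P.1 P.2).choose_spec.1 f
  have hrinj : Function.Injective r := by
    intro P P' hPP'
    apply Subtype.ext
    refine ((hrestr P'.1 P'.2).choose_spec.2 P.1 P.2 fun f => ?_)
    rw [hr P f]
    exact congrArg (fun R : Place ↥K1 ↥(s18_F ↥K1 M) => R.ord f) hPP'
  exact s37rpm_at A M hℓM hA K1 x (x1 K1) axZ (hx1 K1) (hxι K1) hgood hbasic hred Q hQx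
    y hy hyk hyne y1 hy1 hy1y hbc S hS r hr hrinj

/-- The models of the two charts over `O1 = A ∩ K1`. -/
theorem s37rpm_models (hModel : S18.s18_ModelQStatement) {ℓ : ℕ} [Fact ℓ.Prime]
    (hℓM : ¬ ℓ ∣ M) (h49 : 4 ∣ M ∨ 9 ∣ M) (hA : A.LiesOverPrime ℓ)
    (K1 : IntermediateField ℚ (AlgebraicClosure ℚ)) (hK1 : FiniteDimensional ℚ ↥K1) :
    ∃ _ : IsDiscreteValuationRing ↥(s37rd_O A K1),
      letI := s18_algOF ↥(s37rd_O A K1) ↥K1 M
      haveI := s18_towerOF ↥(s37rd_O A K1) ↥K1 M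
      (s18_IsGoodModel ↥(s37rd_O A K1) ↥K1 ↥(s18_F ↥K1 M) (s18_j ↥K1 M) ∧
        s18_IsBasic ↥(s37rd_O A K1) ↥K1 ↥(s18_F ↥K1 M) (s18_j ↥K1 M) ∧
        s18_HasRed ↥(s37rd_O A K1) ↥K1 M ({s18_j ↥K1 M} : Set ↥(s18_F ↥K1 M))) ∧
      (s18_IsGoodModel ↥(s37rd_O A K1) ↥K1 ↥(s18_F ↥K1 M) (s18_j ↥K1 M)⁻¹ ∧
        s18_IsBasic ↥(s37rd_O A K1) ↥K1 ↥(s18_F ↥K1 M) (s18_j ↥K1 M)⁻¹ ∧
        s18_HasRed ↥(s37rd_O A K1) ↥K1 M ({(s18_j ↥K1 M)⁻¹} : Set ↥(s18_F ↥K1 M))) := by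
  obtain ⟨hdvr, hgood, -⟩ := s37rd_model A M hModel hℓM h49 hA K1
  obtain ⟨-, hg⟩ := s37rd_gaussQ A M (s18gq_main s18ga_main) hℓM hA K1
  obtain ⟨-, -, -, -, hred, hred', -⟩ := hg
  let _ := s18_algOF ↥(s37rd_O A K1) ↥K1 M
  have := s18_towerOF ↥(s37rd_O A K1) ↥K1 M
  have hbasic := s18b_main ↥(s37rd_O A K1) ↥K1 ↥(s18_F ↥K1 M) (s18_j ↥K1 M) hgood
  have hbasic' := s18b_main ↥(s37rd_O A K1) ↥K1 ↥(s18_F ↥K1 M) (s18_j ↥K1 M)⁻¹ hbasic.symm
  exact ⟨hdvr, ⟨hgood, hbasic, hred⟩, ⟨hbasic.symm, hbasic', hred'⟩⟩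

end Gen

/-- **[RI-POS]** the local step, from the good model over the discrete valuation rings of
number fields. -/
theorem s37rpm_main : S18.s18_ModelQStatement → s37ri_PosStatement := by
  intro hModel M _ ℓ _ hℓM h49 A hA x Q hxQ y hy hyk hint hyne S hS
  have hjk0 : s37ri_jk M (IsLocalRing.ResidueField ↥A) ≠ 0 :=
    s37rg_jk_ne_zero M (IsLocalRing.ResidueField ↥A)
  rcases hxQ with ⟨rfl, hQ⟩ | ⟨rfl, hQ⟩
  · -- the chart of `j`
    refine s37rpm_gen A M hℓM hA (s37ri_j M) (fun K1 => s18_j ↥K1 M) (jqModC ℤ)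
      (fun K1 => ?_) (fun K1 => s37rd_iota_j M K1) (fun K1 hK1 => ?_) Q (fun h => ?_)
      y hy hyk hint hyne S hS
    · rw [s18gq_j_coe, coeffMap_jqModC]
    · obtain ⟨hdvr, h1, -⟩ := s37rpm_models A M hModel hℓM h49 hA K1 hK1
      exact ⟨hdvr, h1⟩
    · have e : (⟨coeffMap (Int.castRingHom (IsLocalRing.ResidueField ↥A)) (jqModC ℤ), h⟩ :
          ↥(modularFunctionFieldFullC (IsLocalRing.ResidueField ↥A) M)) =
          s37ri_jk M (IsLocalRing.ResidueField ↥A) :=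
        Subtype.ext (coeffMap_jqModC _)
      rw [e, S24.place_mem_iff]
      exact hQ
  · -- the chart of `1/j`
    refine s37rpm_gen A M hℓM hA (s37ri_j M)⁻¹ (fun K1 => (s18_j ↥K1 M)⁻¹) s18gq_jinvZ
      (fun K1 => ?_) (fun K1 => s37rd_iota_jinv M K1) (fun K1 hK1 => ?_) Q (fun h => ?_)
      y hy hyk hint hyne S hS
    · show ((s18_j ↥K1 M : ↥(s18_F ↥K1 M)) : LaurentSeries ↥K1)⁻¹ = s18gq_jinv ↥K1
      rw [s18gq_j_coe, s18gq_jinv_eq_inv]
    · obtain ⟨hdvr, -, h2⟩ := s37rpm_models A M hModel hℓM h49 hA K1 hK1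
      exact ⟨hdvr, h2⟩
    · have e : (⟨coeffMap (Int.castRingHom (IsLocalRing.ResidueField ↥A)) s18gq_jinvZ, h⟩ :
          ↥(modularFunctionFieldFullC (IsLocalRing.ResidueField ↥A) M)) =
          (s37ri_jk M (IsLocalRing.ResidueField ↥A))⁻¹ := by
        apply Subtype.ext
        show s18gq_jinv (IsLocalRing.ResidueField ↥A) = (jqModC (IsLocalRing.ResidueField ↥A))⁻¹
        exact s18gq_jinv_eq_inv _
      rw [e, S24.place_mem_iff, Place.ord_inv]
      omega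

end Fermat.Agent.S37
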