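/-
S37 [RI], THE FINAL ASSEMBLY (sub-architect: helper26).  Prefix `s37ri_`.

  `s37ri_main_of : S18.s18_ModelQStatement → s37_RedInputsStatement`

The cut is `S37/RIDefs.lean`; the leaves:

  [RI-EXIST]  helper11 (`s37rie_main`; kernel clause: helper27 `s37rk_main`, helper28)
  [RI-POS]    helper29 (abstract core `s37rip_abs`, model adapter `s37rip_chart`),
              helper5 (modular layer `s37rpm_main`, restriction of places `s37rr_main`),
              helper16 (descent `s37rd_*`)
  [RI-GLOB]   helper21 (`s37rg_main`, `s37rg_glob`)
  [RI-BOUND]  helper23 (`s37rib_main`), helper12 (`s37riba_main`)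
  [RI-VALID], [RI-COVER]   helper27 (`s37riv_valid_main`, `s37riv_cover_main`)
  [RI-QEP], [RI-PGI]       helper18 (`s37pgi_qep_main`, `s37pgi_main`; key: helper27)
  [RI-FF0], [RI-FFL], [RI-RES]   helper5 (`s37rid_*`) on helper20's [FF-l] and S24

The only hypothesis left is the good model of S18 (`S18.s18_ModelQStatement`), used by [RI-POS].
-/
import Mathlib
import Fermat.Agent.S37.RIDefs
import Fermat.Agent.S37.RIExistMain
import Fermat.Agent.S37.RIPosMod
import Fermat.Agent.S37.RIGlobInst
import Fermat.Agent.S37.RIBoundAsm
import Fermat.Agent.S37.RIValidMain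
import Fermat.Agent.S37.Pgi
import Fermat.Agent.S37.RIDeg

set_option autoImplicit false

namespace Fermat.Agent.S37

/-- **[RI-DIV]** the divisor of a valid function specialises to the divisor of its reduction,
for every map on places compatible with the specialisation relation. -/
theorem s37ri_div_of (hModel : S18.s18_ModelQStatement) : s37ri_DivStatement :=
  s37rg_glob (s37rpm_main hModel) s37riba_main s37riv_valid_main s37riv_cover_main
    s37pgi_qep_main s37rid_ff0 s37rid_ffl s37rid_res

/-- **[RI]** the reduction inputs exist at every level `M` prime to `ℓ` with `4 ∣ M` or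
`9 ∣ M`, given the good model of S18. -/
theorem s37ri_main_of (hModel : S18.s18_ModelQStatement) : s37_RedInputsStatement :=
  s37ri_of s37rie_main (s37ri_div_of hModel) s37rid_deg s37pgi_main

end Fermat.Agent.S37
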