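/-
S37 package [ES-AL] (shared tool of [ES]), part 3: `W_ℓ` is an involution of `F̄_{Mℓ}`.
Owner: helper8.  Prefix `s37al_`.
-/
import Mathlib
import Fermat.Agent.S37.AtkinLehner

set_option autoImplicit false
set_option linter.style.haveILetI false

noncomputable section

namespace Fermat.Agent.S37

open Fermat.Agent.S24 UpperHalfPlane ModularCurve
open scoped MatrixGroups

section Inv

variable (M ℓ : ℕ) (x y : ℤ) (h : x * ℓ - y * M = 1) [NeZero M] [NeZero ℓ]

theorem s37al_Walg_Walg (f : FunField (M * ℓ)) :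
    s37al_Walg M ℓ x y h (s37al_Walg M ℓ x y h f) = f := by
  have key : ((s37al_Walg M ℓ x y h : FunField (M * ℓ) →+* FunField (M * ℓ)).comp
      (s37al_Walg M ℓ x y h : FunField (M * ℓ) →+* FunField (M * ℓ))) =
      RingHom.id (FunField (M * ℓ)) := by
    refine s37al_ringHom_ext _ _ ?_ ?_
    · intro c
      show s37al_Walg M ℓ x y h (s37al_Walg M ℓ x y h (algebraMap QBar (FunField (M * ℓ)) c)) =
        algebraMap QBar (FunField (M * ℓ)) c
      rw [AlgHom.commutes, AlgHom.commutes]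
    · intro d' _ hd'
      obtain ⟨d, e, hdM, heℓ, hde⟩ := (Nat.dvd_mul).1 hd'
      obtain ⟨m, hm⟩ := hdM
      obtain ⟨e', he'⟩ := heℓ
      have hd0 : d ≠ 0 := by
        rintro rfl
        rw [zero_mul] at hm
        exact NeZero.ne M hm
      have he'0 : e' ≠ 0 := by
        rintro rfl
        rw [mul_zero] at he'
        exact NeZero.ne ℓ he'
      haveI : NeZero (d * e') := ⟨mul_ne_zero hd0 he'0⟩
      have hdvd : d * e' ∣ M * ℓ := by
        rw [hm, he']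
        exact Nat.mul_dvd_mul (dvd_mul_right d m) (dvd_mul_left e' e)
      have h1 : s37al_Walg M ℓ x y h (jDiv (M * ℓ) d' hd') = jDiv (M * ℓ) (d * e') hdvd :=
        Subtype.ext (s37al_Wser_jDiv M ℓ x y h d' (d * e') d m e e' hm.symm he'.symm hde.symm rfl hd')
      have h2 : s37al_Walg M ℓ x y h (jDiv (M * ℓ) (d * e') hdvd) = jDiv (M * ℓ) d' hd' :=
        Subtype.ext (s37al_Wser_jDiv M ℓ x y h (d * e') d' d m e' e hm.symm
          ((mul_comm e' e).trans he'.symm) rfl hde.symm hdvd)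
      show s37al_Walg M ℓ x y h (s37al_Walg M ℓ x y h (jDiv (M * ℓ) d' hd')) = jDiv (M * ℓ) d' hd'
      rw [h1, h2]
  exact RingHom.congr_fun key f

/-- The Atkin-Lehner involution as an automorphism of `F̄_{Mℓ}`. -/
def s37al_Wequiv : FunField (M * ℓ) ≃ₐ[QBar] FunField (M * ℓ) :=
  AlgEquiv.ofAlgHom (s37al_Walg M ℓ x y h) (s37al_Walg M ℓ x y h)
    (AlgHom.ext (s37al_Walg_Walg M ℓ x y h)) (AlgHom.ext (s37al_Walg_Walg M ℓ x y h))

theorem s37al_Wequiv_apply (f : FunField (M * ℓ)) :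
    s37al_Wequiv M ℓ x y h f = s37al_Walg M ℓ x y h f := rfl

theorem s37al_Wequiv_symm_apply (f : FunField (M * ℓ)) :
    (s37al_Wequiv M ℓ x y h).symm f = s37al_Walg M ℓ x y h f := rfl

end Inv

/-- **[ES-AL]**, automorphism form: the Atkin-Lehner involution `W_ℓ` of `F̄_{Mℓ}` is an
automorphism of order two which swaps the two degeneracy maps. -/
theorem s37al_W_equiv (M ℓ : ℕ) [NeZero M] [NeZero ℓ] (hc : Nat.Coprime M ℓ) :
    ∃ W : ↥(modularFunctionFieldBar (M * ℓ)) ≃ₐ[AlgebraicClosure ℚ]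
        ↥(modularFunctionFieldBar (M * ℓ)),
      (∀ f, W (W f) = f) ∧
      (∀ f : ↥(modularFunctionFieldBar M),
        W (heckeAlphaBar (AlgebraicClosure ℚ) M ℓ f) = heckeBetaBar (AlgebraicClosure ℚ) M ℓ f) ∧
      (∀ f : ↥(modularFunctionFieldBar M),
        W (heckeBetaBar (AlgebraicClosure ℚ) M ℓ f) = heckeAlphaBar (AlgebraicClosure ℚ) M ℓ f) := by
  have hb := Nat.gcd_eq_gcd_ab M ℓ
  rw [Nat.Coprime.gcd_eq_one hc] at hb
  have h : (Nat.gcdB M ℓ) * (ℓ : ℤ) - (-(Nat.gcdA M ℓ)) * (M : ℤ) = 1 := by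
    have : ((1 : ℕ) : ℤ) = 1 := rfl
    rw [this] at hb
    rw [hb]
    ring
  exact ⟨s37al_Wequiv M ℓ (Nat.gcdB M ℓ) (-(Nat.gcdA M ℓ)) h,
    s37al_Walg_Walg M ℓ _ _ h, s37al_Walg_alpha M ℓ _ _ h, s37al_Walg_beta M ℓ _ _ h⟩

end Fermat.Agent.S37
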