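/-
S37, package (4) [DESCEND] (sub-architect: helper25).  Prefix `s37d_`.
THE CUT: the conorm `s37d_c`, the two open `Prop`s and the compiled composition

  `s37d_of : s37d_HeckeAtStatement → s37d_InjAtStatement → s37_DescendStatement`.

NOTATION.  `N ∣ M`, `i : F̄_N → F̄_M` the inclusion (`s37dg_incl QBar h`, helper12),
`c := s37d_c h : J₀(N) → J₀(M)` the conorm (pull-back of divisor classes), spelled as
helper12's `s37dg_pullbackHomAlong i hi hFI` with helper14's witnesses `hi`, `hFI`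
(`s37hi_integral`, `s37hi_fundamental`, `s37hi_principalBar`).  All hypotheses of
`s37dg_pullbackHomAlong` are `Prop`s, so `s37d_c h` IS (by `rfl`, see `s37d_c_eq`)
`s37dg_pullbackHomAlong (s37dg_incl QBar h) hφ hFI` for ANY `hφ`, `hFI` and any instance of
`HasPrincipalDivisors`: a theorem stated for all `hφ`, `hFI` applies verbatim.

  (a) [D-GAL-AT]   `s37d_gal`  DONE here (from helper12's `s37dg_main`).
  (b) [D-HECKE-AT] `s37d_HeckeAtStatement`  `c ∘ T_ℓ^N = T_ℓ^M ∘ c` for `N ∣ M`, `ℓ ∤ M`.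
        ROUTE (helper19): `s37bc_corr` (base change of correspondences, on main) with
        `hnorm` (norm base change, from helper17's explicit norm formula `s37es_nm_norm`
        at the levels `N` and `M`) and `hWA` (weak approximation in a fibre); then
        `s37hi_hecke_eq` / `heckeOperatorAlong_eq` for `heckeOperatorBar`.
  (c) [D-INJ-AT]   `s37d_InjAtStatement`  `c` is injective on torsion for `M = s18_level N ℓ`.
        ROUTE (helper22): `m D = div u`, `i^* D = div v` ⟹ `v ^ m = κ · i u`, `κ = lam ^ m`,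
        `S18.s18d_core` ⟹ `v / lam = i y` ⟹ `D = div y`.
-/
import Mathlib
import Fermat.Agent.S37.RhoDefs
import Fermat.Agent.S37.DescGalMod
import Fermat.Agent.S37.HeckeInputsMod

set_option autoImplicit false

open ModularCurve AlgebraicCurve

noncomputable section

namespace Fermat.Agent.S37

open Fermat.Agent.S24

/-! ### The conorm `J₀(N) → J₀(M)` -/

theorem s37d_incl_integral {N M : ℕ} [NeZero N] [NeZero M] (h : N ∣ M) :
    (s37dg_incl QBar h).toRingHom.IsIntegral :=
  s37hi_integral (K := QBar) (final_jCoordinate N) (final_jCoordinate M) (s37dg_incl QBar h)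

theorem s37d_incl_finite {N M : ℕ} [NeZero N] [NeZero M] (h : N ∣ M) :
    FiniteAlong QBar (s37dg_incl QBar h) :=
  s37hi_finite (K := QBar) (final_jCoordinate N) (final_jCoordinate M) (s37dg_incl QBar h)

theorem s37d_incl_fundamental {N M : ℕ} [NeZero N] [NeZero M] (h : N ∣ M)
    (hφ : (s37dg_incl QBar h).toRingHom.IsIntegral)
    [HasPrincipalDivisors QBar (FunField M)] :
    FundamentalIdentityAlong QBar (s37dg_incl QBar h) hφ :=
  s37hi_fundamental (K := QBar) (final_jCoordinate N) (final_jCoordinate M)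
    (s37dg_incl QBar h) hφ

/-- **The conorm** `c : J₀(N) → J₀(M)` for `N ∣ M`. -/
def s37d_c {N M : ℕ} [NeZero N] [NeZero M] (h : N ∣ M) : JZero N →+ JZero M :=
  haveI := s37hi_principalBar M
  s37dg_pullbackHomAlong (s37dg_incl QBar h) (s37d_incl_integral h)
    (s37d_incl_fundamental h (s37d_incl_integral h))

/-- `s37d_c` is helper12's `s37dg_pullbackHomAlong` for ANY choice of the witnesses. -/
theorem s37d_c_eq {N M : ℕ} [NeZero N] [NeZero M] (h : N ∣ M)
    (hφ : (s37dg_incl QBar h).toRingHom.IsIntegral)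
    [HasPrincipalDivisors QBar (FunField M)]
    (hFI : FundamentalIdentityAlong QBar (s37dg_incl QBar h) hφ) :
    s37d_c h = s37dg_pullbackHomAlong (s37dg_incl QBar h) hφ hFI := rfl

/-- The value of the conorm on the class of a divisor of degree `0`. -/
theorem s37d_c_mk {N M : ℕ} [NeZero N] [NeZero M] (h : N ∣ M)
    (hφ : (s37dg_incl QBar h).toRingHom.IsIntegral)
    [HasPrincipalDivisors QBar (FunField M)]
    (D : Divisor.degZero (K := QBar) (F := FunField N))
    (hD : Divisor.pullbackAlong (s37dg_incl QBar h) hφ D ∈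
      Divisor.degZero (K := QBar) (F := FunField M)) :
    s37d_c h (Pic0.mk D) = Pic0.mk ⟨Divisor.pullbackAlong (s37dg_incl QBar h) hφ D, hD⟩ := rfl

/-! ### The statements -/

/-- **[D-GAL-AT]** the conorm `J₀(N) → J₀(M)` is Galois equivariant.  (helper12) -/
theorem s37d_gal {N M : ℕ} [NeZero N] [NeZero M] (h : N ∣ M)
    (σ : AlgebraicClosure ℚ ≃ₐ[ℚ] AlgebraicClosure ℚ) (x : JZero N) :
    s37d_c h (σ • x) = σ • s37d_c h x :=
  haveI := s37hi_principalBar M
  s37dg_main h (s37d_incl_integral h) (s37d_incl_fundamental h (s37d_incl_integral h)) σ x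

/-- **[D-HECKE-AT]** the conorm `J₀(N) → J₀(M)` commutes with `T_ℓ`, `ℓ ∤ M`. -/
def s37d_HeckeAtStatement : Prop :=
  ∀ (N M : ℕ) [NeZero N] [NeZero M] (h : N ∣ M) (ℓ : ℕ) (hℓ : ℓ.Prime), ¬ ℓ ∣ M →
    ∀ x : JZero N,
      s37d_c h (heckeOperatorBar N ⟨ℓ, hℓ⟩ x) = heckeOperatorBar M ⟨ℓ, hℓ⟩ (s37d_c h x)

/-- **[D-INJ-AT]** the conorm `J₀(N) → J₀(s18_level N ℓ)` is injective on torsion. -/
def s37d_InjAtStatement : Prop :=
  ∀ (N ℓ : ℕ) [NeZero N] [NeZero (S18.s18_level N ℓ)] (h : N ∣ S18.s18_level N ℓ) (m : ℕ),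
    m ≠ 0 → ∀ x : JZero N, m • x = 0 → s37d_c h x = 0 → x = 0

/-! ### The composition -/

theorem s37d_dvd_level (N ℓ : ℕ) : N ∣ S18.s18_level N ℓ := by
  unfold S18.s18_level
  split_ifs
  · exact Nat.dvd_lcm_left N 9
  · exact Nat.dvd_lcm_left N 4

/-- **The composition**: [DESCEND] from (b) and (c). -/
theorem s37d_of (hB : s37d_HeckeAtStatement) (hC : s37d_InjAtStatement) :
    s37_DescendStatement := by
  intro N _ ℓ hℓ hℓN
  have : Fact ℓ.Prime := ⟨hℓ⟩
  have : NeZero (S18.s18_level N ℓ) := ⟨S18.s18_level_ne_zero N ℓ⟩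
  have hNM : N ∣ S18.s18_level N ℓ := s37d_dvd_level N ℓ
  have hℓM : ¬ ℓ ∣ S18.s18_level N ℓ := S18.s18_level_not_dvd N ℓ hℓN
  refine ⟨s37d_c hNM, fun σ x => s37d_gal hNM σ x, fun x => ?_, fun m hm x hmx hx => ?_⟩
  · exact hB N (S18.s18_level N ℓ) hNM ℓ hℓ hℓM x
  · have hm0 : m ≠ 0 := by
      rintro rfl
      exact hm (dvd_zero ℓ)
    exact hC N ℓ hNM m hm0 x hmx hx

end Fermat.Agent.S37
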