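/-
S37 / [DESCEND] (b) = [D-HECKE-AT] (helper19): `s37d_HeckeAtStatement` of helper25's cut
(`S37/DescendDefs.lean`), VERBATIM and hypothesis-free: the conorm `s37d_c h : J₀(N) → J₀(M)`
commutes with `T_ℓ` for every `N ∣ M` and every prime `ℓ ∤ M`.  Prefix `s37bc_`.
-/
import Mathlib
import Fermat.Agent.S37.DescendDefs
import Fermat.Agent.S37.DescBCMod

set_option autoImplicit false

open ModularCurve AlgebraicCurve Fermat.Agent.S24

noncomputable section

namespace Fermat.Agent.S37

/-- **[D-HECKE-AT]** = clause (b) of [DESCEND], hypothesis-free. -/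
theorem s37bc_heckeAt : s37d_HeckeAtStatement := by
  intro N M _ _ h ℓ hℓ hℓM x
  haveI : NeZero ℓ := ⟨hℓ.ne_zero⟩
  haveI := s37hi_principalBar M
  have hD : ∀ D : Divisor.degZero (K := QBar) (F := FunField N),
      Divisor.pullbackAlong (s37dg_incl QBar h) (s37d_incl_integral h)
        (D : Divisor QBar (FunField N)) ∈ Divisor.degZero (K := QBar) (F := FunField M) :=
    fun D => Divisor.pullbackAlong_mem_degZero (s37dg_incl QBar h) (s37d_incl_integral h)
      (s37d_incl_fundamental h _) D.2
  exact s37bc_mod ℓ h hℓ hℓM (s37d_incl_integral h) (s37d_c h)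
    (fun D => ⟨hD D, s37d_c_mk h (s37d_incl_integral h) D (hD D)⟩) x

end Fermat.Agent.S37
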