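/-
S37, package (4) [DESCEND] (sub-architect: helper25).  Prefix `s37d_`.
ASSEMBLY OF CLAUSE (b):

  `s37d_hecke_of : s37d_WAStatement → s37d_NormBCStatement → s37d_HeckeAtStatement`

from helper19's base change of correspondences `s37bc_corr`, helper14's [HECKE-INPUTS]
(`s37hi_hecke_mk`, `s37hi_alpha_*`, `s37hi_beta_*`), helper6's [HI-NORM] `s37hn_main` and
`s37d_c_mk`.  The two `Prop`s are verbatim the hypotheses `hWA`, `hnorm` of `s37bc_corr` at
the modular instance.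
-/
import Mathlib
import Fermat.Agent.S37.DescendDefs
import Fermat.Agent.S37.DescBC
import Fermat.Agent.S37.HeckeInputsNormAbs

set_option autoImplicit false

open ModularCurve AlgebraicCurve

noncomputable section

namespace Fermat.Agent.S37

open Fermat.Agent.S24

/-- **[D-WA]** weak approximation in the fibres of `α : F̄_N → F̄_{Nℓ}`: every place of
`F̄_{Nℓ}` is a zero or a pole of a function which is a unit at the other places of its
fibre. -/
def s37d_WAStatement : Prop :=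
  ∀ (N ℓ : ℕ) [NeZero N] [NeZero ℓ] (hα : (heckeAlphaBar QBar N ℓ).toRingHom.IsIntegral)
    (P₁ : Place QBar (FunField (N * ℓ))),
    ∃ f : FunField (N * ℓ), f ≠ 0 ∧ P₁.ord f ≠ 0 ∧
      ∀ P₁' : Place QBar (FunField (N * ℓ)), P₁' ≠ P₁ →
        P₁'.restrictAlong (heckeAlphaBar QBar N ℓ) hα =
          P₁.restrictAlong (heckeAlphaBar QBar N ℓ) hα → P₁'.ord f = 0

/-- **[D-NBC]** norm base change: `N_{F̄_{Mℓ}/F̄_M} (f) = N_{F̄_{Nℓ}/F̄_N} (f)` for
`f ∈ F̄_{Nℓ}`, `N ∣ M`, `ℓ ∤ M` prime. -/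
def s37d_NormBCStatement : Prop :=
  ∀ (N M : ℕ) [NeZero N] [NeZero M] (h : N ∣ M) (ℓ : ℕ) [NeZero ℓ], ℓ.Prime → ¬ ℓ ∣ M →
    ∀ f : FunField (N * ℓ),
      s37bc_normAlong (heckeAlphaBar QBar M ℓ) (s37dg_incl QBar (mul_dvd_mul_right h ℓ) f) =
        s37dg_incl QBar h (s37bc_normAlong (heckeAlphaBar QBar N ℓ) f)

section Squares

variable {N M : ℕ} [NeZero N] [NeZero M] (h : N ∣ M) (ℓ : ℕ) [NeZero ℓ]

/-- The square of the `α`'s commutes. -/
theorem s37d_alpha_comm :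
    (heckeAlphaBar QBar M ℓ).comp (s37dg_incl QBar h) =
      (s37dg_incl QBar (mul_dvd_mul_right h ℓ)).comp (heckeAlphaBar QBar N ℓ) := by
  apply AlgHom.ext
  intro x
  apply Subtype.ext
  simp only [AlgHom.comp_apply, coe_heckeAlphaBar, s37dg_coe_incl]

/-- The square of the `β`'s commutes. -/
theorem s37d_beta_comm :
    (heckeBetaBar QBar M ℓ).comp (s37dg_incl QBar h) =
      (s37dg_incl QBar (mul_dvd_mul_right h ℓ)).comp (heckeBetaBar QBar N ℓ) := by
  apply AlgHom.ext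
  intro x
  apply Subtype.ext
  simp only [AlgHom.comp_apply, coe_heckeBetaBar, s37dg_coe_incl]

end Squares

section Assembly

variable {N M : ℕ} [NeZero N] [NeZero M] (h : N ∣ M) (ℓ : ℕ) [NeZero ℓ]

/-- the divisor-level identity `i^* ∘ (α_* β^*) = (α_* β^*) ∘ i^*`. -/
theorem s37d_hecke_div (hWA : s37d_WAStatement) (hNBC : s37d_NormBCStatement)
    (hℓ : ℓ.Prime) (hℓM : ¬ ℓ ∣ M)
    [HasPrincipalDivisors QBar (FunField M)] [HasPrincipalDivisors QBar (FunField (N * ℓ))]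
    [HasPrincipalDivisors QBar (FunField (M * ℓ))]
    (hαN : (heckeAlphaBar QBar N ℓ).toRingHom.IsIntegral)
    (hβN : (heckeBetaBar QBar N ℓ).toRingHom.IsIntegral)
    (hαM : (heckeAlphaBar QBar M ℓ).toRingHom.IsIntegral)
    (hβM : (heckeBetaBar QBar M ℓ).toRingHom.IsIntegral)
    (hi : (s37dg_incl QBar h).toRingHom.IsIntegral)
    (D : Divisor QBar (FunField N)) :
    Divisor.pullbackAlong (s37dg_incl QBar h) hi
        (Divisor.pushforwardAlong (heckeAlphaBar QBar N ℓ) hαN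
          (Divisor.pullbackAlong (heckeBetaBar QBar N ℓ) hβN D)) =
      Divisor.pushforwardAlong (heckeAlphaBar QBar M ℓ) hαM
        (Divisor.pullbackAlong (heckeBetaBar QBar M ℓ) hβM
          (Divisor.pullbackAlong (s37dg_incl QBar h) hi D)) := by
  have hfαN := s37hi_alpha_finite N ℓ
  have hfαM := s37hi_alpha_finite M ℓ
  have hNαN := s37hi_alpha_norm N ℓ s37hn_main hfαN
  have hNαM := s37hi_alpha_norm M ℓ s37hn_main hfαM
  have hi' := s37d_incl_integral (mul_dvd_mul_right h ℓ)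
  have key := @s37bc_corr QBar (FunField N) (FunField (N * ℓ)) (FunField M) (FunField (M * ℓ))
    _ _ _ _ _ _ _ _ _ _ _ _
    (heckeAlphaBar QBar N ℓ) (heckeBetaBar QBar N ℓ) (s37dg_incl QBar h)
    (heckeAlphaBar QBar M ℓ) (heckeBetaBar QBar M ℓ) (s37dg_incl QBar (mul_dvd_mul_right h ℓ))
    hαN hβN hi hαM hβM hi' (s37d_alpha_comm h ℓ) (s37d_beta_comm h ℓ) hfαN hfαM hNαN hNαM
    (hNBC N M h ℓ hℓ hℓM) (hWA N ℓ hαN) D
  rw [Divisor.correspondence_apply, Divisor.correspondence_apply] at key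
  exact key

end Assembly

/-- **[D-HECKE-OF]** the conorm commutes with `T_ℓ`. -/
theorem s37d_hecke_of (hWA : s37d_WAStatement) (hNBC : s37d_NormBCStatement) :
    s37d_HeckeAtStatement := by
  intro N M _ _ h ℓ hℓ hℓM x
  have : NeZero ℓ := ⟨hℓ.ne_zero⟩
  have hPM := s37hi_principalBar M
  have hPNℓ := s37hi_principalBar (N * ℓ)
  have hPMℓ := s37hi_principalBar (M * ℓ)
  obtain ⟨D, rfl⟩ := Pic0.mk_surjective x
  have hαN := s37hi_alpha_integral N ℓ
  have hβN := s37hi_beta_integral N ℓ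
  have hαM := s37hi_alpha_integral M ℓ
  have hβM := s37hi_beta_integral M ℓ
  have hfαN := s37hi_alpha_finite N ℓ
  have hfαM := s37hi_alpha_finite M ℓ
  have hFIβN := s37hi_beta_fundamental N ℓ hβN
  have hFIβM := s37hi_beta_fundamental M ℓ hβM
  have hNαN := s37hi_alpha_norm N ℓ s37hn_main hfαN
  have hNαM := s37hi_alpha_norm M ℓ s37hn_main hfαM
  have hi := s37d_incl_integral h
  have hFIi := s37d_incl_fundamental h hi
  have hm1 : Divisor.pullbackAlong (s37dg_incl QBar h) hi (D : Divisor QBar (FunField N)) ∈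
      Divisor.degZero (K := QBar) (F := FunField M) :=
    Divisor.pullbackAlong_mem_degZero (s37dg_incl QBar h) hi hFIi D.2
  have hm2 : Divisor.pushforwardAlong (heckeAlphaBar QBar N ℓ) hαN
      (Divisor.pullbackAlong (heckeBetaBar QBar N ℓ) hβN (D : Divisor QBar (FunField N))) ∈
      Divisor.degZero (K := QBar) (F := FunField N) :=
    Divisor.correspondence_mem_degZero (heckeBetaBar QBar N ℓ) (heckeAlphaBar QBar N ℓ)
        hβN hαN hFIβN D.2
  have hm3 : Divisor.pullbackAlong (s37dg_incl QBar h) hi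
      (Divisor.pushforwardAlong (heckeAlphaBar QBar N ℓ) hαN
        (Divisor.pullbackAlong (heckeBetaBar QBar N ℓ) hβN (D : Divisor QBar (FunField N)))) ∈
      Divisor.degZero (K := QBar) (F := FunField M) :=
    Divisor.pullbackAlong_mem_degZero (s37dg_incl QBar h) hi hFIi hm2
  have e1 : heckeOperatorBar N ⟨ℓ, hℓ⟩ (Pic0.mk D) = Pic0.mk ⟨_, hm2⟩ :=
    s37hi_hecke_mk hℓ hαN hβN hFIβN hfαN hNαN D
  have e2 : s37d_c h (Pic0.mk D) = Pic0.mk ⟨_, hm1⟩ := s37d_c_mk h hi D hm1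
  have e3 := s37hi_hecke_mk hℓ hαM hβM hFIβM hfαM hNαM ⟨_, hm1⟩
  have e4 : s37d_c h (Pic0.mk ⟨_, hm2⟩) = Pic0.mk ⟨_, hm3⟩ := s37d_c_mk h hi ⟨_, hm2⟩ hm3
  rw [e1, e4, e2, e3]
  congr 1
  apply Subtype.ext
  exact s37d_hecke_div h ℓ hWA hNBC hℓ hℓM hαN hβN hαM hβM hi D

end Fermat.Agent.S37
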