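/-
S37 [EQ-TRANSPORT] (helper24).  Prefix `s37eqt_`.

The FORMAL half of [EQ] (`s37_EquivStatement` of `S37/RhoDefs.lean`): the reduction map
`red : J₀(M)(Q̄) → Pic⁰(F_k(M))` is equivariant for the decomposition group of `A`.

Notation: `σ` in the decomposition group of `A`, `g := arithmeticGalois _ σ` (coefficientwise
action on `F̄_M ⊆ Q̄((q))`), `g' := s37_coeffAut k M σ̄` (coefficientwise action of the induced
automorphism `σ̄` of the residue field `k` on `F_k(M) ⊆ k((q))`), `r` a place reduction.

KEY STEP (`s37eqt_integral`): for the divisor `D` of a valid `y ∈ A((q))`: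
    `r_* (g • D) = g' • r_* D`
(the conjugate series `y^σ` is valid again, with reduction `σ̄(ȳ)`, and `div (y^σ) = g • div y`).
By `PrincipalGeneratedByIntegral` the same holds for all principal divisors
(`s37eqt_principal`).

TWO WAYS TO FINISH:
 (U) from UNIQUENESS of the place reduction (`s37eqt_main`): `P ↦ g'⁻¹ • r (g • P)` is again a
     place reduction (`s37eqt_isPlaceReduction`), hence equal to `r`, i.e. `r (g • P) = g' • r P`
     (`s37eqt_place_of_uniq`).
 (B) from a BOUNDEDNESS lemma (`s37eqt_main_of_bdd`): the defect `r_* ∘ g - g' ∘ r_*` kills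
     principal divisors and its coefficients are bounded by `1` on places; an additive functional
     with these two properties vanishes on divisors of degree `0`.

Everything is proved for an abstract residue map `π : A →+* k` first (the instance search on the
concrete residue field is slow) and instantiated at the end.
-/
import Mathlib
import Fermat.Prelude.Def_ModularCurve_ReductionModL
import Fermat.Agent.S37.RhoDefs

set_option autoImplicit false
set_option linter.unusedSectionVars false

open ModularCurve AlgebraicCurve IntermediateField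

noncomputable section

namespace Fermat.Agent.S37

/-! ### Generic bookkeeping for semilinear automorphisms acting on divisors -/

section Generic

variable {K F : Type*} [Field K] [Field F] [Algebra K F]

/-- `ord_{g⁻¹ P} f = ord_P (g f)`. -/
theorem s37eqt_ord_inv_smul (g : SemilinearAut K F) (P : Place K F) (f : F) :
    (g⁻¹ • P).ord f = P.ord (g • f) := by
  have h := SemilinearAut.ord_smul g (g⁻¹ • P) f
  rw [smul_inv_smul] at h
  exact h.symm

/-- If `D = div f` (pointwise), then `g • D = div (g f)`. -/
theorem s37eqt_smul_div (g : SemilinearAut K F) (D : Divisor K F) (f : F)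
    (hD : ∀ P, D P = P.ord f) (P : Place K F) : (g • D) P = P.ord (g • f) := by
  rw [SemilinearAut.divisor_smul_apply, hD, s37eqt_ord_inv_smul]

variable {K' F' : Type*} [Field K'] [Field F'] [Algebra K' F']

/-- A map of places intertwining `g` and `g'` induces a map of divisors intertwining them. -/
theorem s37eqt_mapDomain_of_place (g : SemilinearAut K F) (g' : SemilinearAut K' F')
    (r : Place K F → Place K' F') (hpl : ∀ P, r (g • P) = g' • r P) (D : Divisor K F) :
    Finsupp.mapDomain r (g • D) = g' • Finsupp.mapDomain r D := by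
  rw [SemilinearAut.divisor_smul_def, SemilinearAut.divisor_smul_def,
    ← Finsupp.mapDomain_comp, ← Finsupp.mapDomain_comp]
  exact congrArg (fun f => Finsupp.mapDomain f D) (funext hpl)

/-- The twisted map `P ↦ g'⁻¹ • r (g • P)` on divisors. -/
theorem s37eqt_mapDomain_twist (g : SemilinearAut K F) (g' : SemilinearAut K' F')
    (r : Place K F → Place K' F') (D : Divisor K F) :
    Finsupp.mapDomain (fun P => g'⁻¹ • r (g • P)) D = g'⁻¹ • Finsupp.mapDomain r (g • D) := by
  rw [SemilinearAut.divisor_smul_def, SemilinearAut.divisor_smul_def,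
    ← Finsupp.mapDomain_comp, ← Finsupp.mapDomain_comp]
  rfl

/-- The defect `r_* ∘ g - g' ∘ r_*` as an additive map of divisors. -/
def s37eqt_defect (g : SemilinearAut K F) (g' : SemilinearAut K' F')
    (r : Place K F → Place K' F') : Divisor K F →+ Divisor K' F' :=
  (Finsupp.mapDomain.addMonoidHom r).comp (DistribSMul.toAddMonoidHom (Divisor K F) g) -
    (DistribSMul.toAddMonoidHom (Divisor K' F') g').comp (Finsupp.mapDomain.addMonoidHom r)

theorem s37eqt_defect_apply (g : SemilinearAut K F) (g' : SemilinearAut K' F')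
    (r : Place K F → Place K' F') (D : Divisor K F) :
    s37eqt_defect g g' r D = Finsupp.mapDomain r (g • D) - g' • Finsupp.mapDomain r D := rfl

theorem s37eqt_defect_eq_zero_iff (g : SemilinearAut K F) (g' : SemilinearAut K' F')
    (r : Place K F → Place K' F') (D : Divisor K F) :
    s37eqt_defect g g' r D = 0 ↔ Finsupp.mapDomain r (g • D) = g' • Finsupp.mapDomain r D := by
  rw [s37eqt_defect_apply, sub_eq_zero]

/-- The coefficients of the defect of a single place are bounded by `1`. -/
theorem s37eqt_defect_single_abs (g : SemilinearAut K F) (g' : SemilinearAut K' F')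
    (r : Place K F → Place K' F') (P : Place K F) (Q : Place K' F') :
    |s37eqt_defect g g' r (Finsupp.single P 1) Q| ≤ 1 := by
  classical
  rw [s37eqt_defect_apply, SemilinearAut.smul_single, Finsupp.mapDomain_single,
    Finsupp.mapDomain_single, SemilinearAut.smul_single, Finsupp.sub_apply,
    Finsupp.single_apply, Finsupp.single_apply]
  split_ifs <;> simp

end Generic

/-! ### The key step, for an abstract residue map -/

section Key

variable {L : Type} [Field L] [Algebra ℚ L] {A : ValuationSubring L} {k : Type} [Field k]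
  {π : A →+* k} {M : ℕ} [NeZero M]
  {r : Place L (laurentBaseChange L (modularFunctionFieldFull M)) →
      Place k (modularFunctionFieldFullC k M)}
  (σ : L ≃ₐ[ℚ] L) (σA : A →+* A) (e : k ≃+* k)

theorem s37eqt_coeffMap_subtype (h1 : ∀ a : A, ((σA a : A) : L) = σ (a : L))
    (y : LaurentSeries A) :
    coeffMap A.subtype (coeffMap σA y) = coeffMap (σ : L →+* L) (coeffMap A.subtype y) := by
  rw [coeffMap_coeffMap, coeffMap_coeffMap]
  exact coeffMap_congr (RingHom.ext fun a => h1 a) y

theorem s37eqt_coeffMap_residue (h2 : ∀ a : A, π (σA a) = e (π a)) (y : LaurentSeries A) :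
    coeffMap π (coeffMap σA y) = coeffMap (e : k →+* k) (coeffMap π y) := by
  rw [coeffMap_coeffMap, coeffMap_coeffMap]
  exact coeffMap_congr (RingHom.ext fun a => h2 a) y

/-- **Key step.**  On the divisor of a valid integral function, the reduction of divisors
intertwines `σ` and `σ̄`. -/
theorem s37eqt_integral (h1 : ∀ a : A, ((σA a : A) : L) = σ (a : L))
    (h2 : ∀ a : A, π (σA a) = e (π a)) (hr : IsPlaceReductionAlong A π M r)
    {D : Divisor L (laurentBaseChange L (modularFunctionFieldFull M))}
    (hD : D ∈ integralPrincipalDivisors A π M) :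
    Finsupp.mapDomain r (arithmeticGalois (modularFunctionFieldFull M) σ • D) =
      s37_coeffAut k M e • Finsupp.mapDomain r D := by
  obtain ⟨y, hy, hyk, hne, hDy⟩ := hD
  -- the conjugate series
  have hy' : coeffMap A.subtype (coeffMap σA y) ∈
      laurentBaseChange L (modularFunctionFieldFull M) := by
    rw [s37eqt_coeffMap_subtype σ σA h1]
    exact coeffMap_mem_laurentBaseChange σ hy
  have hyk' : coeffMap π (coeffMap σA y) ∈ modularFunctionFieldFullC k M := by
    rw [s37eqt_coeffMap_residue σA e h2]
    exact s37_coeffMap_mem _ M _ hyk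
  have e1 : arithmeticGalois (modularFunctionFieldFull M) σ •
      (⟨coeffMap A.subtype y, hy⟩ : laurentBaseChange L (modularFunctionFieldFull M)) =
      ⟨coeffMap A.subtype (coeffMap σA y), hy'⟩ :=
    Subtype.ext (s37eqt_coeffMap_subtype σ σA h1 y).symm
  have e2 : s37_coeffAut k M e •
      (⟨coeffMap π y, hyk⟩ : modularFunctionFieldFullC k M) =
      ⟨coeffMap π (coeffMap σA y), hyk'⟩ :=
    Subtype.ext (s37eqt_coeffMap_residue σA e h2 y).symm
  have hne' : coeffMap π (coeffMap σA y) ≠ 0 := by
    intro h0
    have h3 : s37_coeffAut k M e •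
      (⟨coeffMap π y, hyk⟩ : modularFunctionFieldFullC k M) = 0 := by
      rw [e2]
      exact Subtype.ext h0
    rw [smul_eq_zero_iff_eq] at h3
    exact hne (congrArg Subtype.val h3)
  ext Q
  have h3 := hr.2 (coeffMap σA y) hy' hyk' hne'
    (arithmeticGalois (modularFunctionFieldFull M) σ • D)
    (fun P => by rw [← e1]; exact s37eqt_smul_div _ D _ hDy P) Q
  have h4 := hr.2 y hy hyk hne D hDy
  rw [h3, ← e2]
  exact (s37eqt_smul_div _ _ _ h4 Q).symm

/-- The same on ALL principal divisors, if they are generated by the integral ones. -/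
theorem s37eqt_principal (h1 : ∀ a : A, ((σA a : A) : L) = σ (a : L))
    (h2 : ∀ a : A, π (σA a) = e (π a)) (hr : IsPlaceReductionAlong A π M r)
    (hgen : PrincipalGeneratedByIntegral A π M)
    {D : Divisor L (laurentBaseChange L (modularFunctionFieldFull M))}
    (hD : D ∈ Divisor.principal (K := L) (F := laurentBaseChange L (modularFunctionFieldFull M))) :
    Finsupp.mapDomain r (arithmeticGalois (modularFunctionFieldFull M) σ • D) =
      s37_coeffAut k M e • Finsupp.mapDomain r D := by
  rw [← s37eqt_defect_eq_zero_iff]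
  have hD' := hgen hD
  clear hD
  induction hD' using AddSubgroup.closure_induction with
  | mem E hE =>
    rw [s37eqt_defect_eq_zero_iff]
    exact s37eqt_integral σ σA e h1 h2 hr hE
  | zero => exact map_zero _
  | add E E' _ _ hE hE' => rw [map_add, hE, hE', add_zero]
  | neg E _ hE => rw [map_neg, hE, neg_zero]

/-- The twisted map `P ↦ g'⁻¹ • r (g • P)` is again a place reduction. -/
theorem s37eqt_isPlaceReduction (h1 : ∀ a : A, ((σA a : A) : L) = σ (a : L))
    (h2 : ∀ a : A, π (σA a) = e (π a)) (hr : IsPlaceReductionAlong A π M r) :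
    IsPlaceReductionAlong A π M
      (fun P => (s37_coeffAut k M e)⁻¹ • r (arithmeticGalois (modularFunctionFieldFull M) σ • P)) := by
  refine ⟨fun P => ?_, fun y hy hyk hne D hDy Q => ?_⟩
  · rw [SemilinearAut.deg_smul, hr.1, SemilinearAut.deg_smul]
  · rw [s37eqt_mapDomain_twist,
      s37eqt_integral σ σA e h1 h2 hr ⟨y, hy, hyk, hne, hDy⟩, inv_smul_smul]
    exact hr.2 y hy hyk hne D hDy Q

/-- **(U)** If the place reduction is unique, it intertwines `σ` and `σ̄` on places. -/
theorem s37eqt_place_of_uniq (h1 : ∀ a : A, ((σA a : A) : L) = σ (a : L))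
    (h2 : ∀ a : A, π (σA a) = e (π a)) (hr : IsPlaceReductionAlong A π M r)
    (huniq : ∀ r₁ r₂ : Place L (laurentBaseChange L (modularFunctionFieldFull M)) →
      Place k (modularFunctionFieldFullC k M),
      IsPlaceReductionAlong A π M r₁ → IsPlaceReductionAlong A π M r₂ → r₁ = r₂)
    (P : Place L (laurentBaseChange L (modularFunctionFieldFull M))) :
    r (arithmeticGalois (modularFunctionFieldFull M) σ • P) = s37_coeffAut k M e • r P := by
  have h := congrFun (huniq _ _ (s37eqt_isPlaceReduction σ σA e h1 h2 hr) hr) P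
  rw [← h]
  exact (smul_inv_smul _ _).symm

/-- **(B)** If additive functionals on divisors which kill principal divisors and are bounded on
places vanish in degree `0`, then the reduction of divisors of degree `0` intertwines `σ`
and `σ̄`. -/
theorem s37eqt_degZero_of_bdd (h1 : ∀ a : A, ((σA a : A) : L) = σ (a : L))
    (h2 : ∀ a : A, π (σA a) = e (π a)) (hr : IsPlaceReductionAlong A π M r)
    (hgen : PrincipalGeneratedByIntegral A π M)
    (hbdd : ∀ lam : Divisor L (laurentBaseChange L (modularFunctionFieldFull M)) →+ ℤ,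
      (∀ D ∈ Divisor.principal (K := L) (F := laurentBaseChange L (modularFunctionFieldFull M)),
        lam D = 0) →
      ∀ C : ℤ, (∀ P, |lam (Finsupp.single P 1)| ≤ C) →
        ∀ D ∈ Divisor.degZero (K := L) (F := laurentBaseChange L (modularFunctionFieldFull M)),
          lam D = 0)
    {D : Divisor L (laurentBaseChange L (modularFunctionFieldFull M))}
    (hD : D ∈ Divisor.degZero (K := L) (F := laurentBaseChange L (modularFunctionFieldFull M))) :
    Finsupp.mapDomain r (arithmeticGalois (modularFunctionFieldFull M) σ • D) =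
      s37_coeffAut k M e • Finsupp.mapDomain r D := by
  rw [← s37eqt_defect_eq_zero_iff]
  ext Q
  exact hbdd ((Finsupp.applyAddHom Q).comp
      (s37eqt_defect (arithmeticGalois (modularFunctionFieldFull M) σ) (s37_coeffAut k M e) r))
    (fun E hE => by
      show s37eqt_defect _ _ r E Q = 0
      rw [(s37eqt_defect_eq_zero_iff _ _ r E).mpr (s37eqt_principal σ σA e h1 h2 hr hgen hE)]
      rfl)
    1 (fun P => s37eqt_defect_single_abs _ _ r P Q) D hD

/-- From divisors of degree `0` to `Pic⁰`. -/
theorem s37eqt_pic0 (h : ReductionInputsAlong A π M)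
    (hdiv : ∀ D ∈ Divisor.degZero (K := L) (F := laurentBaseChange L (modularFunctionFieldFull M)),
      Finsupp.mapDomain h.choose (arithmeticGalois (modularFunctionFieldFull M) σ • D) =
        s37_coeffAut k M e • Finsupp.mapDomain h.choose D)
    (x : Pic0 L (laurentBaseChange L (modularFunctionFieldFull M))) :
    reductionAlong A π M (arithmeticGalois (modularFunctionFieldFull M) σ • x) =
      s37_coeffAut k M e • reductionAlong A π M x := by
  obtain ⟨D, rfl⟩ := Pic0.mk_surjective x
  rw [SemilinearAut.pic0_smul_mk, reductionAlong_mk h, reductionAlong_mk h,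
    SemilinearAut.pic0_smul_mk]
  refine congrArg Pic0.mk (Subtype.ext ?_)
  exact hdiv D.1 D.2

end Key

/-! ### The decomposition group acting on `A` and on its residue field -/

section Restrict

variable (A : ValuationSubring (AlgebraicClosure ℚ))
  (σ : AlgebraicClosure ℚ ≃ₐ[ℚ] AlgebraicClosure ℚ) (hσ : σ ∈ A.decompositionSubgroup ℚ)

/-- The restriction to `A` of an element of the decomposition group of `A`. -/
def s37eqt_resA : A →+* A :=
  MulSemiringAction.toRingHom (A.decompositionSubgroup ℚ) A ⟨σ, hσ⟩

theorem s37eqt_resA_coe (a : A) :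
    ((s37eqt_resA A σ hσ a : A) : AlgebraicClosure ℚ) = σ (a : AlgebraicClosure ℚ) := rfl

theorem s37eqt_resA_residue (a : A) :
    IsLocalRing.residue A (s37eqt_resA A σ hσ a) = s37_resAut A σ hσ (IsLocalRing.residue A a) :=
  rfl

end Restrict

/-! ### The statements for the residue field of `A` -/

section Main

set_option synthInstance.maxHeartbeats 400000
set_option maxHeartbeats 1000000

variable {M : ℕ} [NeZero M] {A : ValuationSubring (AlgebraicClosure ℚ)}

/-- The twisted map `P ↦ σ̄⁻¹ • r (σ • P)` is again a place reduction. -/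
theorem s37eqt_isPlaceReductionModL
    {r : Place (AlgebraicClosure ℚ) (modularFunctionFieldBar M) →
      Place (IsLocalRing.ResidueField A)
        (modularFunctionFieldFullC (IsLocalRing.ResidueField A) M)}
    (hr : IsPlaceReductionModL A M r)
    (σ : AlgebraicClosure ℚ ≃ₐ[ℚ] AlgebraicClosure ℚ) (hσ : σ ∈ A.decompositionSubgroup ℚ) :
    IsPlaceReductionModL A M
      (fun P => (s37_coeffAut (IsLocalRing.ResidueField A) M (s37_resAut A σ hσ))⁻¹ •
        r (arithmeticGalois (modularFunctionFieldFull M) σ • P)) :=
  s37eqt_isPlaceReduction σ (s37eqt_resA A σ hσ) (s37_resAut A σ hσ)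
    (s37eqt_resA_coe A σ hσ) (s37eqt_resA_residue A σ hσ) hr

/-- **(U), on places**: a UNIQUE place reduction intertwines `σ` and `σ̄`. -/
theorem s37eqt_place
    (huniq : ∀ r₁ r₂ : Place (AlgebraicClosure ℚ) (modularFunctionFieldBar M) →
      Place (IsLocalRing.ResidueField A)
        (modularFunctionFieldFullC (IsLocalRing.ResidueField A) M),
      IsPlaceReductionModL A M r₁ → IsPlaceReductionModL A M r₂ → r₁ = r₂)
    {r : Place (AlgebraicClosure ℚ) (modularFunctionFieldBar M) →
      Place (IsLocalRing.ResidueField A)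
        (modularFunctionFieldFullC (IsLocalRing.ResidueField A) M)}
    (hr : IsPlaceReductionModL A M r)
    (σ : AlgebraicClosure ℚ ≃ₐ[ℚ] AlgebraicClosure ℚ) (hσ : σ ∈ A.decompositionSubgroup ℚ)
    (P : Place (AlgebraicClosure ℚ) (modularFunctionFieldBar M)) :
    r (arithmeticGalois (modularFunctionFieldFull M) σ • P) =
      s37_coeffAut (IsLocalRing.ResidueField A) M (s37_resAut A σ hσ) • r P :=
  s37eqt_place_of_uniq σ (s37eqt_resA A σ hσ) (s37_resAut A σ hσ)
    (s37eqt_resA_coe A σ hσ) (s37eqt_resA_residue A σ hσ) hr huniq P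

/-- **(U), on divisors.** -/
theorem s37eqt_divisor
    (huniq : ∀ r₁ r₂ : Place (AlgebraicClosure ℚ) (modularFunctionFieldBar M) →
      Place (IsLocalRing.ResidueField A)
        (modularFunctionFieldFullC (IsLocalRing.ResidueField A) M),
      IsPlaceReductionModL A M r₁ → IsPlaceReductionModL A M r₂ → r₁ = r₂)
    {r : Place (AlgebraicClosure ℚ) (modularFunctionFieldBar M) →
      Place (IsLocalRing.ResidueField A)
        (modularFunctionFieldFullC (IsLocalRing.ResidueField A) M)}
    (hr : IsPlaceReductionModL A M r)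
    (σ : AlgebraicClosure ℚ ≃ₐ[ℚ] AlgebraicClosure ℚ) (hσ : σ ∈ A.decompositionSubgroup ℚ)
    (D : Divisor (AlgebraicClosure ℚ) (modularFunctionFieldBar M)) :
    Finsupp.mapDomain r (arithmeticGalois (modularFunctionFieldFull M) σ • D) =
      s37_coeffAut (IsLocalRing.ResidueField A) M (s37_resAut A σ hσ) • Finsupp.mapDomain r D :=
  s37eqt_mapDomain_of_place _ _ r (s37eqt_place huniq hr σ hσ) D

/-- **(B), on divisors of degree `0`.** -/
theorem s37eqt_degZero
    (hbdd : ∀ lam : Divisor (AlgebraicClosure ℚ) (modularFunctionFieldBar M) →+ ℤ,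
      (∀ D ∈ Divisor.principal (K := AlgebraicClosure ℚ) (F := modularFunctionFieldBar M),
        lam D = 0) →
      ∀ C : ℤ, (∀ P, |lam (Finsupp.single P 1)| ≤ C) →
        ∀ D ∈ Divisor.degZero (K := AlgebraicClosure ℚ) (F := modularFunctionFieldBar M),
          lam D = 0)
    {r : Place (AlgebraicClosure ℚ) (modularFunctionFieldBar M) →
      Place (IsLocalRing.ResidueField A)
        (modularFunctionFieldFullC (IsLocalRing.ResidueField A) M)}
    (hr : IsPlaceReductionModL A M r)
    (hgen : PrincipalGeneratedByIntegral A (IsLocalRing.residue A) M)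
    (σ : AlgebraicClosure ℚ ≃ₐ[ℚ] AlgebraicClosure ℚ) (hσ : σ ∈ A.decompositionSubgroup ℚ)
    {D : Divisor (AlgebraicClosure ℚ) (modularFunctionFieldBar M)}
    (hD : D ∈ Divisor.degZero (K := AlgebraicClosure ℚ) (F := modularFunctionFieldBar M)) :
    Finsupp.mapDomain r (arithmeticGalois (modularFunctionFieldFull M) σ • D) =
      s37_coeffAut (IsLocalRing.ResidueField A) M (s37_resAut A σ hσ) • Finsupp.mapDomain r D :=
  s37eqt_degZero_of_bdd σ (s37eqt_resA A σ hσ) (s37_resAut A σ hσ)
    (s37eqt_resA_coe A σ hσ) (s37eqt_resA_residue A σ hσ) hr hgen hbdd hD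

/-- [EQ] at one level, from the statement on divisors of degree `0`. -/
theorem s37eqt_equiv_of_degZero (h : ReductionInputsModL A M)
    (σ : AlgebraicClosure ℚ ≃ₐ[ℚ] AlgebraicClosure ℚ) (hσ : σ ∈ A.decompositionSubgroup ℚ)
    (hdiv : ∀ D ∈ Divisor.degZero (K := AlgebraicClosure ℚ) (F := modularFunctionFieldBar M),
      Finsupp.mapDomain (placeReductionModL h)
          (arithmeticGalois (modularFunctionFieldFull M) σ • D) =
        s37_coeffAut (IsLocalRing.ResidueField A) M (s37_resAut A σ hσ) •
          Finsupp.mapDomain (placeReductionModL h) D)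
    (x : JZero M) :
    reductionModL A M (σ • x) =
      s37_coeffAut (IsLocalRing.ResidueField A) M (s37_resAut A σ hσ) • reductionModL A M x := by
  rw [galois_smul_pic0_def]
  exact s37eqt_pic0 σ (s37_resAut A σ hσ) h hdiv x

/-- [EQ] at one level, from the uniqueness of the place reduction at that level. -/
theorem s37eqt_equiv_of_uniq
    (huniq : ∀ r₁ r₂ : Place (AlgebraicClosure ℚ) (modularFunctionFieldBar M) →
      Place (IsLocalRing.ResidueField A)
        (modularFunctionFieldFullC (IsLocalRing.ResidueField A) M),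
      IsPlaceReductionModL A M r₁ → IsPlaceReductionModL A M r₂ → r₁ = r₂)
    (h : ReductionInputsModL A M)
    (σ : AlgebraicClosure ℚ ≃ₐ[ℚ] AlgebraicClosure ℚ) (hσ : σ ∈ A.decompositionSubgroup ℚ)
    (x : JZero M) :
    reductionModL A M (σ • x) =
      s37_coeffAut (IsLocalRing.ResidueField A) M (s37_resAut A σ hσ) • reductionModL A M x :=
  s37eqt_equiv_of_degZero h σ hσ
    (fun D _ => s37eqt_divisor huniq (isPlaceReductionModL_placeReductionModL h) σ hσ D) x

/-- [EQ] at one level, from the boundedness lemma at that level. -/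
theorem s37eqt_equiv_of_bdd
    (hbdd : ∀ lam : Divisor (AlgebraicClosure ℚ) (modularFunctionFieldBar M) →+ ℤ,
      (∀ D ∈ Divisor.principal (K := AlgebraicClosure ℚ) (F := modularFunctionFieldBar M),
        lam D = 0) →
      ∀ C : ℤ, (∀ P, |lam (Finsupp.single P 1)| ≤ C) →
        ∀ D ∈ Divisor.degZero (K := AlgebraicClosure ℚ) (F := modularFunctionFieldBar M),
          lam D = 0)
    (h : ReductionInputsModL A M)
    (σ : AlgebraicClosure ℚ ≃ₐ[ℚ] AlgebraicClosure ℚ) (hσ : σ ∈ A.decompositionSubgroup ℚ)
    (x : JZero M) :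
    reductionModL A M (σ • x) =
      s37_coeffAut (IsLocalRing.ResidueField A) M (s37_resAut A σ hσ) • reductionModL A M x :=
  s37eqt_equiv_of_degZero h σ hσ
    (fun _ hD => s37eqt_degZero hbdd (isPlaceReductionModL_placeReductionModL h)
      h.choose_spec.2 σ hσ hD) x

end Main

section Export

set_option synthInstance.maxHeartbeats 400000
set_option maxHeartbeats 1000000

/-- **[EQ] from [UNIQ]**: if the place reduction is unique (at the levels `M` prime to `ℓ` with
`4 ∣ M` or `9 ∣ M`), the reduction map is equivariant for the decomposition group. -/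
theorem s37eqt_main
    (huniq : ∀ (M : ℕ) [NeZero M] {ℓ : ℕ} [Fact ℓ.Prime], ¬ ℓ ∣ M → (4 ∣ M ∨ 9 ∣ M) →
      ∀ A : ValuationSubring (AlgebraicClosure ℚ), A.LiesOverPrime ℓ →
        ∀ r₁ r₂ : Place (AlgebraicClosure ℚ) (modularFunctionFieldBar M) →
          Place (IsLocalRing.ResidueField A)
            (modularFunctionFieldFullC (IsLocalRing.ResidueField A) M),
          IsPlaceReductionModL A M r₁ → IsPlaceReductionModL A M r₂ → r₁ = r₂) :
    s37_EquivStatement := by
  intro M _ ℓ _ hℓM h49 A hA h σ hσ x
  exact s37eqt_equiv_of_uniq (huniq M hℓM h49 A hA) h σ hσ x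

/-- **[EQ] from [BDD]**: if every additive functional on the divisors of `F̄_M` which kills the
principal divisors and is bounded on places vanishes on the divisors of degree `0`, the
reduction map is equivariant for the decomposition group.  (No uniqueness of the place reduction
is needed.) -/
theorem s37eqt_main_of_bdd
    (hbdd : ∀ (M : ℕ) [NeZero M]
      (lam : Divisor (AlgebraicClosure ℚ) (modularFunctionFieldBar M) →+ ℤ),
      (∀ D ∈ Divisor.principal (K := AlgebraicClosure ℚ) (F := modularFunctionFieldBar M),
        lam D = 0) →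
      ∀ C : ℤ, (∀ P, |lam (Finsupp.single P 1)| ≤ C) →
        ∀ D ∈ Divisor.degZero (K := AlgebraicClosure ℚ) (F := modularFunctionFieldBar M),
          lam D = 0) :
    s37_EquivStatement := by
  intro M _ ℓ _ hℓM h49 A hA h σ hσ x
  exact s37eqt_equiv_of_bdd (hbdd M) h σ hσ x

end Export

end Fermat.Agent.S37
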