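/-
S37, package [HECKE-INPUTS] (owner: helper14): the leaf [HI] of the cut of [ES]
(`S37/ESDefs.lean`), VERBATIM.
-/
import Mathlib
import Fermat.Agent.S37.HeckeInputs
import Fermat.Agent.S37.ESDefs

set_option autoImplicit false

namespace Fermat.Agent.S37

/-- **[HI]** of the cut of [ES]. -/
theorem s37hi_es_main : s37es_HIStatement := fun M ℓ _ _ => s37hi_main M ℓ

example : s37es_HIStatement := s37hi_es_main

end Fermat.Agent.S37
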