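/-
S37, shared tool [FF-l-PD] (owner: helper14), part (A): THE NORM FORMULA WITHOUT PERFECTNESS.
For a finite extension of Dedekind domains `A ⊆ B` (fraction fields `F ⊆ F'`, ANY
characteristic, no separability) such that all inertia degrees over the prime `P` of `A` are `1`:

  `ord_P (N_{F'/F} x) = ∑_{Q ∣ P} ord_Q x`.

(Mathlib's `Ideal.relNorm_eq_pow_of_isMaximal` needs `PerfectField (FractionRing A)`, which fails
for function fields in characteristic `ℓ`.)  Route: `t(Q) := mult_P (relNorm Q) ≥ 1`;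
`∑_Q t(Q) e(Q) = mult_P (relNorm (P B)) = mult_P (P ^ n) = n = ∑_Q e(Q) f(Q) = ∑_Q e(Q)`, hence
`t(Q) = 1`.  Prefix `s37pd_`.
-/
import Mathlib
import Fermat.Agent.S37.HeckeInputsNormAbs

set_option autoImplicit false
set_option maxHeartbeats 1000000
set_option synthInstance.maxHeartbeats 400000
set_option linter.deprecated false
set_option linter.unusedSectionVars false
set_option linter.style.haveILetI false

open IsDedekindDomain

noncomputable section

namespace Fermat.Agent.S37

section Ideals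

variable {A B : Type} [CommRing A] [IsDedekindDomain A] [CommRing B] [IsDedekindDomain B]
  [Algebra A B] [Module.IsTorsionFree A B] [Module.Finite A B]

/-- A prime of `B` not over `P` has relative norm prime to `P`. -/
theorem s37pd_mult_other (P : HeightOneSpectrum A) (p : Ideal B) (hp : Prime p)
    (h : ¬ p.LiesOver P.asIdeal) : multiplicity P.asIdeal (Ideal.relNorm A p) = 0 := by
  have hp0 : p ≠ ⊥ := hp.ne_zero
  have hpP : p.IsPrime := (Ideal.prime_iff_isPrime hp0).1 hp
  have hpM : p.IsMaximal := hpP.isMaximal hp0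
  have huM : (p.under A).IsMaximal := inferInstance
  obtain ⟨s, hs⟩ := Ideal.exists_relNorm_eq_pow_of_isPrime p (p.under A)
  rw [multiplicity_eq_zero, hs]
  intro hdvd
  apply h
  rw [Ideal.liesOver_iff]
  have h1 : P.asIdeal ∣ p.under A := P.prime.dvd_of_dvd_pow hdvd
  have hle : p.under A ≤ P.asIdeal := Ideal.le_of_dvd h1
  exact (huM.eq_of_le P.isPrime.ne_top hle).symm

/-- A prime of `B` over `P` has relative norm divisible by `P`. -/
theorem s37pd_mult_pos (P : HeightOneSpectrum A) (Q : HeightOneSpectrum B)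
    [hQ : Q.asIdeal.LiesOver P.asIdeal] :
    1 ≤ multiplicity P.asIdeal (Ideal.relNorm A Q.asIdeal) := by
  rw [Nat.one_le_iff_ne_zero, Ne, multiplicity_eq_zero, not_not, Ideal.dvd_iff_le]
  refine (Ideal.relNorm_le_comap A Q.asIdeal).trans (le_of_eq ?_)
  exact ((Ideal.liesOver_iff _ _).1 hQ).symm

/-- The additive formula with the unknown exponents `t(Q) = mult_P (relNorm Q)`. -/
theorem s37pd_mult_relNorm (P : HeightOneSpectrum A) (S : Finset (HeightOneSpectrum B))
    (hS : ∀ Q : HeightOneSpectrum B, Q ∈ S ↔ Q.asIdeal.LiesOver P.asIdeal)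
    (I : Ideal B) (hI : I ≠ ⊥) :
    multiplicity P.asIdeal (Ideal.relNorm A I) =
      ∑ Q ∈ S, multiplicity P.asIdeal (Ideal.relNorm A Q.asIdeal) * multiplicity Q.asIdeal I := by
  classical
  induction I using UniqueFactorizationMonoid.induction_on_prime with
  | h₁ => exact absurd rfl hI
  | h₂ x hx =>
    have hx' : x = ⊤ := Ideal.isUnit_iff.1 hx
    subst hx'
    rw [Ideal.relNorm_top]
    have h1 : multiplicity P.asIdeal (⊤ : Ideal A) = 0 := by
      rw [multiplicity_eq_zero]
      intro hdvd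
      exact P.isPrime.ne_top (top_le_iff.1 (Ideal.le_of_dvd hdvd))
    rw [h1]
    symm
    refine Finset.sum_eq_zero fun Q _ => ?_
    have h2 : multiplicity Q.asIdeal (⊤ : Ideal B) = 0 := by
      rw [multiplicity_eq_zero]
      intro hdvd
      exact Q.isPrime.ne_top (top_le_iff.1 (Ideal.le_of_dvd hdvd))
    rw [h2, mul_zero]
  | h₃ a p ha hp ih =>
    have hp0 : p ≠ ⊥ := hp.ne_zero
    have hpP : p.IsPrime := (Ideal.prime_iff_isPrime hp0).1 hp
    have hne : Ideal.relNorm A (p * a) ≠ 0 := by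
      intro h
      exact hI (Ideal.relNorm_eq_bot_iff.1 h)
    rw [map_mul] at hne ⊢
    rw [multiplicity_mul P.prime (FiniteMultiplicity.of_prime_left P.prime hne), ih ha]
    have hsum : ∀ Q ∈ S, multiplicity P.asIdeal (Ideal.relNorm A Q.asIdeal) *
          multiplicity Q.asIdeal (p * a) =
        (if Q.asIdeal = p then multiplicity P.asIdeal (Ideal.relNorm A Q.asIdeal) else 0) +
          multiplicity P.asIdeal (Ideal.relNorm A Q.asIdeal) * multiplicity Q.asIdeal a := by
      intro Q _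
      rw [multiplicity_mul Q.prime (FiniteMultiplicity.of_prime_left Q.prime hI),
        s37hn_mult_prime Q p hp, mul_add]
      split_ifs <;> simp
    rw [Finset.sum_congr rfl hsum, Finset.sum_add_distrib]
    congr 1
    let Q₀ : HeightOneSpectrum B := ⟨p, hpP, hp0⟩
    have hQ₀ : ∀ Q : HeightOneSpectrum B, Q.asIdeal = p ↔ Q = Q₀ := by
      intro Q
      constructor
      · intro h
        exact HeightOneSpectrum.ext h
      · intro h
        rw [h]
    simp only [hQ₀]
    rw [Finset.sum_ite_eq' S Q₀]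
    by_cases hmem : Q₀ ∈ S
    · rw [if_pos hmem]
    · rw [if_neg hmem]
      exact s37pd_mult_other P p hp (fun h => hmem ((hS Q₀).2 h))

end Ideals

section Main

variable (F F' A B : Type) [Field F] [Field F'] [Algebra F F']
  [FiniteDimensional F F'] [CommRing A] [IsDedekindDomain A] [CommRing B] [IsDedekindDomain B]
  [Algebra A F] [IsFractionRing A F] [Algebra B F'] [IsFractionRing B F']
  [Algebra A B] [Module.IsTorsionFree A B] [Module.Finite A B] [Algebra A F']
  [IsScalarTower A F F'] [IsScalarTower A B F']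

/-- `∑_Q t(Q) e(Q) = n`. -/
theorem s37pd_sum_t (P : HeightOneSpectrum A) (S : Finset (HeightOneSpectrum B))
    (hS : ∀ Q : HeightOneSpectrum B, Q ∈ S ↔ Q.asIdeal.LiesOver P.asIdeal) :
    ∑ Q ∈ S, multiplicity P.asIdeal (Ideal.relNorm A Q.asIdeal) *
        Ideal.ramificationIdx' P.asIdeal Q.asIdeal = Module.finrank F F' := by
  have hmap : Ideal.map (algebraMap A B) P.asIdeal ≠ ⊥ := Ideal.map_ne_bot_of_ne_bot P.ne_bot
  have h1 := s37pd_mult_relNorm P S hS _ hmap
  rw [Ideal.relNorm_algebraMap B P.asIdeal,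
    multiplicity_pow_self P.ne_bot (fun hu => P.isPrime.ne_top (Ideal.isUnit_iff.1 hu)) _,
    ← IsFractionRing.finrank_eq A F B F'] at h1
  rw [h1]
  refine Finset.sum_congr rfl fun Q _ => ?_
  rw [Ideal.IsDedekindDomain.ramificationIdx'_eq_multiplicity hmap Q.isPrime]

/-- `∑_Q e(Q) f(Q) = n`, over the finset `S`. -/
theorem s37pd_sum_ef (P : HeightOneSpectrum A) (S : Finset (HeightOneSpectrum B))
    (hS : ∀ Q : HeightOneSpectrum B, Q ∈ S ↔ Q.asIdeal.LiesOver P.asIdeal) :
    ∑ Q ∈ S, Ideal.ramificationIdx' P.asIdeal Q.asIdeal *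
        Ideal.inertiaDeg' P.asIdeal Q.asIdeal = Module.finrank F F' := by
  classical
  haveI : P.asIdeal.IsMaximal := P.isMaximal
  have hp0 : P.asIdeal ≠ ⊥ := P.ne_bot
  rw [← Ideal.sum_ramification_inertia (R := A) B F F' (p := P.asIdeal) hp0]
  have himg : IsDedekindDomain.primesOverFinset P.asIdeal B = S.image (fun Q => Q.asIdeal) := by
    ext q
    rw [IsDedekindDomain.mem_primesOverFinset_iff hp0, Finset.mem_image]
    constructor
    · rintro ⟨hq, hqP⟩
      have hq0 : q ≠ ⊥ := @Ideal.ne_bot_of_liesOver_of_ne_bot _ _ _ _ _ _ _ hp0 q hqP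
      exact ⟨⟨q, hq, hq0⟩, (hS _).2 hqP, rfl⟩
    · rintro ⟨Q, hQ, rfl⟩
      exact ⟨Q.isPrime, (hS Q).1 hQ⟩
  rw [himg, Finset.sum_image (fun x _ y _ h => HeightOneSpectrum.ext h)]

/-- All the exponents `t(Q)` are `1` when all the inertia degrees are. -/
theorem s37pd_t_eq_one (F F' A B : Type) [Field F] [Field F'] [Algebra F F']
    [FiniteDimensional F F'] [CommRing A] [IsDedekindDomain A] [CommRing B] [IsDedekindDomain B]
    [Algebra A F] [IsFractionRing A F] [Algebra B F'] [IsFractionRing B F']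
    [Algebra A B] [Module.IsTorsionFree A B] [Module.Finite A B] [Algebra A F']
    [IsScalarTower A F F'] [IsScalarTower A B F']
    (P : HeightOneSpectrum A) (S : Finset (HeightOneSpectrum B))
    (hS : ∀ Q : HeightOneSpectrum B, Q ∈ S ↔ Q.asIdeal.LiesOver P.asIdeal)
    (hf : ∀ Q ∈ S, Ideal.inertiaDeg' P.asIdeal Q.asIdeal = 1) (Q : HeightOneSpectrum B)
    (hQ : Q ∈ S) : multiplicity P.asIdeal (Ideal.relNorm A Q.asIdeal) = 1 := by
  have h1 := s37pd_sum_t F F' A B P S hS
  have h2 := s37pd_sum_ef F F' A B P S hS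
  have h2' : ∑ Q ∈ S, 1 * Ideal.ramificationIdx' P.asIdeal Q.asIdeal = Module.finrank F F' := by
    rw [← h2]
    refine Finset.sum_congr rfl fun Q hQ => ?_
    rw [hf Q hQ, one_mul, mul_one]
  have hpos : ∀ Q ∈ S, 1 ≤ multiplicity P.asIdeal (Ideal.relNorm A Q.asIdeal) := by
    intro Q hQ
    haveI := (hS Q).1 hQ
    exact s37pd_mult_pos P Q
  have he : ∀ Q ∈ S, Ideal.ramificationIdx' P.asIdeal Q.asIdeal ≠ 0 := by
    intro Q hQ
    haveI := (hS Q).1 hQ
    exact Ideal.IsDedekindDomain.ramificationIdx'_ne_zero_of_liesOver Q.asIdeal P.ne_bot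
  by_contra hne
  have hlt : 1 < multiplicity P.asIdeal (Ideal.relNorm A Q.asIdeal) :=
    lt_of_le_of_ne (hpos Q hQ) (Ne.symm hne)
  have : ∑ Q ∈ S, 1 * Ideal.ramificationIdx' P.asIdeal Q.asIdeal <
      ∑ Q ∈ S, multiplicity P.asIdeal (Ideal.relNorm A Q.asIdeal) *
        Ideal.ramificationIdx' P.asIdeal Q.asIdeal := by
    refine Finset.sum_lt_sum (fun Q' hQ' => Nat.mul_le_mul_right _ (hpos Q' hQ')) ⟨Q, hQ, ?_⟩
    exact Nat.mul_lt_mul_of_pos_right hlt (Nat.pos_of_ne_zero (he Q hQ))
  rw [h1, h2'] at this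
  exact lt_irrefl _ this

/-- the norm formula for integral elements. -/
theorem s37pd_int (P : HeightOneSpectrum A) (S : Finset (HeightOneSpectrum B))
    (hS : ∀ Q : HeightOneSpectrum B, Q ∈ S ↔ Q.asIdeal.LiesOver P.asIdeal)
    (hf : ∀ Q ∈ S, Ideal.inertiaDeg' P.asIdeal Q.asIdeal = 1)
    (b : B) (hb : b ≠ 0) :
    WithZero.log (P.valuation F (Algebra.norm F (algebraMap B F' b))) =
      ∑ Q ∈ S, WithZero.log (Q.valuation F' (algebraMap B F' b)) := by
  have hnorm : algebraMap A F (Algebra.intNorm A B b) = Algebra.norm F (algebraMap B F' b) :=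
    Algebra.algebraMap_intNorm (A := A) (K := F) (L := F') (B := B) b
  have hbF : algebraMap B F' b ≠ 0 := by
    intro h
    apply hb
    apply IsFractionRing.injective B F'
    rw [h, map_zero]
  have hnb : Algebra.intNorm A B b ≠ 0 := by
    intro h
    rw [h, map_zero] at hnorm
    exact hbF (Algebra.norm_eq_zero_iff.1 hnorm.symm)
  have hspan : Ideal.span ({b} : Set B) ≠ ⊥ := by
    rw [Ne, Ideal.span_singleton_eq_bot]
    exact hb
  rw [← hnorm, HeightOneSpectrum.valuation_of_algebraMap,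
    HeightOneSpectrum.intValuation_eq_exp_neg_multiplicity P hnb, WithZero.log_exp,
    ← Ideal.relNorm_singleton, s37pd_mult_relNorm P S hS _ hspan]
  push_cast
  rw [← Finset.sum_neg_distrib]
  refine Finset.sum_congr rfl fun Q hQ => ?_
  rw [HeightOneSpectrum.valuation_of_algebraMap,
    HeightOneSpectrum.intValuation_eq_exp_neg_multiplicity Q hb, WithZero.log_exp,
    s37pd_t_eq_one F F' A B P S hS hf Q hQ, Nat.cast_one, one_mul]

/-- **[PD-NORM1]** the norm formula when all inertia degrees are `1`; no perfectness, no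
separability. -/
theorem s37pd_norm (P : HeightOneSpectrum A) (S : Finset (HeightOneSpectrum B))
    (hS : ∀ Q : HeightOneSpectrum B, Q ∈ S ↔ Q.asIdeal.LiesOver P.asIdeal)
    (hf : ∀ Q ∈ S, Ideal.inertiaDeg' P.asIdeal Q.asIdeal = 1)
    (x : F') (hx : x ≠ 0) :
    WithZero.log (P.valuation F (Algebra.norm F x)) =
      ∑ Q ∈ S, WithZero.log (Q.valuation F' x) := by
  obtain ⟨b₁, b₂, hb₂, rfl⟩ := IsFractionRing.div_surjective (A := B) x
  have hb₂0 : b₂ ≠ 0 := nonZeroDivisors.ne_zero hb₂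
  have hb₂F : algebraMap B F' b₂ ≠ 0 := by
    intro h
    apply hb₂0
    apply IsFractionRing.injective B F'
    rw [h, map_zero]
  have hb₁F : algebraMap B F' b₁ ≠ 0 := by
    intro h
    apply hx
    rw [h, zero_div]
  have hb₁0 : b₁ ≠ 0 := by
    intro h
    apply hb₁F
    rw [h, map_zero]
  have hn₁ : Algebra.norm F (algebraMap B F' b₁) ≠ 0 := fun h =>
    hb₁F (Algebra.norm_eq_zero_iff.1 h)
  have hn₂ : Algebra.norm F (algebraMap B F' b₂) ≠ 0 := fun h =>
    hb₂F (Algebra.norm_eq_zero_iff.1 h)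
  have hdiv : Algebra.norm F (algebraMap B F' b₁ / algebraMap B F' b₂) =
      Algebra.norm F (algebraMap B F' b₁) / Algebra.norm F (algebraMap B F' b₂) := by
    rw [eq_div_iff hn₂, ← map_mul, div_mul_cancel₀ _ hb₂F]
  rw [hdiv, map_div₀, WithZero.log_div ((Valuation.ne_zero_iff _).2 hn₁)
    ((Valuation.ne_zero_iff _).2 hn₂), s37pd_int F F' A B P S hS hf b₁ hb₁0,
    s37pd_int F F' A B P S hS hf b₂ hb₂0, ← Finset.sum_sub_distrib]
  refine Finset.sum_congr rfl fun Q _ => ?_
  rw [map_div₀, WithZero.log_div ((Valuation.ne_zero_iff _).2 hb₁F)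
    ((Valuation.ne_zero_iff _).2 hb₂F)]

end Main

end Fermat.Agent.S37
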