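/-
# S37 / [RI-POS], the restriction seam.  Owner: helper29, prefix `s37rip_`.

GENERIC (any fields).  `ι : F₁ → F` a ring homomorphism, `S` a finite set of places of `F / K`
each of which has a restriction `P₁` to `F₁ / K₁` with the same orders, pairwise distinct
(the conclusion of helper5's `s37rr_main`).  Then there is the finite set `S₁` of the
restrictions, with `∑ P ∈ S, ord_P (ι b) = ∑ P₁ ∈ S₁, ord_P₁ b` (`s37rip_restr_sum`); vanishing
and regularity are compatible with restriction (`s37rip_vanish_restr`, `s37rip_mem_restr`).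
-/
import Mathlib
import Fermat.Prelude.Def_AlgebraicCurve_DivisorClassGroup
import Fermat.Agent.S24.PlaceBasic
import Fermat.Agent.S37.RIPosAbs

set_option autoImplicit false

namespace Fermat.Agent.S37

open AlgebraicCurve Fermat.Agent.S24

noncomputable section

section restr

variable {K F K₁ F₁ : Type*} [Field K] [Field F] [Algebra K F] [Field K₁] [Field F₁]
  [Algebra K₁ F₁]

/-- Regularity is compatible with restriction. -/
theorem s37rip_mem_restr (ι : F₁ → F) (P : Place K F) (P₁ : Place K₁ F₁)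
    (h : ∀ f, P.ord (ι f) = P₁.ord f) (β : F₁) :
    ι β ∈ P.toValuationSubring ↔ β ∈ P₁.toValuationSubring := by
  rw [place_mem_iff, place_mem_iff, h]

/-- Vanishing is compatible with restriction. -/
theorem s37rip_vanish_restr (ι : F₁ →+* F) (P : Place K F) (P₁ : Place K₁ F₁)
    (h : ∀ f, P.ord (ι f) = P₁.ord f) (β : F₁) :
    P.adicValuation (ι β) < 1 ↔ P₁.adicValuation β < 1 := by
  rw [s37rip_lt_one_iff, s37rip_lt_one_iff, place_mem_nonunits_iff', place_mem_nonunits_iff', h,
    map_eq_zero]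

/-- The sum over `S` is the sum over the finite set of the restrictions. -/
theorem s37rip_sum_restr [DecidableEq (Place K₁ F₁)] (ι : F₁ → F) (S : Finset (Place K F))
    (r : Place K F → Place K₁ F₁)
    (hr : ∀ P ∈ S, ∀ f, P.ord (ι f) = (r P).ord f)
    (hinj : ∀ P ∈ S, ∀ P' ∈ S, r P = r P' → P = P') (b : F₁) :
    ∑ P ∈ S, P.ord (ι b) = ∑ P₁ ∈ S.image r, P₁.ord b := by
  rw [Finset.sum_image hinj]
  exact Finset.sum_congr rfl (fun P hP => hr P hP b)

/-- **The restriction seam**: from the conclusion of `s37rr_main` to the finite set of the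
restrictions. -/
theorem s37rip_restr_sum (ι : F₁ → F) (S : Finset (Place K F))
    (h : ∀ P ∈ S, ∃ P₁ : Place K₁ F₁, (∀ f, P.ord (ι f) = P₁.ord f) ∧
      ∀ P' ∈ S, (∀ f, P'.ord (ι f) = P₁.ord f) → P' = P) :
    ∃ S₁ : Finset (Place K₁ F₁),
      (∀ P₁ ∈ S₁, ∃ P ∈ S, ∀ f, P.ord (ι f) = P₁.ord f) ∧
      ∀ b : F₁, ∑ P ∈ S, P.ord (ι b) = ∑ P₁ ∈ S₁, P₁.ord b := by
  classical
  by_cases hne : Nonempty (Place K₁ F₁)
  · obtain ⟨P₀⟩ := hne
    have h' : ∀ P : Place K F, ∃ P₁ : Place K₁ F₁, P ∈ S →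
        (∀ f, P.ord (ι f) = P₁.ord f) ∧
          ∀ P' ∈ S, (∀ f, P'.ord (ι f) = P₁.ord f) → P' = P := by
      intro P
      by_cases hP : P ∈ S
      · obtain ⟨P₁, hP₁⟩ := h P hP
        exact ⟨P₁, fun _ => hP₁⟩
      · exact ⟨P₀, fun hP' => absurd hP' hP⟩
    choose r hr using h'
    refine ⟨S.image r, ?_, ?_⟩
    · intro P₁ hP₁
      obtain ⟨P, hP, rfl⟩ := Finset.mem_image.1 hP₁
      exact ⟨P, hP, (hr P hP).1⟩
    · intro b
      refine s37rip_sum_restr ι S r (fun P hP => (hr P hP).1) ?_ b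
      intro P hP P' hP' hPP'
      refine ((hr P' hP').2 P hP ?_)
      intro f
      rw [(hr P hP).1 f, hPP']
  · -- no places downstairs: `S` is empty
    have hS : S = ∅ := by
      rw [Finset.eq_empty_iff_forall_notMem]
      intro P hP
      obtain ⟨P₁, -⟩ := h P hP
      exact hne ⟨P₁⟩
    refine ⟨∅, fun P₁ hP₁ => absurd hP₁ (Finset.notMem_empty _), fun b => ?_⟩
    rw [hS, Finset.sum_empty, Finset.sum_empty]

end restr

end

end Fermat.Agent.S37
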