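/-
S37, [RI], leaf [RI-RHO] (helper28), part 2: DESCENT OF THE ELEMENTS INTEGRAL OVER `A[x]`.
Prefix `s37rho_`.

`A ⊆ Q̄` a valuation ring, `x ∈ F̄_M`, and a family `xs K1 ∈ F_{K1}(M)` with `ι_{K1} (xs K1) = x`
(`x = j`, `x = 1/j`).  `O1 = A ∩ K1`.

* `s37rho_iota_adjoin`: `ι_{K1}` maps `O1[xs K1]` into `A[x]`.
* `s37rho_chart_int`: `ι_{K1}` maps the chart `s18_chart O1 {xs K1}` into the elements of `F̄_M`
  integral over `A[x]`.
* `s37rho_desc_ring`: every element of `A[x]` comes from `O1[xs K1]`, for all `K1 ⊇ K0`, `K0` a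
  number field.
* `s37rho_desc_int`: every element of `F̄_M` integral over `A[x]` comes from the chart
  `s18_chart O1 {xs K1}`, for all `K1 ⊇ K0`, `K0` a number field.
-/
import Mathlib
import Fermat.Agent.S37.RIDefs
import Fermat.Agent.S37.RIRestr
import Fermat.Agent.S18.RatQRing

set_option autoImplicit false
set_option linter.unusedSectionVars false
set_option linter.unusedVariables false
set_option linter.style.haveILetI false
set_option maxHeartbeats 1000000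
set_option synthInstance.maxHeartbeats 400000

open ModularCurve AlgebraicCurve IntermediateField

noncomputable section

namespace Fermat.Agent.S37

open Fermat.Agent.S18

section Desc

variable (A : ValuationSubring (AlgebraicClosure ℚ)) (M : ℕ) [NeZero M]

omit [NeZero M] in
/-- `ι_{K1}` of a constant of `O1`. -/
theorem s37rho_iota_const (K1 : IntermediateField ℚ (AlgebraicClosure ℚ))
    (r : ↥(A.comap (algebraMap ↥K1 (AlgebraicClosure ℚ)))) :
    letI := s18_algOF ↥(A.comap (algebraMap ↥K1 (AlgebraicClosure ℚ))) ↥K1 M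
    s37rr_iota M K1 (algebraMap ↥(A.comap (algebraMap ↥K1 (AlgebraicClosure ℚ)))
      ↥(s18_F ↥K1 M) r) =
      algebraMap (AlgebraicClosure ℚ) ↥(modularFunctionFieldBar M)
        ((s18rq_incl (algebraMap ↥K1 (AlgebraicClosure ℚ)) A r : ↥A) : AlgebraicClosure ℚ) :=
  s18cfe_iota_algebraMap ↥K1 (AlgebraicClosure ℚ) (modularFunctionFieldFull M) (r : ↥K1)

omit [NeZero M] in
/-- `ι_{K1}` maps `O1[x1]` into `A[x]`. -/
theorem s37rho_iota_adjoin (x : ↥(modularFunctionFieldBar M))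
    (K1 : IntermediateField ℚ (AlgebraicClosure ℚ)) (x1 : ↥(s18_F ↥K1 M))
    (hx1 : s37rr_iota M K1 x1 = x) :
    letI := s18_algOF ↥(A.comap (algebraMap ↥K1 (AlgebraicClosure ℚ))) ↥K1 M
    ∀ z ∈ Algebra.adjoin ↥(A.comap (algebraMap ↥K1 (AlgebraicClosure ℚ)))
      ({x1} : Set ↥(s18_F ↥K1 M)), s37rr_iota M K1 z ∈ s37ri_ring A M x := by
  letI := s18_algOF ↥(A.comap (algebraMap ↥K1 (AlgebraicClosure ℚ))) ↥K1 M
  intro z hz
  induction hz using Algebra.adjoin_induction with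
  | mem y hy =>
      rw [Set.mem_singleton_iff] at hy
      subst hy
      rw [hx1]
      exact Subring.subset_closure (Or.inr rfl)
  | algebraMap r =>
      rw [s37rho_iota_const A M K1 r]
      exact Subring.subset_closure (Or.inl ⟨s18rq_incl _ A r, rfl⟩)
  | add y z _ _ hy hz =>
      rw [map_add]
      exact Subring.add_mem _ hy hz
  | mul y z _ _ hy hz =>
      rw [map_mul]
      exact Subring.mul_mem _ hy hz

/-- The ring homomorphism `O1[x1] → A[x]` induced by `ι_{K1}`. -/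
def s37rho_iotaB (x : ↥(modularFunctionFieldBar M))
    (K1 : IntermediateField ℚ (AlgebraicClosure ℚ)) (x1 : ↥(s18_F ↥K1 M))
    (hx1 : s37rr_iota M K1 x1 = x) :
    letI := s18_algOF ↥(A.comap (algebraMap ↥K1 (AlgebraicClosure ℚ))) ↥K1 M
    ↥(Algebra.adjoin ↥(A.comap (algebraMap ↥K1 (AlgebraicClosure ℚ)))
      ({x1} : Set ↥(s18_F ↥K1 M))) →+* ↥(s37ri_ring A M x) :=
  letI := s18_algOF ↥(A.comap (algebraMap ↥K1 (AlgebraicClosure ℚ))) ↥K1 M
  ((s37rr_iota M K1).comp (Algebra.adjoin ↥(A.comap (algebraMap ↥K1 (AlgebraicClosure ℚ)))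
      ({x1} : Set ↥(s18_F ↥K1 M))).val.toRingHom).codRestrict (s37ri_ring A M x)
    (fun z => s37rho_iota_adjoin A M x K1 x1 hx1 z z.2)

omit [NeZero M] in
theorem s37rho_iotaB_comp (x : ↥(modularFunctionFieldBar M))
    (K1 : IntermediateField ℚ (AlgebraicClosure ℚ)) (x1 : ↥(s18_F ↥K1 M))
    (hx1 : s37rr_iota M K1 x1 = x) :
    letI := s18_algOF ↥(A.comap (algebraMap ↥K1 (AlgebraicClosure ℚ))) ↥K1 M
    (algebraMap ↥(s37ri_ring A M x) ↥(modularFunctionFieldBar M)).comp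
        (s37rho_iotaB A M x K1 x1 hx1) =
      (s37rr_iota M K1).comp
        (algebraMap ↥(Algebra.adjoin ↥(A.comap (algebraMap ↥K1 (AlgebraicClosure ℚ)))
          ({x1} : Set ↥(s18_F ↥K1 M))) ↥(s18_F ↥K1 M)) := rfl

omit [NeZero M] in
/-- **The easy direction**: `ι_{K1}` maps the chart over `O1` into the elements integral over
`A[x]`. -/
theorem s37rho_chart_int (x : ↥(modularFunctionFieldBar M))
    (K1 : IntermediateField ℚ (AlgebraicClosure ℚ)) (x1 : ↥(s18_F ↥K1 M))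
    (hx1 : s37rr_iota M K1 x1 = x) :
    letI := s18_algOF ↥(A.comap (algebraMap ↥K1 (AlgebraicClosure ℚ))) ↥K1 M
    ∀ b ∈ s18_chart ↥(A.comap (algebraMap ↥K1 (AlgebraicClosure ℚ)))
      ({x1} : Set ↥(s18_F ↥K1 M)),
      IsIntegral ↥(s37ri_ring A M x) (s37rr_iota M K1 b) := by
  letI := s18_algOF ↥(A.comap (algebraMap ↥K1 (AlgebraicClosure ℚ))) ↥K1 M
  intro b hb
  obtain ⟨q, hqm, hq⟩ := (s18_mem_chart_iff _).1 hb
  refine ⟨q.map (s37rho_iotaB A M x K1 x1 hx1), hqm.map _, ?_⟩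
  rw [Polynomial.eval₂_map, s37rho_iotaB_comp, ← Polynomial.hom_eval₂, hq, map_zero]

/-- `c ∈ F̄_M` comes from `O1[xs K1]` for all `K1` containing a suitable number field. -/
def s37rho_Desc (xs : ∀ K1 : IntermediateField ℚ (AlgebraicClosure ℚ), ↥(s18_F ↥K1 M))
    (c : ↥(modularFunctionFieldBar M)) : Prop :=
  ∃ K0 : IntermediateField ℚ (AlgebraicClosure ℚ), FiniteDimensional ℚ ↥K0 ∧
    ∀ K1 : IntermediateField ℚ (AlgebraicClosure ℚ), K0 ≤ K1 →
      letI := s18_algOF ↥(A.comap (algebraMap ↥K1 (AlgebraicClosure ℚ))) ↥K1 M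
      ∃ z : ↥(s18_F ↥K1 M),
        z ∈ Algebra.adjoin ↥(A.comap (algebraMap ↥K1 (AlgebraicClosure ℚ)))
          ({xs K1} : Set ↥(s18_F ↥K1 M)) ∧ s37rr_iota M K1 z = c

variable {A M}

omit [NeZero M] in
theorem s37rho_Desc.add {xs : ∀ K1 : IntermediateField ℚ (AlgebraicClosure ℚ), ↥(s18_F ↥K1 M)}
    {c d : ↥(modularFunctionFieldBar M)} (hc : s37rho_Desc A M xs c)
    (hd : s37rho_Desc A M xs d) : s37rho_Desc A M xs (c + d) := by
  obtain ⟨Kc, hKc, hc⟩ := hc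
  obtain ⟨Kd, hKd, hd⟩ := hd
  refine ⟨Kc ⊔ Kd, IntermediateField.finiteDimensional_sup Kc Kd, fun K1 hK1 => ?_⟩
  letI := s18_algOF ↥(A.comap (algebraMap ↥K1 (AlgebraicClosure ℚ))) ↥K1 M
  obtain ⟨z, hz, hzc⟩ := hc K1 (le_sup_left.trans hK1)
  obtain ⟨w, hw, hwd⟩ := hd K1 (le_sup_right.trans hK1)
  exact ⟨z + w, Subalgebra.add_mem _ hz hw, by rw [map_add, hzc, hwd]⟩

omit [NeZero M] in
theorem s37rho_Desc.mul {xs : ∀ K1 : IntermediateField ℚ (AlgebraicClosure ℚ), ↥(s18_F ↥K1 M)}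
    {c d : ↥(modularFunctionFieldBar M)} (hc : s37rho_Desc A M xs c)
    (hd : s37rho_Desc A M xs d) : s37rho_Desc A M xs (c * d) := by
  obtain ⟨Kc, hKc, hc⟩ := hc
  obtain ⟨Kd, hKd, hd⟩ := hd
  refine ⟨Kc ⊔ Kd, IntermediateField.finiteDimensional_sup Kc Kd, fun K1 hK1 => ?_⟩
  letI := s18_algOF ↥(A.comap (algebraMap ↥K1 (AlgebraicClosure ℚ))) ↥K1 M
  obtain ⟨z, hz, hzc⟩ := hc K1 (le_sup_left.trans hK1)
  obtain ⟨w, hw, hwd⟩ := hd K1 (le_sup_right.trans hK1)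
  exact ⟨z * w, Subalgebra.mul_mem _ hz hw, by rw [map_mul, hzc, hwd]⟩

omit [NeZero M] in
theorem s37rho_Desc.neg {xs : ∀ K1 : IntermediateField ℚ (AlgebraicClosure ℚ), ↥(s18_F ↥K1 M)}
    {c : ↥(modularFunctionFieldBar M)} (hc : s37rho_Desc A M xs c) :
    s37rho_Desc A M xs (-c) := by
  obtain ⟨Kc, hKc, hc⟩ := hc
  refine ⟨Kc, hKc, fun K1 hK1 => ?_⟩
  letI := s18_algOF ↥(A.comap (algebraMap ↥K1 (AlgebraicClosure ℚ))) ↥K1 M
  obtain ⟨z, hz, hzc⟩ := hc K1 hK1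
  exact ⟨-z, Subalgebra.neg_mem _ hz, by rw [map_neg, hzc]⟩

omit [NeZero M] in
theorem s37rho_Desc.zero
    {xs : ∀ K1 : IntermediateField ℚ (AlgebraicClosure ℚ), ↥(s18_F ↥K1 M)} :
    s37rho_Desc A M xs 0 := by
  refine ⟨⊥, inferInstance, fun K1 hK1 => ?_⟩
  letI := s18_algOF ↥(A.comap (algebraMap ↥K1 (AlgebraicClosure ℚ))) ↥K1 M
  exact ⟨0, Subalgebra.zero_mem _, map_zero _⟩

omit [NeZero M] in
theorem s37rho_Desc.one
    {xs : ∀ K1 : IntermediateField ℚ (AlgebraicClosure ℚ), ↥(s18_F ↥K1 M)} :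
    s37rho_Desc A M xs 1 := by
  refine ⟨⊥, inferInstance, fun K1 hK1 => ?_⟩
  letI := s18_algOF ↥(A.comap (algebraMap ↥K1 (AlgebraicClosure ℚ))) ↥K1 M
  exact ⟨1, Subalgebra.one_mem _, map_one _⟩

omit [NeZero M] in
theorem s37rho_Desc.const
    {xs : ∀ K1 : IntermediateField ℚ (AlgebraicClosure ℚ), ↥(s18_F ↥K1 M)} (a : ↥A) :
    s37rho_Desc A M xs
      (algebraMap (AlgebraicClosure ℚ) ↥(modularFunctionFieldBar M)
        (a : AlgebraicClosure ℚ)) := by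
  have ha : IsIntegral ℚ (a : AlgebraicClosure ℚ) :=
    ((AlgebraicClosure.isAlgebraic ℚ).isAlgebraic (a : AlgebraicClosure ℚ)).isIntegral
  refine ⟨ℚ⟮(a : AlgebraicClosure ℚ)⟯, IntermediateField.adjoin.finiteDimensional ha,
    fun K1 hK1 => ?_⟩
  letI := s18_algOF ↥(A.comap (algebraMap ↥K1 (AlgebraicClosure ℚ))) ↥K1 M
  have haK : (a : AlgebraicClosure ℚ) ∈ K1 :=
    hK1 (mem_adjoin_simple_self ℚ (a : AlgebraicClosure ℚ))
  have haO : (⟨(a : AlgebraicClosure ℚ), haK⟩ : ↥K1) ∈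
      A.comap (algebraMap ↥K1 (AlgebraicClosure ℚ)) := by
    rw [ValuationSubring.mem_comap]
    exact a.2
  refine ⟨algebraMap ↥(A.comap (algebraMap ↥K1 (AlgebraicClosure ℚ))) ↥(s18_F ↥K1 M)
    ⟨⟨(a : AlgebraicClosure ℚ), haK⟩, haO⟩, Subalgebra.algebraMap_mem _ _, ?_⟩
  exact s37rho_iota_const A M K1 _

omit [NeZero M] in
theorem s37rho_Desc.self
    {xs : ∀ K1 : IntermediateField ℚ (AlgebraicClosure ℚ), ↥(s18_F ↥K1 M)}
    {x : ↥(modularFunctionFieldBar M)} (hxs : ∀ K1, s37rr_iota M K1 (xs K1) = x) :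
    s37rho_Desc A M xs x := by
  refine ⟨⊥, inferInstance, fun K1 hK1 => ?_⟩
  letI := s18_algOF ↥(A.comap (algebraMap ↥K1 (AlgebraicClosure ℚ))) ↥K1 M
  exact ⟨xs K1, Algebra.subset_adjoin (Set.mem_singleton _), hxs K1⟩

variable (A M)

omit [NeZero M] in
/-- **Descent of the elements of `A[x]`.** -/
theorem s37rho_desc_ring (x : ↥(modularFunctionFieldBar M))
    (xs : ∀ K1 : IntermediateField ℚ (AlgebraicClosure ℚ), ↥(s18_F ↥K1 M))
    (hxs : ∀ K1, s37rr_iota M K1 (xs K1) = x)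
    (c : ↥(modularFunctionFieldBar M)) (hc : c ∈ s37ri_ring A M x) :
    s37rho_Desc A M xs c := by
  unfold s37ri_ring at hc
  induction hc using Subring.closure_induction with
  | mem y hy =>
      rcases hy with ⟨a, rfl⟩ | hy
      · exact s37rho_Desc.const a
      · rw [Set.mem_singleton_iff] at hy
        subst hy
        exact s37rho_Desc.self hxs
  | zero => exact s37rho_Desc.zero
  | one => exact s37rho_Desc.one
  | add y z _ _ hy hz => exact hy.add hz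
  | neg y _ hy => exact hy.neg
  | mul y z _ _ hy hz => exact hy.mul hz

omit [NeZero M] in
/-- **Descent of the elements integral over `A[x]`**: every `f ∈ F̄_M` integral over `A[x]` is
`ι_{K1}` of an element of the chart `s18_chart O1 {xs K1}`, `O1 = A ∩ K1`, for all `K1`
containing a suitable number field `K0`. -/
theorem s37rho_desc_int (x : ↥(modularFunctionFieldBar M))
    (xs : ∀ K1 : IntermediateField ℚ (AlgebraicClosure ℚ), ↥(s18_F ↥K1 M))
    (hxs : ∀ K1, s37rr_iota M K1 (xs K1) = x)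
    (f : ↥(modularFunctionFieldBar M)) (hf : IsIntegral ↥(s37ri_ring A M x) f) :
    ∃ K0 : IntermediateField ℚ (AlgebraicClosure ℚ), FiniteDimensional ℚ ↥K0 ∧
      ∀ K1 : IntermediateField ℚ (AlgebraicClosure ℚ), K0 ≤ K1 →
        letI := s18_algOF ↥(A.comap (algebraMap ↥K1 (AlgebraicClosure ℚ))) ↥K1 M
        ∃ f1 : ↥(s18_F ↥K1 M),
          f1 ∈ s18_chart ↥(A.comap (algebraMap ↥K1 (AlgebraicClosure ℚ)))
            ({xs K1} : Set ↥(s18_F ↥K1 M)) ∧ s37rr_iota M K1 f1 = f := by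
  classical
  obtain ⟨p, hpm, hp⟩ := hf
  -- the coefficients of `p`
  obtain ⟨Ka, hKa, hA⟩ := s37rr_finset p.support
    (fun i K1 =>
      letI := s18_algOF ↥(A.comap (algebraMap ↥K1 (AlgebraicClosure ℚ))) ↥K1 M
      ∃ z : ↥(s18_F ↥K1 M),
        z ∈ Algebra.adjoin ↥(A.comap (algebraMap ↥K1 (AlgebraicClosure ℚ)))
          ({xs K1} : Set ↥(s18_F ↥K1 M)) ∧
        s37rr_iota M K1 z = ((p.coeff i : ↥(s37ri_ring A M x)) : ↥(modularFunctionFieldBar M)))
    (fun i _ => s37rho_desc_ring A M x xs hxs _ (p.coeff i).2)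
  -- `f` itself
  obtain ⟨Kb, hKb, hB⟩ := s37rr_descent M f
  refine ⟨Ka ⊔ Kb, IntermediateField.finiteDimensional_sup Ka Kb, fun K1 hK1 => ?_⟩
  letI := s18_algOF ↥(A.comap (algebraMap ↥K1 (AlgebraicClosure ℚ))) ↥K1 M
  obtain ⟨f1, hf1⟩ := hB K1 (le_sup_right.trans hK1)
  refine ⟨f1, ?_, hf1⟩
  have hA' := hA K1 (le_sup_left.trans hK1)
  have hlift : p ∈ Polynomial.lifts (s37rho_iotaB A M x K1 (xs K1) (hxs K1)) := by
    rw [Polynomial.lifts_iff_coeff_lifts]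
    intro n
    by_cases hn : n ∈ p.support
    · obtain ⟨z, hz, hzc⟩ := hA' n hn
      exact ⟨⟨z, hz⟩, Subtype.ext hzc⟩
    · rw [Polynomial.notMem_support_iff.1 hn]
      exact ⟨0, map_zero _⟩
  obtain ⟨q, hqp, -, hqm⟩ := Polynomial.lifts_and_natDegree_eq_and_monic hlift hpm
  rw [s18_mem_chart_iff]
  refine ⟨q, hqm, ?_⟩
  apply (s37rr_iota M K1).injective
  rw [map_zero, Polynomial.hom_eval₂, ← s37rho_iotaB_comp A M x K1 (xs K1) (hxs K1),
    ← Polynomial.eval₂_map, hqp, hf1]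
  exact hp

end Desc

end Fermat.Agent.S37
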