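/-
S37, [RI], leaf [RI-RHO] (helper28), part 0: THE CALCULUS OF `s37ri_Red`.  Prefix `s37rho_`.

`s37ri_Red A M f g` (`f ∈ F̄_M` reduces to `g ∈ F_k(M)`: `f = a/s`, `g = ā/s̄`, `a, s ∈ A((q))`,
`s̄ ≠ 0`).

* `s37rho_unique`: `g` is determined by `f`.
* `s37rho_add`, `s37rho_mul`, `s37rho_neg`, `s37rho_sub`, `s37rho_zero`, `s37rho_one`,
  `s37rho_const`, `s37rho_pow`: the reduction is a ring homomorphism where it is defined.
* `s37rho_series_red`: an integral series `y` reduces to `ȳ`.
* `s37rho_zero_iff`: `0` reduces to `g` iff `g = 0`.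
* `s37rho_red_series_iff`: `ι y` reduces to `g` iff `g = ȳ`.
-/
import Mathlib
import Fermat.Agent.S37.RIDefs
import Fermat.Agent.S18.RatQDescent

set_option autoImplicit false
set_option linter.unusedSectionVars false
set_option linter.unusedVariables false

open ModularCurve AlgebraicCurve IntermediateField

noncomputable section

namespace Fermat.Agent.S37

open Fermat.Agent.S18

section Tools

variable (A : ValuationSubring (AlgebraicClosure ℚ)) (M : ℕ) [NeZero M]

/-- `A((q)) → Q̄((q))` is injective. -/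
theorem s37rho_iotaA_injective :
    Function.Injective (coeffMap (A.subtype : ↥A →+* AlgebraicClosure ℚ)) :=
  s18rq_coeffMap_injective _ Subtype.val_injective

variable {A M}

/-- **Uniqueness of the reduction.** -/
theorem s37rho_unique {f : ↥(modularFunctionFieldBar M)}
    {g g' : ↥(modularFunctionFieldFullC (IsLocalRing.ResidueField A) M)}
    (h : s37ri_Red A M f g) (h' : s37ri_Red A M f g') : g = g' := by
  obtain ⟨a, s, hs, hf, hg⟩ := h
  obtain ⟨a', s', hs', hf', hg'⟩ := h'
  have h1 : a * s' = a' * s := by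
    apply s37rho_iotaA_injective A
    rw [map_mul, map_mul, ← hf, ← hf']
    ring
  have h2 := congrArg (coeffMap (IsLocalRing.residue A)) h1
  rw [map_mul, map_mul, ← hg, ← hg'] at h2
  apply Subtype.ext
  have h3 : (g : LaurentSeries (IsLocalRing.ResidueField A)) *
      (coeffMap (IsLocalRing.residue A) s * coeffMap (IsLocalRing.residue A) s') =
      (g' : LaurentSeries (IsLocalRing.ResidueField A)) *
      (coeffMap (IsLocalRing.residue A) s * coeffMap (IsLocalRing.residue A) s') := by
    linear_combination h2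
  exact mul_right_cancel₀ (mul_ne_zero hs hs') h3

/-- An integral series `y` reduces to `ȳ`. -/
theorem s37rho_series_red (y : LaurentSeries A)
    (hy : coeffMap A.subtype y ∈ modularFunctionFieldBar M)
    (hyk : coeffMap (IsLocalRing.residue A) y ∈
      modularFunctionFieldFullC (IsLocalRing.ResidueField A) M) :
    s37ri_Red A M (⟨coeffMap A.subtype y, hy⟩ : ↥(modularFunctionFieldBar M))
      (⟨coeffMap (IsLocalRing.residue A) y, hyk⟩ :
        ↥(modularFunctionFieldFullC (IsLocalRing.ResidueField A) M)) :=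
  ⟨y, 1, by rw [map_one]; exact one_ne_zero, by rw [map_one, mul_one],
    by rw [map_one, mul_one]⟩

/-- The same, with the element of `F̄_M` given separately. -/
theorem s37rho_series_red' (f : ↥(modularFunctionFieldBar M)) (y : LaurentSeries A)
    (hy : coeffMap A.subtype y = (f : LaurentSeries (AlgebraicClosure ℚ)))
    (hyk : coeffMap (IsLocalRing.residue A) y ∈
      modularFunctionFieldFullC (IsLocalRing.ResidueField A) M) :
    s37ri_Red A M f (⟨coeffMap (IsLocalRing.residue A) y, hyk⟩ :
        ↥(modularFunctionFieldFullC (IsLocalRing.ResidueField A) M)) :=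
  ⟨y, 1, by rw [map_one]; exact one_ne_zero, by rw [map_one, mul_one, hy],
    by rw [map_one, mul_one]⟩

/-- `ι y` reduces to `g` iff `g = ȳ`. -/
theorem s37rho_red_series_iff (f : ↥(modularFunctionFieldBar M)) (y : LaurentSeries A)
    (hy : coeffMap A.subtype y = (f : LaurentSeries (AlgebraicClosure ℚ)))
    (g : ↥(modularFunctionFieldFullC (IsLocalRing.ResidueField A) M)) :
    s37ri_Red A M f g ↔
      (g : LaurentSeries (IsLocalRing.ResidueField A)) = coeffMap (IsLocalRing.residue A) y := by
  constructor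
  · rintro ⟨a, s, hs, hf, hg⟩
    have h1 : y * s = a := by
      apply s37rho_iotaA_injective A
      rw [map_mul, hy, hf]
    have h2 := congrArg (coeffMap (IsLocalRing.residue A)) h1
    rw [map_mul, ← hg] at h2
    exact (mul_right_cancel₀ hs h2).symm
  · intro h
    have hyk : coeffMap (IsLocalRing.residue A) y ∈
        modularFunctionFieldFullC (IsLocalRing.ResidueField A) M := h ▸ g.2
    have h1 : g = ⟨coeffMap (IsLocalRing.residue A) y, hyk⟩ := Subtype.ext h
    rw [h1]
    exact s37rho_series_red' f y hy hyk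

theorem s37rho_zero : s37ri_Red A M (0 : ↥(modularFunctionFieldBar M))
    (0 : ↥(modularFunctionFieldFullC (IsLocalRing.ResidueField A) M)) :=
  ⟨0, 1, by rw [map_one]; exact one_ne_zero, by simp, by simp⟩

theorem s37rho_one : s37ri_Red A M (1 : ↥(modularFunctionFieldBar M))
    (1 : ↥(modularFunctionFieldFullC (IsLocalRing.ResidueField A) M)) :=
  ⟨1, 1, by rw [map_one]; exact one_ne_zero, by simp, by simp⟩

/-- `0` reduces to `g` iff `g = 0`. -/
theorem s37rho_zero_iff (g : ↥(modularFunctionFieldFullC (IsLocalRing.ResidueField A) M)) :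
    s37ri_Red A M (0 : ↥(modularFunctionFieldBar M)) g ↔ g = 0 :=
  ⟨fun h => s37rho_unique h s37rho_zero, fun h => h ▸ s37rho_zero⟩

/-- The constants: `c ∈ A` reduces to `c̄`. -/
theorem s37rho_const (c : ↥A) :
    s37ri_Red A M
      (algebraMap (AlgebraicClosure ℚ) ↥(modularFunctionFieldBar M) (c : AlgebraicClosure ℚ))
      (algebraMap (IsLocalRing.ResidueField A)
        ↥(modularFunctionFieldFullC (IsLocalRing.ResidueField A) M)
        (IsLocalRing.residue A c)) := by
  refine ⟨HahnSeries.single 0 c, 1, by rw [map_one]; exact one_ne_zero, ?_, ?_⟩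
  · rw [map_one, mul_one, coeffMap_single]
    exact algebraMap_laurentSeries_eq_single (L := AlgebraicClosure ℚ) _
  · rw [map_one, mul_one, coeffMap_single]
    exact algebraMap_laurentSeries_eq_single (L := IsLocalRing.ResidueField A) _

theorem s37rho_add {f f' : ↥(modularFunctionFieldBar M)}
    {g g' : ↥(modularFunctionFieldFullC (IsLocalRing.ResidueField A) M)}
    (h : s37ri_Red A M f g) (h' : s37ri_Red A M f' g') : s37ri_Red A M (f + f') (g + g') := by
  obtain ⟨a, s, hs, hf, hg⟩ := h
  obtain ⟨a', s', hs', hf', hg'⟩ := h'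
  refine ⟨a * s' + a' * s, s * s', by rw [map_mul]; exact mul_ne_zero hs hs', ?_, ?_⟩
  · rw [map_add, map_mul, map_mul, map_mul, ← hf, ← hf']
    push_cast
    ring
  · rw [map_add, map_mul, map_mul, map_mul, ← hg, ← hg']
    push_cast
    ring

theorem s37rho_mul {f f' : ↥(modularFunctionFieldBar M)}
    {g g' : ↥(modularFunctionFieldFullC (IsLocalRing.ResidueField A) M)}
    (h : s37ri_Red A M f g) (h' : s37ri_Red A M f' g') : s37ri_Red A M (f * f') (g * g') := by
  obtain ⟨a, s, hs, hf, hg⟩ := h
  obtain ⟨a', s', hs', hf', hg'⟩ := h'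
  refine ⟨a * a', s * s', by rw [map_mul]; exact mul_ne_zero hs hs', ?_, ?_⟩
  · rw [map_mul, map_mul, ← hf, ← hf']
    push_cast
    ring
  · rw [map_mul, map_mul, ← hg, ← hg']
    push_cast
    ring

theorem s37rho_neg {f : ↥(modularFunctionFieldBar M)}
    {g : ↥(modularFunctionFieldFullC (IsLocalRing.ResidueField A) M)}
    (h : s37ri_Red A M f g) : s37ri_Red A M (-f) (-g) := by
  obtain ⟨a, s, hs, hf, hg⟩ := h
  refine ⟨-a, s, hs, ?_, ?_⟩
  · rw [map_neg, ← hf]
    push_cast
    ring
  · rw [map_neg, ← hg]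
    push_cast
    ring

theorem s37rho_sub {f f' : ↥(modularFunctionFieldBar M)}
    {g g' : ↥(modularFunctionFieldFullC (IsLocalRing.ResidueField A) M)}
    (h : s37ri_Red A M f g) (h' : s37ri_Red A M f' g') : s37ri_Red A M (f - f') (g - g') := by
  rw [sub_eq_add_neg, sub_eq_add_neg]
  exact s37rho_add h (s37rho_neg h')

theorem s37rho_pow {f : ↥(modularFunctionFieldBar M)}
    {g : ↥(modularFunctionFieldFullC (IsLocalRing.ResidueField A) M)}
    (h : s37ri_Red A M f g) (n : ℕ) : s37ri_Red A M (f ^ n) (g ^ n) := by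
  induction n with
  | zero => rw [pow_zero, pow_zero]; exact s37rho_one
  | succ n ih => rw [pow_succ, pow_succ]; exact s37rho_mul ih h

/-- The shift by a constant: `f - c` reduces to `g - c̄`. -/
theorem s37rho_sub_const {f : ↥(modularFunctionFieldBar M)}
    {g : ↥(modularFunctionFieldFullC (IsLocalRing.ResidueField A) M)}
    (h : s37ri_Red A M f g) (c : ↥A) :
    s37ri_Red A M
      (f - algebraMap (AlgebraicClosure ℚ) ↥(modularFunctionFieldBar M)
        (c : AlgebraicClosure ℚ))
      (g - algebraMap (IsLocalRing.ResidueField A)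
        ↥(modularFunctionFieldFullC (IsLocalRing.ResidueField A) M)
        (IsLocalRing.residue A c)) :=
  s37rho_sub h (s37rho_const c)

/-- `j` reduces to `j̄`. -/
theorem s37rho_j : s37ri_Red A M (s37ri_j M) (s37ri_jk M (IsLocalRing.ResidueField A)) := by
  refine ⟨jqModC ↥A, 1, by rw [map_one]; exact one_ne_zero, ?_, ?_⟩
  · rw [map_one, mul_one, coeffMap_jqModC]
    show coeffEmb (AlgebraicClosure ℚ) jq = jqModC (AlgebraicClosure ℚ)
    rw [← jqModC_rat]
    exact coeffMap_jqModC (algebraMap ℚ (AlgebraicClosure ℚ))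
  · rw [map_one, mul_one, coeffMap_jqModC]
    rfl

/-- The inverse: if `f` reduces to `g ≠ 0` then `f⁻¹` reduces to `g⁻¹`. -/
theorem s37rho_inv {f : ↥(modularFunctionFieldBar M)}
    {g : ↥(modularFunctionFieldFullC (IsLocalRing.ResidueField A) M)}
    (h : s37ri_Red A M f g) (hg0 : g ≠ 0) : s37ri_Red A M f⁻¹ g⁻¹ := by
  obtain ⟨a, s, hs, hf, hg⟩ := h
  have hgL : (g : LaurentSeries (IsLocalRing.ResidueField A)) ≠ 0 := fun h0 =>
    hg0 (Subtype.ext h0)
  have ha : coeffMap (IsLocalRing.residue A) a ≠ 0 := by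
    rw [← hg]
    exact mul_ne_zero hgL hs
  have ha0 : coeffMap A.subtype a ≠ 0 := by
    intro h0
    have : a = 0 := s37rho_iotaA_injective A (h0.trans (map_zero _).symm)
    rw [this, map_zero] at ha
    exact ha rfl
  have hf0 : (f : LaurentSeries (AlgebraicClosure ℚ)) ≠ 0 := by
    intro h0
    rw [h0, zero_mul] at hf
    exact ha0 hf.symm
  refine ⟨s, a, ha, ?_, ?_⟩
  · rw [← hf]
    push_cast
    field_simp
  · rw [← hg]
    push_cast
    field_simp

end Tools

end Fermat.Agent.S37
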