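/-
S37, [RI], leaf [RI-RHO] (helper28), part 3: THE REDUCTION OF THE ELEMENTS INTEGRAL OVER `A[x]`,
`x ∈ {j, 1/j}`.  Prefix `s37rho_`.

`A ⊆ Q̄` a valuation ring over `ℓ`, `k = A/m`.

* (RHO-0) `s37rho_series`: every `f ∈ F̄_M` integral over `A[x]` has an `A`-INTEGRAL
  `q`-EXPANSION: `f = ι y`, `y ∈ A((q))`.
* (RHO-1) `s37rho_exists`: such an `f` reduces (`s37ri_Red`) to some `g ∈ F_k(M)` (`g = ȳ`).
* (RHO-2) `s37rho_ker`: if `f` reduces to `0` then `f = c · f'` with `c ∈ m_A` and `f'` integral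
  over `A[x]`.
* `s37rho_norm`: a non-zero `f` integral over `A[x]` is `c · f'`, `0 ≠ c ∈ A`, `f'` integral over
  `A[x]` with NON-ZERO reduction.
* THE SEAM WITH THE CHARTS OVER `O1 = A ∩ K1` (`K1` a number field): `s37rho_seam`:
  for `β ∈ s18_chart O1 {x1}` and ANY `ρ` with the compatibility clause of `s18_HasRed`,
  `ι β` is integral over `A[x]` and reduces to `(κ1 → k)(ρ β)`.
-/
import Mathlib
import Fermat.Agent.S37.RIRhoTools
import Fermat.Agent.S37.RIRhoInt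
import Fermat.Agent.S37.RIRhoDesc
import Fermat.Agent.S37.PgiDescent
import Fermat.Agent.S18.GaussQOf
import Fermat.Agent.S18.GaussAbs

set_option autoImplicit false
set_option linter.unusedSectionVars false
set_option linter.unusedVariables false
set_option linter.style.haveILetI false
set_option warn.classDefReducibility false
set_option maxHeartbeats 1000000
set_option synthInstance.maxHeartbeats 400000

open ModularCurve AlgebraicCurve IntermediateField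

noncomputable section

namespace Fermat.Agent.S37

open Fermat.Agent.S18

section Local

variable (A : ValuationSubring (AlgebraicClosure ℚ)) (M : ℕ) [NeZero M]

/-- The map `κ(O1) → k` of the residue fields, `O1 = A ∩ K1`. -/
abbrev s37rho_kmap (K1 : IntermediateField ℚ (AlgebraicClosure ℚ)) :
    IsLocalRing.ResidueField ↥(A.comap (algebraMap ↥K1 (AlgebraicClosure ℚ))) →+*
      IsLocalRing.ResidueField ↥A :=
  haveI := s37pgi_incl_isLocalHom A K1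
  IsLocalRing.ResidueField.map (s18rq_incl (algebraMap ↥K1 (AlgebraicClosure ℚ)) A)

theorem s37rho_kmap_comp (K1 : IntermediateField ℚ (AlgebraicClosure ℚ)) :
    (s37rho_kmap A K1).comp
        (IsLocalRing.residue ↥(A.comap (algebraMap ↥K1 (AlgebraicClosure ℚ)))) =
      (IsLocalRing.residue ↥A).comp (s18rq_incl (algebraMap ↥K1 (AlgebraicClosure ℚ)) A) :=
  rfl

/-- `(κ1 → k)` of the reduction of an `O1`-series is the reduction of the `A`-series. -/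
theorem s37rho_kmap_series (K1 : IntermediateField ℚ (AlgebraicClosure ℚ))
    (y1 : LaurentSeries ↥(A.comap (algebraMap ↥K1 (AlgebraicClosure ℚ)))) :
    coeffMap (s37rho_kmap A K1)
        (coeffMap (IsLocalRing.residue ↥(A.comap (algebraMap ↥K1 (AlgebraicClosure ℚ)))) y1) =
      coeffMap (IsLocalRing.residue ↥A)
        (coeffMap (s18rq_incl (algebraMap ↥K1 (AlgebraicClosure ℚ)) A) y1) := by
  rw [coeffMap_coeffMap, coeffMap_coeffMap, s37rho_kmap_comp]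

/-- `ι_A ∘ incl = ι_{K1} ∘ ι_{O1}` on series. -/
theorem s37rho_iota_incl (K1 : IntermediateField ℚ (AlgebraicClosure ℚ))
    (y1 : LaurentSeries ↥(A.comap (algebraMap ↥K1 (AlgebraicClosure ℚ)))) :
    coeffMap A.subtype (coeffMap (s18rq_incl (algebraMap ↥K1 (AlgebraicClosure ℚ)) A) y1) =
      coeffMap (algebraMap ↥K1 (AlgebraicClosure ℚ))
        (coeffMap (algebraMap ↥(A.comap (algebraMap ↥K1 (AlgebraicClosure ℚ))) ↥K1) y1) := by
  rw [coeffMap_coeffMap, coeffMap_coeffMap, s18rq_subtype_comp_incl]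
  rfl

/-- The reduction of `incl y1` vanishes iff the reduction of `y1` does. -/
theorem s37rho_red_incl_eq_zero (K1 : IntermediateField ℚ (AlgebraicClosure ℚ))
    (y1 : LaurentSeries ↥(A.comap (algebraMap ↥K1 (AlgebraicClosure ℚ)))) :
    coeffMap (IsLocalRing.residue ↥A)
        (coeffMap (s18rq_incl (algebraMap ↥K1 (AlgebraicClosure ℚ)) A) y1) = 0 ↔
      coeffMap (IsLocalRing.residue ↥(A.comap (algebraMap ↥K1 (AlgebraicClosure ℚ)))) y1 = 0 := by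
  constructor
  · intro h
    ext k
    have := congrArg (fun z => z.coeff k) h
    simp only [coeffMap_coeff, HahnSeries.coeff_zero] at this ⊢
    exact (s18rq_residue_incl _ A _).1 this
  · intro h
    ext k
    have := congrArg (fun z => z.coeff k) h
    simp only [coeffMap_coeff, HahnSeries.coeff_zero] at this ⊢
    exact (s18rq_residue_incl _ A _).2 this

variable {ℓ : ℕ} [Fact ℓ.Prime]

/-- **Chart elements over `O1` are `O1`-series** (`K1` a number field). -/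
theorem s37rho_chart_series (hA : A.LiesOverPrime ℓ)
    (K1 : IntermediateField ℚ (AlgebraicClosure ℚ)) (hK1 : FiniteDimensional ℚ ↥K1)
    (x1 : ↥(s18_F ↥K1 M))
    (ax : LaurentSeries ↥(A.comap (algebraMap ↥K1 (AlgebraicClosure ℚ))))
    (hax : ((x1 : ↥(s18_F ↥K1 M)) : LaurentSeries ↥K1) =
      coeffMap (algebraMap ↥(A.comap (algebraMap ↥K1 (AlgebraicClosure ℚ))) ↥K1) ax) :
    letI := s18_algOF ↥(A.comap (algebraMap ↥K1 (AlgebraicClosure ℚ))) ↥K1 M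
    ∀ b ∈ s18_chart ↥(A.comap (algebraMap ↥K1 (AlgebraicClosure ℚ)))
      ({x1} : Set ↥(s18_F ↥K1 M)),
      ∃ y1 : LaurentSeries ↥(A.comap (algebraMap ↥K1 (AlgebraicClosure ℚ))),
        coeffMap (algebraMap ↥(A.comap (algebraMap ↥K1 (AlgebraicClosure ℚ))) ↥K1) y1 =
          ((b : ↥(s18_F ↥K1 M)) : LaurentSeries ↥K1) := by
  haveI := s37pgi_dvr A hA K1 hK1
  letI := s18_algOF ↥(A.comap (algebraMap ↥K1 (AlgebraicClosure ℚ))) ↥K1 M
  intro b hb
  exact s37rho_series_of_chart ↥(A.comap (algebraMap ↥K1 (AlgebraicClosure ℚ))) ↥K1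
    (s18_F ↥K1 M) x1 ax hax (s37pgi_hfrac _ ↥K1 M) b hb

end Local

section Global

variable (A : ValuationSubring (AlgebraicClosure ℚ)) (M : ℕ) [NeZero M] {ℓ : ℕ} [Fact ℓ.Prime]

/-- **The full descent datum** of an element `f` integral over `A[x]`: the `A`-series `y` of `f`,
and over every number field `K1 ⊇ K0` an element `f1` of the chart over `O1 = A ∩ K1` with its
`O1`-series `y1`. -/
theorem s37rho_desc_full (hA : A.LiesOverPrime ℓ) (x : ↥(modularFunctionFieldBar M))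
    (xs : ∀ K1 : IntermediateField ℚ (AlgebraicClosure ℚ), ↥(s18_F ↥K1 M))
    (hxs : ∀ K1, s37rr_iota M K1 (xs K1) = x)
    (ax : ∀ K1 : IntermediateField ℚ (AlgebraicClosure ℚ),
      LaurentSeries ↥(A.comap (algebraMap ↥K1 (AlgebraicClosure ℚ))))
    (hax : ∀ K1 : IntermediateField ℚ (AlgebraicClosure ℚ),
      ((xs K1 : ↥(s18_F ↥K1 M)) : LaurentSeries ↥K1) =
      coeffMap (algebraMap ↥(A.comap (algebraMap ↥K1 (AlgebraicClosure ℚ))) ↥K1) (ax K1))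
    (f : ↥(modularFunctionFieldBar M)) (hf : IsIntegral ↥(s37ri_ring A M x) f) :
    ∃ y : LaurentSeries ↥A,
      coeffMap A.subtype y = (f : LaurentSeries (AlgebraicClosure ℚ)) ∧
      ∃ K0 : IntermediateField ℚ (AlgebraicClosure ℚ), FiniteDimensional ℚ ↥K0 ∧
        ∀ K1 : IntermediateField ℚ (AlgebraicClosure ℚ), K0 ≤ K1 → FiniteDimensional ℚ ↥K1 →
          letI := s18_algOF ↥(A.comap (algebraMap ↥K1 (AlgebraicClosure ℚ))) ↥K1 M
          ∃ f1 : ↥(s18_F ↥K1 M),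
            f1 ∈ s18_chart ↥(A.comap (algebraMap ↥K1 (AlgebraicClosure ℚ)))
              ({xs K1} : Set ↥(s18_F ↥K1 M)) ∧
            s37rr_iota M K1 f1 = f ∧
            ∃ y1 : LaurentSeries ↥(A.comap (algebraMap ↥K1 (AlgebraicClosure ℚ))),
              coeffMap (algebraMap ↥(A.comap (algebraMap ↥K1 (AlgebraicClosure ℚ))) ↥K1) y1 =
                ((f1 : ↥(s18_F ↥K1 M)) : LaurentSeries ↥K1) ∧
              coeffMap (s18rq_incl (algebraMap ↥K1 (AlgebraicClosure ℚ)) A) y1 = y := by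
  obtain ⟨K0, hK0, h⟩ := s37rho_desc_int A M x xs hxs f hf
  have key : ∀ K1 : IntermediateField ℚ (AlgebraicClosure ℚ), K0 ≤ K1 →
      FiniteDimensional ℚ ↥K1 →
      letI := s18_algOF ↥(A.comap (algebraMap ↥K1 (AlgebraicClosure ℚ))) ↥K1 M
      ∃ f1 : ↥(s18_F ↥K1 M),
        f1 ∈ s18_chart ↥(A.comap (algebraMap ↥K1 (AlgebraicClosure ℚ)))
          ({xs K1} : Set ↥(s18_F ↥K1 M)) ∧
        s37rr_iota M K1 f1 = f ∧
        ∃ y1 : LaurentSeries ↥(A.comap (algebraMap ↥K1 (AlgebraicClosure ℚ))),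
          coeffMap (algebraMap ↥(A.comap (algebraMap ↥K1 (AlgebraicClosure ℚ))) ↥K1) y1 =
            ((f1 : ↥(s18_F ↥K1 M)) : LaurentSeries ↥K1) ∧
          coeffMap A.subtype
            (coeffMap (s18rq_incl (algebraMap ↥K1 (AlgebraicClosure ℚ)) A) y1) =
              (f : LaurentSeries (AlgebraicClosure ℚ)) := by
    intro K1 hK1 hfin
    letI := s18_algOF ↥(A.comap (algebraMap ↥K1 (AlgebraicClosure ℚ))) ↥K1 M
    obtain ⟨f1, hf1c, hf1⟩ := h K1 hK1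
    obtain ⟨y1, hy1⟩ := s37rho_chart_series A M hA K1 hfin (xs K1) (ax K1) (hax K1) f1 hf1c
    refine ⟨f1, hf1c, hf1, y1, hy1, ?_⟩
    rw [s37rho_iota_incl, hy1, ← hf1]
    rfl
  obtain ⟨f0, hf0c, hf0, y0, hy0, hy0'⟩ := key K0 le_rfl hK0
  refine ⟨coeffMap (s18rq_incl (algebraMap ↥K0 (AlgebraicClosure ℚ)) A) y0, hy0', K0, hK0,
    fun K1 hK1 hfin => ?_⟩
  obtain ⟨f1, hf1c, hf1, y1, hy1, hy1'⟩ := key K1 hK1 hfin
  exact ⟨f1, hf1c, hf1, y1, hy1, s37rho_iotaA_injective A (hy1'.trans hy0'.symm)⟩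

/-- (RHO-0), generic coordinate. -/
theorem s37rho_series_gen (hA : A.LiesOverPrime ℓ) (x : ↥(modularFunctionFieldBar M))
    (xs : ∀ K1 : IntermediateField ℚ (AlgebraicClosure ℚ), ↥(s18_F ↥K1 M))
    (hxs : ∀ K1, s37rr_iota M K1 (xs K1) = x)
    (ax : ∀ K1 : IntermediateField ℚ (AlgebraicClosure ℚ),
      LaurentSeries ↥(A.comap (algebraMap ↥K1 (AlgebraicClosure ℚ))))
    (hax : ∀ K1 : IntermediateField ℚ (AlgebraicClosure ℚ),
      ((xs K1 : ↥(s18_F ↥K1 M)) : LaurentSeries ↥K1) =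
      coeffMap (algebraMap ↥(A.comap (algebraMap ↥K1 (AlgebraicClosure ℚ))) ↥K1) (ax K1))
    (f : ↥(modularFunctionFieldBar M)) (hf : IsIntegral ↥(s37ri_ring A M x) f) :
    ∃ y : LaurentSeries ↥A,
      coeffMap A.subtype y = (f : LaurentSeries (AlgebraicClosure ℚ)) := by
  obtain ⟨y, hy, -⟩ := s37rho_desc_full A M hA x xs hxs ax hax f hf
  exact ⟨y, hy⟩

/-- (RHO-2), generic coordinate. -/
theorem s37rho_ker_gen (hA : A.LiesOverPrime ℓ) (x : ↥(modularFunctionFieldBar M))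
    (xs : ∀ K1 : IntermediateField ℚ (AlgebraicClosure ℚ), ↥(s18_F ↥K1 M))
    (hxs : ∀ K1, s37rr_iota M K1 (xs K1) = x)
    (ax : ∀ K1 : IntermediateField ℚ (AlgebraicClosure ℚ),
      LaurentSeries ↥(A.comap (algebraMap ↥K1 (AlgebraicClosure ℚ))))
    (hax : ∀ K1 : IntermediateField ℚ (AlgebraicClosure ℚ),
      ((xs K1 : ↥(s18_F ↥K1 M)) : LaurentSeries ↥K1) =
      coeffMap (algebraMap ↥(A.comap (algebraMap ↥K1 (AlgebraicClosure ℚ))) ↥K1) (ax K1))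
    (hred : ∀ K1 : IntermediateField ℚ (AlgebraicClosure ℚ), FiniteDimensional ℚ ↥K1 →
      s18_HasRed ↥(A.comap (algebraMap ↥K1 (AlgebraicClosure ℚ))) ↥K1 M
        ({xs K1} : Set ↥(s18_F ↥K1 M)))
    (f : ↥(modularFunctionFieldBar M)) (hf : IsIntegral ↥(s37ri_ring A M x) f)
    (h0 : s37ri_Red A M f 0) :
    ∃ (c : ↥A) (f' : ↥(modularFunctionFieldBar M)), c ∈ IsLocalRing.maximalIdeal ↥A ∧
      IsIntegral ↥(s37ri_ring A M x) f' ∧
      f = algebraMap (AlgebraicClosure ℚ) ↥(modularFunctionFieldBar M)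
        (c : AlgebraicClosure ℚ) * f' := by
  obtain ⟨y, hy, K0, hK0, h⟩ := s37rho_desc_full A M hA x xs hxs ax hax f hf
  haveI := s37pgi_dvr A hA K0 hK0
  letI := s18_algOF ↥(A.comap (algebraMap ↥K0 (AlgebraicClosure ℚ))) ↥K0 M
  obtain ⟨f1, hf1c, hf1, y1, hy1, hy1'⟩ := h K0 le_rfl hK0
  obtain ⟨ρ, hker, hmul⟩ := hred K0 hK0
  have hy0 : coeffMap (IsLocalRing.residue ↥A) y = 0 := by
    have := (s37rho_red_series_iff f y hy 0).1 h0
    rw [← this]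
    rfl
  have hy10 : coeffMap
      (IsLocalRing.residue ↥(A.comap (algebraMap ↥K0 (AlgebraicClosure ℚ)))) y1 = 0 :=
    (s37rho_red_incl_eq_zero A K0 y1).1 (by rw [hy1']; exact hy0)
  have hρ : ρ ⟨f1, hf1c⟩ = 0 :=
    (s18gq_rho_eq ρ hmul ⟨f1, hf1c⟩ y1 hy1.symm).trans hy10
  obtain ⟨ϖ, hϖ⟩ := IsDiscreteValuationRing.exists_irreducible
    ↥(A.comap (algebraMap ↥K0 (AlgebraicClosure ℚ)))
  obtain ⟨b₁, hb₁⟩ := s18gq_div_unif ρ hker hϖ ⟨f1, hf1c⟩ hρ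
  refine ⟨s18rq_incl _ A ϖ, s37rr_iota M K0 (b₁ : ↥(s18_F ↥K0 M)), ?_,
    s37rho_chart_int A M x K0 (xs K0) (hxs K0) b₁ b₁.2, ?_⟩
  · rw [IsLocalRing.mem_maximalIdeal, mem_nonunits_iff, s18rq_isUnit_incl]
    exact hϖ.not_isUnit
  · have h3 : f1 = algebraMap ↥(A.comap (algebraMap ↥K0 (AlgebraicClosure ℚ)))
        ↥(s18_F ↥K0 M) ϖ * (b₁ : ↥(s18_F ↥K0 M)) :=
      congrArg Subtype.val hb₁
    rw [← hf1, h3, map_mul, s37rho_iota_const A M K0 ϖ]

/-- Gauss normalisation, generic coordinate: a non-zero `f` integral over `A[x]` is `c · f'` with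
`0 ≠ c ∈ A` and `f'` integral over `A[x]` with an `A`-series of NON-ZERO reduction. -/
theorem s37rho_norm_gen (hA : A.LiesOverPrime ℓ) (x : ↥(modularFunctionFieldBar M))
    (xs : ∀ K1 : IntermediateField ℚ (AlgebraicClosure ℚ), ↥(s18_F ↥K1 M))
    (hxs : ∀ K1, s37rr_iota M K1 (xs K1) = x)
    (ax : ∀ K1 : IntermediateField ℚ (AlgebraicClosure ℚ),
      LaurentSeries ↥(A.comap (algebraMap ↥K1 (AlgebraicClosure ℚ))))
    (hax : ∀ K1 : IntermediateField ℚ (AlgebraicClosure ℚ),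
      ((xs K1 : ↥(s18_F ↥K1 M)) : LaurentSeries ↥K1) =
      coeffMap (algebraMap ↥(A.comap (algebraMap ↥K1 (AlgebraicClosure ℚ))) ↥K1) (ax K1))
    (hred : ∀ K1 : IntermediateField ℚ (AlgebraicClosure ℚ), FiniteDimensional ℚ ↥K1 →
      s18_HasRed ↥(A.comap (algebraMap ↥K1 (AlgebraicClosure ℚ))) ↥K1 M
        ({xs K1} : Set ↥(s18_F ↥K1 M)))
    (f : ↥(modularFunctionFieldBar M)) (hf : IsIntegral ↥(s37ri_ring A M x) f)
    (hf0 : f ≠ 0) :
    ∃ (c : ↥A) (f' : ↥(modularFunctionFieldBar M)) (y' : LaurentSeries ↥A), c ≠ 0 ∧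
      IsIntegral ↥(s37ri_ring A M x) f' ∧
      f = algebraMap (AlgebraicClosure ℚ) ↥(modularFunctionFieldBar M)
        (c : AlgebraicClosure ℚ) * f' ∧
      coeffMap A.subtype y' = (f' : LaurentSeries (AlgebraicClosure ℚ)) ∧
      coeffMap (IsLocalRing.residue ↥A) y' ≠ 0 := by
  obtain ⟨y, hy, K0, hK0, h⟩ := s37rho_desc_full A M hA x xs hxs ax hax f hf
  haveI := s37pgi_dvr A hA K0 hK0
  letI := s18_algOF ↥(A.comap (algebraMap ↥K0 (AlgebraicClosure ℚ))) ↥K0 M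
  obtain ⟨f1, hf1c, hf1, y1, hy1, hy1'⟩ := h K0 le_rfl hK0
  obtain ⟨ρ, hker, hmul⟩ := hred K0 hK0
  have hy10 : y1 ≠ 0 := by
    rintro rfl
    apply hf0
    have : f1 = 0 := Subtype.ext (by rw [← hy1, map_zero]; rfl)
    rw [← hf1, this, map_zero]
  obtain ⟨ϖ, hϖ⟩ := IsDiscreteValuationRing.exists_irreducible
    ↥(A.comap (algebraMap ↥K0 (AlgebraicClosure ℚ)))
  obtain ⟨m, a', ha', hya⟩ := s18ga_exists_factor hϖ y1 hy10
  have hinj : Function.Injective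
      (algebraMap ↥(A.comap (algebraMap ↥K0 (AlgebraicClosure ℚ))) ↥(s18_F ↥K0 M)) :=
    (algebraMap ↥K0 ↥(s18_F ↥K0 M)).injective.comp
      (IsFractionRing.injective ↥(A.comap (algebraMap ↥K0 (AlgebraicClosure ℚ))) ↥K0)
  have hπ0 : algebraMap ↥(A.comap (algebraMap ↥K0 (AlgebraicClosure ℚ)))
      ↥(s18_F ↥K0 M) ϖ ≠ 0 := (map_ne_zero_iff _ hinj).2 hϖ.ne_zero
  have hπc : ((algebraMap ↥(A.comap (algebraMap ↥K0 (AlgebraicClosure ℚ)))
      ↥(s18_F ↥K0 M) ϖ : ↥(s18_F ↥K0 M)) : LaurentSeries ↥K0) =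
      coeffMap (algebraMap ↥(A.comap (algebraMap ↥K0 (AlgebraicClosure ℚ))) ↥K0)
        (HahnSeries.C ϖ) :=
    s18gq_coe_algebraMap ↥(A.comap (algebraMap ↥K0 (AlgebraicClosure ℚ))) ↥K0
      (s18_F ↥K0 M) ϖ
  obtain ⟨z, hzf⟩ : ∃ z : ↥(s18_F ↥K0 M),
      algebraMap ↥(A.comap (algebraMap ↥K0 (AlgebraicClosure ℚ)))
        ↥(s18_F ↥K0 M) ϖ ^ m * z = f1 :=
    ⟨(algebraMap ↥(A.comap (algebraMap ↥K0 (AlgebraicClosure ℚ)))
        ↥(s18_F ↥K0 M) ϖ ^ m)⁻¹ * f1, by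
      rw [← mul_assoc, mul_inv_cancel₀ (pow_ne_zero m hπ0), one_mul]⟩
  have hz : ((z : ↥(s18_F ↥K0 M)) : LaurentSeries ↥K0) =
      coeffMap (algebraMap ↥(A.comap (algebraMap ↥K0 (AlgebraicClosure ℚ))) ↥K0) a' := by
    have h1 : ((algebraMap ↥(A.comap (algebraMap ↥K0 (AlgebraicClosure ℚ)))
        ↥(s18_F ↥K0 M) ϖ ^ m * z : ↥(s18_F ↥K0 M)) : LaurentSeries ↥K0) =
        ((f1 : ↥(s18_F ↥K0 M)) : LaurentSeries ↥K0) := congrArg Subtype.val hzf
    have h2 : ((algebraMap ↥(A.comap (algebraMap ↥K0 (AlgebraicClosure ℚ)))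
        ↥(s18_F ↥K0 M) ϖ ^ m * z : ↥(s18_F ↥K0 M)) : LaurentSeries ↥K0) =
        coeffMap (algebraMap ↥(A.comap (algebraMap ↥K0 (AlgebraicClosure ℚ))) ↥K0)
          (HahnSeries.C ϖ) ^ m * ((z : ↥(s18_F ↥K0 M)) : LaurentSeries ↥K0) := by
      rw [← hπc]
      rfl
    rw [h2, ← hy1, hya, map_mul, map_pow] at h1
    have hne : coeffMap (algebraMap ↥(A.comap (algebraMap ↥K0 (AlgebraicClosure ℚ))) ↥K0)
        (HahnSeries.C ϖ) ^ m ≠ 0 := by
      apply pow_ne_zero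
      rw [← hπc]
      exact fun h0 => hπ0 (Subtype.ext h0)
    exact mul_left_cancel₀ hne h1
  have hzf' : algebraMap ↥(A.comap (algebraMap ↥K0 (AlgebraicClosure ℚ)))
      ↥(s18_F ↥K0 M) ϖ ^ m * z ∈ s18_chart ↥(A.comap (algebraMap ↥K0 (AlgebraicClosure ℚ)))
      ({xs K0} : Set ↥(s18_F ↥K0 M)) := by
    rw [hzf]
    exact hf1c
  have hzc : z ∈ s18_chart ↥(A.comap (algebraMap ↥K0 (AlgebraicClosure ℚ)))
      ({xs K0} : Set ↥(s18_F ↥K0 M)) :=
    s18gq_descent ρ hker hmul hϖ m z a' hz hzf'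
  refine ⟨s18rq_incl _ A (ϖ ^ m), s37rr_iota M K0 z,
    coeffMap (s18rq_incl (algebraMap ↥K0 (AlgebraicClosure ℚ)) A) a', ?_,
    s37rho_chart_int A M x K0 (xs K0) (hxs K0) z hzc, ?_, ?_, ?_⟩
  · intro h0
    exact pow_ne_zero m hϖ.ne_zero (s37pgi_incl_injective A K0 (h0.trans (map_zero _).symm))
  · rw [← s37rho_iota_const A M K0 (ϖ ^ m), ← map_mul, map_pow, hzf, hf1]
  · rw [s37rho_iota_incl, ← hz]
    rfl
  · exact fun h0 => ha' ((s37rho_red_incl_eq_zero A K0 a').1 h0)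

end Global

/-! ### The two coordinates `j` and `1/j` -/

section Coord

variable (A : ValuationSubring (AlgebraicClosure ℚ)) (M : ℕ) [NeZero M] {ℓ : ℕ} [Fact ℓ.Prime]

theorem s37rho_iota_j (K1 : IntermediateField ℚ (AlgebraicClosure ℚ)) :
    s37rr_iota M K1 (s18_j ↥K1 M) = s37ri_j M :=
  Subtype.ext (s18cfe_coeffMap_coeffEmb ↥K1 (AlgebraicClosure ℚ) jq)

theorem s37rho_iota_jinv (K1 : IntermediateField ℚ (AlgebraicClosure ℚ)) :
    s37rr_iota M K1 (s18_j ↥K1 M)⁻¹ = (s37ri_j M)⁻¹ := by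
  rw [map_inv₀, s37rho_iota_j]

/-- [GAUSS-Q] at `O1 = A ∩ K1`, `K1` a number field. -/
theorem s37rho_gaussQ (hℓM : ¬ ℓ ∣ M) (hA : A.LiesOverPrime ℓ)
    (K1 : IntermediateField ℚ (AlgebraicClosure ℚ)) (hK1 : FiniteDimensional ℚ ↥K1) :
    s18_GaussQAt ↥(A.comap (algebraMap ↥K1 (AlgebraicClosure ℚ))) ↥K1 M := by
  haveI := s37pgi_dvr A hA K1 hK1
  exact s18gq_at s18ga_main _ ↥K1 M ℓ hℓM (s37pgi_ell_mem A hA K1)

theorem s37rho_hasRed_j (hℓM : ¬ ℓ ∣ M) (hA : A.LiesOverPrime ℓ)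
    (K1 : IntermediateField ℚ (AlgebraicClosure ℚ)) (hK1 : FiniteDimensional ℚ ↥K1) :
    s18_HasRed ↥(A.comap (algebraMap ↥K1 (AlgebraicClosure ℚ))) ↥K1 M
      ({s18_j ↥K1 M} : Set ↥(s18_F ↥K1 M)) :=
  (s37rho_gaussQ A M hℓM hA K1 hK1).2.2.2.2.1

theorem s37rho_hasRed_jinv (hℓM : ¬ ℓ ∣ M) (hA : A.LiesOverPrime ℓ)
    (K1 : IntermediateField ℚ (AlgebraicClosure ℚ)) (hK1 : FiniteDimensional ℚ ↥K1) :
    s18_HasRed ↥(A.comap (algebraMap ↥K1 (AlgebraicClosure ℚ))) ↥K1 M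
      ({(s18_j ↥K1 M)⁻¹} : Set ↥(s18_F ↥K1 M)) :=
  (s37rho_gaussQ A M hℓM hA K1 hK1).2.2.2.2.2.1

/-- **(RHO-0)** every `f ∈ F̄_M` integral over `A[x]`, `x ∈ {j, 1/j}`, has an `A`-integral
`q`-expansion. -/
theorem s37rho_series (hA : A.LiesOverPrime ℓ) (x : ↥(modularFunctionFieldBar M))
    (hx : x = s37ri_j M ∨ x = (s37ri_j M)⁻¹)
    (f : ↥(modularFunctionFieldBar M)) (hf : IsIntegral ↥(s37ri_ring A M x) f) :
    ∃ y : LaurentSeries ↥A,
      coeffMap A.subtype y = (f : LaurentSeries (AlgebraicClosure ℚ)) := by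
  rcases hx with rfl | rfl
  · exact s37rho_series_gen A M hA _ (fun K1 => s18_j ↥K1 M) (s37rho_iota_j M)
      (fun K1 => jqModC _) (fun K1 => s18gq_j_coe' _ ↥K1 M) f hf
  · exact s37rho_series_gen A M hA _ (fun K1 => (s18_j ↥K1 M)⁻¹) (s37rho_iota_jinv M)
      (fun K1 => s18gq_jinv _) (fun K1 => s18gq_jinv_coe _ ↥K1 M) f hf

/-- A chart element in the sense of `RIDefs` is just an `A`-series which is integral over
`A[x]`; conversely every element integral over `A[x]` is (the image of) a chart element. -/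
theorem s37rho_isChart (hA : A.LiesOverPrime ℓ) (x : ↥(modularFunctionFieldBar M))
    (hx : x = s37ri_j M ∨ x = (s37ri_j M)⁻¹)
    (f : ↥(modularFunctionFieldBar M)) (hf : IsIntegral ↥(s37ri_ring A M x) f) :
    ∃ y : LaurentSeries ↥A, s37ri_IsChart A M x y ∧
      coeffMap A.subtype y = (f : LaurentSeries (AlgebraicClosure ℚ)) := by
  obtain ⟨y, hy⟩ := s37rho_series A M hA x hx f hf
  have hmem : coeffMap A.subtype y ∈ modularFunctionFieldBar M := hy ▸ f.2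
  have hfy : (⟨coeffMap A.subtype y, hmem⟩ : ↥(modularFunctionFieldBar M)) = f :=
    Subtype.ext hy
  exact ⟨y, ⟨hmem, hfy ▸ hf⟩, hy⟩

/-- **(RHO-1)** every `f ∈ F̄_M` integral over `A[x]`, `x ∈ {j, 1/j}`, has a reduction. -/
theorem s37rho_exists (hQ : s37ri_QepStatement) (hℓM : ¬ ℓ ∣ M) (hA : A.LiesOverPrime ℓ)
    (x : ↥(modularFunctionFieldBar M)) (hx : x = s37ri_j M ∨ x = (s37ri_j M)⁻¹)
    (f : ↥(modularFunctionFieldBar M)) (hf : IsIntegral ↥(s37ri_ring A M x) f) :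
    ∃ g : ↥(modularFunctionFieldFullC (IsLocalRing.ResidueField ↥A) M),
      s37ri_Red A M f g := by
  obtain ⟨y, hy⟩ := s37rho_series A M hA x hx f hf
  exact ⟨⟨coeffMap (IsLocalRing.residue ↥A) y, hQ M hℓM A hA y (hy ▸ f.2)⟩,
    s37rho_series_red' f y hy _⟩

/-- **(RHO-2)** the kernel of the reduction: if `f`, integral over `A[x]`, reduces to `0`, then
`f = c · f'` with `c ∈ m_A` and `f'` integral over `A[x]`. -/
theorem s37rho_ker (hℓM : ¬ ℓ ∣ M) (hA : A.LiesOverPrime ℓ)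
    (x : ↥(modularFunctionFieldBar M)) (hx : x = s37ri_j M ∨ x = (s37ri_j M)⁻¹)
    (f : ↥(modularFunctionFieldBar M)) (hf : IsIntegral ↥(s37ri_ring A M x) f)
    (h0 : s37ri_Red A M f 0) :
    ∃ (c : ↥A) (f' : ↥(modularFunctionFieldBar M)), c ∈ IsLocalRing.maximalIdeal ↥A ∧
      IsIntegral ↥(s37ri_ring A M x) f' ∧
      f = algebraMap (AlgebraicClosure ℚ) ↥(modularFunctionFieldBar M)
        (c : AlgebraicClosure ℚ) * f' := by
  rcases hx with rfl | rfl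
  · exact s37rho_ker_gen A M hA _ (fun K1 => s18_j ↥K1 M) (s37rho_iota_j M)
      (fun K1 => jqModC _) (fun K1 => s18gq_j_coe' _ ↥K1 M)
      (fun K1 hK1 => s37rho_hasRed_j A M hℓM hA K1 hK1) f hf h0
  · exact s37rho_ker_gen A M hA _ (fun K1 => (s18_j ↥K1 M)⁻¹) (s37rho_iota_jinv M)
      (fun K1 => s18gq_jinv _) (fun K1 => s18gq_jinv_coe _ ↥K1 M)
      (fun K1 hK1 => s37rho_hasRed_jinv A M hℓM hA K1 hK1) f hf h0

/-- **Gauss normalisation** of the elements integral over `A[x]`, `x ∈ {j, 1/j}`: a non-zero `f`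
is `c · f'`, `0 ≠ c ∈ A`, `f'` integral over `A[x]` with an `A`-series of non-zero reduction. -/
theorem s37rho_norm (hℓM : ¬ ℓ ∣ M) (hA : A.LiesOverPrime ℓ)
    (x : ↥(modularFunctionFieldBar M)) (hx : x = s37ri_j M ∨ x = (s37ri_j M)⁻¹)
    (f : ↥(modularFunctionFieldBar M)) (hf : IsIntegral ↥(s37ri_ring A M x) f)
    (hf0 : f ≠ 0) :
    ∃ (c : ↥A) (f' : ↥(modularFunctionFieldBar M)) (y' : LaurentSeries ↥A), c ≠ 0 ∧
      IsIntegral ↥(s37ri_ring A M x) f' ∧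
      f = algebraMap (AlgebraicClosure ℚ) ↥(modularFunctionFieldBar M)
        (c : AlgebraicClosure ℚ) * f' ∧
      coeffMap A.subtype y' = (f' : LaurentSeries (AlgebraicClosure ℚ)) ∧
      coeffMap (IsLocalRing.residue ↥A) y' ≠ 0 := by
  rcases hx with rfl | rfl
  · exact s37rho_norm_gen A M hA _ (fun K1 => s18_j ↥K1 M) (s37rho_iota_j M)
      (fun K1 => jqModC _) (fun K1 => s18gq_j_coe' _ ↥K1 M)
      (fun K1 hK1 => s37rho_hasRed_j A M hℓM hA K1 hK1) f hf hf0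
  · exact s37rho_norm_gen A M hA _ (fun K1 => (s18_j ↥K1 M)⁻¹) (s37rho_iota_jinv M)
      (fun K1 => s18gq_jinv _) (fun K1 => s18gq_jinv_coe _ ↥K1 M)
      (fun K1 hK1 => s37rho_hasRed_jinv A M hℓM hA K1 hK1) f hf hf0

/-- **THE SEAM WITH THE CHARTS OVER `O1 = A ∩ K1`**, `K1` a number field: for `β` in the chart
`s18_chart O1 {x1}` (`ι x1 = x`, `x1` an `O1`-series) and ANY `ρ` with the compatibility clause
of `s18_HasRed`: `ι β` is integral over `A[x]` and reduces to `(κ1 → k)(ρ β)`. -/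
theorem s37rho_seam (hQ : s37ri_QepStatement) (hℓM : ¬ ℓ ∣ M) (hA : A.LiesOverPrime ℓ)
    (x : ↥(modularFunctionFieldBar M))
    (K1 : IntermediateField ℚ (AlgebraicClosure ℚ)) (hK1 : FiniteDimensional ℚ ↥K1)
    (x1 : ↥(s18_F ↥K1 M)) (hx1 : s37rr_iota M K1 x1 = x)
    (ax : LaurentSeries ↥(A.comap (algebraMap ↥K1 (AlgebraicClosure ℚ))))
    (hax : ((x1 : ↥(s18_F ↥K1 M)) : LaurentSeries ↥K1) =
      coeffMap (algebraMap ↥(A.comap (algebraMap ↥K1 (AlgebraicClosure ℚ))) ↥K1) ax) :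
    letI := s18_algOF ↥(A.comap (algebraMap ↥K1 (AlgebraicClosure ℚ))) ↥K1 M
    ∀ (ρ : ↥(s18_chart ↥(A.comap (algebraMap ↥K1 (AlgebraicClosure ℚ)))
        ({x1} : Set ↥(s18_F ↥K1 M))) →+*
        LaurentSeries (IsLocalRing.ResidueField
          ↥(A.comap (algebraMap ↥K1 (AlgebraicClosure ℚ))))),
      (∀ (b b' : ↥(s18_chart ↥(A.comap (algebraMap ↥K1 (AlgebraicClosure ℚ)))
          ({x1} : Set ↥(s18_F ↥K1 M))))
          (a : LaurentSeries ↥(A.comap (algebraMap ↥K1 (AlgebraicClosure ℚ)))),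
        ((b' : ↥(s18_F ↥K1 M)) : LaurentSeries ↥K1) =
          coeffMap (algebraMap ↥(A.comap (algebraMap ↥K1 (AlgebraicClosure ℚ))) ↥K1) a *
            ((b : ↥(s18_F ↥K1 M)) : LaurentSeries ↥K1) →
        ρ b' = coeffMap
          (IsLocalRing.residue ↥(A.comap (algebraMap ↥K1 (AlgebraicClosure ℚ)))) a * ρ b) →
      ∀ β : ↥(s18_chart ↥(A.comap (algebraMap ↥K1 (AlgebraicClosure ℚ)))
          ({x1} : Set ↥(s18_F ↥K1 M))),
        IsIntegral ↥(s37ri_ring A M x) (s37rr_iota M K1 (β : ↥(s18_F ↥K1 M))) ∧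
        ∃ hmem : coeffMap (s37rho_kmap A K1) (ρ β) ∈
            modularFunctionFieldFullC (IsLocalRing.ResidueField ↥A) M,
          s37ri_Red A M (s37rr_iota M K1 (β : ↥(s18_F ↥K1 M)))
            ⟨coeffMap (s37rho_kmap A K1) (ρ β), hmem⟩ := by
  haveI := s37pgi_dvr A hA K1 hK1
  letI := s18_algOF ↥(A.comap (algebraMap ↥K1 (AlgebraicClosure ℚ))) ↥K1 M
  intro ρ hmul β
  refine ⟨s37rho_chart_int A M x K1 x1 hx1 β β.2, ?_⟩
  obtain ⟨y1, hy1⟩ := s37rho_chart_series A M hA K1 hK1 x1 ax hax β β.2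
  have hρ : ρ β = coeffMap
      (IsLocalRing.residue ↥(A.comap (algebraMap ↥K1 (AlgebraicClosure ℚ)))) y1 :=
    s18gq_rho_eq ρ hmul β y1 hy1.symm
  have hy : coeffMap A.subtype
      (coeffMap (s18rq_incl (algebraMap ↥K1 (AlgebraicClosure ℚ)) A) y1) =
      ((s37rr_iota M K1 (β : ↥(s18_F ↥K1 M)) : ↥(modularFunctionFieldBar M)) :
        LaurentSeries (AlgebraicClosure ℚ)) := by
    rw [s37rho_iota_incl, hy1]
    rfl
  have hyk := hQ M hℓM A hA
    (coeffMap (s18rq_incl (algebraMap ↥K1 (AlgebraicClosure ℚ)) A) y1)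
    (hy ▸ (s37rr_iota M K1 (β : ↥(s18_F ↥K1 M))).2)
  have e : coeffMap (s37rho_kmap A K1) (ρ β) = coeffMap (IsLocalRing.residue ↥A)
      (coeffMap (s18rq_incl (algebraMap ↥K1 (AlgebraicClosure ℚ)) A) y1) := by
    rw [hρ, s37rho_kmap_series]
  exact ⟨e ▸ hyk, (s37rho_red_series_iff _ _ hy _).2 e⟩

end Coord

end Fermat.Agent.S37
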