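/-
S37, [RI], leaf [RI-RHO] (helper28), part 1: GENERIC.  Prefix `s37rho_`.

`O` a discrete valuation ring, `K = Frac O`.
* `s37rho_icLaurent`: `O((q))` is integrally closed.
* `s37rho_int_of_frac`: an element of a domain `S ⊇ R` (`R` integrally closed) which is integral
  over `R` and a fraction of elements of `R` lies in `R`.
* `s37rho_series_of_chart`: for a subfield `F ⊆ K((q))` all of whose elements are fractions of
  `O`-series and `x ∈ F` an `O`-series, every element of the chart `s18_chart O {x}` is an
  `O`-series.
-/
import Mathlib
import Fermat.Agent.S18.GaussQOfRed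

set_option autoImplicit false
set_option linter.unusedSectionVars false
set_option linter.unusedVariables false
set_option linter.style.haveILetI false
set_option warn.classDefReducibility false
set_option maxHeartbeats 1000000
set_option synthInstance.maxHeartbeats 400000

open AlgebraicCurve ModularCurve IntermediateField

noncomputable section

namespace Fermat.Agent.S37

open Polynomial Fermat.Agent.S18

/-- `O((q))` is integrally closed for a principal ideal domain `O`. -/
theorem s37rho_icLaurent (O : Type*) [CommRing O] [IsDomain O] [IsPrincipalIdealRing O] :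
    IsIntegrallyClosed (LaurentSeries O) :=
  isIntegrallyClosed_of_isLocalization (R := PowerSeries O) (S := LaurentSeries O)
    (Submonoid.powers (PowerSeries.X : PowerSeries O))
    (by
      intro x hx
      obtain ⟨n, rfl⟩ := hx
      exact mem_nonZeroDivisors_of_ne_zero (pow_ne_zero n PowerSeries.X_ne_zero))

/-- In a domain `S` over an integrally closed domain `R` (injectively), an element `x`
integral over `R` with `x * a = b`, `a ≠ 0`, `a b ∈ R`, lies in `R`. -/
theorem s37rho_int_of_frac {R S : Type*} [CommRing R] [IsDomain R]
    [IsIntegrallyClosed R] [CommRing S] [IsDomain S] [Algebra R S]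
    (hinj : Function.Injective (algebraMap R S)) {x : S} (hx : IsIntegral R x)
    {a b : R} (ha : a ≠ 0) (hab : x * algebraMap R S a = algebraMap R S b) :
    ∃ r : R, algebraMap R S r = x := by
  have : FaithfulSMul R S := (faithfulSMul_iff_algebraMap_injective R S).mpr hinj
  let K := FractionRing R
  let L := FractionRing S
  have : FaithfulSMul R L := by
    rw [faithfulSMul_iff_algebraMap_injective, IsScalarTower.algebraMap_eq R S L]
    exact (IsFractionRing.injective S L).comp hinj
  let _ : Algebra K L := FractionRing.liftAlgebra R L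
  have : IsScalarTower R K L := FractionRing.isScalarTower_liftAlgebra R L
  have haK : algebraMap R K a ≠ 0 := by
    intro h
    exact ha ((IsFractionRing.injective R K) (by rw [h, map_zero]))
  set y : K := algebraMap R K b / algebraMap R K a with hy
  have hyx : algebraMap K L y = algebraMap S L x := by
    have haL : algebraMap K L (algebraMap R K a) ≠ 0 := by
      intro h
      exact haK ((algebraMap K L).injective (by rw [h, map_zero]))
    rw [hy, map_div₀, div_eq_iff haL, ← IsScalarTower.algebraMap_apply R K L,
      ← IsScalarTower.algebraMap_apply R K L, IsScalarTower.algebraMap_apply R S L a,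
      IsScalarTower.algebraMap_apply R S L b, ← map_mul, hab]
  have hxL : IsIntegral R (algebraMap S L x) := hx.map (IsScalarTower.toAlgHom R S L)
  have hyint : IsIntegral R y := by
    rw [← hyx] at hxL
    exact (isIntegral_algebraMap_iff (algebraMap K L).injective).mp hxL
  obtain ⟨r, hr⟩ := IsIntegrallyClosed.isIntegral_iff.mp hyint
  refine ⟨r, ?_⟩
  have h1 : algebraMap R K (r * a) = algebraMap R K b := by
    rw [map_mul, hr, hy, div_mul_cancel₀ _ haK]
  have h2 : r * a = b := IsFractionRing.injective R K h1
  have ha' : algebraMap R S a ≠ 0 := by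
    intro h
    exact ha (hinj (by rw [h, map_zero]))
  apply mul_right_cancel₀ ha'
  rw [← map_mul, h2, hab]

section Chart

variable (O K : Type) [CommRing O] [IsDomain O] [IsDiscreteValuationRing O] [Field K]
  [Algebra O K] [IsFractionRing O K] (F : IntermediateField K (LaurentSeries K))

attribute [local instance 10] s18_algOFF

/-- The image in `K((q))` of an element of `O[x]`, `x` an `O`-series, is an `O`-series. -/
theorem s37rho_adjoin_series (x : ↥F) (ax : LaurentSeries O)
    (hx : ((x : ↥F) : LaurentSeries K) = coeffMap (algebraMap O K) ax)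
    (z : ↥F) (hz : z ∈ Algebra.adjoin O ({x} : Set ↥F)) :
    ∃ a : LaurentSeries O, coeffMap (algebraMap O K) a = ((z : ↥F) : LaurentSeries K) := by
  induction hz using Algebra.adjoin_induction with
  | mem y hy =>
      rw [Set.mem_singleton_iff] at hy
      subst hy
      exact ⟨ax, hx.symm⟩
  | algebraMap r => exact ⟨HahnSeries.C r, (s18gq_coe_algebraMap O K F r).symm⟩
  | add y z _ _ hy hz =>
      obtain ⟨a, ha⟩ := hy
      obtain ⟨b, hb⟩ := hz
      refine ⟨a + b, ?_⟩
      rw [map_add, ha, hb]
      rfl
  | mul y z _ _ hy hz =>
      obtain ⟨a, ha⟩ := hy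
      obtain ⟨b, hb⟩ := hz
      refine ⟨a * b, ?_⟩
      rw [map_mul, ha, hb]
      rfl

/-- **Chart elements are `O`-series**: if every element of `F` is a fraction of `O`-series and
`x ∈ F` is an `O`-series, then every element of `F` integral over `O[x]` is an `O`-series. -/
theorem s37rho_series_of_chart (x : ↥F) (ax : LaurentSeries O)
    (hx : ((x : ↥F) : LaurentSeries K) = coeffMap (algebraMap O K) ax)
    (hfrac : ∀ y ∈ F, ∃ a b : LaurentSeries O, b ≠ 0 ∧
      y * coeffMap (algebraMap O K) b = coeffMap (algebraMap O K) a)
    (b : ↥F) (hb : b ∈ s18_chart O ({x} : Set ↥F)) :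
    ∃ y : LaurentSeries O, coeffMap (algebraMap O K) y = ((b : ↥F) : LaurentSeries K) := by
  haveI := s37rho_icLaurent O
  letI : Algebra (LaurentSeries O) (LaurentSeries K) := (coeffMap (algebraMap O K)).toAlgebra
  have hinj : Function.Injective (algebraMap (LaurentSeries O) (LaurentSeries K)) :=
    s18gq_coeffMap_injective _ (IsFractionRing.injective O K)
  obtain ⟨p, hpm, hpb⟩ := (s18_mem_chart_iff O).1 hb
  -- the polynomial `p` mapped to `K((q))`
  set φ : ↥(Algebra.adjoin O ({x} : Set ↥F)) →+* LaurentSeries K :=
    (algebraMap ↥F (LaurentSeries K)).comp (algebraMap ↥(Algebra.adjoin O ({x} : Set ↥F)) ↥F)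
    with hφ
  have hlift : p.map φ ∈ Polynomial.lifts (algebraMap (LaurentSeries O) (LaurentSeries K)) := by
    rw [Polynomial.mem_lifts]
    have : ∀ c : ↥(Algebra.adjoin O ({x} : Set ↥F)),
        ∃ a : LaurentSeries O, algebraMap (LaurentSeries O) (LaurentSeries K) a = φ c := by
      intro c
      exact s37rho_adjoin_series O K F x ax hx (c : ↥F) c.2
    choose g hg using this
    refine ⟨∑ i ∈ p.support, Polynomial.monomial i (g (p.coeff i)), ?_⟩
    ext n
    simp only [Polynomial.coeff_map, Polynomial.finsetSum_coeff, Polynomial.coeff_monomial]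
    rw [map_sum]
    by_cases hn : n ∈ p.support
    · rw [Finset.sum_eq_single n]
      · simp [hg]
      · intro i _ hi
        simp [hi]
      · intro h
        exact absurd hn h
    · rw [Finset.sum_eq_zero]
      · rw [Polynomial.notMem_support_iff.1 hn, map_zero]
      · intro i hi
        have : i ≠ n := fun h => hn (h ▸ hi)
        simp [this]
  obtain ⟨P, hPp, -, hPm⟩ := Polynomial.lifts_and_natDegree_eq_and_monic hlift (hpm.map φ)
  have hint : IsIntegral (LaurentSeries O) ((b : ↥F) : LaurentSeries K) := by
    refine ⟨P, hPm, ?_⟩
    rw [← Polynomial.eval_map, hPp, Polynomial.eval_map]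
    have h1 := Polynomial.hom_eval₂ p (algebraMap ↥(Algebra.adjoin O ({x} : Set ↥F)) ↥F)
      (algebraMap ↥F (LaurentSeries K)) b
    rw [hpb, map_zero] at h1
    exact h1.symm
  obtain ⟨a, s, hs, has⟩ := hfrac (b : LaurentSeries K) b.2
  exact s37rho_int_of_frac hinj hint hs has

end Chart

end Fermat.Agent.S37
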