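/-
S37, package [RI], leaf [RI-VALID] + [COVER] (cut of helper26), part 1: the core over a discrete
valuation ring.  Owner: helper27.  Prefix `s37riv_`.

* `s37riv_IsInt x y`: the Laurent series `y ∈ R((q))` is integral over `R[x]`, `x ∈ R((q))`
  (elementwise: a monic polynomial with coefficients in `R[X]`, evaluated at `x`).
* functoriality in the coefficient ring, the dictionary with `IsIntegral (Algebra.adjoin R {x})`
  and with the charts `s18_chart O {x}` of S18;
* `s37riv_core`: for a reduction datum `ρ` of the chart `s18_chart O {x}` of a subfield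
  `F ⊆ K((q))` finite over `K(x)`: every integral series `a ∈ O((q)) ∩ F` has a multiple
  `P₀(x) · a` in the chart with `P₀ ∈ O[X]` of NON-ZERO reduction;
* `s37riv_cover`: `y` integral over `R[x]`, `x · x' = 1` ⟹ `x' ^ n · y` is integral over
  `R[x']` for some `n`.
-/
import Mathlib
import Fermat.Agent.S18.GaussQOfRed
import Fermat.Agent.S18.Fin

set_option autoImplicit false
set_option linter.unusedSectionVars false
set_option linter.unusedVariables false
set_option linter.style.haveILetI false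
set_option warn.classDefReducibility false
set_option maxHeartbeats 1000000
set_option synthInstance.maxHeartbeats 400000

open AlgebraicCurve ModularCurve IntermediateField

noncomputable section

namespace Fermat.Agent.S37

open Polynomial Fermat.Agent.S18

/-! ### Integrality of Laurent series over `R[x]` -/

section IsInt

variable {R : Type*} [CommRing R]

/-- Lifting integrality through a surjection of the base. -/
theorem s37riv_isIntegralElem_comp_surj {R₁ R₂ T : Type*} [CommRing R₁] [CommRing R₂] [Ring T]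
    (π : R₁ →+* R₂) (hπ : Function.Surjective π) (g : R₂ →+* T) {z : T}
    (h : g.IsIntegralElem z) : (g.comp π).IsIntegralElem z := by
  obtain ⟨p, hp, hz⟩ := h
  have hl : p ∈ Polynomial.lifts π := by
    rw [Polynomial.lifts_iff_coeff_lifts]
    intro n
    exact hπ _
  obtain ⟨q, hq, -, hqm⟩ := Polynomial.lifts_and_natDegree_eq_and_monic hl hp
  refine ⟨q, hqm, ?_⟩
  rw [← Polynomial.eval₂_map, hq]
  exact hz

/-- Integrality over `R[x] ⊆ B` in terms of polynomials in `x`. -/
theorem s37riv_isIntegral_adjoin_iff {B : Type*} [CommRing B] [Algebra R B] (x y : B) :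
    ((Polynomial.aeval x : R[X] →ₐ[R] B) : R[X] →+* B).IsIntegralElem y ↔
      IsIntegral (Algebra.adjoin R ({x} : Set B)) y := by
  -- the surjection `R[X] → R[x]`
  have hmem : ∀ p : R[X], aeval x p ∈ Algebra.adjoin R ({x} : Set B) := by
    intro p
    rw [Algebra.adjoin_singleton_eq_range_aeval]
    exact ⟨p, rfl⟩
  let π : R[X] →+* ↥(Algebra.adjoin R ({x} : Set B)) :=
    ((Polynomial.aeval x : R[X] →ₐ[R] B) : R[X] →+* B).codRestrict
      (Algebra.adjoin R ({x} : Set B)).toSubring hmem
  have hπ : Function.Surjective π := by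
    rintro ⟨z, hz⟩
    rw [Algebra.adjoin_singleton_eq_range_aeval] at hz
    obtain ⟨p, hp⟩ := hz
    exact ⟨p, Subtype.ext hp⟩
  have hcomp : (algebraMap ↥(Algebra.adjoin R ({x} : Set B)) B).comp π =
      ((Polynomial.aeval x : R[X] →ₐ[R] B) : R[X] →+* B) := rfl
  constructor
  · intro h
    rw [← hcomp] at h
    exact RingHom.IsIntegralElem.of_comp h
  · intro h
    have := s37riv_isIntegralElem_comp_surj π hπ _ h
    rw [hcomp] at this
    exact this

/-- `y` is integral over `R[x]`. -/
def s37riv_IsInt (x y : LaurentSeries R) : Prop :=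
  ((Polynomial.aeval x : R[X] →ₐ[R] LaurentSeries R) : R[X] →+* LaurentSeries R).IsIntegralElem y

theorem s37riv_isInt_iff (x y : LaurentSeries R) :
    s37riv_IsInt x y ↔ IsIntegral (Algebra.adjoin R ({x} : Set (LaurentSeries R))) y :=
  s37riv_isIntegral_adjoin_iff x y

theorem s37riv_isInt_self (x : LaurentSeries R) : s37riv_IsInt x x := by
  have := RingHom.isIntegralElem_map
    ((Polynomial.aeval x : R[X] →ₐ[R] LaurentSeries R) : R[X] →+* LaurentSeries R) (x := X)
  simpa [s37riv_IsInt] using this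

theorem s37riv_isInt_aeval (x : LaurentSeries R) (P : R[X]) : s37riv_IsInt x (aeval x P) :=
  RingHom.isIntegralElem_map
    ((Polynomial.aeval x : R[X] →ₐ[R] LaurentSeries R) : R[X] →+* LaurentSeries R) (x := P)

theorem s37riv_isInt_C (x : LaurentSeries R) (c : R) : s37riv_IsInt x (HahnSeries.C c) := by
  have := s37riv_isInt_aeval x (Polynomial.C c)
  rwa [Polynomial.aeval_C, s18gq_algebraMap_eq_C] at this

theorem s37riv_isInt_zero (x : LaurentSeries R) : s37riv_IsInt x 0 :=
  RingHom.isIntegralElem_zero _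

theorem s37riv_isInt_one (x : LaurentSeries R) : s37riv_IsInt x 1 :=
  RingHom.isIntegralElem_one _

theorem s37riv_isInt_add {x y z : LaurentSeries R} (hy : s37riv_IsInt x y)
    (hz : s37riv_IsInt x z) : s37riv_IsInt x (y + z) :=
  RingHom.IsIntegralElem.add _ hy hz

theorem s37riv_isInt_mul {x y z : LaurentSeries R} (hy : s37riv_IsInt x y)
    (hz : s37riv_IsInt x z) : s37riv_IsInt x (y * z) :=
  RingHom.IsIntegralElem.mul _ hy hz

theorem s37riv_isInt_neg {x y : LaurentSeries R} (hy : s37riv_IsInt x y) :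
    s37riv_IsInt x (-y) :=
  RingHom.IsIntegralElem.neg _ hy

theorem s37riv_isInt_sub {x y z : LaurentSeries R} (hy : s37riv_IsInt x y)
    (hz : s37riv_IsInt x z) : s37riv_IsInt x (y - z) :=
  RingHom.IsIntegralElem.sub _ hy hz

theorem s37riv_isInt_pow {x y : LaurentSeries R} (hy : s37riv_IsInt x y) (n : ℕ) :
    s37riv_IsInt x (y ^ n) := by
  induction n with
  | zero => rw [pow_zero]; exact s37riv_isInt_one x
  | succ n ih => rw [pow_succ]; exact s37riv_isInt_mul ih hy

/-- `coeffMap f ∘ aeval x = aeval (coeffMap f x) ∘ map f`. -/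
theorem s37riv_comp_aeval {S : Type*} [CommRing S] (f : R →+* S) (x : LaurentSeries R) :
    (coeffMap f).comp
      ((Polynomial.aeval x : R[X] →ₐ[R] LaurentSeries R) : R[X] →+* LaurentSeries R) =
    ((Polynomial.aeval (coeffMap f x) : S[X] →ₐ[S] LaurentSeries S) :
      S[X] →+* LaurentSeries S).comp (Polynomial.mapRingHom f) := by
  refine RingHom.ext fun P => ?_
  show coeffMap f (aeval x P) = aeval (coeffMap f x) (P.map f)
  exact s18gq_coeffMap_aeval f x P

/-- Functoriality in the coefficient ring. -/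
theorem s37riv_isInt_map {S : Type*} [CommRing S] (f : R →+* S) {x y : LaurentSeries R}
    (h : s37riv_IsInt x y) : s37riv_IsInt (coeffMap f x) (coeffMap f y) := by
  have h1 := RingHom.IsIntegralElem.map h (coeffMap f)
  rw [s37riv_comp_aeval] at h1
  exact RingHom.IsIntegralElem.of_comp h1

end IsInt

/-! ### [COVER] -/

section Cover

variable {R : Type*} [CommRing R]

/-- `x' ^ N · c(x) = (reflect N c)(x')` for `x · x' = 1`, `deg c ≤ N`. -/
theorem s37riv_aeval_reflect {B : Type*} [CommRing B] [Algebra R B] {x x' : B}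
    (hxx : x * x' = 1) (N : ℕ) (c : R[X]) (hc : c.natDegree ≤ N) :
    aeval x' (Polynomial.reflect N c) = x' ^ N * aeval x c := by
  letI : Invertible x := ⟨x', by rw [mul_comm]; exact hxx, hxx⟩
  have h := Polynomial.eval₂_reflect_mul_pow (algebraMap R B) x N c hc
  have h1 : (⅟x : B) = x' := rfl
  rw [h1] at h
  rw [Polynomial.aeval_def, Polynomial.aeval_def, ← h, mul_comm, mul_assoc, ← mul_pow, hxx,
    one_pow, mul_one]

/-- **[COVER]**, generic: if `y` is integral over `R[x]` and `x · x' = 1`, then `x' ^ n · y` is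
integral over `R[x']` for some `n` (and then for all larger ones). -/
theorem s37riv_cover_gen {B : Type*} [CommRing B] [Algebra R B] {x x' y : B}
    (hxx : x * x' = 1)
    (h : ((Polynomial.aeval x : R[X] →ₐ[R] B) : R[X] →+* B).IsIntegralElem y) :
    ∃ n₀ : ℕ, ∀ n : ℕ, n₀ ≤ n →
      ((Polynomial.aeval x' : R[X] →ₐ[R] B) : R[X] →+* B).IsIntegralElem (x' ^ n * y) := by
  classical
  obtain ⟨p, hp, hpy⟩ := h
  set m := p.natDegree with hm
  refine ⟨(Finset.range m).sup (fun i => (p.coeff i).natDegree), fun n hn => ?_⟩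
  have hdeg : ∀ i, i < m → (p.coeff i).natDegree ≤ n * (m - i) := by
    intro i hi
    calc (p.coeff i).natDegree
        ≤ (Finset.range m).sup (fun i => (p.coeff i).natDegree) :=
          Finset.le_sup (f := fun i => (p.coeff i).natDegree) (Finset.mem_range.mpr hi)
      _ ≤ n := hn
      _ = n * 1 := (mul_one n).symm
      _ ≤ n * (m - i) := Nat.mul_le_mul_left n (by omega)
  refine ⟨X ^ m + ∑ i ∈ Finset.range m,
    C (Polynomial.reflect (n * (m - i)) (p.coeff i)) * X ^ i, ?_, ?_⟩
  · apply Polynomial.monic_X_pow_add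
    rw [Polynomial.degree_lt_iff_coeff_zero]
    intro k hk
    rw [Polynomial.finsetSum_coeff]
    refine Finset.sum_eq_zero (fun i hi => ?_)
    rw [Polynomial.coeff_C_mul_X_pow, if_neg]
    have := Finset.mem_range.mp hi
    omega
  · rw [Polynomial.eval₂_add, Polynomial.eval₂_pow, Polynomial.eval₂_X,
      Polynomial.eval₂_finsetSum]
    have h0 : ∑ i ∈ Finset.range m, aeval x (p.coeff i) * y ^ i + y ^ m = 0 := by
      have := hpy
      rw [Polynomial.eval₂_eq_sum_range, Finset.sum_range_succ, hp.coeff_natDegree, map_one,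
        one_mul] at this
      exact this
    have h1 : (x' ^ n * y) ^ m +
        ∑ i ∈ Finset.range m,
          Polynomial.eval₂ ((Polynomial.aeval x' : R[X] →ₐ[R] B) : R[X] →+* B) (x' ^ n * y)
            (C (Polynomial.reflect (n * (m - i)) (p.coeff i)) * X ^ i) =
        x' ^ (n * m) * (∑ i ∈ Finset.range m, aeval x (p.coeff i) * y ^ i + y ^ m) := by
      rw [mul_add, Finset.mul_sum, add_comm]
      congr 1
      · refine Finset.sum_congr rfl (fun i hi => ?_)
        have hi' : i < m := Finset.mem_range.mp hi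
        rw [Polynomial.eval₂_mul, Polynomial.eval₂_C, Polynomial.eval₂_pow, Polynomial.eval₂_X]
        show aeval x' (Polynomial.reflect (n * (m - i)) (p.coeff i)) * (x' ^ n * y) ^ i = _
        rw [s37riv_aeval_reflect hxx _ _ (hdeg i hi')]
        have e : n * m = n * (m - i) + n * i := by
          rw [← Nat.mul_add, Nat.sub_add_cancel hi'.le]
        rw [e, pow_add, mul_pow, ← pow_mul]
        ring
      · rw [mul_pow, ← pow_mul]
    rw [h1, h0, mul_zero]

/-- **[COVER]** for Laurent series. -/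
theorem s37riv_cover {x x' y : LaurentSeries R} (hxx : x * x' = 1) (h : s37riv_IsInt x y) :
    ∃ n₀ : ℕ, ∀ n : ℕ, n₀ ≤ n → s37riv_IsInt x' (x' ^ n * y) :=
  s37riv_cover_gen hxx h

end Cover

/-! ### The dictionary with the charts of S18 -/

section Chart

variable {O K : Type} [CommRing O] [IsDomain O] [IsDiscreteValuationRing O] [Field K]
  [Algebra O K] [IsFractionRing O K] {F : IntermediateField K (LaurentSeries K)}

attribute [local instance 10] s18_algOFF

/-- `coe ∘ aeval x = ψ ∘ aeval ax`. -/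
theorem s37riv_val_comp_aeval (x : ↥F) (ax : LaurentSeries O)
    (hx : ((x : ↥F) : LaurentSeries K) = coeffMap (algebraMap O K) ax) :
    (F.val : ↥F →+* LaurentSeries K).comp
      ((Polynomial.aeval x : O[X] →ₐ[O] ↥F) : O[X] →+* ↥F) =
    (coeffMap (algebraMap O K)).comp
      ((Polynomial.aeval ax : O[X] →ₐ[O] LaurentSeries O) : O[X] →+* LaurentSeries O) := by
  refine RingHom.ext fun P => ?_
  exact s18gq_coe_aeval O K F x ax hx P

/-- An integral series of the chart `s18_chart O {x}` is integral over `O[ax]` in `O((q))`. -/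
theorem s37riv_isInt_of_chart (x : ↥F) (ax : LaurentSeries O)
    (hx : ((x : ↥F) : LaurentSeries K) = coeffMap (algebraMap O K) ax)
    (z : ↥F) (c : LaurentSeries O)
    (hz : ((z : ↥F) : LaurentSeries K) = coeffMap (algebraMap O K) c)
    (h : z ∈ s18_chart O ({x} : Set ↥F)) : s37riv_IsInt ax c := by
  have h1 : ((Polynomial.aeval x : O[X] →ₐ[O] ↥F) : O[X] →+* ↥F).IsIntegralElem z :=
    (s37riv_isIntegral_adjoin_iff x z).2 h
  have h2 := RingHom.IsIntegralElem.map h1 (F.val : ↥F →+* LaurentSeries K)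
  rw [s37riv_val_comp_aeval x ax hx] at h2
  have h3 : (F.val : ↥F →+* LaurentSeries K) z = coeffMap (algebraMap O K) c := hz
  rw [h3] at h2
  exact RingHom.IsIntegralElem.of_map
    (s18gq_coeffMap_injective _ (IsFractionRing.injective O K)) h2

/-- Conversely. -/
theorem s37riv_chart_of_isInt (x : ↥F) (ax : LaurentSeries O)
    (hx : ((x : ↥F) : LaurentSeries K) = coeffMap (algebraMap O K) ax)
    (z : ↥F) (c : LaurentSeries O)
    (hz : ((z : ↥F) : LaurentSeries K) = coeffMap (algebraMap O K) c)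
    (h : s37riv_IsInt ax c) : z ∈ s18_chart O ({x} : Set ↥F) := by
  have h2 := RingHom.IsIntegralElem.map h (coeffMap (algebraMap O K))
  rw [← s37riv_val_comp_aeval x ax hx] at h2
  have h3 : coeffMap (algebraMap O K) c = (F.val : ↥F →+* LaurentSeries K) z := hz.symm
  rw [h3] at h2
  have h4 := RingHom.IsIntegralElem.of_map (f := ((Polynomial.aeval x : O[X] →ₐ[O] ↥F) :
    O[X] →+* ↥F)) (g := (F.val : ↥F →+* LaurentSeries K)) Subtype.val_injective h2
  exact (s37riv_isIntegral_adjoin_iff x z).1 h4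

/-- **The core of [RI-VALID]**: every integral series of `F` has a multiple `P₀(x) · a` in the
chart, with `P₀ ∈ O[X]` of non-zero reduction. -/
theorem s37riv_core (x : ↥F) (ax : LaurentSeries O)
    (hx : ((x : ↥F) : LaurentSeries K) = coeffMap (algebraMap O K) ax)
    (hfin : FiniteDimensional ↥K⟮x⟯ ↥F)
    (ρ : ↥(s18_chart O ({x} : Set ↥F)) →+* LaurentSeries (IsLocalRing.ResidueField O))
    (hker : ∀ b, ρ b = 0 → b ∈ s18_fibreIdeal O ({x} : Set ↥F))
    (hmul : ∀ (b b' : ↥(s18_chart O ({x} : Set ↥F))) (a : LaurentSeries O),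
      ((b' : ↥F) : LaurentSeries K) =
          coeffMap (algebraMap O K) a * ((b : ↥F) : LaurentSeries K) →
        ρ b' = coeffMap (IsLocalRing.residue O) a * ρ b)
    (a : LaurentSeries O) (ha : coeffMap (algebraMap O K) a ∈ F) :
    ∃ P₀ : O[X], P₀.map (IsLocalRing.residue O) ≠ 0 ∧
      aeval x P₀ * (⟨coeffMap (algebraMap O K) a, ha⟩ : ↥F) ∈ s18_chart O ({x} : Set ↥F) := by
  classical
  haveI := s18gq_towerOFF O K F
  obtain ⟨ϖ, hϖ⟩ := IsDiscreteValuationRing.exists_irreducible O
  set fa : ↥F := ⟨coeffMap (algebraMap O K) a, ha⟩ with hfa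
  -- a denominator in `O[x]`
  have hden : ∃ y : ↥(Algebra.adjoin O ({x} : Set ↥F)), y ≠ 0 ∧
      IsIntegral ↥(Algebra.adjoin O ({x} : Set ↥F)) ((y : ↥F) * fa) := by
    have htL : x ∈ K⟮x⟯ := mem_adjoin_simple_self K x
    letI : Algebra ↥(Algebra.adjoin O ({x} : Set ↥F)) ↥K⟮x⟯ :=
      (s18fin_incl K⟮x⟯ htL).toAlgebra
    haveI : IsScalarTower ↥(Algebra.adjoin O ({x} : Set ↥F)) ↥K⟮x⟯ ↥F :=
      IsScalarTower.of_algebraMap_eq (fun x => rfl)
    haveI : FaithfulSMul ↥(Algebra.adjoin O ({x} : Set ↥F)) ↥K⟮x⟯ :=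
      (faithfulSMul_iff_algebraMap_injective _ _).mpr (s18fin_incl_injective K⟮x⟯ htL)
    haveI : IsFractionRing ↥(Algebra.adjoin O ({x} : Set ↥F)) ↥K⟮x⟯ := by
      refine IsFractionRing.of_field _ _ (fun z => ?_)
      obtain ⟨u, v, h⟩ := s18fin_frac (O := O) (t := x) (z := (z : ↥F)) z.2
      refine ⟨u, v, ?_⟩
      apply Subtype.ext
      rw [h]; rfl
    obtain ⟨y, hy0, hy⟩ := exists_integral_multiples ↥(Algebra.adjoin O ({x} : Set ↥F))
      ↥K⟮x⟯ ({fa} : Finset ↥F)
    refine ⟨y, hy0, ?_⟩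
    have := hy fa (by simp)
    rwa [Subalgebra.smul_def, smul_eq_mul] at this
  obtain ⟨y, hy0, hya⟩ := hden
  obtain ⟨P, hP⟩ := s18fin_mem_adjoin.1 y.2
  have hP0 : P ≠ 0 := by
    rintro rfl
    rw [map_zero] at hP
    exact hy0 (Subtype.ext hP.symm)
  obtain ⟨k, P₀, hPk, hP₀⟩ := s18gq_poly_factor hϖ P hP0
  have hyk : (y : ↥F) = algebraMap O ↥F ϖ ^ k * aeval x P₀ := by
    rw [← hP, hPk, map_mul, map_pow, Polynomial.aeval_C]
  have hza : ((aeval x P₀ * fa : ↥F) : LaurentSeries K) =
      coeffMap (algebraMap O K) (aeval ax P₀ * a) := by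
    rw [map_mul (coeffMap (algebraMap O K)), ← s18gq_coe_aeval O K F x ax hx]
    rfl
  refine ⟨P₀, hP₀, ?_⟩
  refine s18gq_descent ρ hker hmul hϖ k _ _ hza ?_
  rw [← mul_assoc, ← hyk]
  exact hya

/-- The core in terms of series. -/
theorem s37riv_core_int (x : ↥F) (ax : LaurentSeries O)
    (hx : ((x : ↥F) : LaurentSeries K) = coeffMap (algebraMap O K) ax)
    (hfin : FiniteDimensional ↥K⟮x⟯ ↥F)
    (hred : s18_HasRedF O K F ({x} : Set ↥F))
    (a : LaurentSeries O) (ha : coeffMap (algebraMap O K) a ∈ F) :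
    ∃ P₀ : O[X], P₀.map (IsLocalRing.residue O) ≠ 0 ∧ s37riv_IsInt ax (aeval ax P₀ * a) := by
  obtain ⟨ρ, hker, hmul⟩ := hred
  obtain ⟨P₀, hP₀, hmem⟩ := s37riv_core x ax hx hfin ρ hker hmul a ha
  refine ⟨P₀, hP₀, ?_⟩
  refine s37riv_isInt_of_chart x ax hx _ _ ?_ hmem
  rw [map_mul (coeffMap (algebraMap O K)), ← s18gq_coe_aeval O K F x ax hx]
  rfl

end Chart

end Fermat.Agent.S37
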