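/-
S37, package [RI], leaf [RI-VALID] + [COVER] (cut of helper26), part 2: the modular function
fields, over a discrete valuation ring and over a valuation ring `A` of `Q̄`.
Owner: helper27.  Prefix `s37riv_`.

  `s37riv_valid`      every `y ∈ A((q))` with `ι y ∈ F̄_M` has a multiple `d(j) · y`, `d ∈ A[X]`
                      with NON-ZERO reduction, which is integral over `A[j]`;
  `s37riv_valid_inv`  the same for the chart at infinity (`1/j`);
  `s37riv_cover_j`, `s37riv_cover_jinv`   [COVER]: `j⁻ⁿ b` is integral over `A[1/j]` for `b`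
                      integral over `A[j]`, and conversely.
-/
import Mathlib
import Fermat.Agent.S37.RIValidCore
import Fermat.Agent.S18.GaussQOf
import Fermat.Agent.S18.GaussAbs
import Fermat.Agent.S18.RatQDescent
import Fermat.Agent.S18.RatQRing

set_option autoImplicit false
set_option linter.unusedSectionVars false
set_option linter.unusedVariables false
set_option linter.style.haveILetI false
set_option warn.classDefReducibility false
set_option maxHeartbeats 1000000
set_option synthInstance.maxHeartbeats 400000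

open AlgebraicCurve ModularCurve IntermediateField

noncomputable section

namespace Fermat.Agent.S37

open Polynomial Fermat.Agent.S18

/-! ### Over a discrete valuation ring -/

section DVR

variable (O K : Type) [CommRing O] [IsDomain O] [IsDiscreteValuationRing O] [Field K]
  [CharZero K] [Algebra O K] [IsFractionRing O K] (M : ℕ) [NeZero M] (ℓ : ℕ) [Fact ℓ.Prime]

/-- [RI-VALID] over a discrete valuation ring, finite chart. -/
theorem s37riv_at_j (hℓM : ¬ ℓ ∣ M) (hℓ : (ℓ : O) ∈ IsLocalRing.maximalIdeal O)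
    (a : LaurentSeries O) (ha : coeffMap (algebraMap O K) a ∈ s18_F K M) :
    ∃ P₀ : O[X], P₀.map (IsLocalRing.residue O) ≠ 0 ∧
      s37riv_IsInt (jqModC O) (aeval (jqModC O) P₀ * a) := by
  obtain ⟨-, hfin, -, -, hred, -, -⟩ := s18gq_at s18ga_main O K M ℓ hℓM hℓ
  exact s37riv_core_int (F := s18_F K M) (s18_j K M) (jqModC O) (s18gq_j_coe' O K M) hfin hred
    a ha

/-- [RI-VALID] over a discrete valuation ring, chart at infinity. -/
theorem s37riv_at_jinv (hℓM : ¬ ℓ ∣ M) (hℓ : (ℓ : O) ∈ IsLocalRing.maximalIdeal O)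
    (a : LaurentSeries O) (ha : coeffMap (algebraMap O K) a ∈ s18_F K M) :
    ∃ P₀ : O[X], P₀.map (IsLocalRing.residue O) ≠ 0 ∧
      s37riv_IsInt (s18gq_jinv O) (aeval (s18gq_jinv O) P₀ * a) := by
  obtain ⟨-, hfin, -, -, -, hred, -⟩ := s18gq_at s18ga_main O K M ℓ hℓM hℓ
  have hfin' : FiniteDimensional ↥K⟮(s18_j K M)⁻¹⟯ ↥(s18_F K M) := by
    rw [← s18fin_adjoin_inv (K := K) (s18_j K M)]
    exact hfin
  exact s37riv_core_int (F := s18_F K M) (s18_j K M)⁻¹ (s18gq_jinv O) (s18gq_jinv_coe O K M)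
    hfin' hred a ha

end DVR

/-! ### Over a valuation ring of `Q̄` -/

section A

variable (M : ℕ) [NeZero M] {ℓ : ℕ} [Fact ℓ.Prime]
  (A : ValuationSubring (AlgebraicClosure ℚ))

/-- The descent of an integral series of `F̄_M` to a discrete valuation ring `O = A ∩ K0`. -/
theorem s37riv_descent (hA : A.LiesOverPrime ℓ) (y : LaurentSeries ↥A)
    (hy : coeffMap A.subtype y ∈ modularFunctionFieldBar M) :
    ∃ (K0 : IntermediateField ℚ (AlgebraicClosure ℚ)) (_ : FiniteDimensional ℚ ↥K0)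
      (_ : IsDiscreteValuationRing ↥(A.comap (algebraMap ↥K0 (AlgebraicClosure ℚ))))
      (y₁ : LaurentSeries ↥(A.comap (algebraMap ↥K0 (AlgebraicClosure ℚ)))),
      (ℓ : ↥(A.comap (algebraMap ↥K0 (AlgebraicClosure ℚ)))) ∈
        IsLocalRing.maximalIdeal ↥(A.comap (algebraMap ↥K0 (AlgebraicClosure ℚ))) ∧
      coeffMap (algebraMap ↥(A.comap (algebraMap ↥K0 (AlgebraicClosure ℚ))) ↥K0) y₁ ∈
        s18_F ↥K0 M ∧
      coeffMap (s18rq_incl (algebraMap ↥K0 (AlgebraicClosure ℚ)) A) y₁ = y := by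
  classical
  obtain ⟨K0, hK0, x0, hx0, hxx⟩ := s18rq_descent M hy
  have hℓO : (ℓ : ↥K0) ∈ (A.comap (algebraMap ↥K0 (AlgebraicClosure ℚ))).nonunits := by
    apply s18rq_nonunits_comap
    rw [map_natCast]
    exact hA
  have hℓmax := s18rq_natCast_mem_maximalIdeal _ ℓ hℓO
  have hdvr : IsDiscreteValuationRing ↥(A.comap (algebraMap ↥K0 (AlgebraicClosure ℚ))) := by
    apply s18disc_main ℚ ↥K0
    apply s18rq_dvrQ _ ℓ
    apply s18rq_nonunits_comap
    rw [map_natCast]
    exact hℓO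
  have hk : ∀ k, algebraMap ↥K0 (AlgebraicClosure ℚ) (x0.coeff k) = (y.coeff k : _) := by
    intro k
    have := congrArg (fun z => z.coeff k) hxx
    simpa using this
  obtain ⟨x1, hx1⟩ := s18rq_lift
    (algebraMap ↥(A.comap (algebraMap ↥K0 (AlgebraicClosure ℚ))) ↥K0) x0
    (fun k => ⟨⟨x0.coeff k, by
      rw [ValuationSubring.mem_comap, hk k]
      exact (y.coeff k).2⟩, rfl⟩)
  refine ⟨K0, hK0, hdvr, x1, hℓmax, hx1 ▸ hx0, ?_⟩
  refine HahnSeries.ext (funext fun k => ?_)
  rw [coeffMap_coeff]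
  apply Subtype.ext
  rw [s18rq_incl_coe, ← hk k, ← hx1]
  rfl

/-- The reduction of a polynomial pulled back to `A`. -/
theorem s37riv_map_incl_ne_zero {K0 : Type*} [Field K0] (f : K0 →+* AlgebraicClosure ℚ)
    (P : Polynomial ↥(A.comap f))
    (hP : P.map (IsLocalRing.residue ↥(A.comap f)) ≠ 0) :
    (P.map (s18rq_incl f A)).map (IsLocalRing.residue ↥A) ≠ 0 := by
  intro h
  apply hP
  ext i
  have := congrArg (fun p => p.coeff i) h
  simp only [Polynomial.coeff_map, Polynomial.coeff_zero] at this ⊢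
  exact (s18rq_residue_incl f A _).1 this

/-- **[RI-VALID]**, finite chart: every integral series `y ∈ A((q))` of `F̄_M` has a multiple
`d(j) · y` which is integral over `A[j]`, with `d ∈ A[X]` of non-zero reduction. -/
theorem s37riv_valid (hℓM : ¬ ℓ ∣ M) (hA : A.LiesOverPrime ℓ) (y : LaurentSeries ↥A)
    (hy : coeffMap A.subtype y ∈ modularFunctionFieldBar M) :
    ∃ d : Polynomial ↥A, d.map (IsLocalRing.residue ↥A) ≠ 0 ∧
      s37riv_IsInt (jqModC ↥A) (aeval (jqModC ↥A) d * y) := by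
  obtain ⟨K0, hK0, hdvr, y₁, hℓmax, hy₁, rfl⟩ := s37riv_descent M A hA y hy
  obtain ⟨P₀, hP₀, hint⟩ := s37riv_at_j ↥(A.comap (algebraMap ↥K0 (AlgebraicClosure ℚ))) ↥K0
    M ℓ hℓM hℓmax y₁ hy₁
  refine ⟨P₀.map (s18rq_incl (algebraMap ↥K0 (AlgebraicClosure ℚ)) A),
    s37riv_map_incl_ne_zero A _ P₀ hP₀, ?_⟩
  have := s37riv_isInt_map (s18rq_incl (algebraMap ↥K0 (AlgebraicClosure ℚ)) A) hint
  rwa [coeffMap_jqModC, map_mul, s18gq_coeffMap_aeval, coeffMap_jqModC] at this

/-- **[RI-VALID]**, chart at infinity. -/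
theorem s37riv_valid_inv (hℓM : ¬ ℓ ∣ M) (hA : A.LiesOverPrime ℓ) (y : LaurentSeries ↥A)
    (hy : coeffMap A.subtype y ∈ modularFunctionFieldBar M) :
    ∃ d : Polynomial ↥A, d.map (IsLocalRing.residue ↥A) ≠ 0 ∧
      s37riv_IsInt (s18gq_jinv ↥A) (aeval (s18gq_jinv ↥A) d * y) := by
  obtain ⟨K0, hK0, hdvr, y₁, hℓmax, hy₁, rfl⟩ := s37riv_descent M A hA y hy
  obtain ⟨P₀, hP₀, hint⟩ := s37riv_at_jinv ↥(A.comap (algebraMap ↥K0 (AlgebraicClosure ℚ))) ↥K0
    M ℓ hℓM hℓmax y₁ hy₁
  refine ⟨P₀.map (s18rq_incl (algebraMap ↥K0 (AlgebraicClosure ℚ)) A),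
    s37riv_map_incl_ne_zero A _ P₀ hP₀, ?_⟩
  have := s37riv_isInt_map (s18rq_incl (algebraMap ↥K0 (AlgebraicClosure ℚ)) A) hint
  rwa [s18gq_coeffMap_jinv, map_mul, s18gq_coeffMap_aeval, s18gq_coeffMap_jinv] at this

end A

/-! ### [COVER] and the by-products -/

section Cover

variable {R : Type*} [CommRing R]

theorem s37riv_jinv_mul_jq : s18gq_jinv R * jqModC R = 1 := by
  rw [mul_comm]
  exact s18gq_jq_mul_jinv R

/-- **[COVER]**: a series integral over `R[j]` becomes integral over `R[1/j]` after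
multiplication by a power of `1/j`. -/
theorem s37riv_cover_j {b : LaurentSeries R} (h : s37riv_IsInt (jqModC R) b) :
    ∃ n₀ : ℕ, ∀ n : ℕ, n₀ ≤ n → s37riv_IsInt (s18gq_jinv R) (s18gq_jinv R ^ n * b) :=
  s37riv_cover (s18gq_jq_mul_jinv R) h

/-- [COVER], the other direction. -/
theorem s37riv_cover_jinv {b : LaurentSeries R} (h : s37riv_IsInt (s18gq_jinv R) b) :
    ∃ n₀ : ℕ, ∀ n : ℕ, n₀ ≤ n → s37riv_IsInt (jqModC R) (jqModC R ^ n * b) :=
  s37riv_cover s37riv_jinv_mul_jq h

/-- The reduction of `d(x)`. -/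
theorem s37riv_red_aeval (A : Type*) [CommRing A] [IsLocalRing A] (x : LaurentSeries A)
    (d : Polynomial A) :
    coeffMap (IsLocalRing.residue A) (aeval x d) =
      aeval (coeffMap (IsLocalRing.residue A) x) (d.map (IsLocalRing.residue A)) :=
  s18gq_coeffMap_aeval _ x d

/-- The reduction of `d(j)` is not zero when the reduction of `d` is not zero. -/
theorem s37riv_red_aeval_j_ne_zero (A : Type*) [CommRing A] [IsLocalRing A]
    (d : Polynomial A) (hd : d.map (IsLocalRing.residue A) ≠ 0) :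
    coeffMap (IsLocalRing.residue A) (aeval (jqModC A) d) ≠ 0 := by
  rw [s37riv_red_aeval, coeffMap_jqModC]
  intro h
  exact hd ((transcendental_iff.1 (s18gq_transc_jq (IsLocalRing.ResidueField A))) _ h)

theorem s37riv_red_aeval_jinv_ne_zero (A : Type*) [CommRing A] [IsLocalRing A]
    (d : Polynomial A) (hd : d.map (IsLocalRing.residue A) ≠ 0) :
    coeffMap (IsLocalRing.residue A) (aeval (s18gq_jinv A) d) ≠ 0 := by
  rw [s37riv_red_aeval, s18gq_coeffMap_jinv, s18gq_jinv_eq_inv]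
  intro h
  exact hd ((transcendental_iff.1 (s18gq_transc_jq_inv (IsLocalRing.ResidueField A))) _ h)

end Cover

end Fermat.Agent.S37
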