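/-
S37, shared tool [RIEM], block (a) = [RR-COND]: vanishing conditions on a finite-dimensional
space of functions.  Owner: helper8.  Prefix `s37t_rrx_`.

If every place of `F/K` has residue field `K`, `V ⊆ F` is a finite-dimensional `K`-subspace
whose non-zero elements satisfy `div f + G ≥ 0`, and `E ≥ 0` is a divisor with
`deg E < dim V`, then some non-zero `f ∈ V` satisfies `div f + G - E ≥ 0`
(every point of `E` is one linear condition).
-/
import Mathlib
import Fermat.Prelude.Def_AlgebraicCurve_DivisorClassGroup
import Fermat.Agent.S24.PlaceBasic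

set_option autoImplicit false
set_option linter.style.haveILetI false

noncomputable section

namespace Fermat.Agent.S37

open AlgebraicCurve Fermat.Agent.S24

variable {K F : Type*} [Field K] [Field F] [Algebra K F]

/-! ### Balls -/

/-- The `K`-subspace `{x | x = 0 ∨ n ≤ ord_P x}` of `F`. -/
def s37t_rrx_ball (P : Place K F) (n : ℤ) : Submodule K F where
  carrier := {x | x = 0 ∨ n ≤ P.ord x}
  zero_mem' := Or.inl rfl
  add_mem' := by
    rintro x y hx hy
    by_cases hx0 : x = 0
    · subst hx0
      rw [zero_add]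
      exact hy
    by_cases hy0 : y = 0
    · subst hy0
      rw [add_zero]
      exact hx
    by_cases hxy : x + y = 0
    · exact Or.inl hxy
    rcases hx with h | h
    · exact absurd h hx0
    rcases hy with h' | h'
    · exact absurd h' hy0
    exact Or.inr (le_trans (le_min h h') (place_ord_add_ge P hx0 hy0 hxy))
  smul_mem' := by
    intro c x hx
    by_cases hc : c = 0
    · subst hc
      left
      rw [zero_smul]
    by_cases hx0 : x = 0
    · left
      rw [hx0, smul_zero]
    rcases hx with h | h
    · exact absurd h hx0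
    right
    have hc' : algebraMap K F c ≠ 0 := by
      intro h0
      exact hc ((map_eq_zero (algebraMap K F)).1 h0)
    show n ≤ P.ord (c • x)
    rw [Algebra.smul_def, P.ord_mul hc' hx0, place_ord_algebraMap, zero_add]
    exact h

theorem s37t_rrx_mem_ball (P : Place K F) (n : ℤ) (x : F) :
    x ∈ s37t_rrx_ball P n ↔ x = 0 ∨ n ≤ P.ord x := Iff.rfl

theorem s37t_rrx_ball_anti (P : Place K F) {n m : ℤ} (h : n ≤ m) :
    s37t_rrx_ball P m ≤ s37t_rrx_ball P n := by
  rintro x (hx | hx)
  · exact Or.inl hx
  · exact Or.inr (h.trans hx)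

/-! ### One condition -/

/-- **Codimension one.**  If the residue field of `P` is `K` and all non-zero elements of `V`
have order `≥ n` at `P`, then the elements of order `≥ n + 1` form a subspace of codimension
at most one. -/
theorem s37t_rrx_step (P : Place K F)
    (hres : ∀ x : F, x ∈ P.toValuationSubring →
      ∃ c : K, x - algebraMap K F c ∈ P.toValuationSubring.nonunits)
    (V : Submodule K F) [Module.Finite K V] (n : ℤ)
    (hV : ∀ f ∈ V, f ≠ 0 → n ≤ P.ord f) :
    Module.finrank K V ≤ Module.finrank K ↥(V ⊓ s37t_rrx_ball P (n + 1)) + 1 := by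
  haveI hfin' : Module.Finite K ↥(V ⊓ s37t_rrx_ball P (n + 1)) :=
    Submodule.finiteDimensional_of_le inf_le_left
  by_cases hle : V ≤ s37t_rrx_ball P (n + 1)
  · rw [inf_eq_left.2 hle]
    exact Nat.le_succ _
  obtain ⟨g, hgV, hgB⟩ := Set.not_subset.1 hle
  have hg0 : g ≠ 0 := fun h0 => hgB (Or.inl h0)
  have hgn : P.ord g = n := by
    have h1 := hV g hgV hg0
    have h2 : ¬ (n + 1 ≤ P.ord g) := fun h => hgB (Or.inr h)
    omega
  have hsup : V ≤ (V ⊓ s37t_rrx_ball P (n + 1)) ⊔ Submodule.span K {g} := by
    intro f hfV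
    by_cases hf0 : f = 0
    · rw [hf0]
      exact zero_mem _
    have hfn := hV f hfV hf0
    have hx0 : f * g⁻¹ ≠ 0 := mul_ne_zero hf0 (inv_ne_zero hg0)
    have hxord : P.ord (f * g⁻¹) = P.ord f - n := by
      rw [P.ord_mul hf0 (inv_ne_zero hg0), P.ord_inv, hgn]
      ring
    have hxmem : f * g⁻¹ ∈ P.toValuationSubring := by
      rw [place_mem_iff, hxord]
      omega
    obtain ⟨c, hc⟩ := hres _ hxmem
    have hdecomp : f = (f - c • g) + c • g := by ring
    rw [hdecomp]
    refine Submodule.add_mem_sup ⟨V.sub_mem hfV (V.smul_mem c hgV), ?_⟩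
      (Submodule.smul_mem _ c (Submodule.mem_span_singleton_self g))
    by_cases hz : f - c • g = 0
    · exact Or.inl hz
    right
    have hy0 : f * g⁻¹ - algebraMap K F c ≠ 0 := by
      intro h0
      apply hz
      have : f * g⁻¹ = algebraMap K F c := sub_eq_zero.1 h0
      rw [Algebra.smul_def, ← this, mul_assoc, inv_mul_cancel₀ hg0, mul_one, sub_self]
    have hypos : 0 < P.ord (f * g⁻¹ - algebraMap K F c) :=
      (place_mem_nonunits_iff P hy0).1 hc
    have hfac : f - c • g = g * (f * g⁻¹ - algebraMap K F c) := by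
      rw [Algebra.smul_def]
      field_simp
    rw [hfac, P.ord_mul hg0 hy0, hgn]
    omega
  haveI : Module.Finite K ↥(Submodule.span K ({g} : Set F)) :=
    FiniteDimensional.span_singleton K g
  calc Module.finrank K V
      ≤ Module.finrank K ↥((V ⊓ s37t_rrx_ball P (n + 1)) ⊔ Submodule.span K {g}) :=
        Submodule.finrank_mono hsup
    _ ≤ Module.finrank K ↥(V ⊓ s37t_rrx_ball P (n + 1)) +
          Module.finrank K ↥(Submodule.span K ({g} : Set F)) :=
        Submodule.finrank_add_le_finrank_add_finrank _ _
    _ ≤ Module.finrank K ↥(V ⊓ s37t_rrx_ball P (n + 1)) + 1 :=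
        Nat.add_le_add_left (finrank_span_singleton hg0).le _

/-! ### Finitely many conditions -/

theorem s37t_rrx_degree_nonneg (E : Divisor K F) (hE : ∀ v, 0 ≤ E v) :
    0 ≤ Divisor.degree E := by
  have h : Divisor.degree E = E.sum fun v n => n * (v.deg : ℤ) := by
    simp [Divisor.degree, Finsupp.liftAddHom_apply]
  rw [h]
  exact Finsupp.sum_nonneg fun v _ => mul_nonneg (hE v) (Int.natCast_nonneg _)

theorem s37t_rrx_cond_aux
    (hres : ∀ (v : Place K F) (x : F), x ∈ v.toValuationSubring →
      ∃ c : K, x - algebraMap K F c ∈ v.toValuationSubring.nonunits)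
    (hdeg1 : ∀ v : Place K F, v.deg = 1) (n : ℕ) :
    ∀ (V : Submodule K F), Module.Finite K V → ∀ (G E : Divisor K F), (∀ v, 0 ≤ E v) →
      (∀ f ∈ V, f ≠ 0 → ∀ v : Place K F, 0 ≤ v.ord f + G v) →
      Divisor.degree E ≤ (n : ℤ) → Divisor.degree E < (Module.finrank K V : ℤ) →
      ∃ f ∈ V, f ≠ 0 ∧ ∀ v : Place K F, 0 ≤ v.ord f + G v - E v := by
  classical
  induction n with
  | zero =>
    intro V hfin G E hE hV hn hdeg
    have hE0 : ∀ v, E v = 0 := by
      intro P
      by_contra hP
      have hP1 : 1 ≤ E P := by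
        have := hE P
        omega
      have hE' : ∀ v, 0 ≤ (E - Finsupp.single P 1 : Divisor K F) v := by
        intro v
        rw [Finsupp.sub_apply, Finsupp.single_apply]
        split_ifs with hv
        · subst hv
          omega
        · have := hE v
          omega
      have h1 := s37t_rrx_degree_nonneg _ hE'
      rw [map_sub, Divisor.degree_single, hdeg1, one_mul] at h1
      have : ((1 : ℕ) : ℤ) = 1 := rfl
      omega
    have hpos : 0 < Module.finrank K V := by
      have := s37t_rrx_degree_nonneg E hE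
      omega
    haveI := hfin
    obtain ⟨x, hx⟩ := Module.finrank_pos_iff_exists_ne_zero.1 hpos
    refine ⟨x, x.2, fun h0 => hx (Subtype.ext h0), fun v => ?_⟩
    rw [hE0 v, sub_zero]
    exact hV x x.2 (fun h0 => hx (Subtype.ext h0)) v
  | succ n ih =>
    intro V hfin G E hE hV hn hdeg
    haveI := hfin
    by_cases hE0 : ∀ v, E v = 0
    · have hpos : 0 < Module.finrank K V := by
        have := s37t_rrx_degree_nonneg E hE
        omega
      obtain ⟨x, hx⟩ := Module.finrank_pos_iff_exists_ne_zero.1 hpos
      refine ⟨x, x.2, fun h0 => hx (Subtype.ext h0), fun v => ?_⟩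
      rw [hE0 v, sub_zero]
      exact hV x x.2 (fun h0 => hx (Subtype.ext h0)) v
    push Not at hE0
    obtain ⟨P, hP⟩ := hE0
    have hP1 : 1 ≤ E P := by
      have := hE P
      omega
    have hE' : ∀ v, 0 ≤ (E - Finsupp.single P 1 : Divisor K F) v := by
      intro v
      rw [Finsupp.sub_apply, Finsupp.single_apply]
      split_ifs with hv
      · subst hv
        omega
      · have := hE v
        omega
    have hdegE' : Divisor.degree (E - Finsupp.single P 1) = Divisor.degree E - 1 := by
      rw [map_sub, Divisor.degree_single, hdeg1, one_mul]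
      rfl
    have hVP : ∀ f ∈ V, f ≠ 0 → -G P ≤ P.ord f := by
      intro f hf hf0
      have := hV f hf hf0 P
      omega
    have hstep := s37t_rrx_step P (hres P) V (-G P) hVP
    have hfin' : Module.Finite K ↥(V ⊓ s37t_rrx_ball P (-G P + 1)) :=
      Submodule.finiteDimensional_of_le inf_le_left
    obtain ⟨f, hfV', hf0, hf⟩ := ih (V ⊓ s37t_rrx_ball P (-G P + 1)) hfin'
      (G - Finsupp.single P 1) (E - Finsupp.single P 1) hE'
      (by
        intro f hf hf0 v
        rw [Finsupp.sub_apply, Finsupp.single_apply]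
        split_ifs with hv
        · subst hv
          rcases hf.2 with h | h
          · exact absurd h hf0
          · omega
        · have := hV f hf.1 hf0 v
          omega)
      (by
        rw [hdegE']
        push_cast at hn
        omega)
      (by
        rw [hdegE']
        have : (Module.finrank K V : ℤ) ≤
            (Module.finrank K ↥(V ⊓ s37t_rrx_ball P (-G P + 1)) : ℤ) + 1 := by
          exact_mod_cast hstep
        omega)
    refine ⟨f, hfV'.1, hf0, fun v => ?_⟩
    have := hf v
    rw [Finsupp.sub_apply, Finsupp.sub_apply] at this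
    omega

/-- **[RR-COND]** `deg E < dim V` vanishing conditions leave a non-zero element of `V`. -/
theorem s37t_rrx_cond
    (hres : ∀ (v : Place K F) (x : F), x ∈ v.toValuationSubring →
      ∃ c : K, x - algebraMap K F c ∈ v.toValuationSubring.nonunits)
    (hdeg1 : ∀ v : Place K F, v.deg = 1)
    (V : Submodule K F) [Module.Finite K V] (G E : Divisor K F) (hE : ∀ v, 0 ≤ E v)
    (hV : ∀ f ∈ V, f ≠ 0 → ∀ v : Place K F, 0 ≤ v.ord f + G v)
    (hdeg : Divisor.degree E < (Module.finrank K V : ℤ)) :
    ∃ f ∈ V, f ≠ 0 ∧ ∀ v : Place K F, 0 ≤ v.ord f + G v - E v := by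
  have h0 := s37t_rrx_degree_nonneg E hE
  obtain ⟨n, hn⟩ := Int.eq_ofNat_of_zero_le h0
  exact s37t_rrx_cond_aux hres hdeg1 n V inferInstance G E hE hV hn.le hdeg

end Fermat.Agent.S37
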