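/-
S37, shared tool [RIEM], block (a) = [RR-COND], specialised to a function field with a
coordinate over an algebraically closed field (the setting of `s37t_RiemannStatement`).
Owner: helper8.  Prefix `s37t_rrx_`.
-/
import Mathlib
import Fermat.Agent.S24.DiffFinal
import Fermat.Agent.S37.RiemannCond

set_option autoImplicit false

noncomputable section

namespace Fermat.Agent.S37

open AlgebraicCurve Fermat.Agent.S24

variable {K F : Type*} [Field K] [Field F] [Algebra K F] [IsAlgClosed K]

/-- Every element regular at a place is congruent to a constant. -/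
theorem s37t_rrx_res {u : F} (hu : S24.IsCoordinate K u) (v : Place K F) (x : F)
    (hx : x ∈ v.toValuationSubring) :
    ∃ c : K, x - algebraMap K F c ∈ v.toValuationSubring.nonunits := by
  obtain ⟨c, hc⟩ := diff_exists_residue (diff_isAlgebraic_of_isCoordinate hu) v ⟨x, hx⟩
  refine ⟨c, ?_⟩
  rw [ValuationSubring.mem_nonunits_iff_exists_mem_maximalIdeal]
  exact ⟨_, hc⟩

/-- **[RR-COND]** for a function field with a coordinate. -/
theorem s37t_rrx_cond_coord {u : F} (hu : S24.IsCoordinate K u)
    (V : Submodule K F) [Module.Finite K V] (G E : Divisor K F) (hE : ∀ v, 0 ≤ E v)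
    (hV : ∀ f ∈ V, f ≠ 0 → ∀ v : Place K F, 0 ≤ v.ord f + G v)
    (hdeg : Divisor.degree E < (Module.finrank K V : ℤ)) :
    ∃ f ∈ V, f ≠ 0 ∧ ∀ v : Place K F, 0 ≤ v.ord f + G v - E v :=
  s37t_rrx_cond (s37t_rrx_res hu)
    (fun v => diff_deg_eq_one (diff_isAlgebraic_of_isCoordinate hu) v) V G E hE hV hdeg

/-- Codimension one, for a function field with a coordinate. -/
theorem s37t_rrx_step_coord {u : F} (hu : S24.IsCoordinate K u) (P : Place K F)
    (V : Submodule K F) [Module.Finite K V] (n : ℤ)
    (hV : ∀ f ∈ V, f ≠ 0 → n ≤ P.ord f) :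
    Module.finrank K V ≤ Module.finrank K ↥(V ⊓ s37t_rrx_ball P (n + 1)) + 1 :=
  s37t_rrx_step P (s37t_rrx_res hu P) V n hV

end Fermat.Agent.S37
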