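/-
S37, SHARED TOOL (helper5): constant field extensions of places, part 4: the MODULAR
instantiation.  Prefix `s37t_cfe_`.

`κ → k` a homomorphism of fields (any characteristic), `F_κ(M) = κ(j(q^d) : d ∣ M) ⊆ κ((q))`,
`F_k(M) ⊆ k((q))` (the Prelude's `modularFunctionFieldFullC`), `ι = coeffMap` :
`F_κ(M) → F_k(M)`.

* `s37t_cfe_mod_exists`: if every element of `k` is a root of a monic separable polynomial over
  `κ`, every place `Q₀` of `F_κ(M) / κ` extends to a place `Q` of `F_k(M) / k` with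
  `ord_Q (ι f) = ord_{Q₀} f`.
* `s37t_cfe_mod_unique`, `s37t_cfe_mod_ord`: above a place `Q₀` of degree one the extension is
  unique, and every place lying over `Q₀` is unramified.
-/
import Mathlib
import Fermat.Prelude.Def_ModularCurve_X0ModL
import Fermat.Agent.S37.ToolCfeAbs
import Fermat.Agent.S37.ToolCfeUniq

set_option autoImplicit false
set_option linter.unusedSectionVars false
set_option linter.unusedVariables false

noncomputable section

namespace Fermat.Agent.S37

open Polynomial AlgebraicCurve ModularCurve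

section Mod

variable {κ k : Type*} [Field κ] [Field k] (φ₀ : κ →+* k) (M : ℕ)

theorem s37t_cfe_coeffMap_const (c : κ) :
    coeffMap φ₀ (algebraMap κ (LaurentSeries κ) c) = algebraMap k (LaurentSeries k) (φ₀ c) := by
  rw [algebraMap_laurentSeries_eq_single, algebraMap_laurentSeries_eq_single, coeffMap_single]

theorem s37t_cfe_coeffMap_gen (d : ℕ) [NeZero d] :
    coeffMap φ₀ (qExpand κ d (jqModC κ)) = qExpand k d (jqModC k) := by
  rw [coeffMap_qExpand, coeffMap_jqModC]

theorem s37t_cfe_coeffMap_mem_aux {x : LaurentSeries κ}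
    (hx : x ∈ Subfield.closure
      (Set.range (algebraMap κ (LaurentSeries κ)) ∪ divisorExpansionsC κ M)) :
    coeffMap φ₀ x ∈ modularFunctionFieldFullC k M := by
  induction hx using Subfield.closure_induction with
  | mem y hy =>
      rcases hy with ⟨a, rfl⟩ | ⟨d, hd, hdM, rfl⟩
      · rw [s37t_cfe_coeffMap_const]
        exact (modularFunctionFieldFullC k M).algebraMap_mem _
      · have : NeZero d := hd
        rw [s37t_cfe_coeffMap_gen]
        exact jqModCd_mem_full k M hdM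
  | one => rw [map_one]; exact one_mem _
  | add x y _ _ hx hy => rw [map_add]; exact add_mem hx hy
  | neg x _ hx => rw [map_neg]; exact neg_mem hx
  | inv x _ hx => rw [map_inv₀]; exact inv_mem hx
  | mul x y _ _ hx hy => rw [map_mul]; exact mul_mem hx hy

/-- The coefficientwise image of `F_κ(M)` lies in `F_k(M)`. -/
theorem s37t_cfe_coeffMap_mem {x : LaurentSeries κ} (hx : x ∈ modularFunctionFieldFullC κ M) :
    coeffMap φ₀ x ∈ modularFunctionFieldFullC k M :=
  s37t_cfe_coeffMap_mem_aux φ₀ M hx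

/-- The embedding `ι : F_κ(M) → F_k(M)` (coefficientwise). -/
def s37t_cfe_iotaC :
    ↥(modularFunctionFieldFullC κ M) →+* ↥(modularFunctionFieldFullC k M) where
  toFun x := ⟨coeffMap φ₀ (x : LaurentSeries κ), s37t_cfe_coeffMap_mem φ₀ M x.2⟩
  map_one' := Subtype.ext (map_one (coeffMap φ₀))
  map_mul' x y := Subtype.ext (map_mul (coeffMap φ₀) (x : LaurentSeries κ) (y : LaurentSeries κ))
  map_zero' := Subtype.ext (map_zero (coeffMap φ₀))
  map_add' x y := Subtype.ext (map_add (coeffMap φ₀) (x : LaurentSeries κ) (y : LaurentSeries κ))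

@[simp]
theorem s37t_cfe_coe_iotaC (x : ↥(modularFunctionFieldFullC κ M)) :
    ((s37t_cfe_iotaC φ₀ M x : ↥(modularFunctionFieldFullC k M)) : LaurentSeries k) =
      coeffMap φ₀ (x : LaurentSeries κ) := rfl

theorem s37t_cfe_iotaC_algebraMap (c : κ) :
    s37t_cfe_iotaC φ₀ M (algebraMap κ ↥(modularFunctionFieldFullC κ M) c) =
      algebraMap k ↥(modularFunctionFieldFullC k M) (φ₀ c) :=
  Subtype.ext (s37t_cfe_coeffMap_const φ₀ c)

theorem s37t_cfe_gen_aux {x : LaurentSeries k}
    (hx : x ∈ Subfield.closure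
      (Set.range (algebraMap k (LaurentSeries k)) ∪ divisorExpansionsC k M)) :
    ∃ h : x ∈ modularFunctionFieldFullC k M,
      (⟨x, h⟩ : ↥(modularFunctionFieldFullC k M)) ∈ Subfield.closure
        (Set.range (s37t_cfe_iotaC φ₀ M) ∪
          Set.range (algebraMap k ↥(modularFunctionFieldFullC k M))) := by
  induction hx using Subfield.closure_induction with
  | mem y hy =>
      rcases hy with ⟨a, rfl⟩ | ⟨d, hd, hdM, rfl⟩
      · exact ⟨(modularFunctionFieldFullC k M).algebraMap_mem _,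
          Subfield.subset_closure (Or.inr ⟨a, rfl⟩)⟩
      · have : NeZero d := hd
        refine ⟨jqModCd_mem_full k M hdM, Subfield.subset_closure (Or.inl
          ⟨⟨qExpand κ d (jqModC κ), jqModCd_mem_full κ M hdM⟩, Subtype.ext ?_⟩)⟩
        exact s37t_cfe_coeffMap_gen φ₀ d
  | one =>
      refine ⟨one_mem _, ?_⟩
      have e : (⟨1, one_mem _⟩ : ↥(modularFunctionFieldFullC k M)) = 1 := rfl
      rw [e]
      exact Subfield.one_mem _
  | add x y _ _ hx hy =>
      obtain ⟨h1, h2⟩ := hx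
      obtain ⟨h3, h4⟩ := hy
      refine ⟨add_mem h1 h3, ?_⟩
      have e : (⟨x + y, add_mem h1 h3⟩ : ↥(modularFunctionFieldFullC k M)) =
          ⟨x, h1⟩ + ⟨y, h3⟩ := rfl
      rw [e]
      exact Subfield.add_mem _ h2 h4
  | neg x _ hx =>
      obtain ⟨h1, h2⟩ := hx
      refine ⟨neg_mem h1, ?_⟩
      have e : (⟨-x, neg_mem h1⟩ : ↥(modularFunctionFieldFullC k M)) = -⟨x, h1⟩ := rfl
      rw [e]
      exact Subfield.neg_mem _ h2
  | inv x _ hx =>
      obtain ⟨h1, h2⟩ := hx
      refine ⟨inv_mem h1, ?_⟩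
      have e : (⟨x⁻¹, inv_mem h1⟩ : ↥(modularFunctionFieldFullC k M)) = (⟨x, h1⟩)⁻¹ := rfl
      rw [e]
      exact Subfield.inv_mem _ h2
  | mul x y _ _ hx hy =>
      obtain ⟨h1, h2⟩ := hx
      obtain ⟨h3, h4⟩ := hy
      refine ⟨mul_mem h1 h3, ?_⟩
      have e : (⟨x * y, mul_mem h1 h3⟩ : ↥(modularFunctionFieldFullC k M)) =
          ⟨x, h1⟩ * ⟨y, h3⟩ := rfl
      rw [e]
      exact Subfield.mul_mem _ h2 h4

/-- `F_k(M) = ι(F_κ(M)) · k`. -/
theorem s37t_cfe_gen (x : ↥(modularFunctionFieldFullC k M)) :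
    x ∈ Subfield.closure (Set.range (s37t_cfe_iotaC φ₀ M) ∪
      Set.range (algebraMap k ↥(modularFunctionFieldFullC k M))) := by
  obtain ⟨h, hx⟩ := s37t_cfe_gen_aux φ₀ M x.2
  exact hx

/-- **Existence**: every place of `F_κ(M) / κ` extends to a place of `F_k(M) / k` with the same
orders. -/
theorem s37t_cfe_mod_exists
    (halg : ∀ a : k, ∃ p : κ[X], p.Monic ∧ p.Separable ∧ eval₂ φ₀ a p = 0)
    (Q₀ : Place κ ↥(modularFunctionFieldFullC κ M)) :
    ∃ Q : Place k ↥(modularFunctionFieldFullC k M),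
      ∀ f : ↥(modularFunctionFieldFullC κ M), Q.ord (s37t_cfe_iotaC φ₀ M f) = Q₀.ord f :=
  s37t_cfe_abs φ₀ (s37t_cfe_iotaC φ₀ M) (s37t_cfe_iotaC_algebraMap φ₀ M) halg
    (s37t_cfe_gen φ₀ M) Q₀

/-- **Uniqueness** above a place of degree one. -/
theorem s37t_cfe_mod_unique (Q₀ : Place κ ↥(modularFunctionFieldFullC κ M))
    (hdeg : ∀ x ∈ Q₀.toValuationSubring,
      ∃ c : κ, x - algebraMap κ ↥(modularFunctionFieldFullC κ M) c ∈
        Q₀.toValuationSubring.nonunits)
    {Q Q' : Place k ↥(modularFunctionFieldFullC k M)}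
    (h : ∀ x ∈ Q₀.toValuationSubring.nonunits,
      s37t_cfe_iotaC φ₀ M x ∈ Q.toValuationSubring.nonunits)
    (h' : ∀ x ∈ Q₀.toValuationSubring.nonunits,
      s37t_cfe_iotaC φ₀ M x ∈ Q'.toValuationSubring.nonunits) : Q = Q' :=
  s37t_cfe_place_unique φ₀ (s37t_cfe_iotaC_algebraMap φ₀ M) hdeg (s37t_cfe_gen φ₀ M) h h'

/-- **Uniqueness** above a place of degree one, in terms of orders. -/
theorem s37t_cfe_mod_unique_ord (Q₀ : Place κ ↥(modularFunctionFieldFullC κ M))
    (hdeg : ∀ x ∈ Q₀.toValuationSubring,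
      ∃ c : κ, x - algebraMap κ ↥(modularFunctionFieldFullC κ M) c ∈
        Q₀.toValuationSubring.nonunits)
    {Q Q' : Place k ↥(modularFunctionFieldFullC k M)}
    (h : ∀ f, Q.ord (s37t_cfe_iotaC φ₀ M f) = Q₀.ord f)
    (h' : ∀ f, Q'.ord (s37t_cfe_iotaC φ₀ M f) = Q₀.ord f) : Q = Q' :=
  s37t_cfe_place_unique_ord φ₀ (s37t_cfe_iotaC_algebraMap φ₀ M) hdeg (s37t_cfe_gen φ₀ M) h h'

/-- A place of `F_k(M)` lying over a place `Q₀` of `F_κ(M)` of degree one is unramified. -/
theorem s37t_cfe_mod_ord (Q₀ : Place κ ↥(modularFunctionFieldFullC κ M))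
    (hdeg : ∀ x ∈ Q₀.toValuationSubring,
      ∃ c : κ, x - algebraMap κ ↥(modularFunctionFieldFullC κ M) c ∈
        Q₀.toValuationSubring.nonunits)
    (Q : Place k ↥(modularFunctionFieldFullC k M))
    (h : ∀ x ∈ Q₀.toValuationSubring.nonunits,
      s37t_cfe_iotaC φ₀ M x ∈ Q.toValuationSubring.nonunits)
    (f : ↥(modularFunctionFieldFullC κ M)) : Q.ord (s37t_cfe_iotaC φ₀ M f) = Q₀.ord f :=
  s37t_cfe_ord_of_dom φ₀ (s37t_cfe_iotaC_algebraMap φ₀ M) hdeg (s37t_cfe_gen φ₀ M) Q h f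

end Mod

/-! ### the separability hypothesis -/

section Alg

/-- Over a perfect field every algebraic element is a root of a monic separable polynomial. -/
theorem s37t_cfe_halg_of_perfect {κ k : Type*} [Field κ] [Field k] [Algebra κ k]
    [PerfectField κ] [Algebra.IsAlgebraic κ k] (a : k) :
    ∃ p : κ[X], p.Monic ∧ p.Separable ∧ eval₂ (algebraMap κ k) a p = 0 := by
  have hint : IsIntegral κ a := (Algebra.IsAlgebraic.isAlgebraic (R := κ) a).isIntegral
  refine ⟨minpoly κ a, minpoly.monic hint, PerfectField.separable_of_irreducible (minpoly.irreducible hint), ?_⟩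
  rw [← Polynomial.aeval_def]
  exact minpoly.aeval κ a

end Alg

end Fermat.Agent.S37
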