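/-
S37, SHARED TOOL (helper5): constant field extensions of places, part 5: the separability
hypothesis for residue fields.  Prefix `s37t_cfe_`.  Mathlib only.

`L / K` algebraic (through `f : K → L`), `A` a valuation subring of `L`, `O = A.comap f = A ∩ K`,
`κ`, `k` the residue fields, `φ₀ : κ → k` the induced map.  Then `k` is algebraic over `κ`
(`s37t_cfe_res_alg`), and if `κ` is perfect every element of `k` is a root of a monic separable
polynomial over `κ` (`s37t_cfe_halg_res`): the hypothesis `halg` of `s37t_cfe_abs` /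
`s37t_cfe_mod_exists`.
-/
import Mathlib

set_option autoImplicit false
set_option linter.unusedSectionVars false
set_option linter.unusedVariables false

noncomputable section

namespace Fermat.Agent.S37

open Polynomial IsLocalRing

section Res

variable {K L : Type*} [Field K] [Field L] (f : K →+* L) (A : ValuationSubring L)

/-- A non-zero polynomial over `K` can be scaled to a polynomial over the valuation ring `O`
with a coefficient equal to `1`. -/
theorem s37t_cfe_primitive (O : ValuationSubring K) (P : K[X]) (hP : P ≠ 0) :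
    ∃ (c : K) (P₀ : (↥O)[X]) (i : ℕ), c ≠ 0 ∧ P₀.map O.subtype = C c * P ∧ P₀.coeff i = 1 := by
  classical
  have hne : P.support.Nonempty := Polynomial.nonempty_support_iff.2 hP
  obtain ⟨i, hi, hmax⟩ := Finset.exists_max_image P.support
    (fun n => O.valuation (P.coeff n)) hne
  have hci : P.coeff i ≠ 0 := Polynomial.mem_support_iff.1 hi
  have hvi : O.valuation (P.coeff i) ≠ 0 := (Valuation.ne_zero_iff _).2 hci
  have hle : ∀ n, O.valuation (P.coeff n) ≤ O.valuation (P.coeff i) := by
    intro n
    by_cases hn : n ∈ P.support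
    · exact hmax n hn
    · rw [Polynomial.notMem_support_iff.1 hn, map_zero]
      exact zero_le
  have hmem : ∀ n, (C (P.coeff i)⁻¹ * P).coeff n ∈ O := by
    intro n
    rw [Polynomial.coeff_C_mul, ← O.valuation_le_one_iff, map_mul, map_inv₀,
      inv_mul_le_iff₀ (zero_lt_iff.2 hvi), mul_one]
    exact hle n
  have hl : C (P.coeff i)⁻¹ * P ∈ Polynomial.lifts O.subtype := by
    rw [Polynomial.lifts_iff_coeff_lifts]
    intro n
    exact ⟨⟨_, hmem n⟩, rfl⟩
  obtain ⟨P₀, hP₀⟩ := (Polynomial.mem_lifts _).1 hl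
  refine ⟨(P.coeff i)⁻¹, P₀, i, inv_ne_zero hci, hP₀, ?_⟩
  apply Subtype.ext
  have h1 := congrArg (fun p => p.coeff i) hP₀
  simp only [Polynomial.coeff_map, Polynomial.coeff_C_mul] at h1
  rw [inv_mul_cancel₀ hci] at h1
  exact h1

variable (hf : ∀ x : L, ∃ p : K[X], p ≠ 0 ∧ eval₂ f x p = 0)
  (φ₀ : ResidueField ↥(A.comap f) →+* ResidueField ↥A)
  (hφ₀ : ∀ x : ↥(A.comap f), φ₀ (residue ↥(A.comap f) x) = residue ↥A ⟨f (x : K), x.2⟩)

include hf hφ₀ in
/-- The residue field of `A` is algebraic over the residue field of `A ∩ K`. -/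
theorem s37t_cfe_res_alg (a : ResidueField ↥A) :
    ∃ p : (ResidueField ↥(A.comap f))[X], p ≠ 0 ∧ eval₂ φ₀ a p = 0 := by
  obtain ⟨x, rfl⟩ := residue_surjective a
  obtain ⟨P, hP, hPx⟩ := hf (x : L)
  obtain ⟨c, P₀, i, hc, hP₀, hi⟩ := s37t_cfe_primitive (A.comap f) P hP
  refine ⟨P₀.map (residue ↥(A.comap f)), ?_, ?_⟩
  · intro h0
    have h1 := congrArg (fun p => p.coeff i) h0
    simp only [Polynomial.coeff_map, Polynomial.coeff_zero, hi, map_one] at h1
    exact one_ne_zero h1
  · rw [eval₂_map]
    let incl : ↥(A.comap f) →+* ↥A :=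
      (f.comp (A.comap f).subtype).codRestrict A.toSubring (fun y => y.2)
    have hcomp : φ₀.comp (residue ↥(A.comap f)) = (residue ↥A).comp incl := by
      ext y
      exact hφ₀ y
    rw [hcomp, ← Polynomial.hom_eval₂]
    have h2 : eval₂ incl x P₀ = 0 := by
      apply Subtype.ext
      have h3 := Polynomial.hom_eval₂ P₀ incl A.subtype x
      have h4 : (A.subtype : ↥A →+* L).comp incl = f.comp (A.comap f).subtype := rfl
      rw [h4] at h3
      have h5 : ((eval₂ incl x P₀ : ↥A) : L) = A.subtype (eval₂ incl x P₀) := rfl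
      have h6 : eval₂ f (A.subtype x) P = 0 := hPx
      rw [h5, h3, ← Polynomial.eval₂_map, hP₀, Polynomial.eval₂_mul, h6, mul_zero]
      rfl
    rw [h2, map_zero]

include hf hφ₀ in
/-- **The hypothesis `halg`**: if the residue field of `A ∩ K` is perfect, every element of the
residue field of `A` is a root of a monic separable polynomial over it. -/
theorem s37t_cfe_halg_res [PerfectField (ResidueField ↥(A.comap f))] (a : ResidueField ↥A) :
    ∃ p : (ResidueField ↥(A.comap f))[X], p.Monic ∧ p.Separable ∧ eval₂ φ₀ a p = 0 := by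
  let _ : Algebra (ResidueField ↥(A.comap f)) (ResidueField ↥A) := φ₀.toAlgebra
  obtain ⟨p, hp, hpa⟩ := s37t_cfe_res_alg f A hf φ₀ hφ₀ a
  have halg : IsAlgebraic (ResidueField ↥(A.comap f)) a := ⟨p, hp, by
    rw [Polynomial.aeval_def]
    exact hpa⟩
  have hint : IsIntegral (ResidueField ↥(A.comap f)) a := halg.isIntegral
  refine ⟨minpoly _ a, minpoly.monic hint,
    PerfectField.separable_of_irreducible (minpoly.irreducible hint), ?_⟩
  have := minpoly.aeval (ResidueField ↥(A.comap f)) a
  rw [Polynomial.aeval_def] at this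
  exact this

end Res

end Fermat.Agent.S37
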