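/-
S37, split-off [RI-UNIT] of [RI] (owner: helper27).  Prefix `s37u_`.

THE MODULAR UNITS IN CHARACTERISTIC `ℓ`: for a field `k` of characteristic `ℓ` and `d ∣ N`,
`ℓ ∤ d`, the formal `Δ`-quotient `Δ(q^d) / Δ(q)` lies in `F_k(N) = k(j(q^e) : e ∣ N) ⊆ k((q))`;
hence so does the reduction of the key element `g₀ = S28.tr_g0 N` of S28 (`ℓ ∤ N`).

This is the port of S28/ThetaMem.lean (characteristic `0`) to characteristic `ℓ`:
Ramanujan's formal identity `(θ j)⁶ = j⁴ (j - 1728)³ Δ` holds over `ℤ`, hence over every ring;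
`j(q^d)` is algebraic (S18/ConstAlg) and separable (S18/Sep) over `k(j)`; implicit
differentiation.
-/
import Mathlib
import Fermat.Prelude.Def_ModularCurve_X0ModL
import Fermat.Agent.S28.ThetaDer
import Fermat.Agent.S28.ThetaJ
import Fermat.Agent.S28.TwistFormal
import Fermat.Agent.S28.TrGN
import Fermat.Agent.S18.Sep
import Fermat.Agent.S18.ConstAlg

set_option autoImplicit false
set_option linter.unusedSectionVars false
set_option linter.unusedVariables false
set_option linter.style.haveILetI false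

open Polynomial ModularCurve IntermediateField
open Fermat.Agent.S28 Fermat.Agent.S18

noncomputable section

namespace Fermat.Agent.S37

/-! ### Ramanujan's identity over every commutative ring -/

theorem s37u_coeffMap_C {R S : Type*} [CommRing R] [CommRing S] (f : R →+* S) (r : R) :
    coeffMap f (HahnSeries.C r) = HahnSeries.C (f r) := by
  show coeffMap f (HahnSeries.single 0 r) = HahnSeries.single 0 (f r)
  exact coeffMap_single f 0 r

theorem s37u_coeffMap_int_injective :
    Function.Injective (coeffMap (Int.castRingHom ℚ)) := by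
  intro x y h
  ext n
  have := congrArg (fun z : LaurentSeries ℚ => z.coeff n) h
  exact Int.cast_injective this

/-- **Ramanujan's formal identity** `(θ j)⁶ = j⁴ (j - 1728)³ Δ` over `ℤ`. -/
theorem s37u_ramanujanZ :
    thD_theta (jqModC ℤ) ^ 6 =
      jqModC ℤ ^ 4 * (jqModC ℤ - HahnSeries.C (1728 : ℤ)) ^ 3 * twL_delta ℤ := by
  apply s37u_coeffMap_int_injective
  rw [map_pow, ← thD_theta_coeffMap, map_mul, map_mul, map_pow, map_pow, map_sub,
    coeffMap_jqModC, twL_coeffMap_delta, s37u_coeffMap_C]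
  have h := thD_ramanujanQ
  have e : ((Int.castRingHom ℚ) (1728 : ℤ)) = (1728 : ℚ) := by norm_num
  rw [e]
  exact h

/-- **Ramanujan's formal identity** over a commutative ring. -/
theorem s37u_ramanujan (R : Type*) [CommRing R] :
    thD_theta (jqModC R) ^ 6 =
      jqModC R ^ 4 * (jqModC R - HahnSeries.C (1728 : R)) ^ 3 * twL_delta R := by
  have h := congrArg (coeffMap (Int.castRingHom R)) s37u_ramanujanZ
  rw [map_pow, ← thD_theta_coeffMap, map_mul, map_mul, map_pow, map_pow, map_sub,
    coeffMap_jqModC, twL_coeffMap_delta, s37u_coeffMap_C] at h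
  have e : ((Int.castRingHom R) (1728 : ℤ)) = (1728 : R) := by norm_num
  rw [e] at h
  exact h

/-! ### `θ` on `k(j)` -/

section Field

variable (k : Type) [Field k]

theorem s37u_theta_algebraMap (a : k) :
    thD_theta (algebraMap k (LaurentSeries k) a) = 0 := by
  rw [algebraMap_laurentSeries_eq_single, thD_theta_single]
  simp

theorem s37u_theta_aeval (r : k[X]) :
    thD_theta (aeval (jqModC k) r) =
      aeval (jqModC k) (derivative r) * thD_theta (jqModC k) := by
  induction r using Polynomial.induction_on' with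
  | add p q hp hq => rw [map_add, thD_theta_add, hp, hq, derivative_add, map_add, add_mul]
  | monomial n a =>
    rw [aeval_monomial, thD_theta_mul, s37u_theta_algebraMap, zero_mul, zero_add, thD_theta_pow,
      derivative_monomial, aeval_monomial, map_mul, map_natCast]
    ring

theorem s37u_theta_mem_adjoin {c : LaurentSeries k} (hc : c ∈ k⟮jqModC k⟯) :
    ∃ c' ∈ k⟮jqModC k⟯, thD_theta c = thD_theta (jqModC k) * c' := by
  obtain ⟨r, s, rfl⟩ := (IntermediateField.mem_adjoin_simple_iff k c).mp hc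
  have hj : jqModC k ∈ k⟮jqModC k⟯ := IntermediateField.mem_adjoin_simple_self k (jqModC k)
  have hmem : ∀ p : k[X], aeval (jqModC k) p ∈ k⟮jqModC k⟯ := fun p => by
    rw [aeval_eq_sum_range]
    refine sum_mem fun i _ => ?_
    rw [Algebra.smul_def]
    exact mul_mem (IntermediateField.algebraMap_mem _ _) (pow_mem hj _)
  by_cases hs : aeval (jqModC k) s = 0
  · refine ⟨0, zero_mem _, ?_⟩
    rw [hs, div_zero, thD_theta_zero, mul_zero]
  · refine ⟨(aeval (jqModC k) (derivative r) -
      aeval (jqModC k) r / aeval (jqModC k) s * aeval (jqModC k) (derivative s)) /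
      aeval (jqModC k) s, ?_, ?_⟩
    · exact div_mem (sub_mem (hmem _) (mul_mem (div_mem (hmem _) (hmem _)) (hmem _))) (hmem _)
    · have h1 : thD_theta (aeval (jqModC k) r / aeval (jqModC k) s * aeval (jqModC k) s) =
          thD_theta (aeval (jqModC k) r) := by
        rw [div_mul_cancel₀ _ hs]
      rw [thD_theta_mul, s37u_theta_aeval, s37u_theta_aeval] at h1
      rw [mul_div_assoc', eq_div_iff hs]
      linear_combination h1

theorem s37u_adjoin_le_full (N : ℕ) [NeZero N] : k⟮jqModC k⟯ ≤ modularFunctionFieldFullC k N := by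
  rw [IntermediateField.adjoin_simple_le_iff]
  exact jqModC_mem_full k N

theorem s37u_order_jq : (jqModC k).order = -1 := by
  have hne : jqModC k ≠ 0 := jqModC_ne_zero_of_nontrivial k
  refine le_antisymm (HahnSeries.order_le_of_coeff_ne_zero ?_) ?_
  · rw [coeff_jqModC_neg_one]
    exact one_ne_zero
  · by_contra hlt
    rw [not_le] at hlt
    exact HahnSeries.coeff_order_eq_zero.not.mpr hne (coeff_jqModC_of_lt k hlt)

/-! ### A separable equation for `j(q^d)` over `k(j)` -/

theorem s37u_exists_separable_poly [PerfectField k] (ℓ : ℕ) [Fact ℓ.Prime] [CharP k ℓ]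
    (d : ℕ) [NeZero d] :
    ∃ P : (LaurentSeries k)[X], (∀ i, P.coeff i ∈ k⟮jqModC k⟯) ∧
      P.eval (qExpand k d (jqModC k)) = 0 ∧
      P.derivative.eval (qExpand k d (jqModC k)) ≠ 0 := by
  have halg := s18c_alg_gen k ℓ d
  have hord : ¬ ((ℓ : ℕ) : ℤ) ∣ (jqModC k).order := by
    rw [s37u_order_jq]
    intro h
    have h1 : ((ℓ : ℕ) : ℤ) ∣ 1 := (Int.dvd_neg).1 h
    have h2 : (ℓ : ℕ) ∣ 1 := by exact_mod_cast h1
    exact (Fact.out : ℓ.Prime).one_lt.ne' (Nat.dvd_one.1 h2)
  have hsep : IsSeparable ↥(k⟮jqModC k⟯) (qExpand k d (jqModC k)) :=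
    s18sep_main k ℓ (jqModC k) _ hord halg
  refine ⟨(minpoly ↥(k⟮jqModC k⟯) (qExpand k d (jqModC k))).map
    (algebraMap ↥(k⟮jqModC k⟯) (LaurentSeries k)), fun i => ?_, ?_, ?_⟩
  · rw [Polynomial.coeff_map]
    exact Subtype.mem _
  · rw [Polynomial.eval_map, ← Polynomial.aeval_def]
    exact minpoly.aeval _ _
  · rw [Polynomial.derivative_map, Polynomial.eval_map, ← Polynomial.aeval_def]
    exact hsep.aeval_derivative_ne_zero (minpoly.aeval _ _)

/-- `θ (j(q^d)) / θ j` lies in the function field. -/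
theorem s37u_theta_jd_mem [PerfectField k] (ℓ : ℕ) [Fact ℓ.Prime] [CharP k ℓ]
    (N d : ℕ) [NeZero N] [NeZero d] (hd : d ∣ N) :
    ∃ y ∈ modularFunctionFieldFullC k N,
      thD_theta (qExpand k d (jqModC k)) = thD_theta (jqModC k) * y := by
  obtain ⟨P, hPc, hP0, hP1⟩ := s37u_exists_separable_poly k ℓ d
  obtain ⟨y, hy, hy'⟩ := thD_implicit (thD_theta (R := k)) thD_theta_add thD_theta_mul
    (thD_theta (jqModC k)) (modularFunctionFieldFullC k N).toSubfield (qExpand k d (jqModC k))
    (jqModCd_mem_full k N hd) P (fun i => s37u_adjoin_le_full k N (hPc i))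
    (fun i => by
      obtain ⟨c', hc', h⟩ := s37u_theta_mem_adjoin k (hPc i)
      exact ⟨c', s37u_adjoin_le_full k N hc', h⟩) hP0 hP1
  exact ⟨y, hy, hy'⟩

/-! ### The modular units -/

theorem s37u_delta_ne_zero : twL_delta k ≠ 0 := (twL_deltaUnit k).ne_zero

theorem s37u_C_mem (N : ℕ) [NeZero N] (r : k) :
    (HahnSeries.C r : LaurentSeries k) ∈ modularFunctionFieldFullC k N := by
  rw [HahnSeries.C_apply, ← algebraMap_laurentSeries_eq_single]
  exact IntermediateField.algebraMap_mem _ r

theorem s37u_jq_sub_C_ne_zero (r : k) : jqModC k - HahnSeries.C r ≠ 0 := by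
  intro h
  have h1 := congrArg (fun s : LaurentSeries k => s.coeff (-1)) h
  simp only [HahnSeries.coeff_sub, coeff_jqModC_neg_one, HahnSeries.coeff_zero,
    HahnSeries.C_apply] at h1
  rw [HahnSeries.coeff_single_of_ne (by norm_num)] at h1
  norm_num at h1

/-- **[RI-UNIT]** over a perfect field: the modular unit `Δ(q^d)/Δ(q)` lies in
`F_k(N) = k(j(q^e) : e ∣ N)` for every `d ∣ N` prime to the characteristic. -/
theorem s37u_unit_mem_perfect [PerfectField k] (ℓ : ℕ) [Fact ℓ.Prime] [CharP k ℓ]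
    (N d : ℕ) [NeZero N] [NeZero d] (hd : d ∣ N) (hℓ : ¬ ℓ ∣ d) :
    qExpand k d (twL_delta k) * (twL_delta k)⁻¹ ∈ modularFunctionFieldFullC k N := by
  obtain ⟨y, hy, hy'⟩ := s37u_theta_jd_mem k ℓ N d hd
  have hj : jqModC k ∈ modularFunctionFieldFullC k N := jqModC_mem_full k N
  have hjd : qExpand k d (jqModC k) ∈ modularFunctionFieldFullC k N := jqModCd_mem_full k N hd
  have hC := s37u_C_mem k N 1728
  have h1 := s37u_ramanujan k
  have h2 := congrArg (qExpand k d) h1
  rw [map_pow, map_mul, map_mul, map_pow, map_pow, map_sub, qExpand_C] at h2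
  have h3 := thD_theta_qExpand (R := k) d (jqModC k)
  rw [hy'] at h3
  have hd0 : ((d : ℕ) : LaurentSeries k) ≠ 0 := by
    rw [← map_natCast (HahnSeries.C : k →+* LaurentSeries k) d, HahnSeries.C_apply]
    intro h
    have h' := congrArg (fun s : LaurentSeries k => s.coeff 0) h
    simp only [HahnSeries.coeff_single_same, HahnSeries.coeff_zero] at h'
    exact hℓ ((CharP.cast_eq_zero_iff k ℓ d).1 h')
  have hΔ := s37u_delta_ne_zero k
  have hA : qExpand k d (jqModC k) ^ 4 *
      (qExpand k d (jqModC k) - HahnSeries.C (1728 : k)) ^ 3 ≠ 0 := by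
    refine mul_ne_zero (pow_ne_zero _ ?_) (pow_ne_zero _ ?_)
    · intro h
      exact jqModC_ne_zero_of_nontrivial k (qExpand_injective d (by rw [h, map_zero]))
    · intro h
      have : qExpand k d (jqModC k - HahnSeries.C (1728 : k)) = 0 := by
        rw [map_sub, qExpand_C, h]
      exact s37u_jq_sub_C_ne_zero k 1728 (qExpand_injective d (by rw [this, map_zero]))
  have key : qExpand k d (twL_delta k) * (twL_delta k)⁻¹ =
      (jqModC k ^ 4 * (jqModC k - HahnSeries.C (1728 : k)) ^ 3) * y ^ 6 /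
        ((d : LaurentSeries k) ^ 6 *
          (qExpand k d (jqModC k) ^ 4 *
            (qExpand k d (jqModC k) - HahnSeries.C (1728 : k)) ^ 3)) := by
    have h4 : (thD_theta (jqModC k) * y) ^ 6 =
        ((d : LaurentSeries k) * qExpand k d (thD_theta (jqModC k))) ^ 6 := by
      rw [h3]
    rw [mul_pow, mul_pow, h1, h2] at h4
    rw [eq_div_iff (mul_ne_zero (pow_ne_zero _ hd0) hA), ← div_eq_mul_inv, div_mul_eq_mul_div,
      div_eq_iff hΔ]
    linear_combination -h4
  rw [key]
  exact div_mem (mul_mem (mul_mem (pow_mem hj _) (pow_mem (sub_mem hj hC) _)) (pow_mem hy _))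
    (mul_mem (pow_mem (IntermediateField.natCast_mem _ d) _)
      (mul_mem (pow_mem hjd _) (pow_mem (sub_mem hjd hC) _)))

theorem s37u_prod_zpow_const {K : Type*} [Field K] {ι : Type*} (s : Finset ι) (a : K)
    (ha : a ≠ 0) (r : ι → ℤ) : ∏ i ∈ s, a ^ (r i) = a ^ (∑ i ∈ s, r i) := by
  classical
  induction s using Finset.induction_on with
  | empty => simp
  | insert i s hi ih => rw [Finset.prod_insert hi, Finset.sum_insert hi, ih, zpow_add₀ ha]

/-- The formal `Δ`-quotients of total exponent `0` and level prime to `ℓ` lie in `F_k(N)`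
(`k` perfect). -/
theorem s37u_quot_mem_perfect [PerfectField k] (ℓ : ℕ) [Fact ℓ.Prime] [CharP k ℓ]
    (N : ℕ) [NeZero N] (hℓN : ¬ ℓ ∣ N) (r : ℕ → ℤ) (hr : ∑ d ∈ N.divisors, r d = 0) :
    twL_quot k N r ∈ modularFunctionFieldFullC k N := by
  have e : twL_quot k N r =
      ∏ d ∈ N.divisors, (twL_qE k d (twL_delta k) * (twL_delta k)⁻¹) ^ (r d) := by
    rw [twL_quot_eq_prod]
    have h0 := s37u_delta_ne_zero k
    have h1 : ∀ d ∈ N.divisors, (twL_qE k d (twL_delta k) * (twL_delta k)⁻¹) ^ (r d) =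
        (twL_qE k d (twL_delta k)) ^ (r d) * ((twL_delta k)⁻¹) ^ (r d) := fun d _ =>
      mul_zpow _ _ _
    rw [Finset.prod_congr rfl h1, Finset.prod_mul_distrib,
      s37u_prod_zpow_const _ _ (inv_ne_zero h0), hr, zpow_zero, mul_one]
  rw [e]
  refine prod_mem fun d hd => ?_
  haveI hd0 : NeZero d := ⟨(Nat.pos_of_mem_divisors hd).ne'⟩
  refine zpow_mem ?_ _
  rw [twL_qE_eq]
  exact s37u_unit_mem_perfect k ℓ N d (Nat.dvd_of_mem_divisors hd)
    (fun h => hℓN (h.trans (Nat.dvd_of_mem_divisors hd)))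

end Field

/-! ### Base change of the field of constants -/

section BaseChange

variable {k k' : Type} [Field k] [Field k'] (φ : k →+* k') (N : ℕ) [NeZero N]

theorem s37u_coeffMap_algebraMap (a : k) :
    coeffMap φ (algebraMap k (LaurentSeries k) a) = algebraMap k' (LaurentSeries k') (φ a) := by
  rw [algebraMap_laurentSeries_eq_single, algebraMap_laurentSeries_eq_single, coeffMap_single]

theorem s37u_coeffMap_mem_aux {x : LaurentSeries k}
    (hx : x ∈ Subfield.closure
      (Set.range (algebraMap k (LaurentSeries k)) ∪ divisorExpansionsC k N)) :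
    coeffMap φ x ∈ modularFunctionFieldFullC k' N := by
  induction hx using Subfield.closure_induction with
  | mem y hy =>
      rcases hy with ⟨a, rfl⟩ | ⟨d, hd, hdN, rfl⟩
      · rw [s37u_coeffMap_algebraMap]
        exact (modularFunctionFieldFullC k' N).algebraMap_mem _
      · haveI := hd
        rw [coeffMap_qExpand, coeffMap_jqModC]
        exact jqModCd_mem_full k' N hdN
  | one => rw [map_one]; exact one_mem _
  | add x y _ _ hx hy => rw [map_add]; exact add_mem hx hy
  | neg x _ hx => rw [map_neg]; exact neg_mem hx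
  | inv x _ hx => rw [map_inv₀]; exact inv_mem hx
  | mul x y _ _ hx hy => rw [map_mul]; exact mul_mem hx hy

/-- Coefficientwise base change maps `F_k(N)` into `F_k'(N)`. -/
theorem s37u_coeffMap_mem {x : LaurentSeries k} (hx : x ∈ modularFunctionFieldFullC k N) :
    coeffMap φ x ∈ modularFunctionFieldFullC k' N :=
  s37u_coeffMap_mem_aux φ N hx

end BaseChange

/-! ### Arbitrary fields of characteristic `ℓ` -/

section Char

variable (k : Type) [Field k] (ℓ : ℕ) [Fact ℓ.Prime] [CharP k ℓ] (N : ℕ) [NeZero N]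

/-- **[RI-UNIT]** the formal `Δ`-quotients of total exponent `0` and level `N` prime to `ℓ` lie
in `F_k(N) = k(j(q^d) : d ∣ N)`, for every field `k` of characteristic `ℓ`. -/
theorem s37u_quot_mem (hℓN : ¬ ℓ ∣ N) (r : ℕ → ℤ) (hr : ∑ d ∈ N.divisors, r d = 0) :
    twL_quot k N r ∈ modularFunctionFieldFullC k N := by
  have h1 : twL_quot (ZMod ℓ) N r ∈ modularFunctionFieldFullC (ZMod ℓ) N :=
    s37u_quot_mem_perfect (ZMod ℓ) ℓ N hℓN r hr
  have h2 := s37u_coeffMap_mem (ZMod.castHom (dvd_refl ℓ) k) N h1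
  rwa [twL_coeffMap_quot] at h2

/-- **[RI-UNIT]** the modular unit `Δ(q^d)/Δ(q)`, `d ∣ N`, `ℓ ∤ d`. -/
theorem s37u_unit_mem (d : ℕ) [NeZero d] (hd : d ∣ N) (hℓ : ¬ ℓ ∣ d) :
    qExpand k d (twL_delta k) * (twL_delta k)⁻¹ ∈ modularFunctionFieldFullC k N := by
  have h1 := s37u_unit_mem_perfect (ZMod ℓ) ℓ N d hd hℓ
  have h2 := s37u_coeffMap_mem (ZMod.castHom (dvd_refl ℓ) k) N h1
  rwa [map_mul, map_inv₀, coeffMap_qExpand, twL_coeffMap_delta] at h2

/-- **[RI-UNIT]** the reduction of the key element `tr_g0 N` of S28 lies in `F_k(N)`. -/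
theorem s37u_g_mem (hℓN : ¬ ℓ ∣ N) :
    coeffMap (Int.castRingHom k) (tr_g0 N) ∈ modularFunctionFieldFullC k N := by
  rw [tr_g0_coeffMap]
  exact s37u_quot_mem k ℓ N hℓN _ (tr_rN_sum N (Nat.pos_of_ne_zero (NeZero.ne N)))

end Char

end Fermat.Agent.S37
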